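import Fermat.Prelude.Def_FLTPrelim_Modularity
import Mathlib.Analysis.Complex.ExponentialBounds
import Mathlib.Analysis.Fourier.AddCircle
import Mathlib.NumberTheory.ModularForms.Bounds

/-!
# Mean square bound for the coefficients of a cusp form

`∑_{n ≤ x} |a_n|² = O(x^k)` from boundedness of `y^{k/2} |f|` and Parseval, and for
weight one the resulting bound `∑ |a_n|² n^{-s} = O(1/(s-1))`.
-/

set_option autoImplicit false

noncomputable section

namespace Fermat.Agent.WeightOne

open scoped MatrixGroups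
open CongruenceSubgroup UpperHalfPlane Complex MeasureTheory

local notation "qC" => ModularFormClass.qCoeff

/-- Translation by `1` is a period of forms on `Γ₁(N)`. -/
theorem one_mem_strictPeriods_Gamma1 (N : ℕ) :
    (1 : ℝ) ∈ (Gamma1 N : Subgroup (GL (Fin 2) ℝ)).strictPeriods := by
  simp

variable {N : ℕ} [NeZero N] {k : ℤ}

/-- Parseval with the bound on `y ^ (k / 2) |f|`: `∑ |a_n|² exp (-4πnt) = O(t ^ (-k))`. -/
theorem exists_sum_sq_qCoeff_mul_exp_le (f : CuspForm (Gamma1 N) k) :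
    ∃ C : ℝ, 0 ≤ C ∧ ∀ t : ℝ, 0 < t → ∀ S : Finset ℕ,
      ∑ n ∈ S, ‖qC f n‖ ^ 2 * Real.exp (-(4 * Real.pi * n * t)) ≤ C / t ^ (k : ℝ) := by
  obtain ⟨C, hC⟩ := CuspFormClass.exists_bound f
  refine ⟨C ^ 2, sq_nonneg C, fun t ht S => ?_⟩
  set g : ℝ → ℂ := fun u => f ⟨(u : ℂ) + (t : ℂ) * Complex.I, by simpa using ht⟩ with hg
  have hgc : Continuous g := by
    have hf : Continuous f := (ModularFormClass.holo f).continuous
    exact hf.comp (Continuous.upperHalfPlaneMk (by fun_prop) _)
  have hbound : ∀ u, ‖g u‖ ≤ C / t ^ ((k : ℝ) / 2) := by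
    intro u
    refine (hC _).trans (le_of_eq ?_)
    congr 2
    simp [← UpperHalfPlane.coe_im]
  have hL2 : MemLp g 2 (volume.restrict (Set.Ioc (0 : ℝ) 1)) :=
    MemLp.of_bound hgc.aestronglyMeasurable _ (Filter.Eventually.of_forall hbound)
  have hcoef : ∀ n : ℕ, ‖fourierCoeffOn (zero_lt_one' ℝ) g n‖ ^ 2
      = ‖qC f n‖ ^ 2 * Real.exp (-(4 * Real.pi * n * t)) := by
    intro n
    have h1 := ModularFormClass.qExpansion_coeff_eq_intervalIntegral f one_pos
      (one_mem_strictPeriods_Gamma1 N) n ht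
    have h2 : ∀ u : ℝ, (1 : ℂ) / Function.Periodic.qParam 1 (u + t * Complex.I) ^ n * g u
        = (Real.exp (2 * Real.pi * n * t) : ℂ) *
          ((fourier (-(n : ℤ)) (u : AddCircle ((1 : ℝ) - 0))) • g u) := by
      intro u
      rw [fourier_coe_apply, smul_eq_mul, ← mul_assoc, Complex.ofReal_exp, ← Complex.exp_add,
        Function.Periodic.qParam, ← Complex.exp_nat_mul, one_div, ← Complex.exp_neg]
      congr 2
      push_cast
      linear_combination (-2 * (Real.pi : ℂ) * n * t) * Complex.I_sq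
    have h3 : qC f n
        = (Real.exp (2 * Real.pi * n * t) : ℂ) * fourierCoeffOn (zero_lt_one' ℝ) g n := by
      rw [fourierCoeffOn_eq_integral, ModularFormClass.qCoeff, h1]
      simp only [Complex.ofReal_one, div_one, one_mul, sub_zero, one_smul]
      rw [← intervalIntegral.integral_const_mul]
      refine intervalIntegral.integral_congr fun u _ => ?_
      simpa only [hg, sub_zero, one_div] using h2 u
    rw [h3, norm_mul, mul_pow, Complex.norm_real, Real.norm_of_nonneg (Real.exp_pos _).le,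
      ← Real.exp_nat_mul, mul_right_comm, ← Real.exp_add]
    simp only [Nat.cast_ofNat]
    ring_nf
    simp
  have hP := hasSum_sq_fourierCoeffOn (zero_lt_one' ℝ) hL2
  calc ∑ n ∈ S, ‖qC f n‖ ^ 2 * Real.exp (-(4 * Real.pi * n * t))
      = ∑ i ∈ S.map ⟨fun n : ℕ => (n : ℤ), Int.ofNat_injective⟩,
          ‖fourierCoeffOn (zero_lt_one' ℝ) g i‖ ^ 2 := by
        rw [Finset.sum_map]
        exact Finset.sum_congr rfl fun n _ => (hcoef n).symm
    _ ≤ ((1 : ℝ) - 0)⁻¹ • ∫ x in (0 : ℝ)..1, ‖g x‖ ^ 2 :=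
        sum_le_hasSum _ (fun i _ => by positivity) hP
    _ ≤ ∫ _x in (0 : ℝ)..1, (C / t ^ ((k : ℝ) / 2)) ^ 2 := by
        rw [sub_zero, inv_one, one_smul]
        refine intervalIntegral.integral_mono_on zero_le_one
          ((hgc.norm.pow 2).intervalIntegrable _ _) intervalIntegrable_const fun u _ => ?_
        exact pow_le_pow_left₀ (norm_nonneg _) (hbound u) 2
    _ = C ^ 2 / t ^ (k : ℝ) := by
        rw [intervalIntegral.integral_const, sub_zero, one_smul, div_pow]
        congr 1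
        rw [← Real.rpow_natCast, ← Real.rpow_mul ht.le]
        congr 1
        push_cast
        ring

/-- In weight one, `∑_{n ≤ x} |a_n|² = O(x)`. -/
theorem exists_sum_sq_qCoeff_le (f : CuspForm (Gamma1 N) 1) :
    ∃ C : ℝ, 0 ≤ C ∧ ∀ (x : ℝ) (S : Finset ℕ), 0 < x → (∀ n ∈ S, (n : ℝ) ≤ x) →
      ∑ n ∈ S, ‖qC f n‖ ^ 2 ≤ C * x := by
  obtain ⟨C, hC0, hC⟩ := exists_sum_sq_qCoeff_mul_exp_le f
  refine ⟨Real.exp (4 * Real.pi) * C, by positivity, fun x S hx hS => ?_⟩
  have h := hC x⁻¹ (inv_pos.mpr hx) S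
  simp only [Int.cast_one, Real.rpow_one, div_inv_eq_mul] at h
  calc ∑ n ∈ S, ‖qC f n‖ ^ 2
      ≤ ∑ n ∈ S, Real.exp (4 * Real.pi) *
          (‖qC f n‖ ^ 2 * Real.exp (-(4 * Real.pi * n * x⁻¹))) := by
        refine Finset.sum_le_sum fun n hn => ?_
        rw [mul_left_comm, ← Real.exp_add]
        refine le_mul_of_one_le_right (by positivity) (Real.one_le_exp ?_)
        have h1 : (n : ℝ) * x⁻¹ ≤ 1 := by
          rw [← div_eq_mul_inv, div_le_one hx]; exact hS n hn
        nlinarith [Real.pi_pos]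
    _ ≤ Real.exp (4 * Real.pi) * (C * x) := by
        rw [← Finset.mul_sum]
        exact mul_le_mul_of_nonneg_left h (Real.exp_pos _).le
    _ = Real.exp (4 * Real.pi) * C * x := by ring

/-- `∑ |a_n|² n^{-s} ≤ C/(s-1)` for `1 < s ≤ 2`. -/
theorem exists_sum_sq_qCoeff_mul_rpow_le (f : CuspForm (Gamma1 N) 1) :
    ∃ C : ℝ, 0 < C ∧ ∀ s : ℝ, 1 < s → s ≤ 2 → ∀ S : Finset ℕ, (∀ n ∈ S, n ≠ 0) →
      ∑ n ∈ S, ‖qC f n‖ ^ 2 * (n : ℝ) ^ (-s) ≤ C / (s - 1) := by
  obtain ⟨C, hC0, hC⟩ := exists_sum_sq_qCoeff_le f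
  refine ⟨8 * C + 1, by positivity, fun s hs hs2 S hS => ?_⟩
  set r : ℝ := (2 : ℝ) ^ (1 - s) with hr
  have hr0 : 0 ≤ r := by positivity
  have hhalf : 0 < (s - 1) / 4 := by linarith
  have hr1 : r ≤ 1 - (s - 1) / 4 := by
    have hl : (1 : ℝ) / 2 ≤ Real.log 2 := by
      have := Real.log_two_gt_d9; linarith
    have hd : 1 + Real.log 2 * (s - 1) ≤ (2 : ℝ) ^ (s - 1) := by
      rw [Real.rpow_def_of_pos two_pos]
      linarith [Real.add_one_le_exp (Real.log 2 * (s - 1))]
    have h1 : r * (2 : ℝ) ^ (s - 1) = 1 := by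
      rw [hr, ← Real.rpow_add two_pos]; simp
    have hs1 : 0 ≤ s - 1 := by linarith
    have h2 : r * (1 + (s - 1) / 2) ≤ 1 := by
      rw [← h1]
      refine mul_le_mul_of_nonneg_left (le_trans ?_ hd) hr0
      nlinarith
    by_contra hcon
    push Not at hcon
    have h3 := mul_lt_mul_of_pos_right hcon (show (0 : ℝ) < 1 + (s - 1) / 2 by linarith)
    nlinarith [mul_nonneg hs1 (show (0 : ℝ) ≤ 2 - s by linarith)]
  have hmem : ∀ n ∈ S, Nat.log 2 n ∈ S.image (Nat.log 2) := fun n hn =>
    Finset.mem_image_of_mem _ hn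
  rw [← Finset.sum_fiberwise_of_maps_to hmem]
  calc _ ≤ ∑ j ∈ S.image (Nat.log 2), 2 * C * r ^ j := by
        refine Finset.sum_le_sum fun j _ => ?_
        calc ∑ n ∈ S.filter (fun n => Nat.log 2 n = j), ‖qC f n‖ ^ 2 * (n : ℝ) ^ (-s)
            ≤ ∑ n ∈ S.filter (fun n => Nat.log 2 n = j),
                ‖qC f n‖ ^ 2 * ((2 : ℝ) ^ j) ^ (-s) := by
              refine Finset.sum_le_sum fun n hn => ?_
              simp only [Finset.mem_filter] at hn
              refine mul_le_mul_of_nonneg_left ?_ (by positivity)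
              refine Real.rpow_le_rpow_of_nonpos (by positivity) ?_ (by linarith)
              have h := Nat.pow_log_le_self 2 (hS n hn.1)
              rw [hn.2] at h
              exact_mod_cast h
          _ ≤ C * (2 : ℝ) ^ (j + 1) * ((2 : ℝ) ^ j) ^ (-s) := by
              rw [← Finset.sum_mul]
              refine mul_le_mul_of_nonneg_right (hC _ _ (by positivity) fun n hn => ?_)
                (by positivity)
              simp only [Finset.mem_filter] at hn
              have h := (Nat.lt_pow_succ_log_self one_lt_two n).le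
              rw [hn.2] at h
              exact_mod_cast h
          _ = 2 * C * r ^ j := by
              rw [hr, ← Real.rpow_natCast 2 (j + 1), ← Real.rpow_natCast 2 j,
                ← Real.rpow_mul two_pos.le, ← Real.rpow_natCast ((2 : ℝ) ^ (1 - s)) j,
                ← Real.rpow_mul two_pos.le, mul_assoc, ← Real.rpow_add two_pos, mul_assoc (2 : ℝ),
                mul_left_comm (2 : ℝ) C]
              congr 1
              rw [show (2 : ℝ) * (2 : ℝ) ^ ((1 - s) * (j : ℝ))
                  = (2 : ℝ) ^ (1 : ℝ) * (2 : ℝ) ^ ((1 - s) * (j : ℝ)) by rw [Real.rpow_one],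
                ← Real.rpow_add two_pos]
              congr 1
              push_cast
              ring
    _ ≤ 2 * C * (1 - r)⁻¹ := by
        rw [← Finset.mul_sum]
        refine mul_le_mul_of_nonneg_left ?_ (by positivity)
        exact sum_le_hasSum _ (fun _ _ => by positivity)
          (hasSum_geometric_of_lt_one hr0 (by linarith))
    _ ≤ 2 * C * ((s - 1) / 4)⁻¹ := by
        refine mul_le_mul_of_nonneg_left (inv_anti₀ hhalf (by linarith)) (by positivity)
    _ ≤ (8 * C + 1) / (s - 1) := by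
        rw [inv_div, ← mul_div_assoc, div_le_div_iff_of_pos_right (by linarith)]
        linarith

end Fermat.Agent.WeightOne
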