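import Fermat.Prelude.Def_ModularForm_HeckeOperator
import Mathlib.NumberTheory.ModularForms.Petersson

/-!
# A weight one cusp form of level `Γ₁(N)` with a small translation symmetry vanishes

If `h ∈ S₁(Γ₁(N))` is invariant under `τ ↦ τ + 1/D` with `D ≥ 2 N`, then the Petersson density
`y |h|²` is invariant under a non-discrete group, hence vanishes.
-/

set_option autoImplicit false

noncomputable section

namespace Fermat.Agent.WeightOne

open CongruenceSubgroup UpperHalfPlane Matrix.SpecialLinearGroup Filter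
open scoped MatrixGroups ModularForm Topology

variable {N : ℕ}

/-- The matrix `(1 0; N m 1)`. -/
def lowerSL (N : ℕ) (m : ℤ) : SL(2, ℤ) :=
  ⟨!![1, 0; (N : ℤ) * m, 1], by simp [Matrix.det_fin_two_of]⟩

/-- The matrix of `lowerSL`. -/
lemma lowerSL_coe (N : ℕ) (m : ℤ) :
    (lowerSL N m : SL(2, ℤ)).1 = !![1, 0; (N : ℤ) * m, 1] := rfl

/-- `lowerSL N m` lies in `Γ₁(N)`. -/
lemma lowerSL_mem_Gamma1 (N : ℕ) (m : ℤ) : lowerSL N m ∈ Gamma1 N :=
  (Gamma1_mem N _).mpr ⟨by simp [lowerSL_coe], by simp [lowerSL_coe], by simp [lowerSL_coe]⟩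

/-- The translation `(1 t; 0 1)`. -/
def transGL (t : ℝ) : GL (Fin 2) ℝ := ModularForm.upperTriangularGL 1 t 1 (by norm_num)

/-- The symmetries of a function on `ℍ` with determinant one. -/
def symGroup (H : ℍ → ℝ) : Set (GL (Fin 2) ℝ) :=
  {g | g.det.val = 1 ∧ ∀ τ : ℍ, H (g • τ) = H τ}

lemma mul_mem_symGroup {H : ℍ → ℝ} {g g' : GL (Fin 2) ℝ} (hg : g ∈ symGroup H)
    (hg' : g' ∈ symGroup H) : g * g' ∈ symGroup H :=
  ⟨by rw [map_mul, Units.val_mul, hg.1, hg'.1, mul_one],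
    fun τ ↦ by rw [mul_smul, hg.2, hg'.2]⟩

/-- Products of lower unipotents and small translations have arbitrarily small bottom rows. -/
lemma exists_symGroup_small {H : ℍ → ℝ} {D : ℕ} (hN : 0 < N) (hD : 2 * N ≤ D)
    (hL : ∀ m : ℤ, (mapGL ℝ (lowerSL N m) : GL (Fin 2) ℝ) ∈ symGroup H)
    (hU : ∀ k : ℤ, transGL ((k : ℝ) / D) ∈ symGroup H) (n : ℕ) :
    ∃ g ∈ symGroup H, g 1 0 ≠ 0 ∧ |g 1 0| ≤ N * (1 / 2 : ℝ) ^ n ∧
      |g 1 1| ≤ (1 / 2 : ℝ) ^ n := by
  have hN' : (0 : ℝ) < N := Nat.cast_pos.mpr hN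
  have hD' : (2 : ℝ) * N ≤ D := by exact_mod_cast hD
  have hD0 : (0 : ℝ) < D := by linarith
  induction n with
  | zero =>
    refine ⟨mapGL ℝ (lowerSL N 1), hL 1, ?_⟩
    simp [lowerSL_coe, hN.ne']
  | succ n ih =>
    obtain ⟨g, hg, hc, hcb, -⟩ := ih
    set c := g 1 0
    set d := g 1 1
    set x : ℝ := -(d * D / c) with hx
    set k : ℤ := ⌊x⌋ + 1 with hk
    have hk1 : 0 < (k : ℝ) - x := by
      have := Int.lt_floor_add_one x; push_cast [hk]; linarith
    have hk2 : (k : ℝ) - x ≤ 1 := by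
      have := Int.floor_le x; push_cast [hk]; linarith
    have hd' : c * (k / D) + d = c * (((k : ℝ) - x) / D) := by
      rw [hx]; field_simp; ring
    set d' := c * ((k : ℝ) / D) + d with hd'def
    have hd'0 : d' ≠ 0 := by rw [hd']; positivity
    have hd'b : |d'| ≤ |c| / D := by
      rw [hd', abs_mul, abs_of_pos (div_pos hk1 hD0), ← mul_div_assoc]
      gcongr
      exact mul_le_of_le_one_right (abs_nonneg c) hk2
    set y : ℝ := -(c / (N * d')) with hy
    set m : ℤ := ⌊y⌋ + 1 with hm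
    have hm1 : 0 < (m : ℝ) - y := by
      have := Int.lt_floor_add_one y; push_cast [hm]; linarith
    have hm2 : (m : ℝ) - y ≤ 1 := by
      have := Int.floor_le y; push_cast [hm]; linarith
    have hc' : c + d' * (N * m) = N * d' * ((m : ℝ) - y) := by
      rw [hy]; field_simp; ring
    refine ⟨g * transGL ((k : ℝ) / D) * mapGL ℝ (lowerSL N m),
      mul_mem_symGroup (mul_mem_symGroup hg (hU k)) (hL m), ?_⟩
    have e0 : (g * transGL ((k : ℝ) / D) * mapGL ℝ (lowerSL N m)) 1 0 = c + d' * (N * m) := by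
      simp [Matrix.mul_apply, Fin.sum_univ_two, transGL, lowerSL_coe, c, d, d']
    have e1 : (g * transGL ((k : ℝ) / D) * mapGL ℝ (lowerSL N m)) 1 1 = d' := by
      simp [Matrix.mul_apply, Fin.sum_univ_two, transGL, lowerSL_coe, c, d, d']
    have hd'b' : |d'| ≤ (1 / 2 : ℝ) ^ (n + 1) := by
      refine hd'b.trans ?_
      rw [div_le_iff₀ hD0, pow_succ]
      calc |c| ≤ N * (1 / 2 : ℝ) ^ n := hcb
        _ ≤ D / 2 * (1 / 2 : ℝ) ^ n := by gcongr; linarith
        _ = _ := by ring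
    rw [e0, e1, hc']
    refine ⟨by positivity, ?_, hd'b'⟩
    rw [abs_mul, abs_mul, abs_of_pos hN', abs_of_pos hm1]
    calc N * |d'| * ((m : ℝ) - y) ≤ N * |d'| * 1 := by gcongr
      _ ≤ N * (1 / 2 : ℝ) ^ (n + 1) := by rw [mul_one]; gcongr

/-- A weight one cusp form for `Γ₁(N)` invariant under translation by `1/D`, `D ≥ 2N`, is zero. -/
theorem eq_zero_of_translation [NeZero N] (h : CuspForm (Gamma1 N) 1) {D : ℕ} (hD : 2 * N ≤ D)
    (ht : ∀ (k : ℤ) (τ : ℍ), h (((k : ℝ) / D) +ᵥ τ) = h τ) : h = 0 := by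
  set H : ℍ → ℝ := fun τ ↦ ‖petersson 1 h h τ‖ with hH
  have hD0 : 0 < D := lt_of_lt_of_le (by have := NeZero.pos N; omega) hD
  have hL : ∀ m : ℤ, (mapGL ℝ (lowerSL N m) : GL (Fin 2) ℝ) ∈ symGroup H := by
    intro m
    refine ⟨by simp, fun τ ↦ ?_⟩
    exact SlashInvariantFormClass.norm_petersson_smul
      (Γ := (Gamma1 N : Subgroup (GL (Fin 2) ℝ))) ⟨_, lowerSL_mem_Gamma1 N m, rfl⟩
  have hU : ∀ k : ℤ, transGL ((k : ℝ) / D) ∈ symGroup H := by
    intro k
    refine ⟨by simp [transGL, Matrix.GeneralLinearGroup.val_det_apply, Matrix.det_fin_two],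
      fun τ ↦ ?_⟩
    have : transGL ((k : ℝ) / D) • τ = ((k : ℝ) / D) +ᵥ τ := by
      ext
      rw [UpperHalfPlane.coe_smul_of_det_pos (by simp [transGL, Matrix.det_fin_two]),
        UpperHalfPlane.coe_vadd]
      simp [num, denom, transGL]
      ring
    simp only [this, hH, petersson, ht, vadd_im]
  have hzero : IsZeroAtImInfty (petersson 1 h h) :=
    (CuspFormClass.zero_at_infty h).petersson_isZeroAtImInfty_left 1
      (Gamma1 N : Subgroup (GL (Fin 2) ℝ)) h
  refine DFunLike.ext _ _ fun τ ↦ ?_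
  suffices hs : H τ ≤ 0 by
    have h0 : petersson 1 h h τ = 0 := norm_le_zero_iff.mp hs
    simpa [petersson, τ.im_ne_zero] using h0
  refine le_of_forall_pos_le_add fun ε hε ↦ ?_
  obtain ⟨A, hA⟩ := (UpperHalfPlane.isZeroAtImInfty_iff.mp hzero) ε hε
  set B := (N * ‖(τ : ℂ)‖ + 1) with hB
  have hB0 : 0 < B := by positivity
  obtain ⟨n, hn⟩ := exists_pow_lt_of_lt_one
    (show 0 < Real.sqrt (τ.im / (|A| + 1)) / B by have := τ.im_pos; positivity)
    (show (1 / 2 : ℝ) < 1 by norm_num)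
  obtain ⟨g, ⟨hdet, hg⟩, hc, hcb, hdb⟩ := exists_symGroup_small (NeZero.pos N) hD hL hU n
  have him : A ≤ (g • τ).im := by
    rw [im_smul_eq_div_normSq, hdet, abs_one, one_mul]
    have hden : Complex.normSq (denom g τ) ≤ τ.im / (|A| + 1) := by
      have h1 : ‖denom g τ‖ ≤ (1 / 2 : ℝ) ^ n * B := by
        refine (norm_add_le _ _).trans ?_
        rw [norm_mul, Complex.norm_real, Complex.norm_real, Real.norm_eq_abs, Real.norm_eq_abs]
        calc |g 1 0| * ‖(τ : ℂ)‖ + |g 1 1|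
            ≤ N * (1 / 2 : ℝ) ^ n * ‖(τ : ℂ)‖ + (1 / 2 : ℝ) ^ n := by gcongr
          _ = _ := by rw [hB]; ring
      have h2 : ‖denom g τ‖ ≤ Real.sqrt (τ.im / (|A| + 1)) :=
        h1.trans ((lt_div_iff₀ hB0).mp hn).le
      rw [Complex.normSq_eq_norm_sq]
      calc ‖denom g τ‖ ^ 2 ≤ Real.sqrt (τ.im / (|A| + 1)) ^ 2 :=
            pow_le_pow_left₀ (norm_nonneg _) h2 2
        _ = _ := Real.sq_sqrt (by have := τ.im_pos; positivity)
    rw [le_div_iff₀ (Complex.normSq_pos.mpr (denom_ne_zero g τ))]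
    calc A * Complex.normSq (denom g τ)
        ≤ (|A| + 1) * Complex.normSq (denom g τ) := by
          gcongr
          · exact Complex.normSq_nonneg _
          · linarith [le_abs_self A]
      _ ≤ (|A| + 1) * (τ.im / (|A| + 1)) := by gcongr
      _ = τ.im := mul_div_cancel₀ _ (by positivity)
  rw [zero_add, ← hg τ]
  exact hA _ him

end Fermat.Agent.WeightOne
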