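import Fermat.Agent.WeightOne.EisensteinW
import Mathlib.RingTheory.Valuation.LocalSubring

/-!
# Weight one forms congruent to constants

For a valuation subring `O` of `ℂ` above a prime `ℓ ≥ 5`, forms `E d` (`d ∈ (ℤ/ℓ)ˣ`) of weight one
on `Γ₁(ℓ)`, permuted by `Γ₀(ℓ)`, with integral `q`-expansion congruent to `d⁻¹`.
-/

set_option autoImplicit false

noncomputable section

open UpperHalfPlane hiding I
open Complex CongruenceSubgroup IsLocalRing
open scoped Real MatrixGroups ModularForm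

namespace Fermat.Agent.WeightOne

open Fermat.Agent.KummerES

section ResidueCalculus

/-- `x` lies in `O` and has residue `r`. -/
def HasRes (O : ValuationSubring ℂ) (x : ℂ) (r : ResidueField O) : Prop :=
  ∃ t : O, (t : ℂ) = x ∧ residue O t = r

variable {O : ValuationSubring ℂ} {x y : ℂ} {r s : ResidueField O}

/-- Residues of sums. -/
lemma HasRes.add (h : HasRes O x r) (h' : HasRes O y s) : HasRes O (x + y) (r + s) := by
  obtain ⟨a, rfl, rfl⟩ := h; obtain ⟨b, rfl, rfl⟩ := h'; exact ⟨a + b, rfl, map_add _ _ _⟩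

/-- Residues of differences. -/
lemma HasRes.sub (h : HasRes O x r) (h' : HasRes O y s) : HasRes O (x - y) (r - s) := by
  obtain ⟨a, rfl, rfl⟩ := h; obtain ⟨b, rfl, rfl⟩ := h'; exact ⟨a - b, rfl, map_sub _ _ _⟩

/-- Residues of products. -/
lemma HasRes.mul (h : HasRes O x r) (h' : HasRes O y s) : HasRes O (x * y) (r * s) := by
  obtain ⟨a, rfl, rfl⟩ := h; obtain ⟨b, rfl, rfl⟩ := h'; exact ⟨a * b, rfl, map_mul _ _ _⟩

/-- Residues of powers. -/
lemma HasRes.pow (h : HasRes O x r) (n : ℕ) : HasRes O (x ^ n) (r ^ n) := by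
  obtain ⟨a, rfl, rfl⟩ := h; exact ⟨a ^ n, rfl, map_pow _ _ _⟩

/-- The residue of `1`. -/
lemma HasRes.one : HasRes O 1 1 := ⟨1, rfl, map_one _⟩

/-- `0` has residue `0`. -/
lemma HasRes.zero : HasRes O 0 0 := ⟨0, rfl, map_zero _⟩

/-- The residue of a natural number. -/
lemma HasRes.natCast (n : ℕ) : HasRes O n n :=
  ⟨n, map_natCast O.subtype n, map_natCast _ _⟩

/-- Residues of inverses of units. -/
lemma HasRes.inv (h : HasRes O x r) (hr : r ≠ 0) : HasRes O x⁻¹ r⁻¹ := by
  obtain ⟨a, rfl, rfl⟩ := h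
  obtain ⟨u, hu⟩ := (residue_ne_zero_iff_isUnit a).mp hr
  refine ⟨(u⁻¹ : (↥O)ˣ), ?_, ?_⟩
  · refine eq_inv_of_mul_eq_one_left ?_
    rw [← hu]
    exact congrArg Subtype.val u.inv_mul
  · refine eq_inv_of_mul_eq_one_left ?_
    rw [← hu, ← map_mul, Units.inv_mul, map_one]

/-- An element with nonzero residue is nonzero. -/
lemma HasRes.ne_zero (h : HasRes O x r) (hr : r ≠ 0) : x ≠ 0 := by
  obtain ⟨a, rfl, rfl⟩ := h
  intro h0
  exact hr (by rw [show a = 0 from Subtype.ext h0, map_zero])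

/-- Residues of finite sums. -/
lemma HasRes.finsetSum {ι : Type*} (T : Finset ι) {f : ι → ℂ} {g : ι → ResidueField O}
    (h : ∀ i ∈ T, HasRes O (f i) (g i)) : HasRes O (∑ i ∈ T, f i) (∑ i ∈ T, g i) := by
  classical
  induction T using Finset.induction with
  | empty => simpa using HasRes.zero (O := O)
  | insert i T hi ih =>
    rw [Finset.sum_insert hi, Finset.sum_insert hi]
    exact (h i (Finset.mem_insert_self _ _)).add (ih fun j hj => h j (Finset.mem_insert_of_mem hj))

end ResidueCalculus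

variable {ℓ : ℕ} [hℓp : Fact ℓ.Prime]

section

variable {O : ValuationSubring ℂ} (hO : (ℓ : ℂ) ∈ O.nonunits)
include hO

/-- The residue field at a place above `ℓ` has characteristic `ℓ`. -/
lemma charP_residueField : CharP (ResidueField O) ℓ := by
  rw [CharP.charP_iff_prime_eq_zero hℓp.out]
  have hm : (ℓ : O) ∈ maximalIdeal O := by
    rw [IsLocalRing.mem_maximalIdeal, mem_nonunits_iff]
    intro hu
    have h1 := (O.valuation_eq_one_iff _).mp hu
    exact (ne_of_lt ((O.mem_nonunits_iff).mp hO)) (by simpa using h1)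
  have := (residue_eq_zero_iff (ℓ : O)).mpr hm
  rwa [map_natCast] at this

lemma hasRes_rootPow (x : ZMod ℓ) : HasRes O (rootPow ℓ x) 1 := by
  have := charP_residueField hO
  have hp : rootPow ℓ x ^ ℓ = 1 := by
    rw [← rootPow_natCast_mul]; simp
  have hint : IsIntegral O (rootPow ℓ x) :=
    ⟨Polynomial.X ^ ℓ - 1, Polynomial.monic_X_pow_sub_C 1 hℓp.out.ne_zero, by simp [hp]⟩
  obtain ⟨t, ht⟩ := (IsIntegrallyClosed.isIntegral_iff (R := O) (K := ℂ)).mp hint
  refine ⟨t, ht, ?_⟩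
  have h1 : residue O t ^ ℓ = 1 := by
    rw [← map_pow, ← map_one (residue O)]
    congr 1
    exact Subtype.ext (by push_cast; rw [show (t : ℂ) = rootPow ℓ x from ht, hp])
  have : (residue O t - 1) ^ ℓ = 0 := by rw [sub_pow_char, one_pow, h1, sub_self]
  exact sub_eq_zero.mp ((pow_eq_zero_iff hℓp.out.ne_zero).mp this)

lemma hasRes_wpTerm (v : Ind ℓ) (j k : ℕ) :
    HasRes O (wpTerm v j k) (if (j : ZMod ℓ) = v 0 then 1 else 0) := by
  unfold wpTerm
  split_ifs
  · exact hasRes_rootPow hO _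
  · exact HasRes.zero

/-- Positive integers below `ℓ` are nonzero in the residue field. -/
lemma natCast_residue_ne_zero {n : ℕ} (h0 : n ≠ 0) (hn : n < ℓ) : (n : ResidueField O) ≠ 0 := by
  have := charP_residueField hO
  rw [Ne, CharP.cast_eq_zero_iff (ResidueField O) ℓ]
  exact fun h => h0 (Nat.eq_zero_of_dvd_of_lt h hn)

end

/-- The point `c / ℓ`. -/
abbrev axisPt (c : ZMod ℓ) : Ind ℓ := ![0, c]

/-- The constant term of `wQuot` at `c / ℓ`. -/
def wConst (c : ZMod ℓ) : ℂ :=
  (1 + rootPow ℓ c) ^ 3 /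
    ((1 - rootPow ℓ c) * (1 + rootPow ℓ c + rootPow ℓ c ^ 2))

/-- The series with coefficients in `O` read as Laurent series. -/
def ofSeries (O : ValuationSubring ℂ) : PowerSeries O →+* LaurentSeries ℂ :=
  (HahnSeries.ofPowerSeries ℤ ℂ).comp (PowerSeries.map O.subtype)

lemma ofSeries_coeff_natCast {O : ValuationSubring ℂ} (P : PowerSeries O) (n : ℕ) :
    (ofSeries O P).coeff (n : ℤ) = ((PowerSeries.coeff n P : O) : ℂ) := by
  simp [ofSeries, HahnSeries.ofPowerSeries_apply_coeff]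

lemma ofSeries_coeff_neg {O : ValuationSubring ℂ} (P : PowerSeries O) {i : ℤ} (hi : i < 0) :
    (ofSeries O P).coeff i = 0 := by
  rw [ofSeries, RingHom.comp_apply, HahnSeries.ofPowerSeries_apply]
  exact HahnSeries.embDomain_of_notMem_range fun ⟨a, ha⟩ => by simp at ha; omega

section congruence

variable {O : ValuationSubring ℂ} (hO : (ℓ : ℂ) ∈ O.nonunits) (hℓ : 5 ≤ ℓ)
include hO hℓ

omit hℓp hO hℓ in
/-- A series with coefficients `t n`, normalised by `t 0 = c ≠ 0`. -/
lemma exists_ofSeries_eq (t : ℕ → ℂ) (T : LaurentSeries ℂ) (hT : ∀ n : ℕ, T.coeff (n : ℤ) = t n)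
    (hneg : ∀ i < 0, T.coeff i = 0) (h0 : t 0 ≠ 0)
    (h : ∀ n, n ≠ 0 → HasRes O (t n / t 0) 0) :
    ∃ P : PowerSeries O, T = HahnSeries.C (t 0) * ofSeries O P ∧
      P.map (residue O) = 1 := by
  have h' : ∀ n, ∃ a : O, (a : ℂ) = t n / t 0 ∧ residue O a = if n = 0 then 1 else 0 := by
    intro n
    by_cases hn : n = 0
    · subst hn; exact ⟨1, by simp [h0], by simp⟩
    · obtain ⟨a, ha, ha'⟩ := h n hn
      exact ⟨a, ha, by simp [hn, ha']⟩
  choose a ha ha' using h'
  refine ⟨PowerSeries.mk a, ?_, ?_⟩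
  · ext i
    rw [HahnSeries.C_apply, HahnSeries.coeff_single_mul, sub_zero]
    rcases lt_or_ge i 0 with hi | hi
    · rw [hneg i hi, ofSeries_coeff_neg _ hi, mul_zero]
    · lift i to ℕ using hi
      rw [hT, ofSeries_coeff_natCast, PowerSeries.coeff_mk, ha]
      field_simp
  · ext n
    rw [PowerSeries.coeff_map, PowerSeries.coeff_mk, ha', PowerSeries.coeff_one]

lemma exists_num_eq {c : ZMod ℓ} (hc : c ≠ 0) :
    ∃ P : PowerSeries O, numSeries (axisPt c) = HahnSeries.C (dCoeff (axisPt c) 0) * ofSeries O P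
      ∧ P.map (residue O) = 1 := by
  have hu := hasRes_rootPow hO (ℓ := ℓ) c
  have h2 : (1 + 1 : ResidueField O) ≠ 0 := by
    simpa [one_add_one_eq_two] using natCast_residue_ne_zero hO (n := 2) two_ne_zero (by omega)
  have hd0 : dCoeff (axisPt c) 0 = geomThree (rootPow ℓ c) := by simp [dCoeff, dConst, axisPt]
  have hne : (1 - rootPow ℓ c) ≠ 0 := one_sub_rootPow_ne_zero hc
  have hu0 : rootPow ℓ c * (1 + rootPow ℓ c) ≠ 0 :=
    mul_ne_zero (rootPow_ne_zero _) ((HasRes.one.add hu).ne_zero h2)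
  refine exists_ofSeries_eq (O := O) (dCoeff (axisPt c)) _ (dSeries_coeff_natCast _)
    (fun i hi => dSeries_coeff_of_neg _ hi) ?_ fun n hn => ?_
  · rw [hd0, geomThree]; exact div_ne_zero hu0 (pow_ne_zero _ hne)
  · rw [hd0, geomThree, div_div_eq_mul_div, dCoeff, if_neg hn, div_eq_mul_inv, mul_assoc]
    have hs := HasRes.finsetSum (O := O) n.divisorsAntidiagonal
      (f := fun p : ℕ × ℕ => (p.2 : ℂ) ^ 2 *
        (wpTerm (axisPt c) p.1 p.2 - wpTerm (-axisPt c) p.1 p.2))
      (g := fun p => (p.2 : ResidueField O) ^ 2 *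
        ((if (p.1 : ZMod ℓ) = axisPt c 0 then 1 else 0) -
          if (p.1 : ZMod ℓ) = (-axisPt c) 0 then 1 else 0))
      fun p _ => ((HasRes.natCast p.2).pow 2).mul
        ((hasRes_wpTerm hO _ _ _).sub (hasRes_wpTerm hO _ _ _))
    have := hs.mul (((HasRes.one.sub hu).pow 3).mul ((hu.mul (HasRes.one.add hu)).inv
      (mul_ne_zero one_ne_zero h2)))
    simpa using this

omit hO in
lemma den_coeff_zero {c : ZMod ℓ} (hc : c ≠ 0) :
    wpCoeff (axisPt c) 0 - wpCoeff (axisPt c + axisPt c) 0 =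
      rootPow ℓ c * (1 + rootPow ℓ c + rootPow ℓ c ^ 2) / (1 - rootPow ℓ c ^ 2) ^ 2 := by
  have hcc : c + c ≠ 0 := fun h => by
    have h2 : ((2 : ℕ) : ZMod ℓ) * c = 0 := by push_cast; linear_combination h
    rcases mul_eq_zero.mp h2 with h' | h'
    · rw [ZMod.natCast_eq_zero_iff] at h'
      have := Nat.le_of_dvd two_pos h'
      omega
    · exact hc h'
  have h1 : (1 - rootPow ℓ c) ≠ 0 := one_sub_rootPow_ne_zero hc
  have h2 : (1 - rootPow ℓ c ^ 2) ≠ 0 := by
    rw [pow_two, ← rootPow_add]; exact one_sub_rootPow_ne_zero hcc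
  simp only [wpCoeff_eq, if_true, wpConst, axisPt, Pi.add_apply, Matrix.cons_val_zero,
    Matrix.cons_val_one, Matrix.cons_val_fin_one, add_zero, rootPow_add, ← pow_two]
  field_simp
  ring

lemma exists_den_eq {c : ZMod ℓ} (hc : c ≠ 0) :
    ∃ P : PowerSeries O, denSeries (axisPt c) = HahnSeries.C
        (wpCoeff (axisPt c) 0 - wpCoeff (axisPt c + axisPt c) 0) * ofSeries O P
      ∧ P.map (residue O) = 1 := by
  have hu := hasRes_rootPow hO (ℓ := ℓ) c
  have h3 : (1 + 1 + 1 ^ 2 : ResidueField O) ≠ 0 := by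
    have := natCast_residue_ne_zero hO (n := 3) (by omega) (by omega)
    rw [Nat.cast_ofNat] at this
    convert this using 1
    ring
  have h1 : (1 - rootPow ℓ c ^ 2) ≠ 0 := by
    rw [pow_two, ← rootPow_add]
    refine one_sub_rootPow_ne_zero fun h => ?_
    have h2 : ((2 : ℕ) : ZMod ℓ) * c = 0 := by push_cast; linear_combination h
    rcases mul_eq_zero.mp h2 with h' | h'
    · rw [ZMod.natCast_eq_zero_iff] at h'
      have := Nat.le_of_dvd two_pos h'
      omega
    · exact hc h'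
  have hden : rootPow ℓ c * (1 + rootPow ℓ c + rootPow ℓ c ^ 2) ≠ 0 :=
    mul_ne_zero (rootPow_ne_zero _) (((HasRes.one.add hu).add (hu.pow 2)).ne_zero h3)
  refine exists_ofSeries_eq (O := O)
    (fun n => wpCoeff (axisPt c) n - wpCoeff (axisPt c + axisPt c) n) _ (fun n => by simp)
    (fun i hi => by simp [wpSeries_coeff_of_neg _ hi]) ?_ fun n hn => ?_
  · rw [den_coeff_zero hℓ hc]; exact div_ne_zero hden (pow_ne_zero _ h1)
  · rw [den_coeff_zero hℓ hc, div_div_eq_mul_div, div_eq_mul_inv, mul_assoc]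
    have hterm : ∀ v : Ind ℓ, ∃ r, HasRes O (wpCoeff v n) r := fun v => by
      rw [wpCoeff_eq, if_neg hn]
      exact ⟨_, HasRes.finsetSum (O := O) n.divisorsAntidiagonal fun p _ =>
        (HasRes.natCast p.2).mul ((hasRes_wpTerm hO _ _ _).add (hasRes_wpTerm hO _ _ _))⟩
    obtain ⟨r, hr⟩ := hterm (axisPt c)
    obtain ⟨r', hr'⟩ := hterm (axisPt c + axisPt c)
    have := (hr.sub hr').mul (((HasRes.one.sub (hu.pow 2)).pow 2).mul
      ((hu.mul ((HasRes.one.add hu).add (hu.pow 2))).inv (mul_ne_zero one_ne_zero h3)))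
    simpa using this

/-- The expansion of `wQuot` at `c / ℓ` is its constant times a series congruent to one. -/
lemma exists_wQuot_eq {c : ZMod ℓ} (hc : c ≠ 0) :
    ∃ P : PowerSeries O, HasExp ℓ (wQuot (axisPt c)) (HahnSeries.C (wConst c) * ofSeries O P) ∧
      P.map (residue O) = 1 := by
  have hv : axisPt c ≠ 0 := fun h => hc (by simpa using congrFun h 1)
  obtain ⟨N, hN, hN1⟩ := exists_num_eq hO hℓ hc
  obtain ⟨D, hD, hD1⟩ := exists_den_eq hO hℓ hc
  have hD0 : PowerSeries.constantCoeff (PowerSeries.map (residue O) D) = 1 := by simp [hD1]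
  have hDu : IsUnit D := by
    rw [PowerSeries.isUnit_iff_constantCoeff, ← residue_ne_zero_iff_isUnit]
    rw [← PowerSeries.coeff_zero_eq_constantCoeff_apply, PowerSeries.coeff_map,
      PowerSeries.coeff_zero_eq_constantCoeff_apply] at hD0
    rw [hD0]
    exact one_ne_zero
  obtain ⟨Du, rfl⟩ := hDu
  refine ⟨N * (Du⁻¹ : (PowerSeries O)ˣ), ?_, ?_⟩
  · have hne : denSeries (axisPt c) ≠ 0 := wpSeries_sub_ne_zero (isPair_self_add hℓ hv)
    have h := (num_hasExp hv).mul ((den_hasExp hℓ hv).inv (den_ne_zero hℓ hv) hne)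
    have hconst : wConst c = dCoeff (axisPt c) 0 /
        (wpCoeff (axisPt c) 0 - wpCoeff (axisPt c + axisPt c) 0) := by
      rw [den_coeff_zero hℓ hc]
      simp only [wConst, dCoeff, dConst, axisPt, if_true, Matrix.cons_val_zero,
        Matrix.cons_val_one, Matrix.cons_val_fin_one, geomThree]
      have h1 : (1 - rootPow ℓ c) ≠ 0 := one_sub_rootPow_ne_zero hc
      rw [show (1 - rootPow ℓ c ^ 2) = (1 - rootPow ℓ c) * (1 + rootPow ℓ c) by ring]
      field_simp [rootPow_ne_zero]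
    have hser : numSeries (axisPt c) * (denSeries (axisPt c))⁻¹ =
        HahnSeries.C (wConst c) * ofSeries O (N * (Du⁻¹ : (PowerSeries O)ˣ)) := by
      rw [hconst, map_mul, hN, hD, div_eq_mul_inv (dCoeff _ _), map_mul, map_inv₀ HahnSeries.C,
        mul_inv]
      have hu : ofSeries O (Du : PowerSeries O) * ofSeries O (Du⁻¹ : (PowerSeries O)ˣ) = 1 := by
        rw [← map_mul, Units.mul_inv, map_one]
      rw [← eq_inv_of_mul_eq_one_right hu]
      ring
    rw [← hser]
    refine (show wQuot (axisPt c) = _ from funext fun τ => ?_) ▸ h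
    simp [wQuot, div_eq_mul_inv]
  · have h1 : PowerSeries.map (residue O) ((Du⁻¹ : (PowerSeries O)ˣ) : PowerSeries O) = 1 := by
      have := congrArg (PowerSeries.map (residue O)) Du.inv_mul
      rwa [map_mul, hD1, mul_one, map_one] at this
    rw [map_mul, hN1, h1, mul_one]

/-- **Weight one forms congruent to constants.** -/
theorem exists_weightOne_congr :
    ∃ E : (ZMod ℓ)ˣ → ModularForm (Gamma1 ℓ) 1,
      (∀ γ : SL(2, ℤ), γ ∈ Gamma0 ℓ → ∀ d : (ZMod ℓ)ˣ, (d : ZMod ℓ) = (γ 1 1 : ℤ) →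
        ⇑(E 1) ∣[(1 : ℤ)] γ = ⇑(E d)) ∧
      ∀ (d : (ZMod ℓ)ˣ) (n : ℕ), ∃ t : O, (t : ℂ) = (qExpansion 1 (E d)).coeff n ∧
        residue O t * ((d : ZMod ℓ).val : ResidueField O) = if n = 0 then 1 else 0 := by
  have hres := charP_residueField (ℓ := ℓ) hO
  set w₁ := wConst (1 : ZMod ℓ) with hw₁
  refine ⟨fun d => w₁⁻¹ • wForm hℓ (d : ZMod ℓ) d.ne_zero, fun γ hγ d hd => ?_, fun d n => ?_⟩
  · rw [FunLike.coe_smul, FunLike.coe_smul, ModularForm.SL_smul_slash]
    congr 1
    exact slash_wForm hℓ hγ _ _ _ _ (by simpa using hd)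
  · obtain ⟨P, hP, hP1⟩ := exists_wQuot_eq hO hℓ d.ne_zero
    have hper : (1 : ℝ) ∈ (Gamma1 ℓ : Subgroup (GL (Fin 2) ℝ)).strictPeriods := by simp
    set W := wForm hℓ (d : ZMod ℓ) d.ne_zero with hW
    -- the `q`-expansion in the finer parameter
    let φ : ℕ → ℤ := fun m => (ℓ : ℤ) * m
    have hφ : Function.Injective φ := fun a b h => by simpa [φ, hℓp.out.ne_zero] using h
    let S : LaurentSeries ℂ := HahnSeries.ofPowerSeries ℤ ℂ
      (PowerSeries.mk fun i => if ℓ ∣ i then (qExpansion 1 W).coeff (i / ℓ) else 0)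
    have hS : ∀ i : ℕ, S.coeff (i : ℤ) = if ℓ ∣ i then (qExpansion 1 W).coeff (i / ℓ) else 0 :=
      fun i => by simp [S, HahnSeries.ofPowerSeries_apply_coeff]
    have hSneg : ∀ i < 0, S.coeff i = 0 := fun i hi => by
      simp only [S, HahnSeries.ofPowerSeries_apply]
      exact HahnSeries.embDomain_of_notMem_range fun ⟨a, ha⟩ => by simp at ha; omega
    have hexp : HasExp ℓ W S := by
      intro τ
      refine (hφ.hasSum_iff fun i hi => ?_).mp ?_
      · rcases lt_or_ge i 0 with h | h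
        · rw [hSneg i h, zero_mul]
        · lift i to ℕ using h
          rw [hS, if_neg, zero_mul]
          rintro ⟨m, rfl⟩
          exact hi ⟨m, by simp [φ]⟩
      · refine (ModularForm.hasSum_qExpansion (f := W) one_pos hper τ).congr_fun fun m => ?_
        simp only [Function.comp_apply, φ]
        rw [show ((ℓ : ℤ) * m) = ((ℓ * m : ℕ) : ℤ) by push_cast; rfl, hS,
          if_pos (dvd_mul_right _ _), Nat.mul_div_cancel_left _ hℓp.out.pos, zpow_natCast,
          pow_mul, qL, Function.Periodic.qParam, Function.Periodic.qParam, ← Complex.exp_nat_mul]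
        congr 3
        have : (ℓ : ℂ) ≠ 0 := Nat.cast_ne_zero.mpr hℓp.out.ne_zero
        push_cast
        field_simp
    have hn : (qExpansion 1 W).coeff n = wConst (d : ZMod ℓ) *
        ((PowerSeries.coeff (ℓ * n) P : O) : ℂ) := by
      have := congrArg (fun T : LaurentSeries ℂ => T.coeff ((ℓ * n : ℕ) : ℤ))
        (hexp.series_eq (show HasExp ℓ (⇑W) _ from hP))
      simp only [hS, if_pos (dvd_mul_right ℓ n), Nat.mul_div_cancel_left _ hℓp.out.pos,
        HahnSeries.C_apply, HahnSeries.coeff_single_mul, sub_zero, ofSeries_coeff_natCast] at this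
      exact this
    -- the ratio of the constants
    set m := (d : ZMod ℓ).val with hm
    have hm0 : (m : ResidueField O) ≠ 0 :=
      natCast_residue_ne_zero hO (by simp [hm]) (ZMod.val_lt _)
    have hu := hasRes_rootPow (ℓ := ℓ) hO (1 : ZMod ℓ)
    have huc := hasRes_rootPow (ℓ := ℓ) hO (d : ZMod ℓ)
    have hG := HasRes.finsetSum (O := O) (Finset.range m)
      (f := fun i => rootPow ℓ (1 : ZMod ℓ) ^ i) (g := fun _ => 1)
      fun i _ => by simpa using hu.pow i
    have h3 : (1 + 1 + 1 ^ 2 : ResidueField O) ≠ 0 := by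
      have := natCast_residue_ne_zero hO (n := 3) (by omega) (by omega)
      rw [Nat.cast_ofNat] at this
      convert this using 1
      ring
    have h2 : (1 + 1 : ResidueField O) ≠ 0 := by
      simpa [one_add_one_eq_two] using natCast_residue_ne_zero hO (n := 2) two_ne_zero (by omega)
    have hratio : wConst (d : ZMod ℓ) / w₁ =
        ((1 + rootPow ℓ (d : ZMod ℓ)) ^ 3 * (1 + rootPow ℓ 1 + rootPow ℓ 1 ^ 2)) *
          (((1 + rootPow ℓ 1) ^ 3) *
            (1 + rootPow ℓ (d : ZMod ℓ) + rootPow ℓ (d : ZMod ℓ) ^ 2))⁻¹ *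
          (∑ i ∈ Finset.range m, rootPow ℓ (1 : ZMod ℓ) ^ i)⁻¹ := by
      have hpow : rootPow ℓ (d : ZMod ℓ) = rootPow ℓ 1 ^ m := by
        rw [← rootPow_natCast_mul, mul_one, hm, ZMod.natCast_zmod_val]
      have h1 : (1 - rootPow ℓ (1 : ZMod ℓ)) ≠ 0 := one_sub_rootPow_ne_zero one_ne_zero
      have hgs : 1 - rootPow ℓ (d : ZMod ℓ) =
          (1 - rootPow ℓ 1) * ∑ i ∈ Finset.range m, rootPow ℓ (1 : ZMod ℓ) ^ i := by
        rw [mul_neg_geom_sum, hpow]
      simp only [hw₁, wConst]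
      rw [hgs]
      field_simp
    have hR := ((((HasRes.one.add huc).pow 3).mul ((HasRes.one.add hu).add (hu.pow 2))).mul
      ((((HasRes.one.add hu).pow 3).mul ((HasRes.one.add huc).add (huc.pow 2))).inv
        (mul_ne_zero (pow_ne_zero _ h2) h3))).mul (hG.inv (by simpa using hm0))
    rw [← hratio] at hR
    obtain ⟨t, ht, ht'⟩ := hR.mul ⟨PowerSeries.coeff (ℓ * n) P, rfl, rfl⟩
    refine ⟨t, ?_, ?_⟩
    · rw [ht, show (qExpansion 1 (⇑(w₁⁻¹ • W))).coeff n = w₁⁻¹ * (qExpansion 1 W).coeff n by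
        rw [FunLike.coe_smul, ModularForm.qExpansion_smul one_pos hper, PowerSeries.coeff_smul,
          smul_eq_mul], hn, div_eq_mul_inv]
      ring
    · have hco : residue O (PowerSeries.coeff (ℓ * n) P) = if n = 0 then 1 else 0 := by
        rw [← PowerSeries.coeff_map, hP1, PowerSeries.coeff_one]
        simp [hℓp.out.ne_zero]
      rw [ht', hco, Finset.sum_const, Finset.card_range, nsmul_one,
        mul_inv_cancel₀ (mul_ne_zero (pow_ne_zero _ h2) h3), one_mul]
      split_ifs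
      · rw [mul_one, inv_mul_cancel₀ hm0]
      · simp

end congruence

end Fermat.Agent.WeightOne
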