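import Fermat.Agent.HeckeLattice.Lattice
import Mathlib.Algebra.FreeAlgebra
import Mathlib.RingTheory.Nakayama
import Mathlib.RingTheory.Adjoin.Basic

/-!
# Mod `ℓ` eigenhomomorphisms from faithful periods

Commuting operators on a space with an injective period map into parabolic homomorphisms, matched
by natural operators on homomorphisms: a system of eigenvalues in characteristic `ℓ` occurring in
the generated algebra occurs in the parabolic homomorphisms with values in `ℤ/ℓ`.
-/

set_option autoImplicit false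

noncomputable section

open ModularCurve.Period
open scoped MatrixGroups

namespace Fermat.Agent.WeightOne

variable {Γ : Subgroup SL(2, ℤ)} {V : Type} [AddCommGroup V] [Module ℂ V] {ι : Type}

/-- A natural family of operators on the homomorphism groups of `Γ`. -/
abbrev HomOps (Γ : Subgroup SL(2, ℤ)) (ι : Type) : Type 1 :=
  ι → ∀ (B : Type) [AddCommGroup B], Module.End ℤ (Additive Γ →+ B)

/-- The action of the free algebra on homomorphisms. -/
def opsAct (u : HomOps Γ ι) (B : Type) [AddCommGroup B] :
    FreeAlgebra ℤ ι →ₐ[ℤ] Module.End ℤ (Additive Γ →+ B) :=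
  FreeAlgebra.lift ℤ fun i => u i B

/-- The action of the free algebra is natural in the coefficients. -/
lemma comp_opsAct {u : HomOps Γ ι}
    (hu : ∀ (i : ι) (B C : Type) [AddCommGroup B] [AddCommGroup C] (g : B →+ C)
      (χ : Additive Γ →+ B), g.comp (u i B χ) = u i C (g.comp χ))
    {B C : Type} [AddCommGroup B] [AddCommGroup C] (g : B →+ C) (P : FreeAlgebra ℤ ι) :
    ∀ χ : Additive Γ →+ B, g.comp (opsAct u B P χ) = opsAct u C P (g.comp χ) := by
  induction P using FreeAlgebra.induction with
  | grade0 r =>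
    intro χ
    ext γ
    simp [opsAct]
  | grade1 i =>
    intro χ
    simpa [opsAct] using hu i B C g χ
  | add a b ha hb =>
    intro χ
    simp only [map_add, LinearMap.add_apply]
    rw [← ha, ← hb, AddMonoidHom.comp_add]
  | mul a b ha hb =>
    intro χ
    simp only [map_mul, Module.End.mul_apply]
    rw [ha, hb]

variable (t : ι → Module.End ℂ V)

/-- Evaluation of the free algebra in the endomorphisms of `V`. -/
def opsEval : FreeAlgebra ℤ ι →ₐ[ℤ] Module.End ℂ V :=
  FreeAlgebra.lift ℤ t

/-- A period map equivariant for the generators is equivariant for the free algebra. -/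
lemma opsAct_per {u : HomOps Γ ι} (per : V →ₗ[ℂ] (Additive Γ →+ ℂ))
    (hper : ∀ i v, per (t i v) = u i ℂ (per v)) (P : FreeAlgebra ℤ ι) :
    ∀ v : V, opsAct u ℂ P (per v) = per (opsEval t P v) := by
  induction P using FreeAlgebra.induction with
  | grade0 r =>
    intro v
    simp only [AlgHom.commutes, Module.algebraMap_end_apply, map_zsmul]
  | grade1 i =>
    intro v
    simpa [opsAct, opsEval] using (hper i v).symm
  | add a b ha hb =>
    intro v
    simp only [map_add, LinearMap.add_apply, ha, hb]
  | mul a b ha hb =>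
    intro v
    simp only [map_mul, Module.End.mul_apply, ha, hb]

/-- The periods as functionals. -/
def perDual (per : V →ₗ[ℂ] (Additive Γ →+ ℂ)) : Additive Γ →+ Module.Dual ℂ V where
  toFun γ :=
    { toFun := fun v => per v γ
      map_add' := fun v w => by simp
      map_smul' := fun a v => by simp }
  map_zero' := LinearMap.ext fun v => map_zero (per v)
  map_add' γ δ := LinearMap.ext fun v => map_add (per v) γ δ

/-- **Eigenhomomorphisms.** -/
theorem exists_eigenHom [Group.FG Γ] {u : HomOps Γ ι}
    (hu : ∀ (i : ι) (B C : Type) [AddCommGroup B] [AddCommGroup C] (g : B →+ C)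
      (χ : Additive Γ →+ B), g.comp (u i B χ) = u i C (g.comp χ))
    (per : V →ₗ[ℂ] (Additive Γ →+ ℂ)) (hinj : Function.Injective per)
    (hpar : ∀ v, IsParabolicHom Γ (per v)) (hper : ∀ i v, per (t i v) = u i ℂ (per v))
    (hcomm : ∀ i j, Commute (t i) (t j))
    {ℓ : ℕ} [Fact ℓ.Prime] {κ : Type*} [Field κ] [CharP κ ℓ] (φ : FreeAlgebra ℤ ι →ₐ[ℤ] κ)
    (hφ : ∀ P, opsEval t P = 0 → φ P = 0) :
    ∃ χ : Additive Γ →+ ZMod ℓ, IsParabolicHom Γ χ ∧ χ ≠ 0 ∧
      ∀ P, φ P = 0 → opsAct u (ZMod ℓ) P χ = 0 := by
  set Φ := perDual per with hΦdef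
  have hΦpar : IsParabolicHom Γ Φ := fun γ hγ => LinearMap.ext fun v => hpar v γ hγ
  have hact : ∀ (P : FreeAlgebra ℤ ι) (γ : Additive Γ),
      opsAct u (Module.Dual ℂ V) P Φ γ = LinearMap.dualMap (opsEval t P) (Φ γ) := by
    intro P γ
    refine LinearMap.ext fun v => ?_
    have := DFunLike.congr_fun (comp_opsAct hu (B := Module.Dual ℂ V) (C := ℂ)
      (LinearMap.applyₗ v).toAddMonoidHom P Φ) γ
    rw [show (LinearMap.applyₗ v).toAddMonoidHom.comp Φ = per v from AddMonoidHom.ext fun _ => rfl,
      opsAct_per t per hper] at this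
    exact this
  set A : Subalgebra ℤ (Module.End ℂ V) := (opsEval t).range with hA
  have hAadj : A ≤ Algebra.adjoin ℤ (Set.range t) := by
    rintro _ ⟨P, rfl⟩
    show opsEval t P ∈ _
    induction P using FreeAlgebra.induction with
    | grade0 r =>
      rw [AlgHom.commutes]
      exact Subalgebra.algebraMap_mem _ r
    | grade1 i => exact Algebra.subset_adjoin ⟨i, by simp [opsEval]⟩
    | add a b ha hb => rw [map_add]; exact add_mem ha hb
    | mul a b ha hb => rw [map_mul]; exact mul_mem ha hb
  let : CommRing A :=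
    { (inferInstance : Ring A) with
      mul_comm := fun x y => Subtype.ext <| by
        have := Algebra.commute_of_mem_adjoin_of_forall_mem_commute (hAadj y.2)
          (a := (x : Module.End ℂ V)) (by
            rintro _ ⟨j, rfl⟩
            exact (Algebra.commute_of_mem_adjoin_of_forall_mem_commute (hAadj x.2)
              (a := t j) (by rintro _ ⟨i, rfl⟩; exact hcomm j i)).symm)
        exact this.eq }
  -- the character on `A`
  have hsurj : ∀ a : A, ∃ P, opsEval t P = a := fun a => a.2
  choose lft hlft using hsurj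
  have hwd : ∀ P Q, opsEval t P = opsEval t Q → φ P = φ Q := fun P Q h => by
    rw [← sub_eq_zero, ← map_sub]
    exact hφ _ (by rw [map_sub, h, sub_self])
  let ψ : A →+* κ :=
    { toFun := fun a => φ (lft a)
      map_one' := by rw [← map_one φ]; exact hwd _ _ (by rw [hlft, map_one]; rfl)
      map_mul' := fun a b => by
        rw [← map_mul]; exact hwd _ _ (by rw [map_mul, hlft, hlft, hlft]; rfl)
      map_zero' := by rw [← map_zero φ]; exact hwd _ _ (by rw [hlft, map_zero]; rfl)
      map_add' := fun a b => by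
        rw [← map_add]; exact hwd _ _ (by rw [map_add, hlft, hlft, hlft]; rfl) }
  set 𝔪 : Ideal A := RingHom.ker ψ with h𝔪
  -- the lattice as a module over `A`
  set L : Submodule ℤ (Module.Dual ℂ V) := AddSubgroup.toIntSubmodule Φ.range with hL
  let Φ' : Additive Γ →+ L := Φ.codRestrict L fun γ => ⟨γ, rfl⟩
  have hΦ' : Function.Surjective Φ' := by
    rintro ⟨_, γ, rfl⟩
    exact ⟨γ, rfl⟩
  have hincl : ∀ (P : FreeAlgebra ℤ ι) (γ : Additive Γ),
      LinearMap.dualMap (opsEval t P) (Φ γ) = (opsAct u L P Φ' γ : Module.Dual ℂ V) := by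
    intro P γ
    rw [← hact]
    exact (DFunLike.congr_fun (comp_opsAct hu L.subtype.toAddMonoidHom P Φ') γ).symm
  have hstab : ∀ (a : A) (x : L), LinearMap.dualMap (a : Module.End ℂ V) x ∈ L := by
    rintro a ⟨_, γ, rfl⟩
    show LinearMap.dualMap (a : Module.End ℂ V) (Φ γ) ∈ L
    rw [← hlft a, hincl]
    exact SetLike.coe_mem _
  let act : A →+* Module.End ℤ L :=
    { toFun := fun a =>
        { toFun := fun x => ⟨LinearMap.dualMap (a : Module.End ℂ V) x, hstab a x⟩
          map_add' := fun x y => Subtype.ext (by simp)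
          map_smul' := fun r x => Subtype.ext (by simp) }
      map_one' := LinearMap.ext fun x => Subtype.ext (LinearMap.ext fun v => rfl)
      map_mul' := fun a b => LinearMap.ext fun x => Subtype.ext <| LinearMap.ext fun v => by
        show (x : Module.Dual ℂ V) (((a * b : A) : Module.End ℂ V) v) = _
        rw [mul_comm a b]
        rfl
      map_zero' := LinearMap.ext fun x => Subtype.ext (LinearMap.ext fun v => by simp)
      map_add' := fun a b => LinearMap.ext fun x => Subtype.ext (LinearMap.ext fun v => by simp) }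
  let : Module A L := Module.compHom L act
  have hsmul : ∀ (a : A) (x : L),
      ((a • x : L) : Module.Dual ℂ V) = LinearMap.dualMap (a : Module.End ℂ V) x := fun a x => rfl
  have : Module.Finite ℤ L := by
    rw [Module.Finite.iff_addGroup_fg]
    have : AddGroup.FG (Additive Γ) := inferInstance
    exact AddGroup.fg_of_surjective hΦ'
  have : Module.Finite A L := Module.Finite.of_restrictScalars_finite ℤ A L
  have hfaith : ∀ a : A, (∀ x : L, a • x = 0) → a = 0 := by
    intro a ha
    refine Subtype.ext (LinearMap.ext fun v => hinj ?_)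
    rw [ZeroMemClass.coe_zero, LinearMap.zero_apply, map_zero]
    refine AddMonoidHom.ext fun γ => ?_
    have := congrArg (fun x : L => (x : Module.Dual ℂ V) v) (ha (Φ' γ))
    exact this
  have htop : 𝔪 • (⊤ : Submodule A L) ≠ ⊤ := by
    intro h
    obtain ⟨r, hr1, hr⟩ := Submodule.exists_sub_one_mem_and_smul_eq_zero_of_fg_of_le_smul 𝔪 ⊤
      Module.Finite.fg_top h.ge
    have hr0 : r = 0 := hfaith r fun x => hr x Submodule.mem_top
    rw [hr0, h𝔪, RingHom.mem_ker, map_sub, map_zero, map_one, zero_sub, neg_eq_zero] at hr1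
    exact one_ne_zero hr1
  obtain ⟨x₀, hx₀⟩ : ∃ x₀ : L, x₀ ∉ 𝔪 • (⊤ : Submodule A L) := by
    by_contra! hall
    exact htop (Submodule.eq_top_iff'.mpr hall)
  have hℓ𝔪 : (ℓ : A) ∈ 𝔪 := by
    rw [h𝔪, RingHom.mem_ker, map_natCast, CharP.cast_eq_zero]
  obtain ⟨χ₀, hχ₀⟩ := HeckeLattice.exists_zmod_hom_ne_zero
    (Q := L ⧸ (𝔪 • (⊤ : Submodule A L))) (n := ℓ) (fun q => by
      induction q using Submodule.Quotient.induction_on with
      | _ x =>
        rw [← Submodule.Quotient.mk_smul, Submodule.Quotient.mk_eq_zero,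
          ← Nat.cast_smul_eq_nsmul A]
        exact Submodule.smul_mem_smul hℓ𝔪 Submodule.mem_top)
    (a := Submodule.Quotient.mk x₀) (fun h => hx₀ ((Submodule.Quotient.mk_eq_zero _).mp h))
  set g : L →+ ZMod ℓ := χ₀.comp (Submodule.mkQ (𝔪 • (⊤ : Submodule A L))).toAddMonoidHom with hg
  refine ⟨g.comp Φ', fun γ hγ => ?_, fun h => ?_, fun P hP => ?_⟩
  · have : Φ' (Additive.ofMul γ) = 0 := Subtype.ext (hΦpar γ hγ)
    rw [AddMonoidHom.comp_apply, this, map_zero]
  · obtain ⟨γ, hγ⟩ := hΦ' x₀
    have := DFunLike.congr_fun h γ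
    rw [AddMonoidHom.comp_apply, hγ] at this
    exact hχ₀ this
  · refine AddMonoidHom.ext fun γ => ?_
    rw [← comp_opsAct hu g P Φ', AddMonoidHom.comp_apply]
    let a : A := ⟨opsEval t P, ⟨P, rfl⟩⟩
    have ha : a ∈ 𝔪 := by
      rw [h𝔪, RingHom.mem_ker]
      show φ (lft a) = 0
      rw [hwd (lft a) P (hlft a), hP]
    have : opsAct u L P Φ' γ = a • Φ' γ := Subtype.ext (by rw [hsmul]; exact (hincl P γ).symm)
    rw [this, hg, AddMonoidHom.comp_apply]
    simp only [LinearMap.toAddMonoidHom_coe, Submodule.mkQ_apply]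
    rw [(Submodule.Quotient.mk_eq_zero _).mpr (Submodule.smul_mem_smul ha Submodule.mem_top),
      map_zero]
    rfl

end Fermat.Agent.WeightOne
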