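import Fermat.Agent.WeightOne.Gamma1System
import Fermat.Agent.HeckeLattice.Periods

/-!
# Periods of weight two cusp forms on `Γ₁(M)`

A linear injective map `period1 : S₂(Γ₁(M)) → Hom(Γ₁(M), ℂ)` with parabolic values, turning sums
over coset systems and translations by `Γ₀(M)` into transfers and conjugations.
-/

set_option autoImplicit false

noncomputable section

open UpperHalfPlane hiding I
open Complex Filter Topology CongruenceSubgroup Matrix.SpecialLinearGroup ModularCurve.Period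
open scoped MatrixGroups Manifold ModularForm

namespace Fermat.Agent.WeightOne

open EichlerShimura (IsPrim exists_prim_of_periodic exists_conj_eq_T_zpow isPrim_mdifferentiable)
open HeckeLattice (CosetSystem toGL)

variable {M : ℕ}

lemma slash_SL_Gamma1 (f : CuspForm (Gamma1 M) 2) {γ : SL(2, ℤ)} (hγ : γ ∈ Gamma1 M) :
    ⇑f ∣[(2 : ℤ)] γ = ⇑f := by
  rw [ModularForm.SL_slash]
  exact SlashInvariantFormClass.slash_action_eq f _ ⟨γ, hγ, rfl⟩

lemma conj_T_zpow_mem_Gamma1 (δ : SL(2, ℤ)) :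
    δ * ModularGroup.T ^ (M : ℤ) * δ⁻¹ ∈ Gamma1 M := by
  have hT : ModularGroup.T ^ (M : ℤ) ∈ CongruenceSubgroup.Gamma M := by
    rw [Gamma_mem, ModularGroup.coe_T_zpow]
    simp
  have := (Gamma_normal M).conj_mem _ hT δ
  rw [Gamma_mem] at this
  exact (Gamma1_mem M _).mpr ⟨this.1, this.2.2.2, this.2.2.1⟩

lemma periodic_slash1 (f : CuspForm (Gamma1 M) 2) (δ : SL(2, ℤ)) :
    Function.Periodic ((⇑f ∣[(2 : ℤ)] δ) ∘ ofComplex) (M : ℝ) := by
  have hinv : (⇑f ∣[(2 : ℤ)] δ) ∣[(2 : ℤ)] (ModularGroup.T ^ (M : ℤ)) = ⇑f ∣[(2 : ℤ)] δ := by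
    rw [← SlashAction.slash_mul,
      show δ * ModularGroup.T ^ (M : ℤ) = (δ * ModularGroup.T ^ (M : ℤ) * δ⁻¹) * δ by group,
      SlashAction.slash_mul, slash_SL_Gamma1 f (conj_T_zpow_mem_Gamma1 δ)]
  intro w
  by_cases hw : 0 < w.im
  · have hw' : 0 < (w + ((M : ℝ) : ℂ)).im := by simpa using hw
    simp only [Function.comp_apply, ofComplex_apply_of_im_pos hw, ofComplex_apply_of_im_pos hw']
    have := congrFun hinv ⟨w, hw⟩
    rw [ModularForm.SL_slash_apply (γ := ModularGroup.T ^ (M : ℤ))] at this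
    have hd : denom ((ModularGroup.T ^ (M : ℤ) : SL(2, ℤ)) : GL (Fin 2) ℝ) (w : ℂ) = 1 := by
      simp [denom, ModularGroup.coe_T_zpow, -map_zpow, -zpow_natCast]
    rw [← this, modular_T_zpow_smul, UpperHalfPlane.coe_mk, hd, one_zpow, mul_one]
    refine congrArg _ (UpperHalfPlane.ext ?_)
    simp [add_comm]
  · have hw' : (w + ((M : ℝ) : ℂ)).im ≤ 0 := by simpa using hw
    simp only [Function.comp_apply, ofComplex_apply_of_im_nonpos hw',
      ofComplex_apply_of_im_nonpos (not_lt.mp hw)]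

variable [NeZero M]

lemma exists_prim_slash1 (f : CuspForm (Gamma1 M) 2) (δ : SL(2, ℤ)) :
    ∃ G, IsPrim (⇑f ∣[(2 : ℤ)] δ) G ∧ Tendsto G atImInfty (𝓝 0) := by
  refine exists_prim_of_periodic (h := (M : ℝ)) (by exact_mod_cast NeZero.pos M)
    (periodic_slash1 f δ) ?_ ?_
  · rw [ModularForm.SL_slash]
    exact (CuspFormClass.holo f).slash 2 _
  · have hc : IsCusp ((δ : GL (Fin 2) ℝ) • OnePoint.infty)
        ((Gamma1 M : Subgroup SL(2, ℤ)) : Subgroup (GL (Fin 2) ℝ)) :=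
      (Subgroup.IsArithmetic.isCusp_iff_isCusp_SL2Z _).mpr (isCusp_SL2Z_iff'.mpr ⟨δ, rfl⟩)
    rw [ModularForm.SL_slash]
    exact f.zero_at_cusps' hc (δ : GL (Fin 2) ℝ) rfl

/-- The primitive of `f` vanishing at `i∞`. -/
def prim1 (f : CuspForm (Gamma1 M) 2) : ℍ → ℂ := (exists_prim_slash1 f 1).choose

lemma isPrim_prim1 (f : CuspForm (Gamma1 M) 2) : IsPrim ⇑f (prim1 f) := by
  simpa [prim1] using (exists_prim_slash1 f 1).choose_spec.1

lemma exists_tendsto_prim1_smul (f : CuspForm (Gamma1 M) 2) (δ : SL(2, ℤ)) :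
    ∃ L, Tendsto (fun τ => prim1 f (δ • τ)) atImInfty (𝓝 L) := by
  obtain ⟨G, hG, hG0⟩ := exists_prim_slash1 f δ
  obtain ⟨c, hc⟩ := ((isPrim_prim1 f).comp_smul δ).eq_add_const hG
  exact ⟨0 + c, (hG0.add_const c).congr fun τ => (hc τ).symm⟩

lemma isEquivariantPrimitive_prim1 (f : CuspForm (Gamma1 M) 2) :
    IsEquivariantPrimitive (Gamma1 M) (prim1 f) := fun γ => by
  have h := (isPrim_prim1 f).comp_smul (γ : SL(2, ℤ))
  rw [slash_SL_Gamma1 f γ.2] at h
  obtain ⟨c, hc⟩ := h.eq_add_const (isPrim_prim1 f)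
  exact ⟨c, fun z => by rw [hc z]; ring⟩

lemma sub_prim1_eq_period (f : CuspForm (Gamma1 M) 2) {G : ℍ → ℂ} (hG : IsPrim ⇑f G)
    (γ : Gamma1 M) (z : ℍ) : (isEquivariantPrimitive_prim1 f).period γ =
      G ((γ : SL(2, ℤ)) • z) - G z := by
  obtain ⟨c, hc⟩ := hG.eq_add_const (isPrim_prim1 f)
  rw [← (isEquivariantPrimitive_prim1 f).sub_eq_period γ z, hc, hc]
  ring

/-- The period homomorphism. -/
def period1 : CuspForm (Gamma1 M) 2 →ₗ[ℂ] (Additive (Gamma1 M) →+ ℂ) where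
  toFun f := (isEquivariantPrimitive_prim1 f).periodHom
  map_add' f g := by
    refine AddMonoidHom.ext fun γ => ?_
    obtain ⟨γ, rfl⟩ := Additive.ofMul.surjective γ
    rw [AddMonoidHom.add_apply, IsEquivariantPrimitive.periodHom_apply,
      IsEquivariantPrimitive.periodHom_apply, IsEquivariantPrimitive.periodHom_apply,
      sub_prim1_eq_period (f + g) ((isPrim_prim1 f).add (isPrim_prim1 g)) γ UpperHalfPlane.I,
      sub_prim1_eq_period f (isPrim_prim1 f) γ UpperHalfPlane.I,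
      sub_prim1_eq_period g (isPrim_prim1 g) γ UpperHalfPlane.I]
    simp only [Pi.add_apply]
    ring
  map_smul' a f := by
    refine AddMonoidHom.ext fun γ => ?_
    obtain ⟨γ, rfl⟩ := Additive.ofMul.surjective γ
    rw [RingHom.id_apply, AddMonoidHom.smul_apply, IsEquivariantPrimitive.periodHom_apply,
      IsEquivariantPrimitive.periodHom_apply,
      sub_prim1_eq_period (a • f) ((isPrim_prim1 f).const_smul a) γ UpperHalfPlane.I,
      sub_prim1_eq_period f (isPrim_prim1 f) γ UpperHalfPlane.I]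
    simp [mul_sub]

lemma period1_apply (f : CuspForm (Gamma1 M) 2) {G : ℍ → ℂ} (hG : IsPrim ⇑f G) (γ : Gamma1 M)
    (z : ℍ) : period1 f (Additive.ofMul γ) = G ((γ : SL(2, ℤ)) • z) - G z :=
  sub_prim1_eq_period f hG γ z

/-- Periods are parabolic homomorphisms. -/
lemma period1_isParabolicHom (f : CuspForm (Gamma1 M) 2) :
    IsParabolicHom (Gamma1 M) (period1 f) := by
  intro γ hγ
  obtain ⟨δ, n, hn⟩ := exists_conj_eq_T_zpow _ hγ
  obtain ⟨L, hL⟩ := exists_tendsto_prim1_smul f δ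
  have hsm : ∀ w : ℍ, (γ : SL(2, ℤ)) • (δ • w) = δ • ((n : ℝ) +ᵥ w) := by
    intro w
    rw [← modular_T_zpow_smul]
    rcases hn with e | e <;> rw [e]
    · rw [← mul_smul, ← mul_smul]; group
    · rw [ModularGroup.SL_neg_smul, ← mul_smul, ← mul_smul]; group
  have hT : Tendsto (fun w : ℍ => (n : ℝ) +ᵥ w) atImInfty atImInfty :=
    (atImInfty_basis.tendsto_iff atImInfty_basis).mpr fun a _ =>
      ⟨a, trivial, fun w hw => by simpa using hw⟩
  have h1 : Tendsto (fun w : ℍ => prim1 f ((γ : SL(2, ℤ)) • (δ • w)) - prim1 f (δ • w)) atImInfty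
      (𝓝 (L - L)) :=
    (Tendsto.congr (fun w => by rw [Function.comp_apply, hsm w]) (hL.comp hT)).sub hL
  rw [sub_self] at h1
  exact tendsto_nhds_unique tendsto_const_nhds
    (h1.congr fun w => (period1_apply f (isPrim_prim1 f) γ (δ • w)).symm)

/-- **Injectivity of the periods.** -/
theorem eq_zero_of_period1_eq_zero (f : CuspForm (Gamma1 M) 2) (h : period1 f = 0) : f = 0 := by
  have hinv : ∀ γ ∈ Gamma1 M, ∀ τ : ℍ, prim1 f (γ • τ) = prim1 f τ := fun γ hγ τ => by
    have h0 := congrArg (fun φ : Additive (Gamma1 M) →+ ℂ => φ (Additive.ofMul ⟨γ, hγ⟩)) h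
    simp only [AddMonoidHom.zero_apply, period1_apply f (isPrim_prim1 f) _ τ] at h0
    exact sub_eq_zero.mp h0
  let G : ModularForm (Gamma1 M) 0 :=
    { toFun := prim1 f
      slash_action_eq' := by
        rintro _ ⟨γ, hγ, rfl⟩
        show prim1 f ∣[(0 : ℤ)] γ = _
        funext τ
        rw [ModularForm.SL_slash_apply, neg_zero, zpow_zero, mul_one]
        exact hinv γ hγ τ
      holo' := isPrim_mdifferentiable (isPrim_prim1 f)
      bdd_at_cusps' := by
        intro c hc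
        rw [Subgroup.IsArithmetic.isCusp_iff_isCusp_SL2Z] at hc
        rw [OnePoint.isBoundedAt_iff_forall_SL2Z hc]
        intro γ _
        obtain ⟨L, hL⟩ := exists_tendsto_prim1_smul f γ
        have : (prim1 f) ∣[(0 : ℤ)] γ = fun τ => prim1 f (γ • τ) := by
          funext τ
          rw [ModularForm.SL_slash_apply]
          simp
        rw [this]
        exact hL.isBigO_one ℝ }
  obtain ⟨c, hc⟩ := ModularForm.eq_const_of_weight_zero
    (𝒢 := (Gamma1 M : Subgroup (GL (Fin 2) ℝ))) G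
  ext τ
  have hc' : prim1 f = Function.const ℍ c := hc
  have h1 := isPrim_prim1 f τ
  rw [hc'] at h1
  exact h1.unique (hasDerivAt_const (↑τ : ℂ) c)

/-- Sums over a coset system become transfers. -/
theorem period1_eq_transfer {ι : Type*} [Fintype ι] (D : CosetSystem (Gamma1 M) ι)
    (hD : ∀ x, (0 : ℝ) < ((D.β x : GL (Fin 2) ℝ) : Matrix (Fin 2) (Fin 2) ℝ).det)
    (f g : CuspForm (Gamma1 M) 2) (hg : ⇑g = ∑ x, ⇑f ∣[(2 : ℤ)] D.β x) :
    period1 g = D.transfer (period1 f) := by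
  have hG : IsPrim ⇑g (∑ x, fun τ => prim1 f (D.β x • τ)) := by
    rw [hg]
    exact HeckeLattice.isPrim_sum _ fun x =>
      HeckeLattice.isPrim_comp_gl (isPrim_prim1 f) (D.β x) (hD x)
  refine AddMonoidHom.ext fun γ => ?_
  obtain ⟨γ, rfl⟩ := Additive.ofMul.surjective γ
  rw [period1_apply g hG γ UpperHalfPlane.I, CosetSystem.transfer_apply, Finset.sum_apply,
    Finset.sum_apply]
  have hstep : ∀ x, prim1 f (D.β x • ((γ : SL(2, ℤ)) • UpperHalfPlane.I))
      = period1 f (Additive.ofMul (D.cocycle γ x))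
        + prim1 f (D.β (D.next γ x) • UpperHalfPlane.I) := by
    intro x
    rw [period1_apply f (isPrim_prim1 f) _ (D.β (D.next γ x) • UpperHalfPlane.I), sub_add_cancel]
    change prim1 f (D.β x • (toGL γ • UpperHalfPlane.I))
      = prim1 f (toGL (D.cocycle γ x) • (D.β (D.next γ x) • UpperHalfPlane.I))
    rw [← mul_smul, ← mul_smul, D.rep_mul γ x]
  rw [Finset.sum_congr rfl fun x _ => hstep x, Finset.sum_add_distrib,
    show (∑ x, prim1 f (D.β (D.next γ x) • UpperHalfPlane.I))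
      = ∑ x, prim1 f (D.β x • UpperHalfPlane.I) from
    Equiv.sum_comp (D.nextPerm γ) fun y => prim1 f (D.β y • UpperHalfPlane.I)]
  ring

/-- Translation by an element of `Γ₀(M)` becomes conjugation. -/
theorem period1_eq_comp_diaConj (δ : Gamma0 M) (f g : CuspForm (Gamma1 M) 2)
    (hg : ⇑g = ⇑f ∣[(2 : ℤ)] (δ : SL(2, ℤ))) :
    period1 g = (period1 f).comp (MonoidHom.toAdditive (diaConj δ)) := by
  have hG : IsPrim ⇑g (fun τ => prim1 f ((δ : SL(2, ℤ)) • τ)) :=
    hg ▸ (isPrim_prim1 f).comp_smul _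
  refine AddMonoidHom.ext fun γ => ?_
  obtain ⟨γ, rfl⟩ := Additive.ofMul.surjective γ
  rw [AddMonoidHom.comp_apply, MonoidHom.toAdditive_apply_apply, toMul_ofMul,
    period1_apply g hG γ UpperHalfPlane.I,
    period1_apply f (isPrim_prim1 f) _ ((δ : SL(2, ℤ)) • UpperHalfPlane.I), diaConj_coe,
    ← mul_smul, ← mul_smul, inv_mul_cancel_right]

end Fermat.Agent.WeightOne
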