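import Fermat.Agent.WeightOne.Hecke1
import Fermat.Agent.WeightOne.Periods1
import Fermat.Agent.WeightOne.EigenChar

/-!
# The operators of level `M` on forms and on homomorphisms

The Hecke and diamond operators act on `S₂(Γ₁(M))` and, by transfers and conjugations, on
homomorphisms of `Γ₁(M)`. The periods intertwine the two actions, so a system of eigenvalues in
characteristic `ℓ` of the first occurs in parabolic homomorphisms with values in `ℤ/ℓ`.
-/

set_option autoImplicit false

noncomputable section

open CongruenceSubgroup Matrix.SpecialLinearGroup ModularCurve.Period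
open scoped MatrixGroups ModularForm

namespace Fermat.Agent.WeightOne

variable (M : ℕ) [NeZero M]

/-- The indices: primes not dividing `M` and classes prime to `M`. -/
abbrev Op : Type := {p : Nat.Primes // ¬ (p : ℕ) ∣ M} ⊕ (ZMod M)ˣ

/-- The operators on `S₂(Γ₁(M))`. -/
def opForm : Op M → Module.End ℂ (CuspForm (Gamma1 M) 2)
  | .inl p => haveI := Fact.mk p.1.2; hecke1 p.2
  | .inr d => dia M d

/-- The operators on homomorphisms: transfers and conjugations. -/
def opHom : HomOps (Gamma1 M) (Op M)
  | .inl p, _, _ => haveI := Fact.mk p.1.2; (gamma1System M p.1 p.2).transfer.toIntLinearMap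
  | .inr d, B, _ =>
    ({ toFun := fun χ => χ.comp (MonoidHom.toAdditive (diaConj (diaRep d)))
       map_zero' := rfl
       map_add' := fun _ _ => rfl } :
      (Additive (Gamma1 M) →+ B) →+ (Additive (Gamma1 M) →+ B)).toIntLinearMap

omit [NeZero M] in
/-- The operators on homomorphisms are natural in the coefficients. -/
lemma opHom_natural (i : Op M) (B C : Type) [AddCommGroup B] [AddCommGroup C] (g : B →+ C)
    (χ : Additive (Gamma1 M) →+ B) : g.comp (opHom M i B χ) = opHom M i C (g.comp χ) := by
  rcases i with p | d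
  · have := Fact.mk p.1.2
    exact (gamma1System M p.1 p.2).comp_transfer g χ
  · rfl

omit [NeZero M] in
lemma det_gamma1System_pos {p : ℕ} [Fact p.Prime] (hpM : ¬ p ∣ M) (x : HeckeLattice.Idx p) :
    (0 : ℝ) < (((gamma1System M p hpM).β x : GL (Fin 2) ℝ) : Matrix (Fin 2) (Fin 2) ℝ).det := by
  obtain ⟨u, y, h⟩ := isStandard_gamma1 hpM x
  rw [h, Units.val_mul, Matrix.det_mul]
  refine mul_pos ?_ (HeckeLattice.det_rep_pos y)
  have h1 : ((mapGL ℝ u : GL (Fin 2) ℝ) : Matrix (Fin 2) (Fin 2) ℝ).det = 1 :=
    (Matrix.SpecialLinearGroup.map (algebraMap ℤ ℝ) u).det_coe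
  rw [h1]
  exact one_pos

/-- The periods intertwine the operators on forms and on homomorphisms. -/
lemma period1_opForm (i : Op M) (g : CuspForm (Gamma1 M) 2) :
    period1 (opForm M i g) = opHom M i ℂ (period1 g) := by
  rcases i with p | d
  · have := Fact.mk p.1.2
    exact period1_eq_transfer _ (det_gamma1System_pos M p.2) g _ (coe_hecke1_eq_sum p.2 g)
  · exact period1_eq_comp_diaConj (diaRep d) g _ (coe_dia d g (diaRep d).2 (diaRep_class d))

/-- The operators on forms commute. -/
lemma opForm_comm (i j : Op M) : Commute (opForm M i) (opForm M j) := by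
  rcases i with p | d <;> rcases j with q | e
  · have := Fact.mk p.1.2; have := Fact.mk q.1.2; exact hecke1_comm p.2 q.2
  · have := Fact.mk p.1.2; exact (dia_hecke1_comm p.2 e).symm
  · have := Fact.mk q.1.2; exact dia_hecke1_comm q.2 d
  · exact (Commute.all d e).map (dia M)

/-- A system of eigenvalues in characteristic `ℓ` of the operators on forms gives an
eigenhomomorphism. -/
theorem exists_opEigenHom {ℓ : ℕ} [Fact ℓ.Prime] {κ : Type*} [Field κ] [CharP κ ℓ]
    (φ : FreeAlgebra ℤ (Op M) →ₐ[ℤ] κ) (hφ : ∀ P, opsEval (opForm M) P = 0 → φ P = 0) :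
    ∃ χ : Additive (Gamma1 M) →+ ZMod ℓ, IsParabolicHom (Gamma1 M) χ ∧ χ ≠ 0 ∧
      ∀ P, φ P = 0 → opsAct (opHom M) (ZMod ℓ) P χ = 0 :=
  exists_eigenHom (opForm M) (opHom_natural M) period1
    ((injective_iff_map_eq_zero period1).mpr eq_zero_of_period1_eq_zero) period1_isParabolicHom
    (period1_opForm M) (opForm_comm M) φ hφ

end Fermat.Agent.WeightOne
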