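import Fermat.Agent.WeightOne.Conjugates
import Fermat.Agent.WeightOne.EisensteinCongr
import Fermat.Agent.WeightOne.Ops1

/-!
# Systems of eigenvalues of weight one in weight two, modulo `ℓ`

For a weight one eigenform `g` of level `N` and character `ε`, and the weight one forms `E d` of
level `ℓ` congruent to `d⁻¹`, the product `g · E 1` is a form of weight two on `Γ₁(Nℓ)` whose
translates are, modulo `ℓ`, multiples of `g`. So the operators of level `Nℓ` act on its reduction
through the eigenvalues `T_p ↦ a(p)` and `⟨d⟩ ↦ ε(d) d⁻¹`.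
-/

set_option autoImplicit false

noncomputable section

namespace Fermat.Agent.WeightOne

open CongruenceSubgroup UpperHalfPlane Matrix.SpecialLinearGroup CuspIntStr IsLocalRing
open scoped MatrixGroups ModularForm

local notation "qC" => ModularFormClass.qCoeff

lemma mem_Gamma1_of_dvd_level {L M : ℕ} (h : L ∣ M) {γ : SL(2, ℤ)} (hγ : γ ∈ Gamma1 M) :
    γ ∈ Gamma1 L := by
  obtain ⟨h0, h1, h2⟩ := (Gamma1_mem M γ).mp hγ
  refine (Gamma1_mem L γ).mpr ⟨?_, ?_, ?_⟩
  · simpa only [map_intCast, map_one, map_zero] using congrArg (ZMod.castHom h (ZMod L)) h0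
  · simpa only [map_intCast, map_one, map_zero] using congrArg (ZMod.castHom h (ZMod L)) h1
  · simpa only [map_intCast, map_one, map_zero] using congrArg (ZMod.castHom h (ZMod L)) h2

lemma mem_Gamma0_of_dvd_level {L M : ℕ} (h : L ∣ M) {γ : SL(2, ℤ)} (hγ : γ ∈ Gamma0 M) :
    γ ∈ Gamma0 L := by
  refine Gamma0_mem.mpr ?_
  simpa only [map_intCast, map_one, map_zero] using
    congrArg (ZMod.castHom h (ZMod L)) (Gamma0_mem.mp hγ)

/-- The residue of `0` is `0`. -/
lemma HasRes.eq_zero {O : ValuationSubring ℂ} {r : ResidueField O} (h : HasRes O 0 r) : r = 0 := by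
  obtain ⟨t, ht, rfl⟩ := h
  rw [show t = 0 from Subtype.ext ht, map_zero]

/-- The residue of an integer. -/
lemma HasRes.intCast {O : ValuationSubring ℂ} (r : ℤ) : HasRes O r r :=
  ⟨r, map_intCast O.subtype r, map_intCast _ _⟩

section weightTwo

variable {N l : ℕ} [NeZero N] [NeZero l] (g : CuspForm (Gamma1 N) 1)

/-- The product of `g` and a weight one form of level `l`. -/
def prodEis (E : ModularForm (Gamma1 l) 1) : CuspForm (Gamma1 (N * l)) 2 where
  toFun := ⇑g * ⇑E
  slash_action_eq' x hx := by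
    obtain ⟨δ, hδ, rfl⟩ := hx
    change (⇑g * ⇑E) ∣[((1 : ℤ) + 1)] δ = _
    rw [ModularForm.mul_slash_SL2,
      show ⇑g ∣[(1 : ℤ)] δ = ⇑g from SlashInvariantFormClass.slash_action_eq g _
        ⟨δ, mem_Gamma1_of_dvd_level (dvd_mul_right N l) hδ, rfl⟩,
      show ⇑E ∣[(1 : ℤ)] δ = ⇑E from SlashInvariantFormClass.slash_action_eq E _
        ⟨δ, mem_Gamma1_of_dvd_level (dvd_mul_left l N) hδ, rfl⟩]
  holo' := (ModularFormClass.holo g).mul (ModularFormClass.holo E)
  zero_at_cusps' {c} hc := by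
    rw [Subgroup.IsArithmetic.isCusp_iff_isCusp_SL2Z] at hc
    rw [OnePoint.isZeroAt_iff_forall_SL2Z hc]
    intro γ _
    change IsZeroAtImInfty ((⇑g * ⇑E) ∣[((1 : ℤ) + 1)] γ)
    rw [ModularForm.mul_slash_SL2]
    exact (isZeroAtImInfty_slash g γ).mul_boundedAtFilter (ModularFormClass.bdd_at_infty_slash E γ)

lemma qCoeff_prodEis (E : ModularForm (Gamma1 l) 1) (n : ℕ) :
    qC (prodEis g E) n =
      ∑ x ∈ Finset.HasAntidiagonal.antidiagonal n, qC g x.1 * (qExpansion 1 E).coeff x.2 := by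
  let e : niceAlg := ⟨⇑E, form_mem_niceAlg (one_mem_strictPeriods_Gamma1 l) E⟩
  rw [qCoeff_eq_coeff, show gamma1Nice (prodEis g E) = gamma1Nice g * e from Subtype.ext rfl,
    map_mul, PowerSeries.coeff_mul]
  rfl

/-- The reduction of a weight two form and all its translates is `c ψ(d)` times that of `a`. -/
def IsCongrTo {M : ℕ} [NeZero M] (O : ValuationSubring ℂ) (ψ : (ZMod M)ˣ → ResidueField O)
    (a : ℕ → ResidueField O) (c : ResidueField O) (h : CuspForm (Gamma1 M) 2) : Prop :=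
  ∀ (d : (ZMod M)ˣ) (n : ℕ), HasRes O (qC (dia M d h) n) (c * ψ d * a n)

variable {M : ℕ} [NeZero M] {O : ValuationSubring ℂ} {ψ : (ZMod M)ˣ → ResidueField O}
  {a : ℕ → ResidueField O} {c : ResidueField O} {h : CuspForm (Gamma1 M) 2}

lemma IsCongrTo.dia_apply (hψ : ∀ d e, ψ (d * e) = ψ d * ψ e) (H : IsCongrTo O ψ a c h)
    (e : (ZMod M)ˣ) : IsCongrTo O ψ a (ψ e * c) (dia M e h) := fun d n => by
  rw [← Module.End.mul_apply, ← map_mul, show ψ e * c * ψ d * a n = c * ψ (d * e) * a n by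
    rw [hψ]; ring]
  exact H _ n

lemma IsCongrTo.hecke_apply (hψ : ∀ d e, ψ (d * e) = ψ d * ψ e) (H : IsCongrTo O ψ a c h)
    {p : ℕ} [Fact p.Prime] (hpM : ¬ p ∣ M)
    (ha : ∀ n, a (p * n) + p * ψ (primeUnit hpM) * (if p ∣ n then a (n / p) else 0) = a p * a n) :
    IsCongrTo O ψ a (a p * c) (hecke1 hpM h) := fun d n => by
  rw [show dia M d (hecke1 hpM h) = hecke1 hpM (dia M d h) from
      LinearMap.congr_fun (dia_hecke1_comm hpM d).eq h, qCoeff_hecke1, ← Module.End.mul_apply,
    ← map_mul]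
  have h2 : HasRes O (if p ∣ n then qC (dia M (primeUnit hpM * d) h) (n / p) else 0)
      (c * ψ (primeUnit hpM * d) * (if p ∣ n then a (n / p) else 0)) := by
    split_ifs
    · exact H _ _
    · simpa using HasRes.zero (O := O)
  convert (H d (p * n)).add ((HasRes.natCast p).mul h2) using 1
  rw [hψ]
  linear_combination -(c * ψ d) * ha n

/-- A congruence to `a` is preserved by the Hecke algebra, scaling by the eigenvalues. -/
lemma IsCongrTo.eval (hψ : ∀ d e, ψ (d * e) = ψ d * ψ e)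
    (ha : ∀ (p : {p : Nat.Primes // ¬ (p : ℕ) ∣ M}) (n : ℕ),
      haveI := Fact.mk p.1.2
      a ((p : ℕ) * n) + (p : ℕ) * ψ (primeUnit p.2) * (if (p : ℕ) ∣ n then a (n / p) else 0) =
        a p * a n)
    (P : FreeAlgebra ℤ (Op M)) :
    ∀ {c : ResidueField O} {h : CuspForm (Gamma1 M) 2}, IsCongrTo O ψ a c h →
      IsCongrTo O ψ a (FreeAlgebra.lift ℤ (Sum.elim (fun p => a p.1.1) ψ) P * c)
        (opsEval (opForm M) P h) := by
  induction P using FreeAlgebra.induction with
  | grade0 r =>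
    intro c h H d n
    rw [AlgHom.commutes, AlgHom.commutes, Module.algebraMap_end_apply, ← Int.cast_smul_eq_zsmul ℂ,
      map_smul, qCoeff1_smul, eq_intCast (algebraMap ℤ (ResidueField O)) r,
      show (r : ResidueField O) * c * ψ d * a n = r * (c * ψ d * a n) by ring]
    exact (HasRes.intCast r).mul (H d n)
  | grade1 i =>
    intro c h H
    simp only [opsEval, FreeAlgebra.lift_ι_apply]
    rcases i with p | e
    · exact haveI := Fact.mk p.1.2; H.hecke_apply hψ p.2 (ha p)
    · exact H.dia_apply hψ e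
  | add x y hx hy =>
    intro c h H d n
    rw [map_add, map_add, LinearMap.add_apply, map_add, qCoeff1_add, add_mul, add_mul, add_mul]
    exact (hx H d n).add (hy H d n)
  | mul x y hx hy =>
    intro c h H
    rw [map_mul, map_mul, Module.End.mul_apply, mul_assoc]
    exact hx (hy H)

end weightTwo

variable {N : ℕ} [NeZero N] {eps : DirichletCharacter ℂ N}

lemma eps_apply_mem (O : ValuationSubring ℂ) (x : ZMod N) : eps x ∈ O := by
  by_cases hx : IsUnit x
  · obtain ⟨u, rfl⟩ := hx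
    have hint : IsIntegral O (eps (u : ZMod N)) := by
      refine IsIntegral.of_pow Fintype.card_pos (n := Fintype.card (ZMod N)ˣ) ?_
      rw [← map_pow, ← Units.val_pow_eq_pow_val, pow_card_eq_one, Units.val_one, map_one]
      exact isIntegral_one
    obtain ⟨t, ht⟩ := (IsIntegrallyClosed.isIntegral_iff (R := O) (K := ℂ)).mp hint
    rw [← ht]
    exact t.2
  · rw [MulChar.map_nonunit eps hx]
    exact zero_mem O

/-- **The eigenvalue system.** A weight one eigenform gives a system of eigenvalues in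
characteristic `ℓ` of the operators on `S₂(Γ₁(Nℓ))`. -/
theorem exists_eigenSystem (g : CuspForm (Gamma1 N) 1) (hg1 : qC g 1 = 1)
    (hT : GoodHeckeRel eps (qC g)) {l : ℕ} [Fact l.Prime] (hl : 5 ≤ l) (_hlN : ¬ l ∣ N)
    (O : ValuationSubring ℂ) (hO : (l : ℂ) ∈ O.nonunits) (hint : ∀ n, qC g n ∈ O) :
    ∃ phi : FreeAlgebra ℤ (Op (N * l)) →ₐ[ℤ] ResidueField O,
      (∀ P, opsEval (opForm (N * l)) P = 0 → phi P = 0) ∧
      (∀ p : {p : Nat.Primes // ¬ (p : ℕ) ∣ N * l}, ∃ t : O, (t : ℂ) = qC g p ∧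
        phi (FreeAlgebra.ι ℤ (Sum.inl p)) = residue O t) ∧
      ∀ p : ℕ, (hp : p.Prime) → ∀ h : ¬ p ∣ N * l, ∃ e : O, (e : ℂ) = eps (p : ZMod N) ∧
        (p : ResidueField O) * phi (FreeAlgebra.ι ℤ (Sum.inr (primeUnit (hp := ⟨hp⟩) h))) =
          residue O e := by
  have := charP_residueField (ℓ := l) hO
  obtain ⟨E, hslash, hE⟩ := exists_weightOne_congr hO hl
  let ebar : ZMod N → ResidueField O := fun x => residue O ⟨eps x, eps_apply_mem O x⟩
  let red : ZMod l →+* ResidueField O := ZMod.castHom dvd_rfl _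
  let ψ : (ZMod (N * l))ˣ → ResidueField O := fun d =>
    ebar (ZMod.castHom (dvd_mul_right N l) (ZMod N) d) *
      (red (ZMod.castHom (dvd_mul_left l N) (ZMod l) d))⁻¹
  let a : ℕ → ResidueField O := fun n => residue O ⟨qC g n, hint n⟩
  have hebar : ∀ x y, ebar (x * y) = ebar x * ebar y := fun x y => by
    simp only [ebar]
    rw [← map_mul]
    exact congrArg (residue O) (Subtype.ext (map_mul eps x y))
  have hψ : ∀ d e, ψ (d * e) = ψ d * ψ e := fun d e => by
    simp only [ψ, Units.val_mul, map_mul, hebar, mul_inv]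
    ring
  have hψ1 : ψ 1 = 1 := by
    have h1 : ebar 1 = 1 := by
      simp only [ebar, map_one eps]
      exact map_one (residue O)
    simp only [ψ, Units.val_one, map_one, h1, one_mul, inv_one]
  -- the prime classes
  have hψp : ∀ (p : ℕ) (hp : p.Prime) (h : ¬ p ∣ N * l),
      (p : ResidueField O) * ψ (primeUnit (hp := ⟨hp⟩) h) = ebar (p : ZMod N) := by
    intro p hp h
    have hp0 : (p : ResidueField O) ≠ 0 := by
      rw [Ne, CharP.cast_eq_zero_iff (ResidueField O) l]
      exact fun hd => h (((Nat.prime_dvd_prime_iff_eq Fact.out hp).mp hd) ▸ dvd_mul_left l N)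
    simp only [ψ, coe_primeUnit, map_natCast]
    field_simp
  have ha : ∀ (p : {p : Nat.Primes // ¬ (p : ℕ) ∣ N * l}) (n : ℕ),
      haveI := Fact.mk p.1.2
      a ((p : ℕ) * n) + (p : ℕ) * ψ (primeUnit p.2) * (if (p : ℕ) ∣ n then a (n / p) else 0) =
        a p * a n := by
    rintro ⟨⟨p, hp⟩, h⟩ n
    change a (p * n) + (p : ResidueField O) * ψ (primeUnit (hp := ⟨hp⟩) h) *
      (if p ∣ n then a (n / p) else 0) = a p * a n
    rw [hψp p hp h]
    have hrel := hT p hp (fun hd => h (hd.mul_right l)) n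
    simp only [a, ebar, ← map_mul]
    split_ifs with hpn
    · rw [if_pos hpn] at hrel
      rw [← map_mul, ← map_add]
      exact congrArg (residue O) (Subtype.ext hrel)
    · rw [if_neg hpn, mul_zero, add_zero] at hrel
      rw [mul_zero, add_zero]
      exact congrArg (residue O) (Subtype.ext hrel)
  -- the base form
  have hbase : IsCongrTo O ψ a 1 (prodEis g (E 1)) := by
    intro d n
    obtain ⟨γ, hγ, hd⟩ : ∃ γ ∈ Gamma0 (N * l), ((γ 1 1 : ℤ) : ZMod (N * l)) = d :=
      ⟨_, (diaRep d).2, diaRep_class d⟩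
    set dl := Units.map (ZMod.castHom (dvd_mul_left l N) (ZMod l)).toMonoidHom d
    have hdN : ((γ 1 1 : ℤ) : ZMod N) = ZMod.castHom (dvd_mul_right N l) (ZMod N) d := by
      rw [← hd, map_intCast]
    have hdl : (dl : ZMod l) = ((γ 1 1 : ℤ) : ZMod l) := by
      change ZMod.castHom (dvd_mul_left l N) (ZMod l) d = _
      rw [← hd, map_intCast]
    have hkey : dia (N * l) d (prodEis g (E 1)) =
        eps ((γ 1 1 : ℤ) : ZMod N) • prodEis g (E dl) := by
      refine DFunLike.coe_injective ?_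
      rw [coe_dia d _ hγ hd]
      change (⇑g * ⇑(E 1)) ∣[((1 : ℤ) + 1)] γ = _
      rw [ModularForm.mul_slash_SL2,
        slash_Gamma0_eq g hT (mem_Gamma0_of_dvd_level (dvd_mul_right N l) hγ),
        hslash γ (mem_Gamma0_of_dvd_level (dvd_mul_left l N) hγ) dl hdl, smul_mul_assoc]
      rfl
    have hcoef : ∀ j, HasRes O ((qExpansion 1 (E dl)).coeff j)
        (if j = 0 then (red dl)⁻¹ else 0) := by
      intro j
      obtain ⟨t, ht, ht'⟩ := hE dl j
      refine ⟨t, ht, ?_⟩
      have hd0 : red (dl : ZMod l) = (((dl : ZMod l).val : ℕ) : ResidueField O) := by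
        conv_lhs => rw [← ZMod.natCast_zmod_val (dl : ZMod l), map_natCast]
      have hne : ((dl : ZMod l).val : ResidueField O) ≠ 0 := hd0 ▸ (dl.isUnit.map red).ne_zero
      split_ifs at ht' ⊢
      · rw [hd0]; exact eq_inv_of_mul_eq_one_left ht'
      · exact (mul_eq_zero.mp ht').resolve_right hne
    have hsum := HasRes.finsetSum (O := O) (Finset.HasAntidiagonal.antidiagonal n)
      (f := fun x => qC g x.1 * (qExpansion 1 (E dl)).coeff x.2)
      (g := fun x => a x.1 * if x.2 = 0 then (red dl)⁻¹ else 0)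
      fun x _ => HasRes.mul ⟨⟨qC g x.1, hint x.1⟩, rfl, rfl⟩ (hcoef x.2)
    have he : HasRes O (eps ((γ 1 1 : ℤ) : ZMod N))
        (ebar (ZMod.castHom (dvd_mul_right N l) (ZMod N) d)) :=
      ⟨⟨_, eps_apply_mem O _⟩, by rw [hdN], rfl⟩
    rw [hkey, qCoeff1_smul, qCoeff_prodEis]
    convert he.mul hsum using 1
    rw [Finset.sum_eq_single (n, 0)]
    · simp only [ψ, if_true, one_mul]
      change _ * (red (dl : ZMod l))⁻¹ * a n = _
      ring
    · intro x hx hne
      have : x.2 ≠ 0 := fun h0 => hne (Prod.ext (by simp_all) h0)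
      simp [this]
    · simp
  refine ⟨FreeAlgebra.lift ℤ (Sum.elim (fun p => a p.1.1) ψ), fun P hP => ?_,
    fun p => ⟨⟨_, hint _⟩, rfl, by simp [a]⟩,
    fun p hp h => ⟨⟨_, eps_apply_mem O _⟩, rfl, by simpa [ebar] using hψp p hp h⟩⟩
  have key := IsCongrTo.eval hψ ha P hbase 1 1
  rw [hP, LinearMap.zero_apply, map_zero, hψ1, mul_one, mul_one,
    show qC (0 : CuspForm (Gamma1 (N * l)) 2) 1 = 0 by
      have := qCoeff1_smul (0 : ℂ) (0 : CuspForm (Gamma1 (N * l)) 2) 1
      rwa [zero_smul, zero_mul] at this,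
    show a 1 = 1 by
      simp only [a, hg1]
      exact map_one (residue O), mul_one] at key
  exact key.eq_zero

end Fermat.Agent.WeightOne
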