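import Fermat.Agent.WeightOne.Gamma1System
import Fermat.Agent.KummerES.ModulesFinal

/-!
# The Galois modules of `Γ₁(M)`

`Γ₁(M)` is stable under diagonal twists, and its coset system of `T_p` agrees with the Hecke
product on modular functions; hence the parabolic characters of `Γ₁(M)` carry Galois modules
satisfying the congruence relation.
-/

set_option autoImplicit false

noncomputable section

open UpperHalfPlane CongruenceSubgroup ModularCurve.Period Matrix.SpecialLinearGroup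
open scoped MatrixGroups OnePoint

namespace Fermat.Agent.WeightOne

open KummerES
open HeckeLattice (CosetSystem Idx rep toGL)

local notation "GQ" => AlgebraicClosure ℚ ≃ₐ[ℚ] AlgebraicClosure ℚ

variable {M : ℕ}

lemma twistRel_entries {c : ℕ} {γ γ' : SL(2, ℤ)} (h : TwistRel M c γ γ') (hc : c.Coprime M)
    (hγ : ((γ 1 0 : ℤ) : ZMod M) = 0) :
    ((γ' 1 0 : ℤ) : ZMod M) = 0 ∧ ((γ' 1 1 : ℤ) : ZMod M) = ((γ 1 1 : ℤ) : ZMod M) ∧
      ((γ' 0 0 : ℤ) : ZMod M) = ((γ 0 0 : ℤ) : ZMod M) := by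
  have hu : IsUnit (c : ZMod M) := (ZMod.isUnit_iff_coprime c M).mpr hc
  have h00 := congrFun (congrFun h 0) 0
  have h10 := congrFun (congrFun h 1) 0
  have h11 := congrFun (congrFun h 1) 1
  simp [redMat, diagMat, Matrix.mul_apply, Fin.sum_univ_two, hγ] at h00 h10 h11
  exact ⟨h10, hu.mul_right_cancel (h11.trans (mul_comm _ _)), h00⟩

/-- `Γ₁(M)` is stable under diagonal twists. -/
theorem isDiagStable_Gamma1 (M : ℕ) : IsDiagStable (Gamma1 M) M := by
  refine ⟨fun γ hγ => ?_, fun c hc γ γ' h hγ => ?_⟩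
  · rw [Gamma_mem] at hγ
    exact (Gamma1_mem M γ).mpr ⟨hγ.1, hγ.2.2.2, hγ.2.2.1⟩
  · obtain ⟨h00, h11, h10⟩ := (Gamma1_mem M γ).mp hγ
    obtain ⟨e10, e11, e00⟩ := twistRel_entries h hc h10
    exact (Gamma1_mem M γ').mpr ⟨e00.trans h00, e11.trans h11, e10⟩

/-- Every element of `Γ₀(M)` is fixed by the twists modulo `Γ₁(M)`. -/
theorem isTwistFixed_Gamma1 {δ : SL(2, ℤ)} (hδ : δ ∈ Gamma0 M) :
    IsTwistFixed (Gamma1 M) M δ := fun c hc δ' h => by
  obtain ⟨e10, e11, -⟩ := twistRel_entries h hc (Gamma0_mem.mp hδ)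
  exact mul_inv_mem_Gamma1 (Gamma0_mem.mpr e10) hδ e11

/-- The correction of the representative at infinity. -/
def diaMat (M ℓ : ℕ) : SL(2, ℤ) := if h : ℓ.Coprime M then diaSL h else 1

lemma heckeProd_gamma1System_eq {ℓ : ℕ} [hℓ : Fact ℓ.Prime] (hℓM : ¬ ℓ ∣ M) (F : ℍ → ℂ) :
    heckeProd (gamma1System M ℓ hℓM) F = heckePair ℓ F (comp F (diaMat M ℓ)) := by
  have hcop : ℓ.Coprime M := (hℓ.out.coprime_iff_not_dvd).mpr hℓM
  funext τ
  show ∏ x : Option (ZMod ℓ), F ((gamma1System M ℓ hℓM).β x • τ) = _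
  rw [Fintype.prod_option, mul_comm]
  show (∏ j : ZMod ℓ, F ((gamma1System M ℓ hℓM).β (j : Idx ℓ) • τ)) *
    F ((gamma1System M ℓ hℓM).β ∞ • τ) = _
  simp only [gamma1System_coe, gamma1System_infty, mul_smul, diaMat, dif_pos hcop]
  rfl


/-- **The Galois modules of `Γ₁(M)`**, commuting with the diamond operators. -/
theorem exists_gamma1Modules (M l : ℕ) [NeZero M] (hl : l.Prime) :
    ∃ G : KummerES.GalModules (Gamma1 M) M l
        (fun p hp h => haveI := Fact.mk hp; gamma1System M p h) (diaAut M),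
      ∀ (σ : GQ) (x y : parabolicHoms ℤ (Gamma1 M) (ZMod (l ^ 1))) (δ : Gamma0 M),
        x.1.comp (MonoidHom.toAdditive (diaConj δ)) = y.1 →
        (G.rep 1 σ x).1.comp (MonoidHom.toAdditive (diaConj δ)) = (G.rep 1 σ y).1 := by
  have : NeZero l := ⟨hl.ne_zero⟩
  set S : ConjLevel (Gamma1 M) M (6 * M) :=
    conjLevelTwo (dvd_mul_of_dvd_left (by norm_num) M) (isDiagStable_Gamma1 M) (dvd_mul_left M 6)
  have hcop : ∀ ℓ : ℕ, ℓ.Prime → ¬ ℓ ∣ M → ℓ.Coprime M := fun ℓ hℓ h =>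
    hℓ.coprime_iff_not_dvd.mpr h
  refine ⟨galModulesOfLevel hl S (rigidityProp _) (T_mem_Gamma1 M)
    (fun p hp h => haveI := Fact.mk hp; gamma1System M p h) (diaAut M) (diaMat M)
    (fun ℓ hℓ h => haveI := Fact.mk hℓ; isStandard_gamma1 h)
    (fun ℓ hℓ h F => @heckeProd_gamma1System_eq M ℓ ⟨hℓ⟩ h F)
    (fun ℓ hℓ h γ => by
      rw [diaMat, dif_pos (hcop ℓ hℓ h)]; have := Fact.mk hℓ; exact diaAut_coe _ γ)
    (fun ℓ hℓ h => by
      rw [diaMat, dif_pos (hcop ℓ hℓ h)]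
      exact isTwistFixed_Gamma1 (diaSL_mem_Gamma0 _)), fun σ x y δ hxy => ?_⟩
  have hy : y = conjParChar (δ : SL(2, ℤ)) (diaConj δ) (diaConj_coe δ) x := Subtype.ext hxy.symm
  subst hy
  exact congrArg Subtype.val
    (S.galRep_conjParChar (isTwistFixed_Gamma1 δ.2) (diaConj δ) (diaConj_coe δ) σ x).symm

end Fermat.Agent.WeightOne
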