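import Fermat.Agent.WeightOne.GroupBound
import Mathlib.LinearAlgebra.FiniteDimensional.Lemmas

/-!
# Semisimplification of two-dimensional matrix representations

A representation with an invariant line has the same traces and determinants as the sum of two
characters, which is semisimple.
-/

set_option autoImplicit false

noncomputable section

namespace Fermat.Agent.WeightOne

open Matrix

variable {k : Type*} [Field k] {G : Type*} [Group G]

/-- A diagonal representation has a stable complement for every stable subspace. -/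
theorem isSemisimple_of_diagonal (a b : G → k) (ρ : G →* GL (Fin 2) k)
    (hρ : ∀ g, ((ρ g : GL (Fin 2) k) : Matrix (Fin 2) (Fin 2) k) = Matrix.diagonal ![a g, b g]) :
    IsSemisimpleMatrixRep ρ := by
  intro W hW
  have hap : ∀ g (v : Fin 2 → k), ((ρ g : GL (Fin 2) k) : Matrix (Fin 2) (Fin 2) k) *ᵥ v =
      ![a g * v 0, b g * v 1] := by
    intro g v
    funext i
    rw [hρ, Matrix.mulVec_diagonal]
    fin_cases i <;> rfl
  by_cases hab : ∀ g, a g = b g
  · obtain ⟨W', hW'⟩ := W.exists_isCompl
    refine ⟨W', fun g v hv => ?_, hW'⟩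
    have : ((ρ g : GL (Fin 2) k) : Matrix (Fin 2) (Fin 2) k) *ᵥ v = a g • v := by
      rw [hap]
      funext i
      fin_cases i <;> simp [hab g]
    rw [this]
    exact W'.smul_mem _ hv
  push Not at hab
  obtain ⟨g₀, hg₀⟩ := hab
  -- `W` is spanned by its intersections with the two axes
  have hproj : ∀ w ∈ W, ![w 0, 0] ∈ W ∧ ![0, w 1] ∈ W := by
    intro w hw
    have hne : a g₀ - b g₀ ≠ 0 := sub_ne_zero.mpr hg₀
    have h0 : ![w 0, (0 : k)] ∈ W := by
      have := W.smul_mem (a g₀ - b g₀)⁻¹ (W.sub_mem (hW g₀ w hw) (W.smul_mem (b g₀) hw))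
      convert this using 1
      rw [hap]
      funext i
      fin_cases i
      · show w 0 = (a g₀ - b g₀)⁻¹ * (a g₀ * w 0 - b g₀ * w 0)
        rw [← sub_mul, ← mul_assoc, inv_mul_cancel₀ hne, one_mul]
      · show (0 : k) = (a g₀ - b g₀)⁻¹ * (b g₀ * w 1 - b g₀ * w 1)
        rw [sub_self, mul_zero]
    refine ⟨h0, ?_⟩
    convert W.sub_mem hw h0 using 1
    funext i
    fin_cases i <;> simp
  classical
  let S : Submodule k (Fin 2 → k) :=
    { carrier := {v | ∀ i, (∃ w ∈ W, w i ≠ 0) → v i = 0}
      zero_mem' := fun i _ => rfl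
      add_mem' := fun hv hw i hi => by simp [hv i hi, hw i hi]
      smul_mem' := fun c v hv i hi => by simp [hv i hi] }
  refine ⟨S, fun g v hv i hi => ?_, ?_, ?_⟩
  · rw [hρ, Matrix.mulVec_diagonal, hv i hi, mul_zero]
  · rw [disjoint_iff_inf_le]
    rintro v ⟨hvW, hvS⟩
    refine (Submodule.mem_bot k).mpr (funext fun i => ?_)
    by_contra hne
    exact hne (hvS i ⟨v, hvW, hne⟩)
  · rw [codisjoint_iff_le_sup]
    intro v _
    have key : ∀ (i : Fin 2) (u : Fin 2 → k), (∀ j, j ≠ i → u j = 0) → u ∈ W ⊔ S := by
      intro i u hu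
      by_cases hi : ∃ w ∈ W, w i ≠ 0
      · obtain ⟨w, hw, hwi⟩ := hi
        refine Submodule.mem_sup_left ?_
        fin_cases i
        · convert W.smul_mem (u 0 / w 0) (hproj w hw).1 using 1
          funext j
          fin_cases j
          · exact (div_mul_cancel₀ _ hwi).symm
          · simpa using hu 1 (by decide)
        · convert W.smul_mem (u 1 / w 1) (hproj w hw).2 using 1
          funext j
          fin_cases j
          · simpa using hu 0 (by decide)
          · exact (div_mul_cancel₀ _ hwi).symm
      · refine Submodule.mem_sup_right fun j hj => ?_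
        exact hu j fun h => hi (h ▸ hj)
    have hv : v = ![v 0, 0] + ![0, v 1] := by funext i; fin_cases i <;> simp
    rw [hv]
    exact add_mem (key 0 _ fun j hj => by fin_cases j <;> simp at hj ⊢)
      (key 1 _ fun j hj => by fin_cases j <;> simp at hj ⊢)

/-- **Semisimplification.** -/
theorem exists_semisimple_rep (r : G →* Matrix (Fin 2) (Fin 2) k) :
    ∃ ρ : G →* GL (Fin 2) k, IsSemisimpleMatrixRep ρ ∧
      (∀ g, ((ρ g : GL (Fin 2) k) : Matrix (Fin 2) (Fin 2) k).trace = (r g).trace ∧
        ((ρ g : GL (Fin 2) k) : Matrix (Fin 2) (Fin 2) k).det = (r g).det) ∧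
      ∀ g, r g = 1 → ρ g = 1 := by
  by_cases hline : ∃ v : Fin 2 → k, v ≠ 0 ∧ ∀ g, ∃ c : k, r g *ᵥ v = c • v
  · obtain ⟨v, hv0, hc⟩ := hline
    choose a ha using hc
    obtain ⟨i, hi⟩ : ∃ i, v i ≠ 0 := by
      by_contra! h
      exact hv0 (funext h)
    have huniq : ∀ c d : k, c • v = d • v → c = d := fun c d h =>
      mul_right_cancel₀ hi (by simpa using congrFun h i)
    have ha1 : a 1 = 1 := huniq _ _ (by rw [← ha 1, map_one, Matrix.one_mulVec, one_smul])
    have hamul : ∀ g h, a (g * h) = a g * a h := fun g h => huniq _ _ (by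
      rw [← ha (g * h), map_mul, ← Matrix.mulVec_mulVec, ha h, Matrix.mulVec_smul, ha g, smul_smul,
        mul_comm])
    have ha0 : ∀ g, a g ≠ 0 := fun g h => by
      have := hamul g g⁻¹
      rw [mul_inv_cancel, ha1, h, zero_mul] at this
      exact one_ne_zero this
    set b : G → k := fun g => (r g).trace - a g with hb
    have hdet : ∀ g, (r g).det = a g * b g := by
      intro g
      have e := ha g
      have e0 := congrFun e 0
      have e1 := congrFun e 1
      simp only [Matrix.mulVec, dotProduct, Fin.sum_univ_two, Pi.smul_apply, smul_eq_mul] at e0 e1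
      have h0 : ((r g).det - a g * b g) * v 0 = 0 := by
        simp only [hb, Matrix.det_fin_two, Matrix.trace_fin_two]
        linear_combination (r g 1 1 - a g) * e0 - r g 0 1 * e1
      have h1 : ((r g).det - a g * b g) * v 1 = 0 := by
        simp only [hb, Matrix.det_fin_two, Matrix.trace_fin_two]
        linear_combination (r g 0 0 - a g) * e1 - r g 1 0 * e0
      refine sub_eq_zero.mp ?_
      fin_cases i
      · exact (mul_eq_zero.mp h0).resolve_right hi
      · exact (mul_eq_zero.mp h1).resolve_right hi
    let d : G →* Matrix (Fin 2) (Fin 2) k :=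
      { toFun := fun g => Matrix.diagonal ![a g, b g]
        map_one' := by
          ext i j
          fin_cases i <;> fin_cases j <;>
            simp [hb, ha1, Matrix.trace_one]
          all_goals norm_num
        map_mul' := fun g h => by
          have hbm : b (g * h) = b g * b h := by
            refine mul_left_cancel₀ (ha0 (g * h)) ?_
            rw [← hdet, map_mul, Matrix.det_mul, hdet, hdet, hamul]
            ring
          rw [Matrix.diagonal_mul_diagonal]
          congr 1
          funext j
          fin_cases j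
          · exact hamul g h
          · exact hbm }
    have hd : ∀ g, (d.toHomUnits g : Matrix (Fin 2) (Fin 2) k) = Matrix.diagonal ![a g, b g] :=
      fun g => rfl
    refine ⟨d.toHomUnits, isSemisimple_of_diagonal a b _ hd, fun g => ⟨?_, ?_⟩, fun g hg => ?_⟩
    · rw [hd, Matrix.trace_diagonal, Fin.sum_univ_two]
      simp [hb]
    · rw [hd, Matrix.det_diagonal, Fin.prod_univ_two, hdet]
      rfl
    · have hag : a g = 1 := huniq _ _ (by rw [← ha g, hg, Matrix.one_mulVec, one_smul])
      refine Units.ext ?_
      rw [hd, hag, Units.val_one]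
      ext i j
      fin_cases i <;> fin_cases j <;> simp [hb, hag, hg, Matrix.trace_one]
      all_goals norm_num
  · refine ⟨r.toHomUnits, ?_, fun g => ⟨rfl, rfl⟩, fun g hg => Units.ext hg⟩
    intro W hW
    by_cases hbot : W = ⊥
    · exact ⟨⊤, fun g v _ => trivial, hbot ▸ isCompl_bot_top⟩
    refine ⟨⊥, fun g v hv => ?_, ?_⟩
    · rw [(Submodule.mem_bot k).mp hv, Matrix.mulVec_zero]
      exact zero_mem _
    suffices W = ⊤ from this ▸ isCompl_top_bot
    by_contra htop
    have hlt := Submodule.finrank_lt htop
    rw [Module.finrank_fin_fun] at hlt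
    have hpos := Submodule.one_le_finrank_iff.mpr hbot
    obtain ⟨v, hv, hv0⟩ := Submodule.exists_mem_ne_zero_of_ne_bot hbot
    refine hline ⟨v, hv0, fun g => ?_⟩
    obtain ⟨c, hc⟩ := exists_smul_eq_of_finrank_eq_one (show Module.finrank k W = 1 by omega)
      (x := ⟨v, hv⟩) (fun h => hv0 (congrArg Subtype.val h)) ⟨r g *ᵥ v, hW g v hv⟩
    exact ⟨c, (congrArg Subtype.val hc).symm⟩

end Fermat.Agent.WeightOne
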