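import Fermat.Agent.WeightOne.ResidualHecke
import Fermat.Agent.WeightOne.ResidualSemisimple
import Fermat.Agent.EigenRep.QuadraticRep
import Fermat.Agent.Chebotarev.Basic
import Fermat.Agent.GaloisBasics.Roots

/-!
# Mod `ℓ` Galois representations from systems of eigenvalues of level `M`

From Galois modules for `Γ₁(M)` (`KummerES.GalModules`) and a system of eigenvalues `φ` in
characteristic `ℓ` of the operators on `S₂(Γ₁(M))`, a semisimple representation with trace
`φ(T_p)` and determinant `p φ(⟨p⟩)` at the Frobenius elements.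
-/

set_option autoImplicit false

noncomputable section

open CongruenceSubgroup ModularCurve.Period Matrix.SpecialLinearGroup
open scoped MatrixGroups TensorProduct

namespace Fermat.Agent.WeightOne

open EigenRep (SatisfiesQuadratic satisfiesQuadratic_of_sq exists_quadraticRep)

local notation "GQ" => AlgebraicClosure ℚ ≃ₐ[ℚ] AlgebraicClosure ℚ

/-- The roots of unity of order `M` in `ℚ̄`. -/
lemma card_rootsOfUnity_algClosure (M : ℕ) [NeZero M] :
    Nat.card (rootsOfUnity M (AlgebraicClosure ℚ)) = M := by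
  obtain ⟨ζ, hζ⟩ := HasEnoughRootsOfUnity.exists_primitiveRoot (AlgebraicClosure ℚ) M
  exact hζ.card_rootsOfUnity

variable (M : ℕ) [NeZero M]

/-- The cyclotomic character modulo `M`. -/
def cycloM : GQ →* (ZMod M)ˣ :=
  (modularCyclotomicCharacter (AlgebraicClosure ℚ) (card_rootsOfUnity_algClosure M)).comp
    { toFun := fun σ => (σ : AlgebraicClosure ℚ ≃+* AlgebraicClosure ℚ)
      map_one' := rfl, map_mul' := fun _ _ => rfl }

lemma cycloM_finiteLevel : GaloisFactorsThroughFiniteLevel (cycloM M) := by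
  obtain ⟨ζ, hζ⟩ := HasEnoughRootsOfUnity.exists_primitiveRoot (AlgebraicClosure ℚ) M
  refine ⟨IntermediateField.adjoin ℚ {ζ}, IntermediateField.adjoin.finiteDimensional
    (Algebra.IsIntegral.isIntegral ζ), fun σ hσ => Units.ext ?_⟩
  refine (GaloisBasics.modularCyclotomicCharacter_eq_natCast (card_rootsOfUnity_algClosure M)
    (σ : AlgebraicClosure ℚ ≃+* AlgebraicClosure ℚ) 1 fun x hx => ?_).trans Nat.cast_one
  obtain ⟨i, -, rfl⟩ := hζ.eq_pow_of_pow_eq_one hx
  rw [pow_one, map_pow]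
  exact congrArg (· ^ i) (hσ ζ (IntermediateField.mem_adjoin_simple_self ℚ ζ))

lemma cycloM_frobenius {p : ℕ} (hp : p.Prime) (hpM : ¬ p ∣ M)
    {A : ValuationSubring (AlgebraicClosure ℚ)} (hA : A.LiesOverPrime p) {σ : GQ}
    (hσ : A.IsFrobeniusAt σ p) :
    cycloM M σ = ZMod.unitOfCoprime p ((hp.coprime_iff_not_dvd).mpr hpM) :=
  Units.ext <| (GaloisBasics.modularCyclotomicCharacter_frobenius hA hp
    (card_rootsOfUnity_algClosure M) hpM hσ).trans (ZMod.coe_unitOfCoprime _ _).symm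

variable {M} {k : Type} [Field k] (φ : FreeAlgebra ℤ (Op M) →ₐ[ℤ] k)
  (hφ : ∀ P, opsEval (opForm M) P = 0 → φ P = 0)

/-- The values on the diamond operators. -/
def diaValue : (ZMod M)ˣ →* k where
  toFun u := φ (FreeAlgebra.ι ℤ (Sum.inr u))
  map_one' := by
    rw [← sub_eq_zero, ← map_one φ, ← map_sub]
    refine hφ _ ?_
    simp [opsEval, opForm]
  map_mul' u v := by
    rw [← sub_eq_zero, ← map_mul φ, ← map_sub]
    refine hφ _ ?_
    simp [opsEval, opForm]

/-- The determinant: the mod `ℓ` cyclotomic character times the values on diamond operators. -/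
def detChar {l : ℕ} [CharP k l] (hlM : l ∣ M) : GQ →* k :=
  (((ZMod.castHom hlM k).toMonoidHom.comp (Units.coeHom (ZMod M))) * diaValue φ hφ).comp (cycloM M)

/-- Extension of scalars of a representation satisfying quadratic relations. -/
theorem exists_baseChange_rep {H F K V₀ : Type} [Group H] [Field F] [Field K] (i : F →+* K)
    [AddCommGroup V₀] [Module F V₀] [Module.Finite F V₀] [Nontrivial V₀]
    (ρ₀ : H →* Module.End F V₀) :
    ∃ (V : Type) (_ : AddCommGroup V) (_ : Module K V) (_ : Module.Finite K V) (_ : Nontrivial V)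
      (ρ : H →* Module.End K V), (∀ g, ρ₀ g = 1 → ρ g = 1) ∧
      ∀ (g : H) (a b : F), (∀ x, ρ₀ g (ρ₀ g x) - a • ρ₀ g x + b • x = 0) →
        ρ g * ρ g - i a • ρ g + i b • (1 : Module.End K V) = 0 := by
  let : Algebra F K := i.toAlgebra
  let ρ : H →* Module.End K (K ⊗[F] V₀) :=
    { toFun := fun σ => (ρ₀ σ).baseChange K
      map_one' := by rw [map_one, LinearMap.baseChange_one]
      map_mul' := fun σ τ => by rw [map_mul, LinearMap.baseChange_mul] }
  have : Nontrivial (K ⊗[F] V₀) := Module.nontrivial_of_finrank_pos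
    (R := K) (by rw [Module.finrank_baseChange]; exact Module.finrank_pos)
  refine ⟨K ⊗[F] V₀, inferInstance, inferInstance, inferInstance, inferInstance, ρ,
    fun g hg => ?_, fun g a b h => ?_⟩
  · show (ρ₀ g).baseChange K = 1
    rw [hg, LinearMap.baseChange_one]
  · have h0 : ρ₀ g * ρ₀ g - a • ρ₀ g + b • (1 : Module.End F V₀) = 0 := LinearMap.ext h
    have h1 := congrArg (LinearMap.baseChange K) h0
    rw [LinearMap.baseChange_add, LinearMap.baseChange_sub, LinearMap.baseChange_smul,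
      LinearMap.baseChange_smul, LinearMap.baseChange_mul, LinearMap.baseChange_one,
      LinearMap.baseChange_zero] at h1
    rwa [← algebraMap_smul K a, ← algebraMap_smul K b] at h1

section eigen

variable {l : ℕ} [hl : Fact l.Prime]

include hφ in
/-- The eigen part is not zero. -/
theorem eigenPart_nontrivial [CharP k l] : Nontrivial (EigenSpace (l ^ 1) φ) := by
  obtain ⟨χ, hχpar, hχ0, hχ⟩ := exists_opEigenHom M (ℓ := l) φ hφ
  let g : ZMod l →+ ZMod (l ^ 1) := (ZMod.castHom (pow_one l).dvd (ZMod (l ^ 1))).toAddMonoidHom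
  have : NeZero (l ^ 1) := ⟨pow_ne_zero _ hl.out.ne_zero⟩
  have hg : Function.Injective g :=
    ((Nat.bijective_iff_injective_and_card _).mp ((Nat.bijective_iff_surjective_and_card _).mpr
      ⟨ZMod.castHom_surjective (pow_one l).dvd,
        by rw [Nat.card_zmod, Nat.card_zmod, pow_one]⟩)).1
  let x : ParHoms M (l ^ 1) := ⟨g.comp χ, fun γ hγ => by
    rw [AddMonoidHom.comp_apply, hχpar γ hγ, map_zero]⟩
  have hx : x ∈ eigenPart (l ^ 1) φ := (mem_eigenPart _ φ).mpr fun P hP => Subtype.ext (by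
    rw [coe_parAct, ← comp_opsAct (opHom_natural M) g P χ, hχ P hP, AddMonoidHom.comp_zero]
    rfl)
  refine nontrivial_of_ne (toEigen _ φ hx) 0 fun h => hχ0
    (AddMonoidHom.ext fun γ => hg ?_)
  rw [AddMonoidHom.zero_apply, map_zero]
  have hx0 : x = 0 := by
    have := congrArg (toPar _ φ) h
    rwa [toPar_toEigen, map_zero] at this
  exact DFunLike.congr_fun (congrArg Subtype.val hx0) γ

variable (M) in
/-- The Galois modules commute with the diamond operators. -/
def DiamondCommutes (G : KummerES.GalModules (Gamma1 M) M l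
    (fun p hp h => haveI := Fact.mk hp; gamma1System M p h) (diaAut M)) : Prop :=
  ∀ (σ : GQ) (x y : parabolicHoms ℤ (Gamma1 M) (ZMod (l ^ 1))) (δ : Gamma0 M),
    x.1.comp (MonoidHom.toAdditive (diaConj δ)) = y.1 →
    (G.rep 1 σ x).1.comp (MonoidHom.toAdditive (diaConj δ)) = (G.rep 1 σ y).1

variable (G : KummerES.GalModules (Gamma1 M) M l
  (fun p hp h => haveI := Fact.mk hp; gamma1System M p h) (diaAut M))
  (hdia : DiamondCommutes M G)

/-- The Galois action by linear maps. -/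
def galLin (σ : GQ) : Module.End ℤ (ParHoms M (l ^ 1)) :=
  AddMonoidHom.toIntLinearMap (G.rep 1 σ)

omit [NeZero M] hl in
include hdia in
lemma commute_galLin_parOp (σ : GQ) (i : Op M) :
    Commute (galLin G σ) (parOp (l ^ 1) i) := by
  refine LinearMap.ext fun x => Subtype.ext ?_
  rw [Module.End.mul_apply, Module.End.mul_apply]
  rcases i with p | d
  · exact (G.hecke_comm 1 σ p.1 p.1.2 p.2 x _ rfl).symm
  · exact (hdia σ x _ (diaRep d) rfl).symm

omit [NeZero M] hl in
include hdia in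
lemma galLin_parAct (σ : GQ) (P : FreeAlgebra ℤ (Op M)) (x : ParHoms M (l ^ 1)) :
    galLin G σ (parAct (l ^ 1) P x) = parAct (l ^ 1) P (galLin G σ x) :=
  LinearMap.congr_fun (commute_parAct _ _ (commute_galLin_parOp G hdia σ) P).eq x

omit [NeZero M] hl in
include hdia in
lemma galLin_mem_eigenPart (σ : GQ) {x : ParHoms M (l ^ 1)} (hx : x ∈ eigenPart (l ^ 1) φ) :
    galLin G σ x ∈ eigenPart (l ^ 1) φ := by
  rw [mem_eigenPart] at hx ⊢
  intro P hP
  rw [← galLin_parAct G hdia, hx P hP, map_zero]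

/-- The Galois action on the eigen part, additively. -/
def galEigenAdd (σ : GQ) : EigenSpace (l ^ 1) φ →+ EigenSpace (l ^ 1) φ :=
  AddMonoidHom.mk'
    (fun x => toEigen _ φ (galLin_mem_eigenPart φ G hdia σ (toPar_mem _ φ x)))
    fun a b => toPar_injective _ φ (by
      simp only [map_add, toPar_toEigen])

omit [NeZero M] hl in
lemma toPar_galEigenAdd (σ : GQ) (x : EigenSpace (l ^ 1) φ) :
    toPar _ φ (galEigenAdd φ G hdia σ x) = galLin G σ (toPar _ φ x) := rfl

omit [NeZero M] hl in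
lemma galEigenAdd_smul (σ : GQ) (c : valueField φ) (x : EigenSpace (l ^ 1) φ) :
    galEigenAdd φ G hdia σ (c • x) = c • galEigenAdd φ G hdia σ x := by
  obtain ⟨P, rfl⟩ := valueMap_surjective φ c
  refine toPar_injective _ φ ?_
  rw [toPar_galEigenAdd, toPar_smul, toPar_smul, galLin_parAct G hdia, toPar_galEigenAdd]

/-- The Galois action on the eigen part. -/
def galEigen : GQ →* Module.End (valueField φ) (EigenSpace (l ^ 1) φ) where
  toFun σ :=
    { toFun := galEigenAdd φ G hdia σ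
      map_add' := map_add _
      map_smul' := galEigenAdd_smul φ G hdia σ }
  map_one' := LinearMap.ext fun x => toPar_injective _ φ (by
    show G.rep 1 1 (toPar _ φ x) = toPar _ φ x
    rw [map_one]; rfl)
  map_mul' σ τ := LinearMap.ext fun x => toPar_injective _ φ (by
    show G.rep 1 (σ * τ) (toPar _ φ x) = G.rep 1 σ (G.rep 1 τ (toPar _ φ x))
    rw [map_mul]; rfl)

omit [NeZero M] hl in
lemma galEigen_eq_one (σ : GQ) (h : G.rep 1 σ = 1) : galEigen φ G hdia σ = 1 :=
  LinearMap.ext fun x => toPar_injective _ φ (by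
    show G.rep 1 σ (toPar _ φ x) = toPar _ φ x
    rw [h]; rfl)

omit hl in
/-- The Eichler–Shimura relation on the eigen part. -/
lemma galEigen_frobenius (hlM : l ∣ M) {p : ℕ} (hp : p.Prime) (hpM : ¬ p ∣ M)
    {A : ValuationSubring (AlgebraicClosure ℚ)} (hA : A.LiesOverPrime p) {σ : GQ}
    (hσ : A.IsFrobeniusAt σ p) (x : EigenSpace (l ^ 1) φ) :
    galEigen φ G hdia σ (galEigen φ G hdia σ x) -
      valueMap φ (FreeAlgebra.ι ℤ (Sum.inl ⟨⟨p, hp⟩, hpM⟩)) • galEigen φ G hdia σ x +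
      ((p : valueField φ) * valueMap φ (FreeAlgebra.ι ℤ
        (Sum.inr (ZMod.unitOfCoprime p ((hp.coprime_iff_not_dvd).mpr hpM))))) • x = 0 := by
  have hcop := (hp.coprime_iff_not_dvd).mpr hpM
  set y := toPar _ φ x
  have h := G.frobenius 1 p hp hpM (fun h => hpM (h ▸ hlM)) A hA σ hσ y
  have hd : y.1.comp (MonoidHom.toAdditive (diaConj (diaRep (ZMod.unitOfCoprime p hcop)))) =
      y.1.comp (MonoidHom.toAdditive (diaAut M p)) := by
    rw [diaAut, dif_pos hcop]
    refine comp_diaConj_eq_of_class _ _ _ ?_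
    rw [diaRep_class, ZMod.coe_unitOfCoprime, diaSL_one_one]
    simp
  refine toPar_injective _ φ ?_
  rw [map_add, map_sub, mul_smul, Nat.cast_smul_eq_nsmul, map_nsmul, toPar_smul, toPar_smul,
    parAct_ι, parAct_ι, map_zero]
  refine Subtype.ext ?_
  show (G.rep 1 σ (G.rep 1 σ y)).1 - _ + p • (y.1.comp _) = 0
  rw [hd]
  exact h

end eigen

/-- **The mod `ℓ` representation of a system of eigenvalues.** -/
theorem exists_residualRep (M : ℕ) [NeZero M] {l : ℕ} [Fact l.Prime] (hlM : l ∣ M)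
    (G : KummerES.GalModules (Gamma1 M) M l
      (fun p hp h => haveI := Fact.mk hp; gamma1System M p h) (diaAut M))
    (hdia : ∀ (σ : GQ) (x y : parabolicHoms ℤ (Gamma1 M) (ZMod (l ^ 1))) (δ : Gamma0 M),
      x.1.comp (MonoidHom.toAdditive (diaConj δ)) = y.1 →
      (G.rep 1 σ x).1.comp (MonoidHom.toAdditive (diaConj δ)) = (G.rep 1 σ y).1)
    {k : Type} [Field k] [IsAlgClosed k] [CharP k l] (φ : FreeAlgebra ℤ (Op M) →ₐ[ℤ] k)
    (hφ : ∀ P, opsEval (opForm M) P = 0 → φ P = 0) :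
    ∃ ρ : GQ →* GL (Fin 2) k, GaloisFactorsThroughFiniteLevel ρ ∧ IsSemisimpleMatrixRep ρ ∧
      ∀ (p : ℕ) (hp : p.Prime) (hpM : ¬ p ∣ M),
        ∀ A : ValuationSubring (AlgebraicClosure ℚ), A.LiesOverPrime p →
          (∀ σ ∈ A.inertiaSubgroupIn ℚ, ρ σ = 1) ∧
          ∀ σ : GQ, A.IsFrobeniusAt σ p →
            ((ρ σ : GL (Fin 2) k) : Matrix (Fin 2) (Fin 2) k).trace =
              φ (FreeAlgebra.ι ℤ (Sum.inl ⟨⟨p, hp⟩, hpM⟩)) ∧
            ((ρ σ : GL (Fin 2) k) : Matrix (Fin 2) (Fin 2) k).det =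
              (p : k) * φ (FreeAlgebra.ι ℤ
                (Sum.inr (ZMod.unitOfCoprime p ((hp.coprime_iff_not_dvd).mpr hpM)))) := by
  classical
  have hl : l.Prime := Fact.out
  have : NeZero (l ^ 1) := ⟨pow_ne_zero _ hl.ne_zero⟩
  -- the field of values
  have hfin : Finite (valueField φ) := finite_valueField (ℓ := l) φ hφ
  let : Field (valueField φ) := (Finite.isField_of_domain _).toField
  have : Finite (ParHoms M (l ^ 1)) := finite_parHoms M (l ^ 1)
  have : Module.Finite (valueField φ) (EigenSpace (l ^ 1) φ) := Module.Finite.of_finite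
  have : Nontrivial (EigenSpace (l ^ 1) φ) := eigenPart_nontrivial φ hφ
  obtain ⟨V, _, _, _, _, ρ, htriv, hbc⟩ :=
    exists_baseChange_rep (valueField φ).subtype (galEigen φ G hdia)
  set d : GQ →* k := detChar φ hφ hlM
  have hd : ∀ (p : ℕ) (hp : p.Prime) (hpM : ¬ p ∣ M),
      ∀ A : ValuationSubring (AlgebraicClosure ℚ), A.LiesOverPrime p → ∀ σ : GQ,
      A.IsFrobeniusAt σ p → d σ = (p : k) * φ (FreeAlgebra.ι ℤ
        (Sum.inr (ZMod.unitOfCoprime p ((hp.coprime_iff_not_dvd).mpr hpM)))) := by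
    intro p hp hpM A hA σ hσ
    simp [d, detChar, diaValue, cycloM_frobenius M hp hpM hA hσ]
  have hrel : ∀ (p : ℕ) (hp : p.Prime) (hpM : ¬ p ∣ M),
      ∀ A : ValuationSubring (AlgebraicClosure ℚ), A.LiesOverPrime p → ∀ σ : GQ,
      A.IsFrobeniusAt σ p → ρ σ + d σ • ρ σ⁻¹ =
        φ (FreeAlgebra.ι ℤ (Sum.inl ⟨⟨p, hp⟩, hpM⟩)) • (1 : Module.End k V) := by
    intro p hp hpM A hA σ hσ
    refine satisfiesQuadratic_of_sq ?_
    have h1 := hbc σ _ _ (galEigen_frobenius φ G hdia hlM hp hpM hA hσ)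
    rw [map_mul, map_natCast] at h1
    rw [hd p hp hpM A hA σ hσ]
    exact h1
  -- the common finite level
  obtain ⟨L₁, hL₁, h₁⟩ := G.finiteLevel 1
  obtain ⟨L₂, hL₂, h₂⟩ := cycloM_finiteLevel M
  have : FiniteDimensional ℚ (L₁ ⊔ L₂ : IntermediateField ℚ (AlgebraicClosure ℚ)) :=
    IntermediateField.finiteDimensional_sup L₁ L₂
  have hρL : ∀ σ : GQ, (∀ x ∈ L₁ ⊔ L₂, σ x = x) → ρ σ = 1 := fun σ hσ => by
    exact htriv σ (galEigen_eq_one φ G hdia σ (h₁ σ fun x hx => hσ x (le_sup_left (b := L₂) hx)))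
  have hdL : ∀ σ : GQ, (∀ x ∈ L₁ ⊔ L₂, σ x = x) → d σ = 1 := fun σ hσ => by
    show detChar φ hφ hlM σ = 1
    rw [detChar, MonoidHom.comp_apply, h₂ σ fun x hx => hσ x (le_sup_right (a := L₁) hx), map_one]
  have hquad : ∀ σ, SatisfiesQuadratic ρ d σ := by
    intro σ
    obtain ⟨p, hp, hpS, -, A, hA, τ, hτ, m, j, a, -, -, -, -, ha⟩ :=
      Chebotarev.exists_isFrobeniusAt_pow (L₁ ⊔ L₂) σ M.primeFactors
    have hpM : ¬ p ∣ M := fun h => hpS (by simp [Nat.mem_primeFactors, hp, h, NeZero.ne M])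
    have hpow := SatisfiesQuadratic.pow ⟨_, hrel p hp hpM A hA τ hτ⟩ a
    have e := Chebotarev.map_eq_of_eqOn hρL ha
    refine hpow.congr e ?_ (Chebotarev.map_eq_of_eqOn hdL ha)
    calc ρ σ⁻¹ = ρ σ⁻¹ * (ρ (τ ^ a) * ρ (τ ^ a)⁻¹) := by
          rw [← map_mul, ← map_mul, mul_inv_cancel, mul_one]
      _ = ρ σ⁻¹ * ρ σ * ρ (τ ^ a)⁻¹ := by rw [← mul_assoc, e]
      _ = ρ (τ ^ a)⁻¹ := by rw [← map_mul, inv_mul_cancel, map_one, one_mul]
  obtain ⟨R, hRt, hRd, hR1⟩ := exists_quadraticRep ρ d hquad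
  obtain ⟨ρ', hss, htd, hρ'1⟩ := exists_semisimple_rep R
  refine ⟨ρ', ⟨L₁ ⊔ L₂, inferInstance, fun σ hσ => hρ'1 σ (hR1 σ (hρL σ hσ) (hdL σ hσ))⟩, hss,
    fun p hp hpM A hA => ⟨fun σ hσ => hρ'1 σ (hR1 σ ?_ ?_), fun σ hσ => ⟨?_, ?_⟩⟩⟩
  · exact htriv σ (galEigen_eq_one φ G hdia σ
      (G.unramified 1 p hp hpM (fun h => hpM (h ▸ hlM)) A hA σ hσ))
  · have hc : cycloM M σ = 1 := GaloisBasics.modularCyclotomicCharacter_inertia hA hp
      (card_rootsOfUnity_algClosure M) hpM hσ
    show detChar φ hφ hlM σ = 1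
    rw [detChar, MonoidHom.comp_apply, hc, map_one]
  · rw [(htd σ).1]
    exact smul_left_injective k (one_ne_zero (α := Module.End k V))
      ((hRt σ).symm.trans (hrel p hp hpM A hA σ hσ))
  · rw [(htd σ).2, hRd, hd p hp hpM A hA σ hσ]

end Fermat.Agent.WeightOne
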