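import Fermat.Agent.WeightOne.ResidualDef
import Mathlib.RingTheory.Valuation.LocalSubring

/-!
# Residue fields of places of `ℂ`

The residue field of a valuation subring of an algebraically closed field is algebraically closed;
if a prime `ℓ` is a non-unit then the residue characteristic is `ℓ`.
-/

set_option autoImplicit false

noncomputable section

open IsLocalRing Polynomial

namespace Fermat.Agent.WeightOne

/-- The residue field of a valuation subring of an algebraically closed field is algebraically
closed. -/
theorem isAlgClosed_residueField {K : Type*} [Field K] [IsAlgClosed K] (A : ValuationSubring K) :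
    IsAlgClosed (ResidueField A) := by
  refine IsAlgClosed.of_exists_root _ fun p hp hirr ↦ ?_
  have hsurj : Function.Surjective (residue A) := residue_surjective
  obtain ⟨P, hP, hdeg, hmonic⟩ := Polynomial.lifts_and_degree_eq_and_monic
    ((Polynomial.lifts_iff_coeff_lifts _).mpr fun n ↦ hsurj _) hp
  obtain ⟨x, hx⟩ := IsAlgClosed.exists_root (P.map A.subtype)
    (by rw [Polynomial.degree_map_eq_of_injective A.subtype_injective, hdeg]
        exact hirr.degree_pos.ne')
  have hxint : IsIntegral A x := ⟨P, hmonic, by
    rwa [Polynomial.IsRoot.def, Polynomial.eval_map] at hx⟩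
  obtain ⟨y, rfl⟩ := IsIntegrallyClosed.algebraMap_eq_of_integral (K := K) hxint
  refine ⟨residue A y, ?_⟩
  have hy : P.IsRoot y := hx.of_map A.subtype_injective
  rw [← hP, Polynomial.eval_map, Polynomial.eval₂_at_apply, hy.eq_zero, map_zero]

/-- The residue characteristic of a place above `ℓ`. -/
theorem charP_residueField_of_mem {K : Type*} [Field K] (A : ValuationSubring K) {ℓ : ℕ}
    (hℓ : ℓ.Prime) (h : (ℓ : K) ∈ A.nonunits) : CharP (ResidueField A) ℓ := by
  have : Fact ℓ.Prime := ⟨hℓ⟩
  rw [CharP.charP_iff_prime_eq_zero hℓ]
  have hm : (ℓ : A) ∈ maximalIdeal A := (A.valuation_lt_one_iff _).mpr (by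
    simpa using (A.mem_nonunits_iff).mp h)
  simpa using (residue_eq_zero_iff (ℓ : A)).mpr hm

end Fermat.Agent.WeightOne
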