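import Fermat.Agent.WeightOne.Complex
import Fermat.Agent.WeightOne.ResidueFacts
import Fermat.Agent.WeightOne.Ops1
import Fermat.Agent.WeightOne.ResidualRep
import Fermat.Agent.WeightOne.Gamma1Modules
import Fermat.Agent.WeightOne.EigenSystem
import Fermat.Prelude.Def_Deformations_MatrixRepresentation

/-!
# The theorem of Deligne and Serre for weight one eigenforms

A normalised weight one eigenform on `Γ₁(N)` with character `ε` has residual Galois representations
at almost all places, and an irreducible complex Galois representation with trace `a_p` and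
determinant `ε(p)` at the Frobenius elements of the primes `p ∤ N`.
-/

set_option autoImplicit false

noncomputable section

open CongruenceSubgroup IsLocalRing ModularCurve.Period
open scoped MatrixGroups

namespace Fermat.Agent.WeightOne

local notation "GQ" => (AlgebraicClosure ℚ ≃ₐ[ℚ] AlgebraicClosure ℚ)
local notation "qC" => ModularFormClass.qCoeff

/-- Integers prime to `ℓ` are units at the places above `ℓ`. -/
lemma natCast_valuation_eq_one (O : ValuationSubring ℂ) {ℓ m : ℕ} (hℓ : (ℓ : ℂ) ∈ O.nonunits)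
    (h : m.Coprime ℓ) : O.valuation (m : ℂ) = 1 := by
  refine le_antisymm ((O.valuation_le_one_iff _).mpr (natCast_mem O m)) ?_
  by_contra hlt
  push Not at hlt
  obtain ⟨u, v, huv⟩ := Nat.Coprime.isCoprime h
  have he := congrArg (fun k : ℤ => O.valuation (k : ℂ)) huv
  simp only [Int.cast_add, Int.cast_mul, Int.cast_natCast, Int.cast_one, map_one] at he
  refine (Valuation.map_add_lt O.valuation ?_ ?_).ne he
  · rw [map_mul]
    exact mul_lt_one_of_nonneg_of_lt_one_right ((O.valuation_le_one_iff _).mpr (intCast_mem O u))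
      zero_le hlt
  · rw [map_mul]
    exact mul_lt_one_of_nonneg_of_lt_one_right ((O.valuation_le_one_iff _).mpr (intCast_mem O v))
      zero_le ((O.mem_nonunits_iff).mp hℓ)

/-- A number which becomes integral after multiplication by `m` prime to `ℓ` is integral at every
place above `ℓ`. -/
lemma mem_of_natCast_mul_isIntegral (O : ValuationSubring ℂ) {ℓ m : ℕ}
    (hℓ : (ℓ : ℂ) ∈ O.nonunits) (h : m.Coprime ℓ) {x : ℂ} (hx : IsIntegral ℤ ((m : ℂ) * x)) :
    x ∈ O := by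
  rw [← ValuationSubring.valuation_le_one_iff]
  have h1 := (O.valuation_le_one_iff _).mpr (mem_of_isIntegral (O := O) hx)
  rwa [map_mul, natCast_valuation_eq_one O hℓ h, one_mul] at h1

variable {N : ℕ} [NeZero N] {ε : DirichletCharacter ℂ N}

/-- Residual representations exist at almost all places. -/
theorem hasResidualReps (g : CuspForm (Gamma1 N) 1) (hg₁ : qC g 1 = 1)
    (hT : GoodHeckeRel ε (qC g)) {D : ℕ} (hD : D ≠ 0)
    (hDint : ∀ n, IsIntegral ℤ ((D : ℂ) * qC g n)) : HasResidualReps ε (qC g) := by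
  refine ⟨N.primeFactors ∪ D.primeFactors ∪ Finset.range 5, fun ℓ hℓ hℓS O hO => ?_⟩
  simp only [Finset.mem_union, Finset.mem_range, Nat.mem_primeFactors, not_or, not_lt] at hℓS
  have hℓN : ¬ ℓ ∣ N := fun h => hℓS.1.1 ⟨hℓ, h, NeZero.ne N⟩
  have hℓD : D.Coprime ℓ :=
    (hℓ.coprime_iff_not_dvd.mpr fun h => hℓS.1.2 ⟨hℓ, h, hD⟩).symm
  have : Fact ℓ.Prime := ⟨hℓ⟩
  have : IsAlgClosed (ResidueField O) := isAlgClosed_residueField O
  have : CharP (ResidueField O) ℓ := charP_residueField_of_mem O hℓ hO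
  obtain ⟨φ, hφ, hφT, hφd⟩ := exists_eigenSystem g hg₁ hT hℓS.2 hℓN O hO
    fun n => mem_of_natCast_mul_isIntegral O hO hℓD (hDint n)
  obtain ⟨G, hG⟩ := exists_gamma1Modules (N * ℓ) ℓ hℓ
  obtain ⟨ρ, hfl, hss, hρ⟩ := exists_residualRep (N * ℓ) (dvd_mul_left ℓ N) G hG φ hφ
  have hM : ∀ p : ℕ, p.Prime → ¬ p ∣ N → p ≠ ℓ → ¬ p ∣ N * ℓ := fun p hp h1 h2 h =>
    (hp.dvd_mul.mp h).elim h1 fun h' => h2 ((Nat.prime_dvd_prime_iff_eq hp hℓ).mp h')
  refine ⟨ρ, hfl, hss, fun p hp hpN hpℓ A hA => (hρ p hp (hM p hp hpN hpℓ) A hA).1,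
    fun p hp hpN hpℓ A hA σ hσ => ?_⟩
  obtain ⟨htr, hdet⟩ := (hρ p hp (hM p hp hpN hpℓ) A hA).2 σ hσ
  obtain ⟨t, ht, ht'⟩ := hφT ⟨⟨p, hp⟩, hM p hp hpN hpℓ⟩
  obtain ⟨e, he, he'⟩ := hφd p hp (hM p hp hpN hpℓ)
  exact ⟨t, e, ht, he, htr.trans ht', hdet.trans he'⟩

/-- **Deligne–Serre.** -/
theorem exists_galoisRep (f : CuspForm (Gamma1 N) 1) (hf₁ : qC f 1 = 1)
    (hT : GoodHeckeRel ε (qC f)) :
    ∃ ρ : GQ →* GL (Fin 2) ℂ, IsExactRep ε (qC f) ∅ ρ ∧
      (Deformation.matrixRepresentation ρ).IsIrreducible := by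
  obtain ⟨g, hg₁, hgT, hgf, ⟨K, hKfin, hK⟩, D, hD, hDint⟩ := exists_algebraic_form f hf₁ hT
  obtain ⟨ρ, hρ, hirr⟩ := exists_galoisRep_of_hasResidualReps g hg₁ hgT K hK
    (hasResidualReps g hg₁ hgT hD hDint)
  refine ⟨ρ, ⟨hρ.finiteLevel, hρ.unramified, fun p hp hpN hpE A hA σ hσ => ?_⟩, hirr⟩
  rw [← hgf p (hp.coprime_iff_not_dvd.mpr hpN)]
  exact hρ.frobenius p hp hpN hpE A hA σ hσ

end Fermat.Agent.WeightOne
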