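import Mathlib.Analysis.SpecialFunctions.Log.Deriv

/-!
# The local Rankin factor of a degree two recursion

For `b₀ = 1`, `b₁ = a`, `b_{k+2} = a b_{k+1} - ε b_k` with `‖ε‖ = 1`, the sum
`∑ ‖b_k‖² X^k` is at least `(1 - X²) exp (‖a‖² X)`. No information on the roots is used.
-/

set_option autoImplicit false

noncomputable section

namespace Fermat.Agent.WeightOne

open Complex ComplexConjugate

/-- An affine lower bound for `exp (-v)`. -/
theorem exp_neg_add_mul_ge {v X : ℝ} (hX0 : 0 ≤ X) (hX1 : X < 1) :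
    (1 - X ^ 2) ^ 2 - v * (1 - X) ^ 2 ≤ Real.exp (-v) := by
  have hq : 0 < (1 - X) ^ 2 := by nlinarith
  set v₀ := -Real.log ((1 - X) ^ 2) with hv₀
  have h1 : (1 - X) ^ 2 * (1 + v₀ - v) ≤ Real.exp (-v) := by
    have h := Real.add_one_le_exp (v₀ - v)
    calc (1 - X) ^ 2 * (1 + v₀ - v) ≤ (1 - X) ^ 2 * Real.exp (v₀ - v) :=
          mul_le_mul_of_nonneg_left (by linarith) hq.le
      _ = Real.exp (-v) := by
          rw [show v₀ - v = v₀ + -v by ring, Real.exp_add, hv₀, Real.exp_neg (Real.log _),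
            Real.exp_log hq, ← mul_assoc, mul_inv_cancel₀ hq.ne', one_mul]
  have h2 : 2 * X + X ^ 2 ≤ v₀ := by
    have hlog := Real.abs_log_sub_add_sum_range_le (x := X) (by rw [abs_of_nonneg hX0]; exact hX1)
    have hser := Real.hasSum_pow_div_log_of_abs_lt_one (x := X)
      (by rw [abs_of_nonneg hX0]; exact hX1)
    have h3 : ∑ n ∈ Finset.range 2, X ^ (n + 1) / ((n : ℝ) + 1) ≤ -Real.log (1 - X) :=
      sum_le_hasSum _ (fun n _ => by positivity) hser
    rw [hv₀, Real.log_pow]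
    simp only [Finset.sum_range_succ, Finset.sum_range_zero] at h3
    norm_num at h3 ⊢
    linarith
  nlinarith [mul_le_mul_of_nonneg_left h2 hq.le]

/-- **The local factor**: `(1 - X²) exp (‖a‖² X) ≤ ∑ ‖b_k‖² X^k`. -/
theorem one_sub_sq_mul_exp_le_of_recursion {a ε : ℂ} {b : ℕ → ℂ} (hε : ‖ε‖ = 1)
    (hb0 : b 0 = 1) (hb1 : b 1 = a) (hrec : ∀ k, b (k + 2) = a * b (k + 1) - ε * b k)
    {X : ℝ} (hX0 : 0 < X) (hX1 : X < 1) (hsum : Summable fun k => ‖b k‖ ^ 2 * X ^ k) :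
    (1 - X ^ 2) * Real.exp (‖a‖ ^ 2 * X) ≤ ∑' k, ‖b k‖ ^ 2 * X ^ k := by
  set S0 := ∑' k, ‖b k‖ ^ 2 * X ^ k with hS0
  set T : ℕ → ℂ := fun k => b (k + 1) * conj (b k) * (X : ℂ) ^ k with hT
  have hTsum : Summable T := by
    refine Summable.of_norm_bounded
      (g := fun k => (‖b (k + 1)‖ ^ 2 * X ^ (k + 1)) * X⁻¹ + ‖b k‖ ^ 2 * X ^ k)
      (Summable.add (((summable_nat_add_iff 1).mpr hsum).mul_right _) hsum) fun k => ?_
    simp only [hT, norm_mul, RCLike.norm_conj, norm_pow, Complex.norm_real,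
      Real.norm_of_nonneg hX0.le]
    rw [pow_succ X k, show ‖b (k + 1)‖ ^ 2 * (X ^ k * X) * X⁻¹ = ‖b (k + 1)‖ ^ 2 * X ^ k by
      field_simp, ← add_mul]
    exact mul_le_mul_of_nonneg_right
      (by nlinarith [sq_nonneg (‖b (k + 1)‖ - ‖b k‖), norm_nonneg (b k), norm_nonneg (b (k + 1))])
      (by positivity)
  set S1 := ∑' k, T k with hS1
  have hsum1 : Summable fun k => ‖b (k + 1)‖ ^ 2 * X ^ (k + 1) := (summable_nat_add_iff 1).mpr hsum
  have hsumC : Summable fun k => ((‖b k‖ ^ 2 * X ^ k : ℝ) : ℂ) :=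
    hsum.map Complex.ofRealHom Complex.continuous_ofReal
  have hsum1C : Summable fun k => ((‖b (k + 1)‖ ^ 2 * X ^ (k + 1) : ℝ) : ℂ) :=
    hsum1.map Complex.ofRealHom Complex.continuous_ofReal
  -- the first linear relation
  have e1 : S1 = a * (S0 : ℂ) - ε * (X : ℂ) * conj S1 := by
    have hpt : ∀ k, T (k + 1) = a * ((‖b (k + 1)‖ ^ 2 * X ^ (k + 1) : ℝ) : ℂ)
        - ε * (X : ℂ) * conj (T k) := by
      intro k
      simp only [hT, hrec, map_mul, map_pow, Complex.conj_ofReal, Complex.conj_conj,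
        Complex.ofReal_mul, Complex.ofReal_pow, ← Complex.mul_conj']
      ring
    have hs0 : (S0 : ℂ) = 1 + ∑' k, ((‖b (k + 1)‖ ^ 2 * X ^ (k + 1) : ℝ) : ℂ) := by
      rw [hS0, Complex.ofReal_tsum, hsumC.tsum_eq_zero_add]
      simp [hb0]
    have hcT : Summable fun k => conj (T k) := hTsum.map (starRingEnd ℂ) continuous_conj
    have hsplit : S1 = a + (a * ∑' k, ((‖b (k + 1)‖ ^ 2 * X ^ (k + 1) : ℝ) : ℂ)
        - ε * (X : ℂ) * conj S1) := by
      conv_lhs => rw [hS1, hTsum.tsum_eq_zero_add, tsum_congr hpt,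
        (hsum1C.mul_left a).tsum_sub (hcT.mul_left _), tsum_mul_left, tsum_mul_left]
      rw [hS1, Complex.conj_tsum]
      simp [hT, hb0, hb1]
    rw [hs0]
    linear_combination hsplit
  -- the second linear relation
  have e2 : S0 - 1 = ‖a‖ ^ 2 * X * S0 + X ^ 2 * S0
      - 2 * X ^ 2 * (a * conj ε * S1).re := by
    have hpt : ∀ k, ‖b (k + 2)‖ ^ 2 * X ^ (k + 2)
        = ‖a‖ ^ 2 * X * (‖b (k + 1)‖ ^ 2 * X ^ (k + 1)) + X ^ 2 * (‖b k‖ ^ 2 * X ^ k)
          - 2 * X ^ 2 * (a * conj ε * T k).re := by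
      intro k
      have hn : ‖b (k + 2)‖ ^ 2 = ‖a‖ ^ 2 * ‖b (k + 1)‖ ^ 2 + ‖b k‖ ^ 2
          - 2 * (a * conj ε * (b (k + 1) * conj (b k))).re := by
        rw [hrec]
        simp only [Complex.sq_norm, Complex.normSq_sub, Complex.normSq_mul]
        rw [show Complex.normSq ε = 1 by rw [Complex.normSq_eq_norm_sq, hε, one_pow],
          show a * b (k + 1) * conj (ε * b k) = a * conj ε * (b (k + 1) * conj (b k)) by
            rw [map_mul]; ring]
        ring
      rw [hn, hT]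
      simp only [← mul_assoc, ← Complex.ofReal_pow, Complex.re_mul_ofReal]
      ring
    have hs0 : S0 = 1 + ‖a‖ ^ 2 * X + ∑' k, ‖b (k + 2)‖ ^ 2 * X ^ (k + 2) := by
      rw [hS0, ← hsum.sum_add_tsum_nat_add 2]
      simp [Finset.sum_range_succ, hb0, hb1]
    have hs1 : ∑' k, ‖b (k + 1)‖ ^ 2 * X ^ (k + 1) = S0 - 1 := by
      rw [hS0, hsum.tsum_eq_zero_add]
      simp [hb0]
    have hre : Summable fun k => (a * conj ε * T k).re :=
      (hTsum.mul_left _).map Complex.reLm Complex.continuous_re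
    have hre' : ∑' k, (a * conj ε * T k).re = (a * conj ε * S1).re := by
      rw [← Complex.re_tsum (hTsum.mul_left _), tsum_mul_left]
    rw [tsum_congr hpt, ((hsum1.mul_left _).add (hsum.mul_left _)).tsum_sub (hre.mul_left _),
      (hsum1.mul_left _).tsum_add (hsum.mul_left _), tsum_mul_left, tsum_mul_left, tsum_mul_left,
      hs1, hre', ← hS0] at hs0
    linear_combination hs0
  -- solving
  have hεc : conj ε * ε = 1 := by
    rw [← Complex.normSq_eq_conj_mul_self, Complex.normSq_eq_norm_sq, hε]; simp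
  have e1c : conj S1 = conj a * (S0 : ℂ) - conj ε * (X : ℂ) * S1 := by
    have := congrArg conj e1
    simpa using this
  have e3 : (a * conj ε * S1).re * (1 - X ^ 2)
      = ((a ^ 2 * conj ε).re - ‖a‖ ^ 2 * X) * S0 := by
    have h : a * conj ε * S1 * ((1 - X ^ 2 : ℝ) : ℂ)
        = (a ^ 2 * conj ε - ((‖a‖ ^ 2 * X : ℝ) : ℂ)) * (S0 : ℂ) := by
      push_cast
      rw [← Complex.mul_conj']
      linear_combination (a * conj ε) * e1 - (a * conj ε * ε * X) * e1c
        + (a * X ^ 2 * conj ε * S1 - a * conj a * X * (S0 : ℂ)) * hεc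
    have h' := congrArg Complex.re h
    simp only [Complex.re_mul_ofReal, Complex.sub_re, Complex.ofReal_re] at h'
    exact h'
  have hc : (a ^ 2 * conj ε).re ≤ ‖a‖ ^ 2 := by
    refine (Complex.re_le_norm _).trans ?_
    simp [hε]
  set P := (1 - ‖a‖ ^ 2 * X - X ^ 2) * (1 - X ^ 2)
      + 2 * X ^ 2 * ((a ^ 2 * conj ε).re - ‖a‖ ^ 2 * X) with hP
  have e4 : S0 * P = 1 - X ^ 2 := by
    rw [hP]
    linear_combination (1 - X ^ 2) * e2 - (2 * X ^ 2) * e3
  have hS1le : 1 ≤ S0 := by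
    have := hsum.le_tsum 0 fun j _ => by positivity
    simpa [hb0] using this
  have hpos : 0 < 1 - X ^ 2 := by nlinarith
  have hPle : P ≤ Real.exp (-(‖a‖ ^ 2 * X)) := by
    refine le_trans ?_ (exp_neg_add_mul_ge hX0.le hX1)
    rw [hP]
    nlinarith [mul_le_mul_of_nonneg_left hc (sq_nonneg X)]
  have hPpos : 0 < P := by
    by_contra h
    push Not at h
    nlinarith [mul_nonpos_of_nonneg_of_nonpos (zero_le_one.trans hS1le) h]
  calc (1 - X ^ 2) * Real.exp (‖a‖ ^ 2 * X) = S0 * P * Real.exp (‖a‖ ^ 2 * X) := by rw [e4]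
    _ ≤ S0 * Real.exp (-(‖a‖ ^ 2 * X)) * Real.exp (‖a‖ ^ 2 * X) := by gcongr
    _ = S0 := by rw [mul_assoc, ← Real.exp_add]; simp

end Fermat.Agent.WeightOne
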