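import Fermat.Agent.WeightOne.CoeffSq
import Fermat.Agent.WeightOne.LocalFactor
import Mathlib.Analysis.PSeries
import Mathlib.NumberTheory.DirichletCharacter.Bounds
import Mathlib.NumberTheory.EulerProduct.Basic

/-!
# `∑_p |a_p|² p^{-s} ≤ log (1/(s-1)) + O(1)` for a weight one Hecke eigenform

Only the good Hecke relations are used; no Rankin–Selberg unfolding and no Petersson adjointness.
-/

set_option autoImplicit false

noncomputable section

namespace Fermat.Agent.WeightOne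

open CongruenceSubgroup
open scoped MatrixGroups

local notation "qC" => ModularFormClass.qCoeff

/-- The Hecke relations at the primes not dividing `N`, for a sequence. -/
def GoodHeckeRel {N : ℕ} (ε : DirichletCharacter ℂ N) (a : ℕ → ℂ) : Prop :=
  ∀ p : ℕ, p.Prime → ¬ p ∣ N → ∀ n : ℕ,
    a (p * n) + ε (p : ZMod N) * (if p ∣ n then a (n / p) else 0) = a p * a n

section Sequence

variable {N : ℕ} {ε : DirichletCharacter ℂ N} {a : ℕ → ℂ}

/-- The values of a character at primes not dividing its level have absolute value `1`. -/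
theorem norm_apply_prime_eq_one (ε : DirichletCharacter ℂ N) {p : ℕ} (hp : p.Prime)
    (hpN : ¬ p ∣ N) : ‖ε (p : ZMod N)‖ = 1 := by
  have hu : IsUnit (p : ZMod N) :=
    (ZMod.isUnit_iff_coprime p N).mpr ((Nat.Prime.coprime_iff_not_dvd hp).mpr hpN)
  rw [← hu.unit_spec]
  exact ε.unit_norm_eq_one hu.unit

/-- `a (p n) = a p · a n` for a good prime `p ∤ n`. -/
theorem GoodHeckeRel.prime_mul (h : GoodHeckeRel ε a) {p n : ℕ} (hp : p.Prime) (hpN : ¬ p ∣ N)
    (hn : ¬ p ∣ n) : a (p * n) = a p * a n := by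
  have := h p hp hpN n
  rwa [if_neg hn, mul_zero, add_zero] at this

/-- The recursion at a good prime. -/
theorem GoodHeckeRel.rec_eq (h : GoodHeckeRel ε a) {p : ℕ} (hp : p.Prime) (hpN : ¬ p ∣ N)
    (k n : ℕ) : a (p ^ (k + 2) * n) =
      a p * a (p ^ (k + 1) * n) - ε (p : ZMod N) * a (p ^ k * n) := by
  have := h p hp hpN (p ^ (k + 1) * n)
  rw [if_pos (Dvd.dvd.mul_right (dvd_pow_self p k.succ_ne_zero) n),
    show p ^ (k + 1) * n / p = p ^ k * n by
      rw [pow_succ', mul_assoc, Nat.mul_div_cancel_left _ hp.pos],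
    ← mul_assoc, ← pow_succ'] at this
  linear_combination this

/-- Multiplicativity at a power of a good prime. -/
theorem GoodHeckeRel.prime_pow_mul (h : GoodHeckeRel ε a) (h1 : a 1 = 1) {p n : ℕ} (hp : p.Prime)
    (hpN : ¬ p ∣ N) (hn : ¬ p ∣ n) (k : ℕ) : a (p ^ k * n) = a (p ^ k) * a n := by
  induction k using Nat.strong_induction_on with
  | _ k ih =>
    match k with
    | 0 => simp [h1]
    | 1 => simpa using h.prime_mul hp hpN hn
    | k + 2 =>
      have e := h.rec_eq hp hpN k 1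
      simp only [mul_one] at e
      rw [h.rec_eq hp hpN k n, ih (k + 1) (by omega), ih k (by omega), e]
      ring

/-- The coefficients are multiplicative on indices prime to the level. -/
theorem GoodHeckeRel.mul_of_coprime (h : GoodHeckeRel ε a) (h1 : a 1 = 1) :
    ∀ {m n : ℕ}, m ≠ 0 → m.Coprime N → m.Coprime n → a (m * n) = a m * a n := by
  intro m
  induction m using Nat.recOnPrimePow with
  | zero => intro n h0; exact absurd rfl h0
  | one => intro n _ _ _; simp [h1]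
  | prime_pow_mul b p k hp hpb hk ih =>
    intro n h0 hN hn
    have hb0 : b ≠ 0 := fun hb => h0 (by simp [hb])
    obtain ⟨hpN', hbN⟩ := Nat.coprime_mul_iff_left.mp hN
    obtain ⟨hpn', hbn⟩ := Nat.coprime_mul_iff_left.mp hn
    have hpN : ¬ p ∣ N := (Nat.Prime.coprime_iff_not_dvd hp).mp
      ((Nat.coprime_pow_left_iff hk _ _).mp hpN')
    have hpn : ¬ p ∣ n := (Nat.Prime.coprime_iff_not_dvd hp).mp
      ((Nat.coprime_pow_left_iff hk _ _).mp hpn')
    have hpbn : ¬ p ∣ b * n := by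
      rw [hp.dvd_mul]; tauto
    rw [mul_assoc, h.prime_pow_mul h1 hp hpN hpbn, ih hb0 hbN hbn,
      h.prime_pow_mul h1 hp hpN hpb]
    ring

/-- A bound `∑ |a_n|² n^{-s} ≤ C/(s-1)` and the Hecke relations give
`∑_p |a_p|² p^{-s} ≤ log (1/(s-1)) + O(1)`. -/
theorem GoodHeckeRel.exists_sum_prime_sq_le (h : GoodHeckeRel ε a) (h1 : a 1 = 1)
    {C : ℝ} (hC : 0 < C)
    (hbd : ∀ s : ℝ, 1 < s → s ≤ 2 → ∀ S : Finset ℕ, (∀ n ∈ S, n ≠ 0) →
      ∑ n ∈ S, ‖a n‖ ^ 2 * (n : ℝ) ^ (-s) ≤ C / (s - 1)) :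
    ∃ B : ℝ, ∀ s : ℝ, 1 < s → s ≤ 2 → ∀ T : Finset ℕ, (∀ p ∈ T, p.Prime ∧ ¬ p ∣ N) →
      ∑ p ∈ T, ‖a p‖ ^ 2 * (p : ℝ) ^ (-s) ≤ Real.log (1 / (s - 1)) + B := by
  set Z := ∑' n : ℕ, 1 / (n : ℝ) ^ 2 with hZ
  have hZsum : Summable fun n : ℕ => 1 / (n : ℝ) ^ 2 := Real.summable_one_div_nat_pow.mpr one_lt_two
  refine ⟨Real.log C + 2 * Z, fun s hs hs2 T hT => ?_⟩
  set g : ℕ → ℝ := fun n => if n ≠ 0 ∧ n.Coprime N then ‖a n‖ ^ 2 * (n : ℝ) ^ (-s) else 0 with hg
  have hg_nonneg : ∀ n, 0 ≤ g n := fun n => by rw [hg]; simp only; split_ifs <;> positivity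
  have hg1 : g 1 = 1 := by simp [hg, h1]
  have hgmul : ∀ {m n : ℕ}, m.Coprime n → g (m * n) = g m * g n := by
    intro m n hmn
    by_cases hm : m ≠ 0 ∧ m.Coprime N
    · by_cases hn : n ≠ 0 ∧ n.Coprime N
      · simp only [hg]
        rw [if_pos hm, if_pos hn,
          if_pos ⟨mul_ne_zero hm.1 hn.1, Nat.coprime_mul_iff_left.mpr ⟨hm.2, hn.2⟩⟩,
          h.mul_of_coprime h1 hm.1 hm.2 hmn, norm_mul, Nat.cast_mul,
          Real.mul_rpow (by positivity) (by positivity)]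
        ring
      · simp only [hg]
        rw [if_neg hn, mul_zero, if_neg]
        rintro ⟨h0, hN⟩
        exact hn ⟨right_ne_zero_of_mul h0, (Nat.coprime_mul_iff_left.mp hN).2⟩
    · simp only [hg]
      rw [if_neg hm, zero_mul, if_neg]
      rintro ⟨h0, hN⟩
      exact hm ⟨left_ne_zero_of_mul h0, (Nat.coprime_mul_iff_left.mp hN).1⟩
  have hle : ∀ S : Finset ℕ, ∑ n ∈ S, g n ≤ C / (s - 1) := by
    intro S
    refine le_trans (le_of_eq ?_) (hbd s hs hs2 (S.filter fun n => n ≠ 0 ∧ n.Coprime N)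
      fun n hn => (Finset.mem_filter.mp hn).2.1)
    rw [Finset.sum_filter]
  have hgsum : Summable g := summable_of_sum_le hg_nonneg hle
  have hprod : ∏ p ∈ T, ∑' k, g (p ^ k) ≤ C / (s - 1) := by
    have hgn : Summable fun n => ‖g n‖ := hgsum.norm
    have := EulerProduct.prod_filter_prime_tsum_eq_tsum_factoredNumbers hg1 hgmul hgn T
    rw [Finset.filter_true_of_mem fun p hp => (hT p hp).1] at this
    rw [this]
    exact (hgsum.tsum_subtype_le g _ hg_nonneg).trans (Real.tsum_le_of_sum_le hg_nonneg hle)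
  have hX : ∀ p ∈ T, (p : ℝ) ^ (-s) ≤ 1 / p ∧ 0 < (p : ℝ) ^ (-s) := by
    intro p hp
    have hp1 : (1 : ℝ) ≤ p := by exact_mod_cast (hT p hp).1.one_le
    refine ⟨?_, Real.rpow_pos_of_pos (by linarith) _⟩
    rw [one_div, ← Real.rpow_neg_one]
    exact Real.rpow_le_rpow_of_exponent_le hp1 (by linarith)
  have hlt1 : ∀ p ∈ T, (p : ℝ) ^ (-s) ≤ 1 / 2 := fun p hp =>
    (hX p hp).1.trans (one_div_le_one_div_of_le two_pos (by exact_mod_cast (hT p hp).1.two_le))
  have hloc : ∀ p ∈ T, (1 - ((p : ℝ) ^ (-s)) ^ 2) * Real.exp (‖a p‖ ^ 2 * (p : ℝ) ^ (-s))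
      ≤ ∑' k, g (p ^ k) := by
    intro p hp
    obtain ⟨hpp, hpN⟩ := hT p hp
    have heq : ∀ k, g (p ^ k) = ‖a (p ^ k)‖ ^ 2 * ((p : ℝ) ^ (-s)) ^ k := by
      intro k
      simp only [hg]
      rw [if_pos ⟨pow_ne_zero _ hpp.ne_zero,
        Nat.Coprime.pow_left _ ((Nat.Prime.coprime_iff_not_dvd hpp).mpr hpN)⟩, Nat.cast_pow,
        ← Real.rpow_natCast (p : ℝ) k, ← Real.rpow_natCast ((p : ℝ) ^ (-s)) k,
        ← Real.rpow_mul (Nat.cast_nonneg _), ← Real.rpow_mul (Nat.cast_nonneg _), mul_comm (-s)]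
    rw [tsum_congr heq]
    refine one_sub_sq_mul_exp_le_of_recursion (b := fun k => a (p ^ k))
      (norm_apply_prime_eq_one ε hpp hpN) (by simp [h1]) (by simp) (fun k => ?_) (hX p hp).2
      (by linarith [hlt1 p hp]) ?_
    · simpa using h.rec_eq hpp hpN k 1
    · exact (hgsum.comp_injective (Nat.pow_right_injective hpp.two_le)).congr heq
  have hpos : ∀ p ∈ T, (0 : ℝ) < 1 - ((p : ℝ) ^ (-s)) ^ 2 := fun p hp => by
    nlinarith [hlt1 p hp, (hX p hp).2]
  have hle' : ∏ p ∈ T, ((1 - ((p : ℝ) ^ (-s)) ^ 2) * Real.exp (‖a p‖ ^ 2 * (p : ℝ) ^ (-s)))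
      ≤ C / (s - 1) := le_trans
    (Finset.prod_le_prod (fun p hp => mul_nonneg (hpos p hp).le (Real.exp_pos _).le) hloc) hprod
  have hlog := Real.log_le_log
    (Finset.prod_pos fun p hp => mul_pos (hpos p hp) (Real.exp_pos _)) hle'
  rw [Real.log_prod (fun p hp => (mul_pos (hpos p hp) (Real.exp_pos _)).ne'),
    Finset.sum_congr rfl fun p hp => Real.log_mul (hpos p hp).ne' (Real.exp_pos _).ne'] at hlog
  simp only [Real.log_exp, Finset.sum_add_distrib] at hlog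
  have hlow : -(2 * Z) ≤ ∑ p ∈ T, Real.log (1 - ((p : ℝ) ^ (-s)) ^ 2) := by
    rw [neg_le, ← Finset.sum_neg_distrib]
    refine le_trans (Finset.sum_le_sum (g := fun p : ℕ => 2 * (1 / (p : ℝ) ^ 2)) fun p hp => ?_)
      (by rw [← Finset.mul_sum]
          exact mul_le_mul_of_nonneg_left
            (hZsum.sum_le_tsum T fun i _ => by positivity) two_pos.le)
    have h2 : ((p : ℝ) ^ (-s)) ^ 2 ≤ 1 / (p : ℝ) ^ 2 := by
      rw [← one_div_pow]; exact pow_le_pow_left₀ (hX p hp).2.le (hX p hp).1 2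
    have h3 := Real.one_sub_inv_le_log_of_pos (hpos p hp)
    have h4 : (1 - ((p : ℝ) ^ (-s)) ^ 2)⁻¹ ≤ 1 + 2 * ((p : ℝ) ^ (-s)) ^ 2 := by
      rw [inv_le_iff_one_le_mul₀ (hpos p hp)]
      have h5 : ((p : ℝ) ^ (-s)) ^ 2 ≤ 1 / 4 := by nlinarith [hlt1 p hp, (hX p hp).2]
      nlinarith [mul_nonneg (sq_nonneg ((p : ℝ) ^ (-s)))
        (show (0 : ℝ) ≤ 1 - 2 * ((p : ℝ) ^ (-s)) ^ 2 by linarith)]
    linarith
  have hlogC : Real.log (C / (s - 1)) = Real.log C + Real.log (1 / (s - 1)) := by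
    rw [Real.log_div hC.ne' (by linarith), one_div, Real.log_inv]; ring
  linarith

end Sequence

/-- The mean square bound over primes for a weight one form satisfying the Hecke relations. -/
theorem exists_sum_prime_sq_qCoeff_le {N : ℕ} [NeZero N] {ε : DirichletCharacter ℂ N}
    (f : CuspForm (Gamma1 N) 1) (hf₁ : qC f 1 = 1) (hT : GoodHeckeRel ε (qC f)) :
    ∃ B : ℝ, ∀ s : ℝ, 1 < s → s ≤ 2 → ∀ T : Finset ℕ, (∀ p ∈ T, p.Prime ∧ ¬ p ∣ N) →
      ∑ p ∈ T, ‖qC f p‖ ^ 2 * (p : ℝ) ^ (-s) ≤ Real.log (1 / (s - 1)) + B := by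
  obtain ⟨C, hC, hbd⟩ := exists_sum_sq_qCoeff_mul_rpow_le f
  exact hT.exists_sum_prime_sq_le hf₁ hC hbd

end Fermat.Agent.WeightOne
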