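import Fermat.Prelude.Def_ModularForm_HeckeOperator
import Fermat.Prelude.Thm_ModularFormClass_qCoeff_heckeT
import Fermat.Prelude.Thm_ModularFormClass_qCoeff_heckeU
import Fermat.Prelude.Thm_ModularForm_mdifferentiable_heckeT
import Fermat.Prelude.Thm_ModularForm_mdifferentiable_heckeU
import Fermat.Prelude.Thm_ModularForm_isBoundedAtImInfty_heckeT
import Fermat.Prelude.Thm_ModularForm_isBoundedAtImInfty_heckeU
import Fermat.Prelude.Thm_ModularForm_periodic_heckeT_comp_ofComplex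
import Fermat.Prelude.Thm_ModularForm_periodic_heckeU_comp_ofComplex
import Fermat.Prelude.Sol.S_ModularForm_heckeU_slash_eq_self_of_mem_Gamma0
import Fermat.Agent.CuspIntStr.Nice
import Fermat.Agent.WeightOne.PrimeSum
import Fermat.Agent.WeightOne.Translation

/-!
# The nebentypus of a weight one eigenform on `Γ₁(N)`

If the good Hecke relations hold with a Dirichlet character `ε`, then `f | γ = ε(d) f` for all
`γ ∈ Γ₀(N)`: comparing the Hecke relation at a prime `p` before and after slashing by `(1 0; N 1)`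
shows that `f - ε(p) f | γ''` (with `γ''` of class `p⁻¹`) has a translation symmetry by `1/p²`.
-/

set_option autoImplicit false

noncomputable section

namespace Fermat.Agent.WeightOne

open CongruenceSubgroup UpperHalfPlane Matrix.SpecialLinearGroup Filter
open ModularForm (heckeMatrix heckeDiagMatrix heckeU heckeT)
open scoped MatrixGroups ModularForm Topology
open P2MW.S_ModularForm_heckeU_slash_eq_self_of_mem_Gamma0.ModularForm.HeckeSlashInvariance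
  (heckeU_eq_sum_zmod)

local notation "qC" => ModularFormClass.qCoeff

variable {N : ℕ} {ε : DirichletCharacter ℂ N}

/-- Elements of `Γ₀(N)` with the same lower right entry modulo `N` agree modulo `Γ₁(N)`. -/
lemma mul_inv_mem_Gamma1 {γ δ : SL(2, ℤ)} (hγ : γ ∈ Gamma0 N) (hδ : δ ∈ Gamma0 N)
    (h : ((γ 1 1 : ℤ) : ZMod N) = ((δ 1 1 : ℤ) : ZMod N)) : γ * δ⁻¹ ∈ Gamma1 N := by
  have hc : ((γ 1 0 : ℤ) : ZMod N) = 0 := Gamma0_mem.mp hγ
  have hc' : ((δ 1 0 : ℤ) : ZMod N) = 0 := Gamma0_mem.mp hδ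
  have hdet := congrArg (Int.cast : ℤ → ZMod N) γ.det_coe
  have hdet' := congrArg (Int.cast : ℤ → ZMod N) δ.det_coe
  rw [Matrix.det_fin_two] at hdet hdet'
  push_cast at hdet hdet'
  rw [Gamma1_mem]
  simp only [coe_mul, coe_inv, Matrix.adjugate_fin_two, Matrix.mul_apply, Fin.sum_univ_two,
    Matrix.of_apply, Matrix.cons_val', Matrix.cons_val_zero, Matrix.cons_val_one,
    Matrix.cons_val_fin_one]
  push_cast
  refine ⟨?_, ?_, ?_⟩
  · rw [hc', ← h]; linear_combination hdet + ((γ 0 1 : ℤ) : ZMod N) * hc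
  · rw [h]; linear_combination hdet' + ((δ 0 1 : ℤ) : ZMod N) * hc' -
      ((δ 0 1 : ℤ) : ZMod N) * hc
  · rw [hc, hc']; ring

/-- Conjugation by `Γ₀(N)` preserves `Γ₁(N)`. -/
lemma conj_mem_Gamma1 {γ δ : SL(2, ℤ)} (hγ : γ ∈ Gamma0 N) (hδ : δ ∈ Gamma1 N) :
    γ * δ * γ⁻¹ ∈ Gamma1 N := by
  have hδ0 : δ ∈ Gamma0 N := Gamma1_in_Gamma0 N hδ
  obtain ⟨h00, h11, h10⟩ := (Gamma1_mem N δ).mp hδ
  refine mul_inv_mem_Gamma1 ((Gamma0 N).mul_mem hγ hδ0) hγ ?_
  simp only [coe_mul, Matrix.mul_apply, Fin.sum_univ_two]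
  push_cast
  rw [h11, Gamma0_mem.mp hγ]
  ring

/-- `(1 1; 0 1)` lies in `Γ₁(N)`. -/
lemma T_mem_Gamma1 (N : ℕ) : ModularGroup.T ∈ Gamma1 N :=
  (Gamma1_mem N _).mpr ⟨by simp [ModularGroup.coe_T], by simp [ModularGroup.coe_T],
    by simp [ModularGroup.coe_T]⟩

section form

variable [NeZero N] {k : ℤ}

omit [NeZero N] in
/-- A form on `Γ₁(N)` is invariant under `Γ₁(N)`. -/
lemma slash_mapGL_Gamma1 (f : CuspForm (Gamma1 N) k) {δ : SL(2, ℤ)} (hδ : δ ∈ Gamma1 N) :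
    ⇑f ∣[k] (mapGL ℝ δ : GL (Fin 2) ℝ) = ⇑f :=
  SlashInvariantFormClass.slash_action_eq f _ ⟨δ, hδ, rfl⟩

/-- The translate of a form on `Γ₁(N)` by an element of `Γ₀(N)`. -/
def gamma0Translate (f : CuspForm (Gamma1 N) k) (γ : SL(2, ℤ)) (hγ : γ ∈ Gamma0 N) :
    CuspForm (Gamma1 N) k where
  toFun := ⇑f ∣[k] (mapGL ℝ γ : GL (Fin 2) ℝ)
  slash_action_eq' g hg := by
    obtain ⟨δ, hδ, rfl⟩ := hg
    rw [← SlashAction.slash_mul, ← map_mul, show γ * δ = γ * δ * γ⁻¹ * γ by group, map_mul,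
      SlashAction.slash_mul, slash_mapGL_Gamma1 f (conj_mem_Gamma1 hγ hδ)]
  holo' := (ModularFormClass.holo f).slash k _
  zero_at_cusps' {c} hc := by
    rw [Subgroup.IsArithmetic.isCusp_iff_isCusp_SL2Z] at hc
    rw [← OnePoint.IsZeroAt.smul_iff]
    refine CuspFormClass.zero_at_cusps f ?_
    rw [Subgroup.IsArithmetic.isCusp_iff_isCusp_SL2Z, isCusp_SL2Z_iff']
    obtain ⟨σ, hσ⟩ := isCusp_SL2Z_iff'.mp hc
    exact ⟨γ * σ, by rw [map_mul, mul_smul, hσ]⟩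

lemma coe_gamma0Translate (f : CuspForm (Gamma1 N) k) (γ : SL(2, ℤ)) (hγ : γ ∈ Gamma0 N) :
    ⇑(gamma0Translate f γ hγ) = ⇑f ∣[k] (mapGL ℝ γ : GL (Fin 2) ℝ) := rfl

omit [NeZero N] in
lemma periodic_one (f : CuspForm (Gamma1 N) k) (τ : ℍ) : f ((1 : ℝ) +ᵥ τ) = f τ := by
  have := congrFun (slash_mapGL_Gamma1 f (T_mem_Gamma1 N)) τ
  change (⇑f ∣[k] ModularGroup.T) τ = f τ at this
  rw [ModularForm.SL_slash_apply, UpperHalfPlane.modular_T_smul] at this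
  simpa [denom, ModularGroup.coe_T] using this

end form

/-! ### Matrix identities -/

section identities

variable {p : ℕ}

lemma heckeMatrix_mul_lowerSL_of_eq (hp : p ≠ 0) (j j' : ℕ) (e : ℤ)
    (he : (j : ℤ) = j' * (1 + j * N) + p * e) :
    ∃ δ ∈ Gamma1 N, heckeMatrix p j * mapGL ℝ (lowerSL N 1) =
      mapGL ℝ δ * heckeMatrix p j' := by
  obtain ⟨δ, hδ⟩ : ∃ δ : SL(2, ℤ), δ.1 = !![1 + (j : ℤ) * N, e; (p : ℤ) * N, 1 - (N : ℤ) * j'] :=
    ⟨⟨_, by rw [Matrix.det_fin_two_of]; linear_combination (N : ℤ) * he⟩, rfl⟩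
  refine ⟨δ, (Gamma1_mem N δ).mpr ⟨by simp [hδ], by simp [hδ], by simp [hδ]⟩, ?_⟩
  have heR := congrArg (Int.cast : ℤ → ℝ) he
  push_cast at heR
  apply Units.ext
  ext a b
  fin_cases a <;> fin_cases b <;>
    simp [ModularForm.val_heckeMatrix hp, Matrix.mul_apply, Fin.sum_univ_two, hδ, lowerSL_coe]
  all_goals first | linear_combination heR | linear_combination -heR | ring

lemma heckeMatrix_mul_lowerSL_special (hp : p ≠ 0) (j : ℕ) (u : ℤ)
    (he : 1 + (j : ℤ) * N = p * u) :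
    ∃ γ ∈ Gamma0 N, ((γ 1 1 : ℤ) : ZMod N) = (p : ZMod N) ∧
      heckeMatrix p j * mapGL ℝ (lowerSL N 1) = mapGL ℝ γ * heckeDiagMatrix p := by
  obtain ⟨γ, hγ⟩ : ∃ γ : SL(2, ℤ), γ.1 = !![u, (j : ℤ); (N : ℤ), (p : ℤ)] :=
    ⟨⟨_, by rw [Matrix.det_fin_two_of]; linear_combination -he⟩, rfl⟩
  refine ⟨γ, Gamma0_mem.mpr (by simp [hγ]), by simp [hγ], ?_⟩
  have heR := congrArg (Int.cast : ℤ → ℝ) he
  push_cast at heR
  apply Units.ext
  ext a b
  fin_cases a <;> fin_cases b <;>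
    simp [ModularForm.val_heckeMatrix hp, ModularForm.val_heckeDiagMatrix hp, Matrix.mul_apply,
      Fin.sum_univ_two, hγ, lowerSL_coe]
  all_goals first | linear_combination heR | linear_combination -heR | ring

lemma heckeDiagMatrix_mul_lowerSL (hp : p ≠ 0) (y : ℕ) (e : ℤ)
    (he : (p : ℤ) * e + (y : ℤ) * N = 1) :
    ∃ γ ∈ Gamma0 N, ((γ 1 1 : ℤ) : ZMod N) * (p : ZMod N) = 1 ∧
      heckeDiagMatrix p * mapGL ℝ (lowerSL N 1) = mapGL ℝ γ * heckeMatrix p y := by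
  obtain ⟨γ, hγ⟩ : ∃ γ : SL(2, ℤ), γ.1 = !![(p : ℤ), -(y : ℤ); (N : ℤ), e] :=
    ⟨⟨_, by rw [Matrix.det_fin_two_of]; linear_combination he⟩, rfl⟩
  refine ⟨γ, Gamma0_mem.mpr (by simp [hγ]), ?_, ?_⟩
  · have := congrArg (Int.cast : ℤ → ZMod N) he
    push_cast at this
    simp only [hγ, Matrix.of_apply, Matrix.cons_val_one, Matrix.cons_val_fin_one]
    linear_combination this - (y : ZMod N) * ZMod.natCast_self N
  have heR := congrArg (Int.cast : ℤ → ℝ) he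
  push_cast at heR
  apply Units.ext
  ext a b
  fin_cases a <;> fin_cases b <;>
    simp [ModularForm.val_heckeMatrix hp, ModularForm.val_heckeDiagMatrix hp, Matrix.mul_apply,
      Fin.sum_univ_two, hγ, lowerSL_coe]
  all_goals first | linear_combination heR | linear_combination -heR | ring

end identities

/-! ### The relation as functions -/

variable [NeZero N] (f : CuspForm (Gamma1 N) 1)

omit [NeZero N] in
open CuspIntStr in
lemma heckeU_add_eq (hT : GoodHeckeRel ε (qC f)) {p : ℕ} (hp : p.Prime) (hpN : ¬ p ∣ N) :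
    heckeU 1 p ⇑f + ε (p : ZMod N) • (⇑f ∣[(1 : ℤ)] heckeDiagMatrix p) = qC f p • ⇑f := by
  have h1 := one_mem_strictPeriods_Gamma1 N
  obtain ⟨hfp, hfd, hfb⟩ := form_mem_niceAlg h1 f
  let F : niceAlg := ⟨⇑f, form_mem_niceAlg h1 f⟩
  let T : niceAlg := ⟨heckeT 1 p ⇑f, ModularForm.periodic_heckeT_comp_ofComplex hfp 1 p,
    ModularForm.mdifferentiable_heckeT hfd 1 p, ModularForm.isBoundedAtImInfty_heckeT hfb 1 p⟩
  let U : niceAlg := ⟨heckeU 1 p ⇑f, ModularForm.periodic_heckeU_comp_ofComplex hfp 1 p,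
    ModularForm.mdifferentiable_heckeU hfd 1 p, ModularForm.isBoundedAtImInfty_heckeU hfb 1 p⟩
  have key : U + ε (p : ZMod N) • (T - U) = qC f p • F := by
    apply qHom_injective
    ext n
    simp only [map_add, map_smul, map_sub, smul_eq_mul]
    change qC (heckeU 1 p ⇑f) n + ε (p : ZMod N) * (qC (heckeT 1 p ⇑f) n - qC (heckeU 1 p ⇑f) n) =
      qC f p * qC f n
    rw [ModularFormClass.qCoeff_heckeT f h1 hp.ne_zero, ModularFormClass.qCoeff_heckeU f h1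
      hp.ne_zero, ModularForm.coeffHeckeT_eq_coeffHeckeU_add, ← hT p hp hpN n,
      ModularForm.coeffHeckeU_apply, mul_comm n p]
    simp
  have := congrArg (Subtype.val : niceAlg → ℍ → ℂ) key
  simpa [F, T, U, ModularForm.heckeT_eq_heckeU_add] using this

omit [NeZero N] in
/-- A form on `Γ₁(N)` is periodic by integers. -/
lemma periodic_int {k : ℤ} (g : CuspForm (Gamma1 N) k) (n : ℤ) (τ : ℍ) :
    g ((n : ℝ) +ᵥ τ) = g τ := by
  induction n using Int.induction_on generalizing τ with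
  | zero => simp
  | succ i hi =>
    rw [show ((i + 1 : ℤ) : ℝ) = (1 : ℝ) + ((i : ℤ) : ℝ) by push_cast; ring, add_vadd,
      periodic_one, hi]
  | pred i hi =>
    rw [← periodic_one g, ← add_vadd,
      show (1 : ℝ) + ((-(i : ℤ) - 1 : ℤ) : ℝ) = ((-(i : ℤ) : ℤ) : ℝ) by push_cast; ring, hi]

omit [NeZero N] in
/-- Slashing by `(1 0; N 1)` permutes the terms of `U_p`, except the one at `-N⁻¹`. -/
lemma sum_erase_slash_lowerSL {p : ℕ} [Fact p.Prime] (hN0 : (N : ZMod p) ≠ 0) :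
    ∑ x ∈ Finset.univ.erase (-(N : ZMod p)⁻¹),
        (⇑f ∣[(1 : ℤ)] heckeMatrix p x.val) ∣[(1 : ℤ)] (mapGL ℝ (lowerSL N 1) : GL (Fin 2) ℝ) =
      ∑ x ∈ Finset.univ.erase (N : ZMod p)⁻¹, ⇑f ∣[(1 : ℤ)] heckeMatrix p x.val := by
  have hnz : ∀ x : ZMod p, x ≠ -(N : ZMod p)⁻¹ → 1 + x * N ≠ 0 := by
    intro x hx h
    refine hx ?_
    field_simp
    linear_combination h
  have hnz' : ∀ x : ZMod p, x ≠ (N : ZMod p)⁻¹ → 1 - x * N ≠ 0 := by
    intro x hx h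
    refine hx ?_
    field_simp
    linear_combination -h
  refine Finset.sum_nbij' (fun x ↦ x / (1 + x * N)) (fun x ↦ x / (1 - x * N))
    (fun x hx ↦ ?_) (fun x hx ↦ ?_) (fun x hx ↦ ?_) (fun x hx ↦ ?_) (fun x hx ↦ ?_)
  · have hx' := hnz x (by simpa using hx)
    refine Finset.mem_erase.mpr ⟨fun h ↦ ?_, Finset.mem_univ _⟩
    field_simp at h
    exact one_ne_zero (α := ZMod p) (by linear_combination -h)
  · have hx' := hnz' x (by simpa using hx)
    refine Finset.mem_erase.mpr ⟨fun h ↦ ?_, Finset.mem_univ _⟩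
    field_simp at h
    exact one_ne_zero (α := ZMod p) (by linear_combination h)
  · have hx' := hnz x (by simpa using hx)
    field_simp
    ring
  · have hx' := hnz' x (by simpa using hx)
    field_simp
    ring
  · set x' := x / (1 + x * (N : ZMod p)) with hx'
    have h1 : x' * (1 + x * N) = x := div_mul_cancel₀ _ (hnz x (by simpa using hx))
    obtain ⟨e, he⟩ : (p : ℤ) ∣ (x.val : ℤ) - x'.val * (1 + x.val * N) := by
      rw [← ZMod.intCast_zmod_eq_zero_iff_dvd]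
      push_cast
      rw [ZMod.natCast_zmod_val, ZMod.natCast_zmod_val, h1, sub_self]
    obtain ⟨δ, hδ, hmul⟩ := heckeMatrix_mul_lowerSL_of_eq (N := N)
      (NeZero.ne p) x.val x'.val e (by linear_combination he)
    rw [← SlashAction.slash_mul, hmul, SlashAction.slash_mul, slash_mapGL_Gamma1 f hδ]

omit [NeZero N] in
/-- The Hecke relation at `p`, slashed by `(1 0; N 1)` and compared with itself: only the terms at
`±N⁻¹` and the diagonal one survive. -/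
lemma heckeRel_slash_lowerSL (hT : GoodHeckeRel ε (qC f)) {p : ℕ} [Fact p.Prime] (hpN : ¬ p ∣ N)
    {γ' γ'' : SL(2, ℤ)}
    (hmul' : heckeMatrix p (-(N : ZMod p)⁻¹).val * mapGL ℝ (lowerSL N 1) =
      mapGL ℝ γ' * heckeDiagMatrix p)
    (hmul'' : heckeDiagMatrix p * mapGL ℝ (lowerSL N 1) =
      mapGL ℝ γ'' * heckeMatrix p (N : ZMod p)⁻¹.val) :
    (⇑f ∣[(1 : ℤ)] (mapGL ℝ γ' : GL (Fin 2) ℝ) - ε (p : ZMod N) • ⇑f) ∣[(1 : ℤ)] heckeDiagMatrix p =
      (⇑f - ε (p : ZMod N) • (⇑f ∣[(1 : ℤ)] (mapGL ℝ γ'' : GL (Fin 2) ℝ))) ∣[(1 : ℤ)]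
        heckeMatrix p (N : ZMod p)⁻¹.val := by
  have hp : p.Prime := Fact.out
  have hN0 : (N : ZMod p) ≠ 0 := fun h ↦ hpN ((ZMod.natCast_eq_zero_iff _ _).mp h)
  set L : GL (Fin 2) ℝ := mapGL ℝ (lowerSL N 1) with hL
  set A : ZMod p → ℍ → ℂ := fun x ↦ ⇑f ∣[(1 : ℤ)] heckeMatrix p x.val with hA
  set c := ε (p : ZMod N)
  have hσ : ∀ x : GL (Fin 2) ℝ, 0 < x.det.val → UpperHalfPlane.σ x = .refl ℝ ℂ := fun x hx ↦ by
    rw [σ, if_pos hx]
  have hσL := hσ L (by simp [hL])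
  -- slashing the relation by `L`
  have hR : (heckeU 1 p ⇑f + c • (⇑f ∣[(1 : ℤ)] heckeDiagMatrix p)) ∣[(1 : ℤ)] L =
      heckeU 1 p ⇑f + c • (⇑f ∣[(1 : ℤ)] heckeDiagMatrix p) := by
    rw [heckeU_add_eq f hT hp hpN, ModularForm.smul_slash, hσL, ContinuousAlgEquiv.refl_apply,
      slash_mapGL_Gamma1 f (lowerSL_mem_Gamma1 N 1)]
  have e1 : A (-(N : ZMod p)⁻¹) ∣[(1 : ℤ)] L =
      (⇑f ∣[(1 : ℤ)] (mapGL ℝ γ' : GL (Fin 2) ℝ)) ∣[(1 : ℤ)] heckeDiagMatrix p := by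
    simp only [hA]
    rw [← SlashAction.slash_mul, hmul', SlashAction.slash_mul]
  have e2 : (⇑f ∣[(1 : ℤ)] heckeDiagMatrix p) ∣[(1 : ℤ)] L =
      (⇑f ∣[(1 : ℤ)] (mapGL ℝ γ'' : GL (Fin 2) ℝ)) ∣[(1 : ℤ)]
        heckeMatrix p (N : ZMod p)⁻¹.val := by
    rw [← SlashAction.slash_mul, hmul'', SlashAction.slash_mul]
  rw [heckeU_eq_sum_zmod, SlashAction.add_slash, ModularForm.smul_slash, hσL,
    ContinuousAlgEquiv.refl_apply, SlashAction.sum_slash,
    ← Finset.sum_erase_add Finset.univ (fun x ↦ A x ∣[(1 : ℤ)] L) (Finset.mem_univ _),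
    sum_erase_slash_lowerSL f hN0,
    ← Finset.sum_erase_add Finset.univ A (Finset.mem_univ (N : ZMod p)⁻¹), e1, e2] at hR
  simp only [sub_eq_add_neg, SlashAction.add_slash, SlashAction.neg_slash, ModularForm.smul_slash,
    hσ _ (ModularForm.det_heckeDiagMatrix_pos p),
    hσ _ (ModularForm.det_heckeMatrix_pos p (N : ZMod p)⁻¹.val), ContinuousAlgEquiv.refl_apply]
  simp only [hA] at hR
  funext τ
  have h' := congrFun hR τ
  simp only [Pi.add_apply, Pi.neg_apply, Pi.smul_apply, smul_eq_mul, Finset.sum_apply] at h' ⊢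
  linear_combination h'

omit [NeZero N] in
/-- If `g | (p 0; 0 1) = h | (1 j; 0 p)` with `g` periodic, then `h` has the period `p⁻²`. -/
lemma vadd_eq_of_slash_eq {p j : ℕ} (hp : p ≠ 0) {g h : CuspForm (Gamma1 N) 1}
    (hgh : ⇑g ∣[(1 : ℤ)] heckeDiagMatrix p = ⇑h ∣[(1 : ℤ)] heckeMatrix p j) (k : ℤ) (τ : ℍ) :
    h (((k : ℝ) / ((p ^ 2 : ℕ) : ℝ)) +ᵥ τ) = h τ := by
  have : NeZero p := ⟨hp⟩
  have hpt : ∀ σ : ℍ, g (heckeDiagMatrix p • σ) = (p : ℂ)⁻¹ * h (heckeMatrix p j • σ) := by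
    intro σ
    have := congrFun hgh σ
    rwa [ModularForm.slash_heckeDiagMatrix_apply 1 hp,
      ModularForm.slash_heckeMatrix_apply 1 hp, sub_self, zpow_zero, one_mul] at this
  have hp0 : (p : ℂ) ≠ 0 := by exact_mod_cast hp
  set σ : ℍ := (heckeMatrix p j)⁻¹ • τ
  have hτ : heckeMatrix p j • σ = τ := smul_inv_smul _ _
  have hshift :
      heckeMatrix p j • (((k : ℝ) / p) +ᵥ σ) = ((k : ℝ) / ((p ^ 2 : ℕ) : ℝ)) +ᵥ τ := by
    conv_rhs => rw [← hτ]
    ext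
    rw [ModularForm.coe_heckeMatrix_smul hp, coe_vadd, coe_vadd,
      ModularForm.coe_heckeMatrix_smul hp]
    push_cast
    field_simp
    ring
  have hdiag : heckeDiagMatrix p • (((k : ℝ) / p) +ᵥ σ) =
      ((k : ℝ)) +ᵥ heckeDiagMatrix p • σ := by
    ext
    rw [ModularForm.coe_heckeDiagMatrix_smul hp, coe_vadd, coe_vadd,
      ModularForm.coe_heckeDiagMatrix_smul hp]
    push_cast
    field_simp
  have e := hpt (((k : ℝ) / p) +ᵥ σ)
  rw [hshift, hdiag, periodic_int, hpt σ, hτ] at e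
  exact (mul_left_cancel₀ (inv_ne_zero hp0) e).symm

/-- The comparison of the Hecke relation with its translate by `(1 0; N 1)`. -/
lemma slash_eq_of_prime (hT : GoodHeckeRel ε (qC f)) {p : ℕ} (hp : p.Prime)
    (hpN : 2 * N ≤ p) {γ : SL(2, ℤ)} (hγ : γ ∈ Gamma0 N)
    (hd : ((γ 1 1 : ℤ) : ZMod N) * (p : ZMod N) = 1) :
    ε (p : ZMod N) • (⇑f ∣[(1 : ℤ)] (mapGL ℝ γ : GL (Fin 2) ℝ)) = ⇑f := by
  have : Fact p.Prime := ⟨hp⟩
  have hNpos := NeZero.pos N
  have hpN' : ¬ p ∣ N := fun h ↦ by have := Nat.le_of_dvd hNpos h; omega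
  have hN0 : (N : ZMod p) ≠ 0 := fun h ↦ hpN' ((ZMod.natCast_eq_zero_iff _ _).mp h)
  obtain ⟨u, hu⟩ : (p : ℤ) ∣ 1 + ((-(N : ZMod p)⁻¹).val : ℤ) * N := by
    rw [← ZMod.intCast_zmod_eq_zero_iff_dvd]
    push_cast
    rw [ZMod.natCast_zmod_val]
    simp [hN0]
  obtain ⟨γ', hγ', -, hmul'⟩ := heckeMatrix_mul_lowerSL_special (N := N) hp.ne_zero _ u hu
  obtain ⟨e, he⟩ : (p : ℤ) ∣ 1 - ((N : ZMod p)⁻¹.val : ℤ) * N := by
    rw [← ZMod.intCast_zmod_eq_zero_iff_dvd]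
    push_cast
    rw [ZMod.natCast_zmod_val]
    simp [hN0]
  obtain ⟨γ'', hγ'', hd'', hmul''⟩ := heckeDiagMatrix_mul_lowerSL (N := N) hp.ne_zero
    (N : ZMod p)⁻¹.val e (by linear_combination -he)
  -- `f | γ = f | γ''`
  have hdd := (IsUnit.of_mul_eq_one_right _ hd).mul_right_cancel (hd.trans hd''.symm)
  rw [show γ = γ * γ''⁻¹ * γ'' by group, map_mul, SlashAction.slash_mul,
    slash_mapGL_Gamma1 f (mul_inv_mem_Gamma1 hγ hγ'' hdd)]
  set c := ε (p : ZMod N)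
  set h : CuspForm (Gamma1 N) 1 := f - c • gamma0Translate f γ'' hγ'' with hh
  suffices h = 0 by
    rw [hh, sub_eq_zero] at this
    conv_rhs => rw [this]
    rw [FunLike.coe_smul, coe_gamma0Translate]
  refine eq_zero_of_translation h (D := p ^ 2) (hpN.trans (Nat.le_self_pow two_ne_zero p)) ?_
  refine vadd_eq_of_slash_eq (j := (N : ZMod p)⁻¹.val) (g := gamma0Translate f γ' hγ' - c • f)
    hp.ne_zero ?_
  simp only [hh, FunLike.coe_sub, FunLike.coe_smul, coe_gamma0Translate]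
  exact heckeRel_slash_lowerSL f hT hpN' hmul' hmul''

/-- `ε` is the nebentypus of `f`. -/
theorem slash_Gamma0_eq (hT : GoodHeckeRel ε (qC f)) {γ : SL(2, ℤ)} (hγ : γ ∈ Gamma0 N) :
    ⇑f ∣[(1 : ℤ)] γ = ε ((γ 1 1 : ℤ) : ZMod N) • ⇑f := by
  have hdet := congrArg (Int.cast : ℤ → ZMod N) γ.det_coe
  rw [Matrix.det_fin_two] at hdet
  push_cast at hdet
  rw [Gamma0_mem.mp hγ, mul_zero, sub_zero] at hdet
  obtain ⟨p, hpgt, hp, hpa⟩ := Nat.forall_exists_prime_gt_and_eq_mod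
    (IsUnit.of_mul_eq_one _ hdet) (2 * N)
  have h := slash_eq_of_prime f hT hp hpgt.le hγ (by rw [hpa, mul_comm]; exact hdet)
  change ⇑f ∣[(1 : ℤ)] (mapGL ℝ γ : GL (Fin 2) ℝ) = _
  conv_rhs => rw [← h]
  rw [smul_smul, ← map_mul, hpa, mul_comm, hdet, map_one, one_smul]

/-- The character of a nonzero weight one form is odd. -/
theorem eps_neg_one (hf₁ : qC f 1 = 1) (hT : GoodHeckeRel ε (qC f)) : ε (-1) = -1 := by
  have hmem : (-1 : SL(2, ℤ)) ∈ Gamma0 N := Gamma0_mem.mpr (by simp)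
  have h := slash_Gamma0_eq f hT hmem
  by_contra hne
  have hf0 : ⇑f = 0 := by
    funext τ
    have := congrFun h τ
    rw [ModularForm.SL_slash_apply, ModularGroup.SL_neg_smul, one_smul] at this
    simp [denom] at this
    have h2 : (ε (-1) + 1) * f τ = 0 := by linear_combination -this
    exact (mul_eq_zero.mp h2).resolve_left (fun h' ↦ hne (eq_neg_of_add_eq_zero_left h'))
  refine one_ne_zero (α := ℂ) ?_
  rw [← hf₁, hf0, ModularFormClass.qCoeff, UpperHalfPlane.qExpansion_zero, map_zero]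

end Fermat.Agent.WeightOne
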