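import Fermat.Agent.WeightOne.Nebentypus
import Fermat.Agent.KummerES.HeckeRoot

/-!
# The coset system of `T_p` on `Γ₁(M)`

The representatives are `(1 j; 0 p)` and `δ_p (p 0; 0 1)`, with `δ_p ∈ Γ₀(M)` of lower right
entry `p`; the diamond automorphisms are the conjugations by the `δ_d`.
-/

set_option autoImplicit false

noncomputable section

namespace Fermat.Agent.WeightOne

open CongruenceSubgroup Matrix.SpecialLinearGroup
open HeckeLattice (CosetSystem Idx rep toGL)
open scoped MatrixGroups OnePoint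

variable {M : ℕ}

/-- An element of `Γ₀(M)` with lower right entry `d`, for `d` prime to `M`. -/
def diaSL {d : ℕ} (hd : d.Coprime M) : SL(2, ℤ) :=
  ⟨!![Nat.gcdA d M, -Nat.gcdB d M; (M : ℤ), (d : ℤ)], by
    have h := Nat.gcd_eq_gcd_ab d M
    rw [hd.gcd_eq_one] at h
    push_cast at h
    rw [Matrix.det_fin_two_of]
    linear_combination -h⟩

/-- The lower right entry of `diaSL` is `d`. -/
lemma diaSL_one_one {d : ℕ} (hd : d.Coprime M) : diaSL hd 1 1 = (d : ℤ) := rfl

/-- `diaSL` lies in `Γ₀(M)`. -/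
lemma diaSL_mem_Gamma0 {d : ℕ} (hd : d.Coprime M) : diaSL hd ∈ Gamma0 M := by
  rw [Gamma0_mem]
  exact ZMod.natCast_self M ▸ (by simp [diaSL])

/-- Conjugation of `Γ₁(M)` by an element of `Γ₀(M)`. -/
def diaConj (δ : Gamma0 M) : Gamma1 M →* Gamma1 M where
  toFun γ := ⟨(δ : SL(2, ℤ)) * γ * (δ : SL(2, ℤ))⁻¹, conj_mem_Gamma1 δ.2 γ.2⟩
  map_one' := Subtype.ext (by simp)
  map_mul' γ γ' := Subtype.ext (by simp [mul_assoc])

/-- `diaConj` is conjugation. -/
@[simp] lemma diaConj_coe (δ : Gamma0 M) (γ : Gamma1 M) :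
    (diaConj δ γ : SL(2, ℤ)) = δ * γ * (δ : SL(2, ℤ))⁻¹ := rfl

/-- The correction at infinity. -/
def cornerSL {p : ℕ} (hp : p.Coprime M) (x : Idx p) : SL(2, ℤ) :=
  x.elim (diaSL hp) fun _ => 1

/-- `cornerSL` lies in `Γ₀(M)`. -/
lemma cornerSL_mem {p : ℕ} (hp : p.Coprime M) (x : Idx p) : cornerSL hp x ∈ Gamma0 M := by
  cases x using OnePoint.rec with
  | infty => exact diaSL_mem_Gamma0 hp
  | coe j => exact one_mem _

/-- The lower right entry of a standard representative. -/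
def repCorner (p : ℕ) (x : Idx p) : ℕ := x.elim 1 fun _ => p

/-- The corrected representative has lower right entry `p` modulo `M`. -/
lemma cornerSL_mul_repCorner {p : ℕ} (hp : p.Coprime M) (x : Idx p) :
    ((cornerSL hp x 1 1 : ℤ) : ZMod M) * (repCorner p x : ZMod M) = (p : ZMod M) := by
  cases x using OnePoint.rec with
  | infty => simp [cornerSL, repCorner, diaSL_one_one]
  | coe j => simp [cornerSL, repCorner]

variable {p : ℕ} [hp : Fact p.Prime]

omit hp in
/-- The entries of the standard representatives: upper triangular and integral. -/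
lemma rep_one_zero (hp0 : p ≠ 0) (x : Idx p) :
    ((rep p x : GL (Fin 2) ℝ) : Matrix (Fin 2) (Fin 2) ℝ) 1 0 = 0 ∧
      ((rep p x : GL (Fin 2) ℝ) : Matrix (Fin 2) (Fin 2) ℝ) 1 1 = repCorner p x ∧
      ∃ e : ℤ, ((rep p x : GL (Fin 2) ℝ) : Matrix (Fin 2) (Fin 2) ℝ) 0 1 = e := by
  cases x using OnePoint.rec with
  | infty =>
    exact ⟨by simp [rep, ModularForm.heckeDiagMatrix, hp0],
      by simp [rep, repCorner, ModularForm.heckeDiagMatrix, hp0],
      0, by simp [rep, ModularForm.heckeDiagMatrix, hp0]⟩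
  | coe j => exact ⟨by simp [rep, hp0], by simp [rep, repCorner, hp0],
      (j.val : ℤ), by simp [rep, hp0]⟩

lemma corner_of_rep_mul (_hpM : ¬ p ∣ M) {γ g : SL(2, ℤ)} (hγ : γ ∈ Gamma1 M) (hg : g ∈ Gamma0 M)
    {x y : Idx p} (h : rep p x * mapGL ℝ γ = mapGL ℝ g * rep p y) :
    (repCorner p x : ZMod M) = ((g 1 1 : ℤ) : ZMod M) * (repCorner p y : ZMod M) := by
  obtain ⟨hx0, hx1, -⟩ := rep_one_zero hp.out.ne_zero x
  obtain ⟨-, hy1, e, he⟩ := rep_one_zero hp.out.ne_zero y
  have h11 := congrArg (fun A : GL (Fin 2) ℝ => (A : Matrix (Fin 2) (Fin 2) ℝ) 1 1) h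
  simp only [Units.val_mul, Matrix.mul_apply, Fin.sum_univ_two, mapGL_coe_matrix, map_apply_coe,
    RingHom.mapMatrix_apply, Matrix.map_apply, algebraMap_int_eq, eq_intCast, hx0, hx1, hy1,
    he] at h11
  have hZ : (repCorner p x : ℤ) * γ 1 1 = g 1 0 * e + g 1 1 * (repCorner p y : ℤ) := by
    have : ((((repCorner p x : ℤ) * γ 1 1 : ℤ)) : ℝ) =
        ((g 1 0 * e + g 1 1 * (repCorner p y : ℤ) : ℤ) : ℝ) := by
      push_cast; linarith
    exact_mod_cast this
  have := congrArg (Int.cast : ℤ → ZMod M) hZ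
  push_cast at this
  rw [((Gamma1_mem M γ).mp hγ).2.1, Gamma0_mem.mp hg] at this
  simpa using this

variable (M p) in
/-- The coset system of `T_p` on `Γ₁(M)`, `p ∤ M`. -/
def gamma1System (hpM : ¬ p ∣ M) : CosetSystem (Gamma1 M) (Idx p) where
  β x := mapGL ℝ (cornerSL ((hp.out.coprime_iff_not_dvd).mpr hpM) x) * rep p x
  exists_mul γ x := by
    have hcop := (hp.out.coprime_iff_not_dvd).mpr hpM
    obtain ⟨⟨y, g⟩, hg⟩ := HeckeLattice.exists_rep_mul hpM ⟨γ, Gamma1_in_Gamma0 M γ.2⟩ x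
    refine ⟨(y, ⟨cornerSL hcop x * g * (cornerSL hcop y)⁻¹, mul_inv_mem_Gamma1
      ((Gamma0 M).mul_mem (cornerSL_mem hcop x) g.2) (cornerSL_mem hcop y) ?_⟩), ?_⟩
    · have hu : IsUnit (repCorner p y : ZMod M) := by
        refine (ZMod.isUnit_iff_coprime _ _).mpr ?_
        cases y using OnePoint.rec with
        | infty => simp [repCorner]
        | coe j => simpa [repCorner] using hcop
      refine hu.mul_left_injective ?_
      have hg0 : (((g : SL(2, ℤ)) 1 0 : ℤ) : ZMod M) = 0 := Gamma0_mem.mp g.2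
      have hc := corner_of_rep_mul hpM γ.2 g.2 hg
      have hx0 : ((cornerSL hcop x 1 0 : ℤ) : ZMod M) = 0 := Gamma0_mem.mp (cornerSL_mem hcop x)
      simp only [coe_mul, Matrix.mul_apply, Fin.sum_univ_two, Int.cast_add, Int.cast_mul, hx0,
        zero_mul, zero_add, mul_assoc, ← hc, cornerSL_mul_repCorner]
    · change mapGL ℝ (cornerSL _ x) * rep p x * mapGL ℝ (γ : SL(2, ℤ)) =
        mapGL ℝ (cornerSL hcop x * (g : SL(2, ℤ)) * (cornerSL hcop y)⁻¹) *
          (mapGL ℝ (cornerSL _ y) * rep p y)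
      have hg' : rep p x * mapGL ℝ (γ : SL(2, ℤ)) = mapGL ℝ (g : SL(2, ℤ)) * rep p y := hg
      rw [map_mul, map_mul, map_inv, mul_assoc, hg']
      group
  inj u x y h := by
    refine HeckeLattice.eq_of_mapGL_mul_rep
      ((cornerSL ((hp.out.coprime_iff_not_dvd).mpr hpM) y)⁻¹ * u *
        cornerSL ((hp.out.coprime_iff_not_dvd).mpr hpM) x) ?_
    rw [map_mul, map_mul, map_inv, mul_assoc, mul_assoc, h, inv_mul_cancel_left]

/-- The representatives at finite indices are the standard ones. -/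
lemma gamma1System_coe (hpM : ¬ p ∣ M) (j : ZMod p) :
    (gamma1System M p hpM).β (j : Idx p) = rep p (j : Idx p) := by
  simp [gamma1System, cornerSL]

/-- The representative at `∞` is corrected by a diamond matrix. -/
lemma gamma1System_infty (hpM : ¬ p ∣ M) :
    (gamma1System M p hpM).β ∞ =
      mapGL ℝ (diaSL ((hp.out.coprime_iff_not_dvd).mpr hpM)) * rep p ∞ := rfl

/-- The coset system at level `Γ₁(M)` is standard. -/
lemma isStandard_gamma1 (hpM : ¬ p ∣ M) : KummerES.IsStandard (gamma1System M p hpM) :=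
  fun x => ⟨cornerSL ((hp.out.coprime_iff_not_dvd).mpr hpM) x, x, rfl⟩

/-- The diamond automorphism at `p`. -/
def diaAut (M p : ℕ) : Gamma1 M →* Gamma1 M :=
  if h : p.Coprime M then diaConj ⟨diaSL h, diaSL_mem_Gamma0 h⟩ else MonoidHom.id _

omit hp in
/-- `diaAut` is conjugation by `diaSL`. -/
lemma diaAut_coe (h : p.Coprime M) (γ : Gamma1 M) :
    (diaAut M p γ : SL(2, ℤ)) = diaSL h * γ * (diaSL h)⁻¹ := by
  rw [diaAut, dif_pos h, diaConj_coe]

end Fermat.Agent.WeightOne
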