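import Fermat.Prelude.Thm_CuspFormClass_isZeroAt_heckeT
import Fermat.Prelude.Thm_CuspFormClass_isZeroAt_heckeU
import Fermat.Agent.WeightOne.Gamma1System
import Fermat.Agent.WeightOne.Nebentypus

/-!
# Diamond and Hecke operators on weight two cusp forms for `Γ₁(M)`

`dia d` is the slash by any element of `Γ₀(M)` with lower right entry `d`; `hecke1` is `T_p` for
`p ∤ M`, the sum over the coset system `gamma1System`. Its effect on `q`-coefficients is
`a(pn) + p · ⟨p⟩a(n/p)`, and all these operators commute.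
-/

set_option autoImplicit false

noncomputable section

namespace Fermat.Agent.WeightOne

open CongruenceSubgroup UpperHalfPlane Matrix.SpecialLinearGroup CuspIntStr
open ModularForm (heckeMatrix heckeDiagMatrix heckeU heckeT)
open HeckeLattice (Idx rep toGL)
open scoped MatrixGroups ModularForm OnePoint

local notation "qC" => ModularFormClass.qCoeff

variable {M : ℕ} [NeZero M]

/-! ### Linearity and injectivity of the coefficients -/

/-- A form on `Γ₁(M)` as a nice function. -/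
def gamma1Nice {k : ℤ} (g : CuspForm (Gamma1 M) k) : niceAlg :=
  ⟨g, form_mem_niceAlg (one_mem_strictPeriods_Gamma1 M) g⟩

omit [NeZero M] in
/-- `q`-coefficients as coefficients of the expansion homomorphism. -/
lemma qCoeff_eq_coeff {k : ℤ} (g : CuspForm (Gamma1 M) k) (n : ℕ) :
    qC g n = PowerSeries.coeff n (qHom (gamma1Nice g)) := rfl

omit [NeZero M] in
/-- `q`-coefficients are additive. -/
lemma qCoeff1_add {k : ℤ} (g h : CuspForm (Gamma1 M) k) (n : ℕ) :
    qC (g + h : CuspForm (Gamma1 M) k) n = qC g n + qC h n := by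
  rw [qCoeff_eq_coeff, show gamma1Nice (g + h) = gamma1Nice g + gamma1Nice h from Subtype.ext rfl,
    map_add, map_add]
  rfl

omit [NeZero M] in
/-- `q`-coefficients are homogeneous. -/
lemma qCoeff1_smul {k : ℤ} (c : ℂ) (g : CuspForm (Gamma1 M) k) (n : ℕ) :
    qC (c • g : CuspForm (Gamma1 M) k) n = c * qC g n := by
  rw [qCoeff_eq_coeff, show gamma1Nice (c • g) = c • gamma1Nice g from Subtype.ext rfl,
    map_smul, map_smul]
  rfl

omit [NeZero M] in
/-- A form on `Γ₁(M)` is determined by its coefficients. -/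
theorem eq_of_qCoeff1_eq {k : ℤ} {g h : CuspForm (Gamma1 M) k} (H : ∀ n, qC g n = qC h n) :
    g = h := by
  refine DFunLike.coe_injective ?_
  have := qHom_injective (a₁ := gamma1Nice g) (a₂ := gamma1Nice h) (PowerSeries.ext H)
  exact congrArg Subtype.val this

/-! ### Diamond operators -/

omit [NeZero M] in
lemma slash_eq_slash_of_class {k : ℤ} (g : CuspForm (Gamma1 M) k) {γ δ : SL(2, ℤ)}
    (hγ : γ ∈ Gamma0 M) (hδ : δ ∈ Gamma0 M)
    (h : ((γ 1 1 : ℤ) : ZMod M) = ((δ 1 1 : ℤ) : ZMod M)) :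
    ⇑g ∣[k] (mapGL ℝ γ : GL (Fin 2) ℝ) = ⇑g ∣[k] (mapGL ℝ δ : GL (Fin 2) ℝ) := by
  conv_lhs => rw [show γ = γ * δ⁻¹ * δ by group, map_mul, SlashAction.slash_mul,
    slash_mapGL_Gamma1 g (mul_inv_mem_Gamma1 hγ hδ h)]

/-- The chosen element of `Γ₀(M)` of class `d`. -/
def diaRep (d : (ZMod M)ˣ) : Gamma0 M :=
  ⟨diaSL (ZMod.val_coe_unit_coprime d), diaSL_mem_Gamma0 _⟩

/-- `diaRep d` has lower right entry `d` modulo `M`. -/
lemma diaRep_class (d : (ZMod M)ˣ) :
    (((diaRep d : SL(2, ℤ)) 1 1 : ℤ) : ZMod M) = (d : ZMod M) := by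
  simp [diaRep, diaSL_one_one]

/-- One diamond operator, as a linear map. -/
def diaLin (d : (ZMod M)ˣ) : Module.End ℂ (CuspForm (Gamma1 M) 2) where
  toFun g := gamma0Translate g _ (diaRep d).2
  map_add' g h := DFunLike.coe_injective <| by
    change (⇑g + ⇑h) ∣[(2 : ℤ)] (mapGL ℝ (diaRep d : SL(2, ℤ)) : GL (Fin 2) ℝ) = _
    rw [SlashAction.add_slash]
    rfl
  map_smul' c g := DFunLike.coe_injective <| by
    change (c • ⇑g) ∣[(2 : ℤ)] (diaRep d : SL(2, ℤ)) =
      c • (⇑g ∣[(2 : ℤ)] (diaRep d : SL(2, ℤ)))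
    rw [ModularForm.SL_smul_slash]

lemma coe_diaLin (d : (ZMod M)ˣ) (g : CuspForm (Gamma1 M) 2) {γ : SL(2, ℤ)} (hγ : γ ∈ Gamma0 M)
    (h : ((γ 1 1 : ℤ) : ZMod M) = d) :
    ⇑(diaLin d g) = ⇑g ∣[(2 : ℤ)] (mapGL ℝ γ : GL (Fin 2) ℝ) :=
  slash_eq_slash_of_class g (diaRep d).2 hγ ((diaRep_class d).trans h.symm)

variable (M) in
/-- The diamond operators on `S₂(Γ₁(M))`. -/
def dia : (ZMod M)ˣ →* Module.End ℂ (CuspForm (Gamma1 M) 2) where
  toFun := diaLin
  map_one' := LinearMap.ext fun g => DFunLike.coe_injective <| by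
    rw [coe_diaLin 1 g (one_mem _) (by simp), map_one, SlashAction.slash_one]
    rfl
  map_mul' d e := LinearMap.ext fun g => DFunLike.coe_injective <| by
    rw [coe_diaLin (d * e) g ((Gamma0 M).mul_mem (diaRep e).2 (diaRep d).2) ?_, map_mul,
      SlashAction.slash_mul]
    · rfl
    · simp only [coe_mul, Matrix.mul_apply, Fin.sum_univ_two, Int.cast_add, Int.cast_mul,
        Gamma0_mem.mp (diaRep e).2, zero_mul, zero_add, diaRep_class]
      rw [mul_comm]; push_cast; rfl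

/-- The diamond operator is the slash by any element of its class. -/
theorem coe_dia (d : (ZMod M)ˣ) (g : CuspForm (Gamma1 M) 2) {γ : SL(2, ℤ)} (hγ : γ ∈ Gamma0 M)
    (h : ((γ 1 1 : ℤ) : ZMod M) = d) :
    ⇑(dia M d g) = ⇑g ∣[(2 : ℤ)] (mapGL ℝ γ : GL (Fin 2) ℝ) :=
  coe_diaLin d g hγ h

/-! ### The operators `T_p` -/

variable {p : ℕ} [hp : Fact p.Prime]

/-- The class of a prime not dividing `M`. -/
def primeUnit (hpM : ¬ p ∣ M) : (ZMod M)ˣ :=
  ZMod.unitOfCoprime p ((hp.out.coprime_iff_not_dvd).mpr hpM)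

omit [NeZero M] in
/-- `primeUnit` is `p` modulo `M`. -/
lemma coe_primeUnit (hpM : ¬ p ∣ M) : ((primeUnit hpM : (ZMod M)ˣ) : ZMod M) = p :=
  ZMod.coe_unitOfCoprime _ _

omit [NeZero M] in
/-- The coset representatives are permuted by `Γ₀(M)`, preserving the class. -/
lemma exists_system_mul_Gamma0 (hpM : ¬ p ∣ M) {δ : SL(2, ℤ)} (hδ : δ ∈ Gamma0 M) (x : Idx p) :
    ∃ (y : Idx p) (g : SL(2, ℤ)), g ∈ Gamma0 M ∧
      ((g 1 1 : ℤ) : ZMod M) = ((δ 1 1 : ℤ) : ZMod M) ∧
      (gamma1System M p hpM).β x * mapGL ℝ δ = mapGL ℝ g * (gamma1System M p hpM).β y := by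
  have hcop := (hp.out.coprime_iff_not_dvd).mpr hpM
  obtain ⟨⟨y, ⟨g, hg0⟩⟩, hg⟩ := HeckeLattice.exists_rep_mul hpM ⟨δ, hδ⟩ x
  have hg' : rep p x * mapGL ℝ δ = mapGL ℝ g * rep p y := hg
  have hclass : (repCorner p x : ZMod M) * ((δ 1 1 : ℤ) : ZMod M) =
      ((g 1 1 : ℤ) : ZMod M) * (repCorner p y : ZMod M) := by
    obtain ⟨hx0, hx1, -⟩ := rep_one_zero hp.out.ne_zero x
    obtain ⟨-, hy1, e, he⟩ := rep_one_zero hp.out.ne_zero y
    have h11 := congrArg (fun A : GL (Fin 2) ℝ => (A : Matrix (Fin 2) (Fin 2) ℝ) 1 1) hg'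
    simp only [Units.val_mul, Matrix.mul_apply, Fin.sum_univ_two, mapGL_coe_matrix, map_apply_coe,
      RingHom.mapMatrix_apply, Matrix.map_apply, algebraMap_int_eq, eq_intCast, hx0, hx1, hy1,
      he] at h11
    have hZ : (repCorner p x : ℤ) * δ 1 1 = g 1 0 * e + g 1 1 * (repCorner p y : ℤ) := by
      have : ((((repCorner p x : ℤ) * δ 1 1 : ℤ)) : ℝ) =
          ((g 1 0 * e + g 1 1 * (repCorner p y : ℤ) : ℤ) : ℝ) := by
        push_cast; linarith
      exact_mod_cast this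
    have := congrArg (Int.cast : ℤ → ZMod M) hZ
    push_cast at this
    rwa [Gamma0_mem.mp hg0, zero_mul, zero_add] at this
  set g' := cornerSL hcop x * g * (cornerSL hcop y)⁻¹
  have hg'0 : g' ∈ Gamma0 M :=
    (Gamma0 M).mul_mem ((Gamma0 M).mul_mem (cornerSL_mem hcop x) hg0)
      ((Gamma0 M).inv_mem (cornerSL_mem hcop y))
  refine ⟨y, g', hg'0, ?_, ?_⟩
  · have hy : IsUnit (((cornerSL hcop y 1 1 : ℤ) : ZMod M) * repCorner p y) := by
      rw [cornerSL_mul_repCorner]
      exact (ZMod.isUnit_iff_coprime _ _).mpr hcop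
    refine hy.mul_left_injective ?_
    have hkey : g' * cornerSL hcop y = cornerSL hcop x * g := by simp [g']
    have := congrArg (fun A : SL(2, ℤ) => ((A 1 1 : ℤ) : ZMod M)) hkey
    simp only [coe_mul, Matrix.mul_apply, Fin.sum_univ_two, Int.cast_add, Int.cast_mul,
      Gamma0_mem.mp hg'0, Gamma0_mem.mp (cornerSL_mem hcop x), zero_mul, zero_add] at this
    have hx := cornerSL_mul_repCorner hcop x
    have hy' := cornerSL_mul_repCorner hcop y
    linear_combination (repCorner p y : ZMod M) * this - (cornerSL hcop x 1 1 : ZMod M) * hclass +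
      ((δ 1 1 : ℤ) : ZMod M) * (hx - hy')
  · change mapGL ℝ (cornerSL _ x) * rep p x * mapGL ℝ δ =
      mapGL ℝ (cornerSL hcop x * g * (cornerSL hcop y)⁻¹) * (mapGL ℝ (cornerSL _ y) * rep p y)
    rw [map_mul, map_mul, map_inv, mul_assoc, hg']
    group

/-- The function `T_p g`. -/
def hecke1Fun (hpM : ¬ p ∣ M) (g : CuspForm (Gamma1 M) 2) : ℍ → ℂ :=
  heckeU 2 p ⇑g + (⇑(dia M (primeUnit hpM) g) ∣[(2 : ℤ)] heckeDiagMatrix p)

lemma hecke1Fun_eq_sum (hpM : ¬ p ∣ M) (g : CuspForm (Gamma1 M) 2) :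
    hecke1Fun hpM g = ∑ x : Idx p, ⇑g ∣[(2 : ℤ)] (gamma1System M p hpM).β x := by
  have hsum : ∀ F : Idx p → ℍ → ℂ, ∑ x, F x = F ∞ + ∑ j : ZMod p, F (j : Idx p) := fun F =>
    Fintype.sum_option F
  have hcop := (hp.out.coprime_iff_not_dvd).mpr hpM
  rw [hsum, gamma1System_infty, SlashAction.slash_mul, hecke1Fun, add_comm,
    coe_dia _ g (diaSL_mem_Gamma0 hcop)
      (by rw [diaSL_one_one, coe_primeUnit]; simp)]
  congr 1
  simp only [gamma1System_coe]
  rw [heckeU, Finset.sum_range]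
  exact (Equiv.sum_comp (ZMod.finEquiv p).toEquiv
    (fun j : ZMod p => ⇑g ∣[(2 : ℤ)] heckeMatrix p j.val)).symm.trans
      (Finset.sum_congr rfl fun i _ => by cases p with
        | zero => exact absurd hp.out Nat.not_prime_zero
        | succ n => rfl) |>.symm

lemma hecke1Fun_slash (hpM : ¬ p ∣ M) (g : CuspForm (Gamma1 M) 2) (d : (ZMod M)ˣ) {δ : SL(2, ℤ)}
    (hδ : δ ∈ Gamma0 M) (h : ((δ 1 1 : ℤ) : ZMod M) = d) :
    hecke1Fun hpM g ∣[(2 : ℤ)] (mapGL ℝ δ : GL (Fin 2) ℝ) = hecke1Fun hpM (dia M d g) := by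
  choose σ u hu0 hu1 hu using exists_system_mul_Gamma0 hpM hδ
  have hinj : Function.Injective σ := by
    intro x y hxy
    refine (gamma1System M p hpM).inj (u y * (u x)⁻¹) x y ?_
    have hx := hu x
    rw [hxy] at hx
    refine mul_right_cancel (b := mapGL ℝ δ) ?_
    rw [mul_assoc, hx, hu y, map_mul, map_inv]
    group
  rw [hecke1Fun_eq_sum, hecke1Fun_eq_sum, SlashAction.sum_slash]
  refine (Finset.sum_congr rfl fun x _ => ?_).trans
    (Equiv.sum_comp (Equiv.ofBijective σ (Finite.injective_iff_bijective.mp hinj))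
      fun y => ⇑(dia M d g) ∣[(2 : ℤ)] (gamma1System M p hpM).β y)
  rw [Equiv.ofBijective_apply, ← SlashAction.slash_mul, hu x, SlashAction.slash_mul,
    coe_dia d g (hu0 x) ((hu1 x).trans h)]

lemma isZeroAt_hecke1Fun (hpM : ¬ p ∣ M) (g : CuspForm (Gamma1 M) 2) {c : OnePoint ℝ}
    (hc : IsCusp c ((Gamma1 M).map (mapGL ℝ))) :
    c.IsZeroAt (hecke1Fun hpM g) 2 := by
  set g' := dia M (primeUnit hpM) g
  have hU := CuspFormClass.isZeroAt_heckeU g p hc
  have hT' := CuspFormClass.isZeroAt_heckeT g' p hc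
  have hU' := CuspFormClass.isZeroAt_heckeU ((-1 : ℂ) • g') p hc
  have he : hecke1Fun hpM g =
      heckeU 2 p ⇑g + (heckeT 2 p ⇑g' + heckeU 2 p ⇑((-1 : ℂ) • g')) := by
    rw [FunLike.coe_smul, neg_one_smul, ModularForm.heckeU_neg,
      ModularForm.heckeT_eq_heckeU_add, hecke1Fun]
    abel
  rw [he]
  exact hU.add (hT'.add hU')

/-- The Hecke operator `T_p` on `S₂(Γ₁(M))`, `p ∤ M`. -/
def hecke1 (hpM : ¬ p ∣ M) : Module.End ℂ (CuspForm (Gamma1 M) 2) where
  toFun g :=
    { toFun := hecke1Fun hpM g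
      slash_action_eq' := fun x hx => by
        obtain ⟨δ, hδ, rfl⟩ := hx
        rw [hecke1Fun_slash hpM g 1 (Gamma1_in_Gamma0 M hδ)
          (by rw [((Gamma1_mem M δ).mp hδ).2.1, Units.val_one]), map_one]
        rfl
      holo' := (ModularForm.mdifferentiable_heckeU (ModularFormClass.holo g) 2 p).add
        ((ModularFormClass.holo (dia M (primeUnit hpM) g)).slash 2 _)
      zero_at_cusps' := fun hc => isZeroAt_hecke1Fun hpM g hc }
  map_add' g h := DFunLike.coe_injective <| by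
    change hecke1Fun hpM (g + h) = hecke1Fun hpM g + hecke1Fun hpM h
    simp only [hecke1Fun, map_add, FunLike.coe_add, ModularForm.heckeU_add, SlashAction.add_slash]
    abel
  map_smul' c g := DFunLike.coe_injective <| by
    change hecke1Fun hpM (c • g) = c • hecke1Fun hpM g
    simp only [hecke1Fun, map_smul, FunLike.coe_smul, ModularForm.heckeU_smul,
      ModularForm.smul_slash, ModularForm.σ_heckeDiagMatrix, ContinuousAlgEquiv.refl_apply,
      smul_add]

/-- `T_p` is the sum of the slashes by the representatives of the coset system. -/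
theorem coe_hecke1_eq_sum (hpM : ¬ p ∣ M) (g : CuspForm (Gamma1 M) 2) :
    ⇑(hecke1 hpM g) = ∑ x : Idx p, ⇑g ∣[(2 : ℤ)] (gamma1System M p hpM).β x :=
  hecke1Fun_eq_sum hpM g

/-- The effect of `T_p` on `q`-coefficients. -/
theorem qCoeff_hecke1 (hpM : ¬ p ∣ M) (g : CuspForm (Gamma1 M) 2) (n : ℕ) :
    qC (hecke1 hpM g) n = qC g (p * n) +
      p * (if p ∣ n then qC (dia M (primeUnit hpM) g) (n / p) else 0) := by
  set g' := dia M (primeUnit hpM) g
  have h1 := one_mem_strictPeriods_Gamma1 M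
  let U : ∀ f : CuspForm (Gamma1 M) 2, niceAlg := fun f => ⟨heckeU 2 p ⇑f,
    ModularForm.periodic_heckeU_comp_ofComplex (form_mem_niceAlg h1 f).1 2 p,
    ModularForm.mdifferentiable_heckeU (form_mem_niceAlg h1 f).2.1 2 p,
    ModularForm.isBoundedAtImInfty_heckeU (form_mem_niceAlg h1 f).2.2 2 p⟩
  let T : niceAlg := ⟨heckeT 2 p ⇑g', ModularForm.periodic_heckeT_comp_ofComplex
    (form_mem_niceAlg h1 g').1 2 p, ModularForm.mdifferentiable_heckeT
    (form_mem_niceAlg h1 g').2.1 2 p, ModularForm.isBoundedAtImInfty_heckeT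
    (form_mem_niceAlg h1 g').2.2 2 p⟩
  have key : gamma1Nice (hecke1 hpM g) = U g + (T - U g') := by
    refine Subtype.ext ?_
    change hecke1Fun hpM g = heckeU 2 p ⇑g + (heckeT 2 p ⇑g' - heckeU 2 p ⇑g')
    rw [ModularForm.heckeT_eq_heckeU_add, add_sub_cancel_left]
    rfl
  rw [qCoeff_eq_coeff, key, map_add, map_sub, map_add, map_sub]
  change qC (heckeU 2 p ⇑g) n + (qC (heckeT 2 p ⇑g') n - qC (heckeU 2 p ⇑g') n) = _
  rw [ModularFormClass.qCoeff_heckeT g' h1 hp.out.ne_zero,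
    ModularFormClass.qCoeff_heckeU g h1 hp.out.ne_zero,
    ModularFormClass.qCoeff_heckeU g' h1 hp.out.ne_zero,
    ModularForm.coeffHeckeT_eq_coeffHeckeU_add, ModularForm.coeffHeckeU_apply, mul_comm n p]
  split_ifs <;> norm_num

/-- Diamond operators commute with `T_p`. -/
theorem dia_hecke1_comm (hpM : ¬ p ∣ M) (d : (ZMod M)ˣ) :
    Commute (dia M d) (hecke1 hpM) :=
  LinearMap.ext fun g => DFunLike.coe_injective <| by
    rw [Module.End.mul_apply, Module.End.mul_apply,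
      coe_dia d _ (diaRep d).2 (diaRep_class d)]
    exact hecke1Fun_slash hpM g d (diaRep d).2 (diaRep_class d)

/-- The operators `T_p` commute. -/
theorem hecke1_comm {q : ℕ} [hq : Fact q.Prime] (hpM : ¬ p ∣ M) (hqM : ¬ q ∣ M) :
    Commute (hecke1 hpM) (hecke1 hqM) := by
  rcases eq_or_ne p q with rfl | hne
  · exact Commute.refl _
  have hpq : p.Coprime q := (Nat.coprime_primes hp.out hq.out).mpr hne
  refine LinearMap.ext fun g => eq_of_qCoeff1_eq fun n => ?_
  rw [Module.End.mul_apply, Module.End.mul_apply]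
  have hcp : dia M (primeUnit hpM) (hecke1 hqM g) = hecke1 hqM (dia M (primeUnit hpM) g) :=
    LinearMap.congr_fun (dia_hecke1_comm hqM (primeUnit hpM)).eq g
  have hcq : dia M (primeUnit hqM) (hecke1 hpM g) = hecke1 hpM (dia M (primeUnit hqM) g) :=
    LinearMap.congr_fun (dia_hecke1_comm hpM (primeUnit hqM)).eq g
  have hdd : dia M (primeUnit hqM) (dia M (primeUnit hpM) g) =
      dia M (primeUnit hpM) (dia M (primeUnit hqM) g) := by
    rw [← Module.End.mul_apply, ← map_mul, mul_comm, map_mul, Module.End.mul_apply]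
  simp only [qCoeff_hecke1, hcp, hcq, hdd]
  have e1 : q ∣ p * n ↔ q ∣ n := hpq.symm.dvd_mul_left
  have e2 : p ∣ q * n ↔ p ∣ n := hpq.dvd_mul_left
  simp only [e1, e2, mul_left_comm q p n]
  by_cases hpn : p ∣ n <;> by_cases hqn : q ∣ n
  · obtain ⟨m, rfl⟩ : p * q ∣ n := hpq.mul_dvd_of_dvd_of_dvd hpn hqn
    have hp0 := hp.out.pos
    have hq0 := hq.out.pos
    have d1 : p * q * m / p = q * m := by rw [mul_assoc, Nat.mul_div_cancel_left _ hp0]
    have d2 : p * q * m / q = p * m := by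
      rw [mul_comm p q, mul_assoc, Nat.mul_div_cancel_left _ hq0]
    have d3 : q * (p * q * m) / p = q * (q * m) := by
      rw [show q * (p * q * m) = p * (q * (q * m)) by ring, Nat.mul_div_cancel_left _ hp0]
    have d4 : p * (p * q * m) / q = p * (p * m) := by
      rw [show p * (p * q * m) = q * (p * (p * m)) by ring, Nat.mul_div_cancel_left _ hq0]
    simp only [if_pos hpn, if_pos hqn, d1, d2, d3, d4, Nat.mul_div_cancel_left _ hp0,
      Nat.mul_div_cancel_left _ hq0, dvd_mul_right, if_true]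
    ring
  · have h' : ¬ q ∣ n / p := fun h => hqn (h.trans (Nat.div_dvd_of_dvd hpn))
    simp only [if_pos hpn, if_neg hqn, if_neg h', Nat.mul_div_assoc q hpn]
    ring
  · have h' : ¬ p ∣ n / q := fun h => hpn (h.trans (Nat.div_dvd_of_dvd hqn))
    simp only [if_neg hpn, if_pos hqn, if_neg h', Nat.mul_div_assoc p hqn]
    ring
  · simp only [if_neg hpn, if_neg hqn]
    ring

end Fermat.Agent.WeightOne
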