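import Mathlib.NumberTheory.ModularForms.EisensteinSeries.QExpansion

/-!
# A weight three Eisenstein series with character

`charEis χ z = ∑_{(c, d) ∈ ℤ²} χ(c) (c z + d)⁻³`, a modular form on `Γ₁(N)` with
`charEis χ | γ = χ(d) charEis χ` on `Γ₀(N)`; for odd `χ` its `q`-expansion is a constant times
`∑ (∑_{c ∣ n} χ(c) (n/c)²) qⁿ`.
-/

set_option autoImplicit false

noncomputable section

namespace Fermat.Agent.WeightOne

open UpperHalfPlane EisensteinSeries CongruenceSubgroup Matrix.SpecialLinearGroup Filter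
open scoped MatrixGroups ModularForm Topology Manifold Real

variable {N : ℕ}

/-- The Eisenstein series of weight `3` with character `χ`. -/
def charEis (χ : DirichletCharacter ℂ N) (z : ℍ) : ℂ :=
  ∑' v : Fin 2 → ℤ, χ (v 0 : ZMod N) * eisSummand 3 v z

/-- The divisor sum in the `q`-expansion of `charEis`. -/
def charSigma (χ : DirichletCharacter ℂ N) (n : ℕ) : ℂ :=
  ∑ c ∈ n.divisors, χ (c : ZMod N) * ((n / c : ℕ) : ℂ) ^ 2

/-- The twisted divisor sum vanishes at `0`. -/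
lemma charSigma_zero (χ : DirichletCharacter ℂ N) : charSigma χ 0 = 0 := by simp [charSigma]

/-- The twisted divisor sum is `1` at `1`. -/
lemma charSigma_one (χ : DirichletCharacter ℂ N) : charSigma χ 1 = 1 := by simp [charSigma]

/-- The constant in the `q`-expansion of `charEis`. -/
def charEisConst : ℂ := 2 * ((-2 * π * Complex.I) ^ 3 / (2 : ℕ).factorial)

/-- The constant `charEisConst` is nonzero. -/
lemma charEisConst_ne_zero : charEisConst ≠ 0 := by
  simp [charEisConst, Real.pi_ne_zero, Nat.factorial]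

variable (χ : DirichletCharacter ℂ N)

/-- A twisted Eisenstein summand is bounded by the untwisted one. -/
lemma norm_term_le (v : Fin 2 → ℤ) (z : ℍ) :
    ‖χ (v 0 : ZMod N) * eisSummand 3 v z‖ ≤ ‖eisSummand 3 v z‖ := by
  rw [norm_mul]
  exact mul_le_of_le_one_left (norm_nonneg _) (χ.norm_le_one _)

/-- The twisted Eisenstein series of weight `3` converges absolutely. -/
lemma summable_term (z : ℍ) :
    Summable fun v : Fin 2 → ℤ ↦ χ (v 0 : ZMod N) * eisSummand 3 v z :=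
  .of_norm_bounded (summable_norm_eisSummand le_rfl z) fun v ↦ norm_term_le χ v z

/-- Right multiplication by `γ`. -/
def vecMulEquiv (γ : SL(2, ℤ)) : (Fin 2 → ℤ) ≃ (Fin 2 → ℤ) where
  toFun v := Matrix.vecMul v (γ : Matrix (Fin 2) (Fin 2) ℤ)
  invFun v := Matrix.vecMul v (↑γ⁻¹ : Matrix (Fin 2) (Fin 2) ℤ)
  left_inv v := by simp [Matrix.vecMul_vecMul, Matrix.mul_adjugate, γ.det_coe]
  right_inv v := by simp [Matrix.vecMul_vecMul, Matrix.adjugate_mul, γ.det_coe]

/-- The translate of `charEis` by any element of `SL(2, ℤ)`. -/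
lemma charEis_slash (γ : SL(2, ℤ)) (z : ℍ) :
    (charEis χ ∣[(3 : ℤ)] γ) z =
      ∑' v : Fin 2 → ℤ, χ (v 0 : ZMod N) * eisSummand 3 (vecMulEquiv γ v) z := by
  rw [ModularForm.SL_slash_apply, charEis, ← tsum_mul_right]
  refine tsum_congr fun v ↦ ?_
  have h := zpow_ne_zero (3 : ℤ) (denom_ne_zero (γ : GL (Fin 2) ℝ) z)
  rw [eisSummand_SL2_apply, zpow_neg, vecMulEquiv, Equiv.coe_fn_mk]
  field_simp

lemma norm_charEis_slash_le (γ : SL(2, ℤ)) (z : ℍ) :
    ‖(charEis χ ∣[(3 : ℤ)] γ) z‖ ≤ ∑' v : Fin 2 → ℤ, ‖eisSummand 3 v z‖ := by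
  rw [charEis_slash, ← (vecMulEquiv γ).tsum_eq (fun v ↦ ‖eisSummand 3 v z‖)]
  refine tsum_of_norm_bounded ((vecMulEquiv γ).summable_iff.mpr
    (summable_norm_eisSummand le_rfl z)).hasSum fun v ↦ ?_
  rw [norm_mul]
  exact mul_le_of_le_one_left (norm_nonneg _) (χ.norm_le_one _)

lemma normSum_T_zpow (n : ℤ) (z : ℍ) :
    ∑' v : Fin 2 → ℤ, ‖eisSummand 3 v (ModularGroup.T ^ n • z)‖ =
      ∑' v : Fin 2 → ℤ, ‖eisSummand 3 v z‖ := by
  rw [← (vecMulEquiv (ModularGroup.T ^ n)).tsum_eq (fun v ↦ ‖eisSummand 3 v z‖)]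
  refine tsum_congr fun v ↦ ?_
  rw [eisSummand_SL2_apply]
  simp [denom, ModularGroup.coe_T_zpow, vecMulEquiv, -zpow_natCast, -map_zpow]

/-- Every translate of `charEis` is bounded at `i∞`. -/
lemma isBoundedAtImInfty_charEis_slash (γ : SL(2, ℤ)) :
    IsBoundedAtImInfty (charEis χ ∣[(3 : ℤ)] γ) := by
  rw [isBoundedAtImInfty_iff]
  have hk' : (2 : ℝ) < ((3 : ℤ) : ℝ) := by norm_num
  refine ⟨∑' v : Fin 2 → ℤ, r ⟨⟨1, 2⟩, Nat.ofNat_pos⟩ ^ (-(3 : ℤ)) * ‖v‖ ^ (-(3 : ℤ)), 2,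
    fun z hz ↦ ?_⟩
  obtain ⟨n, hn⟩ := ModularGroup_T_zpow_mem_verticalStrip z Nat.one_pos
  refine (norm_charEis_slash_le χ γ z).trans ?_
  rw [← normSum_T_zpow ((1 : ℕ) * n) z]
  refine (summable_norm_eisSummand le_rfl _).tsum_le_tsum (fun v ↦ ?_) ?_
  · simp_rw [eisSummand, norm_zpow]
    exact_mod_cast summand_bound_of_mem_verticalStrip (k := ((3 : ℤ) : ℝ)) (by norm_num) v two_pos
      (verticalStrip_anti_right 1 hz (by simpa using hn))
  · exact_mod_cast (summable_one_div_norm_rpow hk').mul_left <|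
      r ⟨⟨1, 2⟩, Nat.ofNat_pos⟩ ^ (-(3 : ℤ))

/-- `charEis` is holomorphic. -/
lemma mdifferentiable_charEis : MDiff (charEis χ) := by
  rw [UpperHalfPlane.mdifferentiable_iff]
  intro w hw
  set A : ℝ := |w.re| + 1
  set B : ℝ := w.im / 2
  have hB : 0 < B := half_pos hw
  set U : Set ℂ := {z : ℂ | |z.re| < A ∧ B < z.im}
  have hU : IsOpen U := (isOpen_lt (Complex.continuous_re.abs) continuous_const).inter
    (isOpen_lt continuous_const Complex.continuous_im)
  have hwU : w ∈ U := ⟨lt_add_one _, half_lt_self hw⟩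
  have hk' : (2 : ℝ) < ((3 : ℤ) : ℝ) := by norm_num
  have hdiff : DifferentiableOn ℂ (fun z : ℂ ↦ ∑' v : Fin 2 → ℤ,
      χ (v 0 : ZMod N) * eisSummand 3 v (ofComplex z)) U := by
    refine Complex.differentiableOn_tsum_of_summable_norm
      (u := fun v : Fin 2 → ℤ ↦ r ⟨⟨A, B⟩, hB⟩ ^ (-(3 : ℤ)) * ‖v‖ ^ (-(3 : ℤ))) ?_ ?_ hU ?_
    · exact_mod_cast (summable_one_div_norm_rpow hk').mul_left <| r ⟨⟨A, B⟩, hB⟩ ^ (-(3 : ℤ))
    · intro v
      refine DifferentiableOn.const_mul ?_ _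
      exact (eisSummand_extension_differentiableOn 3 v).mono fun z hz ↦ hB.trans hz.2
    · intro v z hz
      have him : 0 < z.im := hB.trans hz.2
      refine (norm_term_le χ v _).trans ?_
      rw [ofComplex_apply_of_im_pos him]
      simp_rw [eisSummand, norm_zpow]
      exact_mod_cast summand_bound_of_mem_verticalStrip (k := ((3 : ℤ) : ℝ)) (by norm_num) v hB
        (⟨hz.1.le, hz.2.le⟩ : (⟨z, him⟩ : ℍ) ∈ verticalStrip A B)
  exact ((hdiff w hwU).differentiableAt (hU.mem_nhds hwU)).differentiableWithinAt.congr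
    (fun _ _ ↦ rfl) rfl

/-- The character transformation of `charEis` under `Γ₀(N)`. -/
lemma charEis_slash_Gamma0 {γ : SL(2, ℤ)} (hγ : γ ∈ Gamma0 N) :
    charEis χ ∣[(3 : ℤ)] γ = χ ((γ 1 1 : ℤ) : ZMod N) • charEis χ := by
  funext z
  rw [charEis_slash, Pi.smul_apply, smul_eq_mul, charEis, ← tsum_mul_left]
  conv_rhs => rw [← (vecMulEquiv γ).tsum_eq]
  refine tsum_congr fun v ↦ ?_
  have hdet := congrArg (Int.cast : ℤ → ZMod N) γ.det_coe
  rw [Matrix.det_fin_two] at hdet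
  push_cast at hdet
  rw [Gamma0_mem.mp hγ, mul_zero, sub_zero] at hdet
  have h0 : ((vecMulEquiv γ v 0 : ℤ) : ZMod N) = (v 0 : ZMod N) * ((γ 0 0 : ℤ) : ZMod N) := by
    simp [vecMulEquiv, Matrix.vecMul, dotProduct, Fin.sum_univ_two, Gamma0_mem.mp hγ]
  rw [h0, ← mul_assoc, ← map_mul, mul_left_comm, mul_comm ((γ 1 1 : ℤ) : ZMod N), hdet, mul_one]

variable [NeZero N]

/-- `charEis` as a modular form on `Γ₁(N)`. -/
def charEisForm : ModularForm (Gamma1 N) 3 where
  toFun := charEis χ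
  slash_action_eq' g hg := by
    obtain ⟨δ, hδ, rfl⟩ := hg
    change charEis χ ∣[(3 : ℤ)] δ = _
    rw [charEis_slash_Gamma0 χ (Gamma1_in_Gamma0 N hδ), ((Gamma1_mem N δ).mp hδ).2.1, map_one,
      one_smul]
  holo' := mdifferentiable_charEis χ
  bdd_at_cusps' {c} hc := by
    rw [Subgroup.IsArithmetic.isCusp_iff_isCusp_SL2Z] at hc
    rw [OnePoint.isBoundedAt_iff_forall_SL2Z hc]
    exact fun γ _ ↦ isBoundedAtImInfty_charEis_slash χ γ

omit [NeZero N] in
lemma charEis_eq (hχ : χ (-1) = -1) (z : ℍ) :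
    charEis χ z = charEisConst * ∑' n : ℕ+, charSigma χ n *
      Complex.exp (2 * π * Complex.I * z) ^ (n : ℕ) := by
  have hN : (1 : ℕ) ≠ N := by
    rintro rfl
    rw [Subsingleton.elim (-1 : ZMod 1) 1, map_one] at hχ
    norm_num at hχ
  have : Fact (1 < N) ∨ N = 0 := by
    rcases Nat.lt_or_ge N 2 with h | h
    · right; omega
    · exact Or.inl ⟨h⟩
  have h0 : χ ((0 : ℤ) : ZMod N) = 0 := by
    rw [Int.cast_zero]
    rcases this with h | h
    · exact MulChar.map_zero χ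
    · subst h; exact MulChar.map_zero χ
  set q := Complex.exp (2 * π * Complex.I * z)
  have hq : ‖q‖ < 1 := norm_exp_two_pi_I_lt_one z
  set F : ℤ → ℂ := fun c ↦ ∑' d : ℤ, χ (c : ZMod N) * eisSummand 3 ![c, d] z
  have hsum : Summable fun x : ℤ × ℤ ↦ χ (x.1 : ZMod N) * eisSummand 3 ![x.1, x.2] z :=
    (finTwoArrowEquiv ℤ).summable_iff.mp <| (summable_term χ z).congr fun v ↦ by
      simp [show ![v 0, v 1] = v from List.ofFn_inj.mp rfl]
  have heven : ∀ c : ℤ, F (-c) = F c := by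
    intro c
    simp only [F]
    conv_lhs => rw [← tsum_comp_neg]
    refine tsum_congr fun d ↦ ?_
    rw [show ((-c : ℤ) : ZMod N) = -1 * (c : ZMod N) by push_cast; ring, map_mul, hχ]
    simp only [eisSummand, Matrix.cons_val_zero, Matrix.cons_val_one, Int.cast_neg]
    rw [show -((c : ℤ) : ℂ) * (z : ℂ) + -((d : ℤ) : ℂ) = -((c : ℂ) * z + d) by ring,
      Odd.neg_zpow ⟨-2, by norm_num⟩]
    ring
  have hFsum : Summable F := by simpa [F] using hsum.prod
  have hpnat : ∀ c : ℕ+, F ((c : ℕ) : ℤ) = (-2 * π * Complex.I) ^ 3 / (2 : ℕ).factorial *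
      ∑' m : ℕ+, χ ((c : ℕ) : ZMod N) * ((m : ℂ) ^ 2 * q ^ ((c : ℕ) * m)) := by
    intro c
    have hcz : 0 < (((c : ℕ) : ℂ) * z).im := by
      simpa using mul_pos (Nat.cast_pos.mpr c.pos) z.im_pos
    have H := qExpansion_identity_pnat (k := 2) one_le_two ⟨((c : ℕ) : ℂ) * z, hcz⟩
    simp only [F, tsum_mul_left, Int.cast_natCast]
    rw [mul_left_comm]
    congr 1
    convert H using 1
    · refine tsum_congr fun d ↦ ?_
      simp [eisSummand, zpow_neg, one_div, add_comm]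
    · congr 1
      refine tsum_congr fun m ↦ ?_
      rw [show 2 * (π : ℂ) * Complex.I * (((c : ℕ) : ℂ) * z) =
        ((c : ℕ) : ℂ) * (2 * π * Complex.I * z) by ring, Complex.exp_nat_mul, ← pow_mul]
  rw [charEis, ← (finTwoArrowEquiv ℤ).symm.tsum_eq]
  simp only [finTwoArrowEquiv_symm_apply, Matrix.cons_val_zero]
  rw [Summable.tsum_prod hsum]
  change ∑' c, F c = _
  rw [tsum_int_eq_zero_add_two_mul_tsum_pnat heven hFsum,
    show F 0 = 0 by simp only [F, h0, zero_mul, tsum_zero], zero_add, tsum_congr hpnat,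
    tsum_mul_left, nsmul_eq_mul, Nat.cast_ofNat, ← mul_assoc]
  congr 1
  have hdd : Summable fun x : ℕ+ × ℕ+ ↦
      χ ((x.1 : ℕ) : ZMod N) * ((x.2 : ℂ) ^ 2 * q ^ ((x.1 : ℕ) * x.2)) := by
    refine .of_norm_bounded (summable_norm_iff.mpr (summable_prod_mul_pow (𝕜 := ℂ) 2 hq))
      fun x ↦ ?_
    rw [norm_mul]
    exact mul_le_of_le_one_left (norm_nonneg _) (χ.norm_le_one _)
  rw [← hdd.tsum_prod, ← sigmaAntidiagonalEquivProd.tsum_eq]
  have hs' : Summable fun x : Σ n : ℕ+, (n : ℕ).divisorsAntidiagonal ↦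
      χ (((sigmaAntidiagonalEquivProd x).1 : ℕ) : ZMod N) *
        (((sigmaAntidiagonalEquivProd x).2 : ℂ) ^ 2 *
          q ^ (((sigmaAntidiagonalEquivProd x).1 : ℕ) * (sigmaAntidiagonalEquivProd x).2)) :=
    sigmaAntidiagonalEquivProd.summable_iff.mpr hdd
  rw [hs'.tsum_sigma]
  refine tsum_congr fun n ↦ ?_
  rw [tsum_fintype, charSigma, Finset.sum_mul, ← Nat.sum_divisorsAntidiagonal
    (f := fun c m : ℕ ↦ χ (c : ZMod N) * (m : ℂ) ^ 2 * q ^ (n : ℕ))]
  conv_rhs => rw [← Finset.sum_coe_sort]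
  refine Finset.sum_congr rfl fun x _ ↦ ?_
  have hx := (Nat.mem_divisorsAntidiagonal.mp x.2).1
  simp [sigmaAntidiagonalEquivProd, divisorsAntidiagonalFactors, hx, mul_assoc]

omit [NeZero N] in
lemma summable_charSigma_mul_pow {q : ℂ} (hq : ‖q‖ < 1) :
    Summable fun n : ℕ ↦ charSigma χ n * q ^ n := by
  refine .of_norm_bounded (summable_norm_pow_mul_geometric_of_norm_lt_one 3 hq) fun n ↦ ?_
  rw [norm_mul, norm_mul, norm_pow, norm_pow, Complex.norm_natCast]
  gcongr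
  refine (norm_sum_le _ _).trans ?_
  calc ∑ c ∈ n.divisors, ‖χ (c : ZMod N) * ((n / c : ℕ) : ℂ) ^ 2‖
      ≤ ∑ _c ∈ n.divisors, (n : ℝ) ^ 2 := Finset.sum_le_sum fun c _ ↦ by
        rw [norm_mul, norm_pow, Complex.norm_natCast]
        refine (mul_le_of_le_one_left (by positivity) (χ.norm_le_one _)).trans ?_
        gcongr
        exact Nat.div_le_self _ _
    _ ≤ (n : ℝ) ^ 3 := by
        rw [Finset.sum_const, nsmul_eq_mul, show (n : ℝ) ^ 3 = (n : ℝ) * (n : ℝ) ^ 2 by ring]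
        gcongr
        exact Nat.card_divisors_le_self n

/-- The `q`-expansion of `charEis`. -/
theorem qCoeff_charEis (hχ : χ (-1) = -1) (n : ℕ) :
    (qExpansion 1 (charEis χ)).coeff n = charEisConst * charSigma χ n := by
  have h1 : (1 : ℝ) ∈ (Gamma1 N : Subgroup (GL (Fin 2) ℝ)).strictPeriods := by simp
  symm
  refine ModularFormClass.qExpansion_coeff_unique (f := charEisForm χ)
    (c := fun n ↦ charEisConst * charSigma χ n) one_pos h1 (fun τ ↦ ?_) n
  change HasSum _ (charEis χ τ)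
  rw [charEis_eq χ hχ τ]
  set q := Complex.exp (2 * π * Complex.I * τ)
  have hs := summable_charSigma_mul_pow χ (norm_exp_two_pi_I_lt_one τ)
  have : ∑' n : ℕ+, charSigma χ n * q ^ (n : ℕ) = ∑' n : ℕ, charSigma χ n * q ^ n := by
    rw [← tsum_zero_pnat_eq_tsum_nat hs, charSigma_zero, zero_mul, zero_add]
  rw [this, ← tsum_mul_left]
  have H := (hs.mul_left charEisConst).hasSum
  exact H.congr_fun fun m ↦ by simp [Function.Periodic.qParam, mul_assoc]

end Fermat.Agent.WeightOne
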