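import Fermat.Agent.CuspIntStr.Conjugate
import Fermat.Agent.CuspIntStr.Main
import Fermat.Agent.WeightOne.CharEisenstein
import Fermat.Agent.WeightOne.Nebentypus

/-!
# Galois conjugates and integrality of weight one eigenforms on `Γ₁(N)`

`f * charEis ε⁻¹ ∈ S₄(Γ₀(N))` and `f ^ φ(N) ∈ S_{φ(N)}(Γ₀(N))`, so the descent for `Γ₀(N)` gives
conjugates of `f`; and all coefficients of `f` lie in a finitely generated `ℤ[ε]`-module.
-/

set_option autoImplicit false

noncomputable section

namespace Fermat.Agent.WeightOne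

open UpperHalfPlane CongruenceSubgroup Matrix.SpecialLinearGroup Filter CuspIntStr
open scoped MatrixGroups ModularForm Topology Manifold

local notation "qC" => ModularFormClass.qCoeff

variable {N : ℕ} [NeZero N] {ε : DirichletCharacter ℂ N} (f : CuspForm (Gamma1 N) 1)

omit [NeZero N] in
lemma slash_pow (g : ℍ → ℂ) (k : ℤ) (i : ℕ) (γ : SL(2, ℤ)) :
    (g ^ i) ∣[(i : ℤ) * k] γ = (g ∣[k] γ) ^ i := by
  funext z
  simp only [slash_eq_jac, Pi.pow_apply, mul_pow]
  rw [← zpow_natCast (jac γ z ^ (-k)), ← zpow_mul]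
  ring_nf

omit [NeZero N] in
lemma isUnit_apply_one_one {γ : SL(2, ℤ)} (hγ : γ ∈ Gamma0 N) :
    IsUnit ((γ 1 1 : ℤ) : ZMod N) := by
  have hdet := congrArg (Int.cast : ℤ → ZMod N) γ.det_coe
  rw [Matrix.det_fin_two] at hdet
  push_cast at hdet
  rw [Gamma0_mem.mp hγ, mul_zero, sub_zero] at hdet
  exact IsUnit.of_mul_eq_one_right _ hdet

/-- Every translate of a weight one cusp form vanishes at `i∞`. -/
lemma isZeroAtImInfty_slash (γ : SL(2, ℤ)) : IsZeroAtImInfty (⇑f ∣[(1 : ℤ)] γ) := by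
  have hc : IsCusp ((mapGL ℝ γ : GL (Fin 2) ℝ) • OnePoint.infty)
      ((Gamma1 N).map (mapGL ℝ)) := by
    rw [Subgroup.IsArithmetic.isCusp_iff_isCusp_SL2Z, isCusp_SL2Z_iff']
    exact ⟨_, rfl⟩
  exact f.zero_at_cusps' hc (mapGL ℝ γ) rfl

omit [NeZero N] in
lemma apply_inv_neg_one (hε : ε (-1) = -1) : ε⁻¹ (-1) = -1 := by
  rw [MulChar.inv_apply_eq_inv', hε, inv_neg, inv_one]

/-- `f * charEis ε⁻¹` as a cusp form on `Γ₀(N)`. -/
def mulEis (hT : GoodHeckeRel ε (qC f)) : CuspForm (Gamma0 N) 4 where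
  toFun := ⇑f * charEis ε⁻¹
  slash_action_eq' g hg := by
    obtain ⟨γ, hγ, rfl⟩ := hg
    change (⇑f * charEis ε⁻¹) ∣[((1 : ℤ) + 3)] γ = _
    rw [ModularForm.mul_slash_SL2, slash_Gamma0_eq f hT hγ, charEis_slash_Gamma0 _ hγ,
      smul_mul_smul_comm, ← MulChar.mul_apply, mul_inv_cancel,
      MulChar.one_apply (isUnit_apply_one_one hγ), one_smul]
  holo' := (ModularFormClass.holo f).mul (mdifferentiable_charEis _)
  zero_at_cusps' {c} hc := by
    rw [Subgroup.IsArithmetic.isCusp_iff_isCusp_SL2Z] at hc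
    rw [OnePoint.isZeroAt_iff_forall_SL2Z hc]
    intro γ _
    change IsZeroAtImInfty ((⇑f * charEis ε⁻¹) ∣[((1 : ℤ) + 3)] γ)
    rw [ModularForm.mul_slash_SL2]
    exact (isZeroAtImInfty_slash f γ).mul_boundedAtFilter (isBoundedAtImInfty_charEis_slash _ γ)

variable (N) in
/-- The exponent killing all characters modulo `N`. -/
abbrev charExp : ℕ := Fintype.card (ZMod N)ˣ

/-- `f ^ φ(N)` as a cusp form on `Γ₀(N)`. -/
def powForm (hT : GoodHeckeRel ε (qC f)) : CuspForm (Gamma0 N) ((charExp N : ℤ) * 1) where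
  toFun := ⇑f ^ charExp N
  slash_action_eq' g hg := by
    obtain ⟨γ, hγ, rfl⟩ := hg
    change (⇑f ^ charExp N) ∣[(charExp N : ℤ) * 1] γ = _
    rw [slash_pow, slash_Gamma0_eq f hT hγ, smul_pow]
    obtain ⟨u, hu⟩ := isUnit_apply_one_one hγ
    rw [← hu, ← map_pow, ← Units.val_pow_eq_pow_val, pow_card_eq_one, Units.val_one, map_one,
      one_smul]
  holo' := (ModularFormClass.holo f).pow _
  zero_at_cusps' {c} hc := by
    rw [Subgroup.IsArithmetic.isCusp_iff_isCusp_SL2Z] at hc
    rw [OnePoint.isZeroAt_iff_forall_SL2Z hc]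
    intro γ _
    change IsZeroAtImInfty ((⇑f ^ charExp N) ∣[(charExp N : ℤ) * 1] γ)
    rw [slash_pow]
    have := (isZeroAtImInfty_slash f γ).pow (charExp N)
    rw [zero_pow Fintype.card_ne_zero] at this
    exact this

/-- The normalised `q`-series of `charEis χ`. -/
def eisSeries (χ : DirichletCharacter ℂ N) : PowerSeries ℂ := PowerSeries.mk (charSigma χ)

/-- `charEis χ` as a nice function. -/
def eisNice (χ : DirichletCharacter ℂ N) : niceAlg :=
  ⟨charEis χ, form_mem_niceAlg (one_mem_strictPeriods_Gamma1 N) (charEisForm χ)⟩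

/-- A form on `Γ₁(N)` as a nice function. -/
def formNice {k : ℤ} (g : CuspForm (Gamma1 N) k) : niceAlg :=
  ⟨g, form_mem_niceAlg (one_mem_strictPeriods_Gamma1 N) g⟩

lemma qHom_eisNice {χ : DirichletCharacter ℂ N} (hχ : χ (-1) = -1) :
    qHom (eisNice χ) = charEisConst • eisSeries χ := by
  ext n
  rw [qHom_apply, PowerSeries.coeff_smul, eisSeries, PowerSeries.coeff_mk, smul_eq_mul]
  exact qCoeff_charEis χ hχ n

lemma eisNice_ne_zero {χ : DirichletCharacter ℂ N} (hχ : χ (-1) = -1) : eisNice χ ≠ 0 := by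
  intro h
  have := congrArg (PowerSeries.coeff 1) (qHom_eisNice hχ)
  rw [h, map_zero, map_zero, PowerSeries.coeff_smul, eisSeries, PowerSeries.coeff_mk,
    charSigma_one, smul_eq_mul, mul_one] at this
  exact charEisConst_ne_zero this.symm

lemma qHom_cuspNice_mulEis (hT : GoodHeckeRel ε (qC f)) (hε : ε (-1) = -1) :
    qHom (cuspNice (mulEis f hT)) = charEisConst • (qHom (formNice f) * eisSeries ε⁻¹) := by
  rw [show cuspNice (mulEis f hT) = formNice f * eisNice ε⁻¹ from Subtype.ext rfl, map_mul,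
    qHom_eisNice (apply_inv_neg_one hε), mul_smul_comm]

lemma qHom_cuspNice_powForm (hT : GoodHeckeRel ε (qC f)) :
    qHom (cuspNice (powForm f hT)) = qHom (formNice f) ^ charExp N := by
  rw [show cuspNice (powForm f hT) = formNice f ^ charExp N from Subtype.ext rfl, map_pow]

lemma conjSeries_smul (τ : ℂ ≃+* ℂ) (c : ℂ) (p : PowerSeries ℂ) :
    conjSeries τ (c • p) = τ c • conjSeries τ p := by
  ext n; simp [conjSeries]

omit [NeZero N] in
lemma conjSeries_eisSeries (τ : ℂ ≃+* ℂ) (χ : DirichletCharacter ℂ N) :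
    conjSeries τ (eisSeries χ) = eisSeries (χ.ringHomComp τ.toRingHom) := by
  ext n
  simp [conjSeries, eisSeries, charSigma, map_sum, map_mul, map_pow, MulChar.ringHomComp]

/-- The conjugate of a weight one eigenform by an automorphism of `ℂ`. -/
theorem exists_conj_form (hf₁ : qC f 1 = 1) (hT : GoodHeckeRel ε (qC f)) (τ : ℂ ≃+* ℂ) :
    ∃ g : CuspForm (Gamma1 N) 1, ∀ n, qC g n = τ (qC f n) := by
  have hε := eps_neg_one f hf₁ hT
  set χ := (ε⁻¹).ringHomComp τ.toRingHom
  have hχ : χ (-1) = -1 := by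
    simp [χ, MulChar.ringHomComp, apply_inv_neg_one hε]
  set H : niceAlg := eisNice χ
  set m := charExp N
  obtain ⟨g₁, hg₁⟩ := CuspIntStr.exists_conj_cuspForm (mulEis f hT) τ
  obtain ⟨g₂, hg₂⟩ := CuspIntStr.exists_conj_cuspForm (powForm f hT) τ
  set s := conjSeries τ (qHom (formNice f))
  have hs₁ : qHom (cuspNice g₁) = τ charEisConst • (s * eisSeries χ) := by
    have : qHom (cuspNice g₁) = conjSeries τ (qHom (cuspNice (mulEis f hT))) := hg₁
    rw [this, qHom_cuspNice_mulEis f hT hε, conjSeries_smul, map_mul, conjSeries_eisSeries]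
  have hs₂ : qHom (cuspNice g₂) = s ^ charExp N := by
    have : qHom (cuspNice g₂) = conjSeries τ (qHom (cuspNice (powForm f hT))) := hg₂
    rw [this, qHom_cuspNice_powForm, map_pow]
  set c := charEisConst / τ charEisConst
  set F : niceAlg := c • cuspNice g₁
  have hFH : qHom F = s * qHom H := by
    rw [map_smul, hs₁, smul_smul, div_mul_cancel₀ _ ((map_ne_zero τ).mpr charEisConst_ne_zero),
      qHom_eisNice hχ, mul_smul_comm]
  have hm : m ≠ 0 := Fintype.card_ne_zero
  have hEq : F ^ m = cuspNice g₂ * H ^ m := by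
    apply qHom_injective
    rw [map_pow, map_mul, map_pow, hFH, hs₂, mul_pow]
  have hEqz : ∀ z, (F : ℍ → ℂ) z ^ m = g₂ z * (H : ℍ → ℂ) z ^ m :=
    fun z ↦ congrFun (congrArg Subtype.val hEq) z
  have hb : ∀ z, ‖(F : ℍ → ℂ) z‖ ≤ (1 + ‖g₂ z‖) * ‖(H : ℍ → ℂ) z‖ := by
    intro z
    rw [← pow_le_pow_iff_left₀ (norm_nonneg _) (by positivity) hm, mul_pow, ← norm_pow, hEqz,
      norm_mul, norm_pow]
    gcongr
    exact (le_add_of_nonneg_left zero_le_one).trans (le_self_pow₀
      (le_add_of_nonneg_right (norm_nonneg _)) hm)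
  have hH0 : (H : ℍ → ℂ) ≠ 0 := fun h ↦ eisNice_ne_zero hχ (Subtype.ext h)
  obtain ⟨h, hd, hhH⟩ := exists_div F.2.2.1 H.2.2.1 hH0
    (B := fun z ↦ 1 + ‖g₂ z‖)
    (continuous_const.add (ModularFormClass.holo g₂).continuous.norm) hb
  have hpow : h ^ m = ⇑g₂ := by
    have h0 : (h ^ m - ⇑g₂) * (H : ℍ → ℂ) ^ m = 0 := by
      funext z
      simp only [Pi.mul_apply, Pi.sub_apply, Pi.pow_apply, Pi.zero_apply]
      rw [sub_mul, ← hEqz z, ← mul_pow, ← hhH, Pi.mul_apply, sub_self]
    rcases (UpperHalfPlane.mul_eq_zero_iff ((hd.pow m).sub (ModularFormClass.holo g₂))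
      (H.2.2.1.pow m)).mp h0 with h | h
    · exact sub_eq_zero.mp h
    · exact absurd (funext fun z ↦ eq_zero_of_pow_eq_zero (congrFun h z)) hH0
  have hslash : ∀ δ ∈ Gamma1 N, h ∣[(1 : ℤ)] δ = h := by
    intro δ hδ
    have hδ0 := Gamma1_in_Gamma0 N hδ
    have hFs : (F : ℍ → ℂ) ∣[((1 : ℤ) + 3)] δ = F := by
      change (c • ⇑g₁) ∣[(4 : ℤ)] δ = c • ⇑g₁
      rw [ModularForm.SL_smul_slash]
      congr 1
      exact SlashInvariantFormClass.slash_action_eq g₁ _ ⟨δ, hδ0, rfl⟩
    have hHs : (H : ℍ → ℂ) ∣[(3 : ℤ)] δ = H :=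
      SlashInvariantFormClass.slash_action_eq (charEisForm χ) _ ⟨δ, hδ, rfl⟩
    have h0 : (h ∣[(1 : ℤ)] δ - h) * (H : ℍ → ℂ) = 0 := by
      rw [← hhH, ModularForm.mul_slash_SL2, hHs] at hFs
      rw [sub_mul, hFs, sub_self]
    have hd1 : MDiff (h ∣[(1 : ℤ)] δ - h) := by
      rw [ModularForm.SL_slash]
      exact (hd.slash _ _).sub hd
    rcases (UpperHalfPlane.mul_eq_zero_iff hd1 H.2.2.1).mp h0 with h | h
    · exact sub_eq_zero.mp h
    · exact absurd h hH0
  have hzero : ∀ γ : SL(2, ℤ), IsZeroAtImInfty (h ∣[(1 : ℤ)] γ) := by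
    intro γ
    have hp := slash_pow h 1 m γ
    rw [hpow] at hp
    have hc : IsCusp ((mapGL ℝ γ : GL (Fin 2) ℝ) • OnePoint.infty)
        ((Gamma0 N).map (mapGL ℝ)) := by
      rw [Subgroup.IsArithmetic.isCusp_iff_isCusp_SL2Z, isCusp_SL2Z_iff']
      exact ⟨_, rfl⟩
    have hz : IsZeroAtImInfty ((h ∣[(1 : ℤ)] γ) ^ m) := hp ▸ g₂.zero_at_cusps' hc (mapGL ℝ γ) rfl
    rw [isZeroAtImInfty_iff] at hz ⊢
    intro δ hδ
    obtain ⟨A, hA⟩ := hz (δ ^ m) (pow_pos hδ m)
    refine ⟨A, fun z hzA ↦ ?_⟩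
    have h1 := hA z hzA
    rw [Pi.pow_apply, norm_pow] at h1
    exact (pow_le_pow_iff_left₀ (norm_nonneg _) hδ.le hm).mp h1
  let g : CuspForm (Gamma1 N) 1 :=
    { toFun := h
      slash_action_eq' := fun x hx ↦ by
        obtain ⟨δ, hδ, rfl⟩ := hx
        exact hslash δ hδ
      holo' := hd
      zero_at_cusps' := fun {_} hc ↦ by
        rw [Subgroup.IsArithmetic.isCusp_iff_isCusp_SL2Z] at hc
        exact (OnePoint.isZeroAt_iff_forall_SL2Z hc).mpr fun γ _ ↦ hzero γ }
  refine ⟨g, fun n ↦ ?_⟩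
  have h9 := congrArg qHom (show formNice g * H = F from Subtype.ext hhH)
  rw [map_mul, hFH] at h9
  have hqH : qHom H ≠ 0 := fun h ↦ eisNice_ne_zero hχ (qHom_injective (h.trans (map_zero _).symm))
  have := congrArg (PowerSeries.coeff n) (mul_right_cancel₀ hqH h9)
  simpa [s, conjSeries, ModularFormClass.qCoeff, formNice] using this

/-! ### The coefficient module -/

/-- The ring of values of `ε`. -/
def valueRing (ε : DirichletCharacter ℂ N) : Subalgebra ℤ ℂ := Algebra.adjoin ℤ (Set.range ε)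

/-- The ring of values of `ε` is a finite `ℤ`-module. -/
lemma valueRing_fg : (valueRing ε).toSubmodule.FG := by
  refine fg_adjoin_of_finite (Set.finite_range ε) ?_
  rintro _ ⟨a, rfl⟩
  by_cases ha : IsUnit a
  · obtain ⟨u, rfl⟩ := ha
    refine IsIntegral.of_pow Fintype.card_pos (n := Fintype.card (ZMod N)ˣ) ?_
    rw [← map_pow, ← Units.val_pow_eq_pow_val, pow_card_eq_one, Units.val_one, map_one]
    exact isIntegral_one
  · rw [MulChar.map_nonunit ε ha]
    exact isIntegral_zero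

omit [NeZero N] in
/-- The values of `ε` lie in `valueRing ε`. -/
lemma apply_mem_valueRing (a : ZMod N) : ε a ∈ valueRing ε := Algebra.subset_adjoin ⟨a, rfl⟩

omit [NeZero N] in
lemma charSigma_inv_mem (n : ℕ) : charSigma ε⁻¹ n ∈ valueRing ε := by
  refine Subalgebra.sum_mem _ fun c _ ↦ ?_
  rw [MulChar.inv_apply]
  exact mul_mem (apply_mem_valueRing _) (pow_mem (natCast_mem _ _) _)

omit [NeZero N] in
lemma exists_fg_qCoeff_mem [NeZero N] {k : ℤ} (F : CuspForm (Gamma0 N) k) :
    ∃ M : Submodule ℤ ℂ, M.FG ∧ ∀ n, qC F n ∈ M := by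
  have hF : F ∈ Submodule.span ℂ
      ((CuspForm.intLattice N k : Submodule ℤ (CuspForm (Gamma0 N) k)) :
        Set (CuspForm (Gamma0 N) k)) := by
    rw [CuspIntStr.hasIntegralStructure N k]; trivial
  induction hF using Submodule.span_induction with
  | mem x hx =>
    refine ⟨Submodule.span ℤ {1}, Submodule.fg_span_singleton 1, fun n ↦ ?_⟩
    induction hx using Submodule.span_induction with
    | mem y hy =>
      obtain ⟨z, hz⟩ := hy n
      exact Submodule.mem_span_singleton.mpr ⟨z, by simp [hz]⟩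
    | zero =>
      change CuspIntStr.coeffMap N k 0 n ∈ _
      rw [map_zero]
      exact zero_mem _
    | add y z _ _ hy hz =>
      change CuspIntStr.coeffMap N k (y + z) n ∈ _
      rw [map_add]
      exact add_mem hy hz
    | smul a y _ hy =>
      change CuspIntStr.coeffMap N k (a • y) n ∈ _
      rw [map_zsmul]
      exact Submodule.smul_mem _ a hy
  | zero =>
    refine ⟨⊥, Submodule.fg_bot, fun n ↦ ?_⟩
    change CuspIntStr.coeffMap N k 0 n ∈ _
    rw [map_zero]
    exact zero_mem _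
  | add x y _ _ hx hy =>
    obtain ⟨M, hM, hMx⟩ := hx
    obtain ⟨M', hM', hMy⟩ := hy
    refine ⟨M ⊔ M', hM.sup hM', fun n ↦ ?_⟩
    change CuspIntStr.coeffMap N k (x + y) n ∈ _
    rw [map_add]
    exact add_mem (Submodule.mem_sup_left (hMx n)) (Submodule.mem_sup_right (hMy n))
  | smul a x _ hx =>
    obtain ⟨M, hM, hMx⟩ := hx
    refine ⟨M.map (LinearMap.mulLeft ℤ a), hM.map _, fun n ↦ ?_⟩
    change CuspIntStr.coeffMap N k (a • x) n ∈ _
    rw [map_smul]
    exact Submodule.mem_map_of_mem (f := LinearMap.mulLeft ℤ a) (hMx n)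

/-- The `ℤ[ε]`-module spanned by the coefficients of `f`. -/
def coeffModule (ε : DirichletCharacter ℂ N) (a : ℕ → ℂ) : Submodule ℤ ℂ :=
  (valueRing ε).toSubmodule * Submodule.span ℤ (Set.range a)

/-- The coefficient module of an eigenform is finitely generated. -/
lemma coeffModule_fg (hf₁ : qC f 1 = 1) (hT : GoodHeckeRel ε (qC f)) :
    (coeffModule ε (qC f)).FG := by
  have hε := eps_neg_one f hf₁ hT
  obtain ⟨M₀, hM₀, hmem⟩ := exists_fg_qCoeff_mem (mulEis f hT)
  set M₁ : Submodule ℤ ℂ := M₀.map (LinearMap.mulLeft ℤ charEisConst⁻¹)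
  set R := (valueRing ε).toSubmodule
  have hRR : R * R = R := Subalgebra.isIdempotentElem_toSubmodule _
  have hx : ∀ n, (qHom (formNice f) * eisSeries ε⁻¹).coeff n ∈ M₁ := by
    intro n
    refine ⟨qC (mulEis f hT) n, hmem n, ?_⟩
    have := congrArg (PowerSeries.coeff n) (qHom_cuspNice_mulEis f hT hε)
    rw [LinearMap.mulLeft_apply]
    change charEisConst⁻¹ * PowerSeries.coeff n (qHom (cuspNice (mulEis f hT))) = _
    rw [this, PowerSeries.coeff_smul, smul_eq_mul, inv_mul_cancel_left₀ charEisConst_ne_zero]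
  have ha : ∀ n, qC f n ∈ R * M₁ := by
    intro n
    induction n using Nat.strong_induction_on with
    | _ n ih =>
      have h1 : (1 : ℂ) ∈ R := (valueRing ε).one_mem
      have h := hx (n + 1)
      rw [PowerSeries.coeff_mul, Finset.Nat.sum_antidiagonal_eq_sum_range_succ_mk,
        Finset.sum_range_succ, Finset.sum_range_succ] at h
      simp only [eisSeries, PowerSeries.coeff_mk, Nat.add_sub_cancel_left, Nat.sub_self,
        charSigma_zero, charSigma_one, mul_zero, add_zero, mul_one] at h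
      have hrest : ∑ i ∈ Finset.range n, PowerSeries.coeff i (qHom (formNice f)) *
          charSigma ε⁻¹ (n + 1 - i) ∈ R * M₁ := by
        refine Submodule.sum_mem _ fun i hi ↦ ?_
        rw [← hRR, mul_assoc, mul_comm (PowerSeries.coeff i (qHom (formNice f)))]
        exact Submodule.mul_mem_mul (charSigma_inv_mem _) (ih i (Finset.mem_range.mp hi))
      have h2 : ∀ x ∈ M₁, x ∈ R * M₁ := fun x hx ↦ by
        simpa using Submodule.mul_mem_mul h1 hx
      have := sub_mem (h2 _ h) hrest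
      rwa [add_sub_cancel_left] at this
  refine Submodule.FG.of_le (T := R * M₁) (valueRing_fg.mul (hM₀.map _)) ?_
  calc R * Submodule.span ℤ (Set.range (qC f)) ≤ R * (R * M₁) :=
        mul_le_mul' le_rfl (Submodule.span_le.mpr (Set.range_subset_iff.mpr ha))
    _ = R * M₁ := by rw [← mul_assoc, hRR]

/-- The multipliers of the coefficient module. -/
def multiplierRing (ε : DirichletCharacter ℂ N) (a : ℕ → ℂ) : Subalgebra ℤ ℂ where
  carrier := {x | ∀ m ∈ coeffModule ε a, x * m ∈ coeffModule ε a}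
  mul_mem' hx hy m hm := by rw [mul_assoc]; exact hx _ (hy m hm)
  one_mem' m hm := by rwa [one_mul]
  add_mem' hx hy m hm := by rw [add_mul]; exact add_mem (hx m hm) (hy m hm)
  zero_mem' m hm := by rw [zero_mul]; exact zero_mem _
  algebraMap_mem' r m hm := by
    rw [← Algebra.smul_def]; exact Submodule.smul_mem _ r hm

omit [NeZero N] in
lemma valueRing_le_multiplierRing (a : ℕ → ℂ) : valueRing ε ≤ multiplierRing ε a := by
  intro x hx m hm
  rw [coeffModule, ← Subalgebra.isIdempotentElem_toSubmodule (valueRing ε), mul_assoc]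
  exact Submodule.mul_mem_mul hx hm

omit [NeZero N] in
lemma qCoeff_prime_mem_multiplierRing (hT : GoodHeckeRel ε (qC f)) {p : ℕ} (hp : p.Prime)
    (hpN : ¬ p ∣ N) : qC f p ∈ multiplierRing ε (qC f) := by
  intro m hm
  induction hm using Submodule.mul_induction_on' with
  | mem_mul_mem r hr s hs =>
    rw [mul_left_comm]
    refine valueRing_le_multiplierRing _ hr _ ?_
    induction hs using Submodule.span_induction with
    | mem x hx =>
      obtain ⟨n, rfl⟩ := hx
      have hbase : ∀ j, qC f j ∈ coeffModule ε (qC f) := fun j ↦ by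
        simpa [coeffModule] using Submodule.mul_mem_mul
          (show (1 : ℂ) ∈ (valueRing ε).toSubmodule from (valueRing ε).one_mem)
          (Submodule.subset_span (Set.mem_range_self j) : qC f j ∈ Submodule.span ℤ _)
      rw [← hT p hp hpN n]
      refine add_mem (hbase _) (valueRing_le_multiplierRing _ (apply_mem_valueRing _) _ ?_)
      split_ifs
      · exact hbase _
      · exact zero_mem _
    | zero => rw [mul_zero]; exact zero_mem _
    | add x y _ _ hx hy => rw [mul_add]; exact add_mem hx hy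
    | smul z x _ hx => rw [mul_smul_comm]; exact Submodule.smul_mem _ z hx
  | add x _ y _ hx hy => rw [mul_add]; exact add_mem hx hy

omit [NeZero N] in
/-- A coefficient of index prime to `N` multiplies the coefficient module into itself. -/
lemma qCoeff_mem_multiplierRing (hf₁ : qC f 1 = 1) (hT : GoodHeckeRel ε (qC f)) {n : ℕ}
    (hn : n.Coprime N) : qC f n ∈ multiplierRing ε (qC f) := by
  induction n using Nat.strong_induction_on with
  | _ n ih =>
    rcases eq_or_ne n 0 with rfl | h0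
    · have : Fact (IsCusp OnePoint.infty ((Gamma1 N).map (mapGL ℝ))) :=
        ⟨Subgroup.isCusp_of_mem_strictPeriods one_pos (one_mem_strictPeriods_Gamma1 N)⟩
      rw [ModularFormClass.qCoeff,
        CuspFormClass.qExpansion_coeff_zero f one_pos (one_mem_strictPeriods_Gamma1 N)]
      exact zero_mem _
    rcases eq_or_ne n 1 with rfl | h1
    · rw [hf₁]; exact one_mem _
    obtain ⟨p, hp, k, rfl⟩ := Nat.exists_prime_and_dvd h1
    obtain ⟨hpN, hkN⟩ := Nat.coprime_mul_iff_left.mp hn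
    have hpN' : ¬ p ∣ N := (Nat.Prime.coprime_iff_not_dvd hp).mp hpN
    have hk : k < p * k := lt_mul_of_one_lt_left (Nat.pos_of_ne_zero (by aesop)) hp.one_lt
    rw [eq_sub_of_add_eq (hT p hp hpN' k)]
    refine sub_mem (mul_mem (qCoeff_prime_mem_multiplierRing f hT hp hpN') (ih k hk hkN))
      (mul_mem (valueRing_le_multiplierRing _ (apply_mem_valueRing _)) ?_)
    split_ifs with h
    · exact ih _ ((Nat.div_le_self k p).trans_lt hk) (hkN.coprime_dvd_left (Nat.div_dvd_of_dvd h))
    · exact zero_mem _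

/-- The multiplier ring of an eigenform is a finite `ℤ`-module. -/
lemma multiplierRing_fg (hf₁ : qC f 1 = 1) (hT : GoodHeckeRel ε (qC f)) :
    (multiplierRing ε (qC f)).toSubmodule.FG := by
  refine Submodule.FG.of_le (coeffModule_fg f hf₁ hT) fun x hx ↦ ?_
  have h1 : (1 : ℂ) ∈ coeffModule ε (qC f) := by
    have := Submodule.mul_mem_mul
          (show (1 : ℂ) ∈ (valueRing ε).toSubmodule from (valueRing ε).one_mem)
      (Submodule.subset_span (Set.mem_range_self (f := fun j ↦ qC f j) 1) :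
        qC f 1 ∈ Submodule.span ℤ _)
    simpa [hf₁, coeffModule] using this
  simpa using hx 1 h1

/-- The coefficients at good primes are algebraic integers. -/
theorem isIntegral_qCoeff_prime (hf₁ : qC f 1 = 1) (hT : GoodHeckeRel ε (qC f)) {p : ℕ}
    (hp : p.Prime) (hpN : ¬ p ∣ N) : IsIntegral ℤ (qC f p) :=
  IsIntegral.of_mem_of_fg _ (multiplierRing_fg f hf₁ hT) _
    (qCoeff_prime_mem_multiplierRing f hT hp hpN)

end Fermat.Agent.WeightOne
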