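import Fermat.Prelude.Thm_ModularForm_sturm_bound_of_isArithmetic
import Fermat.Agent.WeightOne.Conjugates

/-!
# An algebraic weight one eigenform with the same good coefficients

The forms with prescribed good coefficients form an affine space stable under the automorphisms
of `ℂ` fixing the algebraic numbers; a canonical point of it has algebraic coefficients, with
bounded denominators.
-/

set_option autoImplicit false

noncomputable section

namespace Fermat.Agent.WeightOne

open UpperHalfPlane CongruenceSubgroup Matrix.SpecialLinearGroup CuspIntStr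
open scoped MatrixGroups ModularForm Manifold

local notation "qC" => ModularFormClass.qCoeff

/-- A complex number fixed by all automorphisms fixing the algebraic numbers is algebraic. -/
theorem isAlgebraic_of_fixed {x : ℂ}
    (h : ∀ τ : ℂ ≃+* ℂ, (∀ y, IsAlgebraic ℚ y → τ y = y) → τ x = x) : IsAlgebraic ℚ x := by
  classical
  by_contra hx
  set F := algebraicClosure ℚ ℂ
  have : Algebra.IsAlgebraic ℚ F := algebraicClosure.isAlgebraic ℚ ℂ
  have hxF : Transcendental F x := fun hal ↦ hx (hal.restrictScalars ℚ)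
  obtain ⟨s, hxs, hs⟩ := exists_isTranscendenceBasis_superset (R := F) (A := ℂ) (s := {x})
    ((algebraicIndependent_singleton_iff (⟨x, rfl⟩ : ({x} : Set ℂ))).mpr hxF)
  set v : s → ℂ := Subtype.val
  set i₀ : s := ⟨x, hxs rfl⟩
  let δ : s → MvPolynomial s F := fun i ↦ if i = i₀ then 1 else 0
  have hδ : ∀ (φ : MvPolynomial s F →ₐ[F] MvPolynomial s F) i, φ (δ i) = δ i := fun φ i ↦ by
    simp only [δ]; split_ifs <;> simp
  let sh : MvPolynomial s F ≃ₐ[F] MvPolynomial s F :=
    AlgEquiv.ofAlgHom (MvPolynomial.aeval fun i ↦ .X i + δ i)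
      (MvPolynomial.aeval fun i ↦ .X i - δ i)
      (MvPolynomial.algHom_ext fun i ↦ by
        rw [AlgHom.comp_apply, MvPolynomial.aeval_X, map_sub, MvPolynomial.aeval_X, hδ]
        simp)
      (MvPolynomial.algHom_ext fun i ↦ by
        rw [AlgHom.comp_apply, MvPolynomial.aeval_X, map_add, MvPolynomial.aeval_X, hδ]
        simp)
  let e : Algebra.adjoin F (Set.range v) ≃ₐ[F] Algebra.adjoin F (Set.range v) :=
    (hs.1.aevalEquiv.symm.trans sh).trans hs.1.aevalEquiv
  have := IsAlgClosed.isAlgClosure_of_transcendence_basis v hs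
  let τ : ℂ ≃+* ℂ := IsAlgClosure.equivOfEquiv ℂ ℂ e.toRingEquiv
  have hτ : ∀ a, τ (algebraMap _ ℂ a) = algebraMap _ ℂ (e a) := fun a ↦
    IsAlgClosure.equivOfEquiv_algebraMap ℂ ℂ e.toRingEquiv a
  have hfix : ∀ y, IsAlgebraic ℚ y → τ y = y := by
    intro y hy
    have := hτ (algebraMap F _ ⟨y, mem_algebraicClosure_iff.mpr hy⟩)
    rwa [e.commutes] at this
  have h1 : τ x = x + 1 := by
    have := hτ (hs.1.aevalEquiv (.X i₀))
    simpa [e, sh, δ, v, i₀] using this
  exact one_ne_zero (add_left_cancel (a := x) (by rw [← h1, h τ hfix, add_zero]))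

variable {N : ℕ} [NeZero N]

/-- A finite set of coefficients determines a weight one cusp form on `Γ₁(N)`. -/
lemma exists_bound_qCoeff_ext (N : ℕ) [NeZero N] :
    ∃ B : ℕ, ∀ g h : CuspForm (Gamma1 N) 1, (∀ n ≤ B, qC g n = qC h n) → g = h := by
  have : ((Gamma1 N : Subgroup SL(2, ℤ)).map (mapGL ℝ)).IsArithmetic := inferInstance
  set B := ((1 : ℤ) * ((Gamma1 N).map (mapGL ℝ)).relIndex 𝒮ℒ).toNat / 12
  refine ⟨B, fun g h hgh ↦ ?_⟩
  let D : ModularForm ((Gamma1 N).map (mapGL ℝ)) 1 :=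
    { toFun := ⇑(g - h)
      slash_action_eq' := SlashInvariantFormClass.slash_action_eq (g - h)
      holo' := ModularFormClass.holo (g - h)
      bdd_at_cusps' := fun hc ↦ ModularFormClass.bdd_at_cusps (g - h) hc }
  have hq : ∀ n, (qExpansion 1 D).coeff n = qC g n - qC h n := fun n ↦ by
    change PowerSeries.coeff n (qHom (formNice (g - h))) = _
    rw [show formNice (g - h) = formNice g - formNice h from Subtype.ext rfl, map_sub, map_sub]
    rfl
  have hD : D = 0 := by
    refine ModularForm.sturm_bound_of_isArithmetic (one_mem_strictPeriods_Gamma1 N) ?_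
    refine lt_of_lt_of_le (ENat.natCast_lt_natCast.mpr (Nat.lt_succ_self B))
      (PowerSeries.nat_le_order _ _ fun i hi ↦ ?_)
    rw [hq, hgh i (Nat.lt_succ_iff.mp hi), sub_self]
  exact DFunLike.ext _ _ fun z ↦ sub_eq_zero.mp (DFunLike.congr_fun hD z)

variable {ε : DirichletCharacter ℂ N} (f : CuspForm (Gamma1 N) 1)

/-- The forms with the good coefficients of `f` whose coefficients before `m` are as small as
possible. -/
def minSet (ε : DirichletCharacter ℂ N) (a : ℕ → ℂ) : ℕ → Set (CuspForm (Gamma1 N) 1)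
  | 0 => {g | GoodHeckeRel ε (qC g) ∧ qC g 1 = 1 ∧ ∀ n, n.Coprime N → qC g n = a n}
  | m + 1 => {g ∈ minSet ε a m | (∃ h ∈ minSet ε a m, qC h m = 0) → qC g m = 0}

omit [NeZero N] in
lemma minSet_subset (a : ℕ → ℂ) (m : ℕ) : minSet ε a m ⊆ minSet ε a 0 := by
  induction m with
  | zero => exact le_rfl
  | succ m ih => exact fun g hg ↦ ih hg.1

omit [NeZero N] in
lemma qCoeff_line (g h : CuspForm (Gamma1 N) 1) (t : ℂ) (n : ℕ) :
    qC (g + t • (h - g) : CuspForm (Gamma1 N) 1) n = qC g n + t * (qC h n - qC g n) := by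
  change PowerSeries.coeff n (qHom (formNice (g + t • (h - g) : CuspForm (Gamma1 N) 1))) = _
  rw [show formNice (g + t • (h - g)) = formNice g + t • (formNice h - formNice g) from
    Subtype.ext rfl, map_add, map_smul, map_sub, map_add, map_smul, map_sub]
  rfl

omit [NeZero N] in
lemma minSet_line (a : ℕ → ℂ) (m : ℕ) : ∀ g ∈ minSet ε a m, ∀ h ∈ minSet ε a m, ∀ t : ℂ,
    g + t • (h - g) ∈ minSet ε a m := by
  induction m with
  | zero =>
    rintro g ⟨hg, hg1, hga⟩ h ⟨hh, hh1, hha⟩ t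
    refine ⟨fun p hp hpN n ↦ ?_, ?_, fun n hn ↦ ?_⟩
    · have hpc := (hp.coprime_iff_not_dvd.mpr hpN)
      simp only [qCoeff_line]
      have e1 := hg p hp hpN n
      have e2 := hh p hp hpN n
      rw [hga p hpc] at e1 ⊢
      rw [hha p hpc] at e2 ⊢
      split_ifs at e1 e2 ⊢ <;> linear_combination e1 + t * (e2 - e1)
    · rw [qCoeff_line, hg1, hh1]; ring
    · rw [qCoeff_line, hga n hn, hha n hn]; ring
  | succ m ih =>
    rintro g ⟨hg, hg'⟩ h ⟨hh, hh'⟩ t
    refine ⟨ih g hg h hh t, fun hex ↦ ?_⟩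
    rw [qCoeff_line, hg' hex, hh' hex]; ring

omit [NeZero N] in
lemma minSet_nonempty {a : ℕ → ℂ} (h0 : (minSet ε a 0).Nonempty) (m : ℕ) :
    (minSet ε a m).Nonempty := by
  induction m with
  | zero => exact h0
  | succ m ih =>
    by_cases hex : ∃ h ∈ minSet ε a m, qC h m = 0
    · obtain ⟨h, hh, hm⟩ := hex
      exact ⟨h, hh, fun _ ↦ hm⟩
    · obtain ⟨g, hg⟩ := ih
      exact ⟨g, hg, fun h ↦ absurd h hex⟩

omit [NeZero N] in
lemma minSet_eq_of_lt {a : ℕ → ℂ} {m : ℕ} :
    ∀ g ∈ minSet ε a m, ∀ h ∈ minSet ε a m, ∀ n < m, qC g n = qC h n := by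
  induction m with
  | zero => intro g _ h _ n hn; exact absurd hn n.not_lt_zero
  | succ m ih =>
    rintro g ⟨hg, hg'⟩ h ⟨hh, hh'⟩ n hn
    rcases Nat.lt_succ_iff_lt_or_eq.mp hn with hn | rfl
    · exact ih g hg h hh n hn
    by_contra hne
    have hex : ∃ l ∈ minSet ε a n, qC l n = 0 :=
      ⟨g + (-qC g n / (qC h n - qC g n)) • (h - g), minSet_line a n g hg h hh _, by
        rw [qCoeff_line, div_mul_cancel₀ _ (sub_ne_zero.mpr (Ne.symm hne))]; ring⟩
    exact hne ((hg' hex).trans (hh' hex).symm)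

omit [NeZero N] in
lemma minSet_conj {a : ℕ → ℂ} (τ : ℂ ≃+* ℂ) (hτε : ∀ c, τ (ε c) = ε c)
    (hτa : ∀ n, n.Coprime N → τ (a n) = a n) (m : ℕ) :
    ∀ g ∈ minSet ε a m, ∀ g' : CuspForm (Gamma1 N) 1, (∀ n, qC g' n = τ (qC g n)) →
      g' ∈ minSet ε a m := by
  induction m with
  | zero =>
    rintro g ⟨hg, hg1, hga⟩ g' hg'
    refine ⟨fun p hp hpN n ↦ ?_, ?_, fun n hn ↦ ?_⟩
    · have := congrArg τ (hg p hp hpN n)
      rw [map_add, map_mul, map_mul, hτε, apply_ite τ, map_zero] at this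
      simpa only [hg'] using this
    · rw [hg', hg1, map_one]
    · rw [hg', hga n hn, hτa n hn]
  | succ m ih =>
    rintro g ⟨hg, hg₂⟩ g' hg'
    exact ⟨ih g hg g' hg', fun hex ↦ by rw [hg', hg₂ hex, map_zero]⟩

/-- An eigenform with algebraic coefficients, bounded denominators and the good coefficients of
`f`. -/
theorem exists_algebraic_form (hf₁ : qC f 1 = 1) (hT : GoodHeckeRel ε (qC f)) :
    ∃ g : CuspForm (Gamma1 N) 1, qC g 1 = 1 ∧ GoodHeckeRel ε (qC g) ∧
      (∀ n, n.Coprime N → qC g n = qC f n) ∧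
      (∃ K : IntermediateField ℚ ℂ, FiniteDimensional ℚ K ∧ ∀ n, qC g n ∈ K) ∧
      ∃ D : ℕ, D ≠ 0 ∧ ∀ n, IsIntegral ℤ ((D : ℂ) * qC g n) := by
  obtain ⟨B, hB⟩ := exists_bound_qCoeff_ext N
  obtain ⟨g, hg⟩ := minSet_nonempty (ε := ε) (a := qC f) ⟨f, hT, hf₁, fun _ _ ↦ rfl⟩ (B + 1)
  obtain ⟨hgT, hg1, hga⟩ := minSet_subset _ _ hg
  have halg : ∀ n, IsAlgebraic ℚ (qC g n) := fun n ↦ by
    refine isAlgebraic_of_fixed fun τ hτ ↦ ?_
    obtain ⟨g', hg'⟩ := exists_conj_form g hg1 hgT τ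
    have hg'm : g' ∈ minSet ε (qC f) (B + 1) := by
      refine minSet_conj τ (fun c ↦ hτ _ ?_) (fun j hj ↦ hτ _ ?_) _ g hg g' hg'
      · exact ((IsIntegral.of_mem_of_fg _ valueRing_fg _ (apply_mem_valueRing c)).tower_top
          (A := ℚ)).isAlgebraic
      · exact ((IsIntegral.of_mem_of_fg _ (multiplierRing_fg f hf₁ hT) _
          (qCoeff_mem_multiplierRing f hf₁ hT hj)).tower_top (A := ℚ)).isAlgebraic
    rw [← hg' n, hB g' g fun j hj ↦ minSet_eq_of_lt g' hg'm g hg j (Nat.lt_succ_of_le hj)]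
  set S := Submodule.span ℤ (Set.range (qC g))
  have hSfg : S.FG := by
    refine Submodule.FG.of_le (coeffModule_fg g hg1 hgT) fun x hx ↦ ?_
    simpa [coeffModule] using Submodule.mul_mem_mul
      (show (1 : ℂ) ∈ (valueRing ε).toSubmodule from (valueRing ε).one_mem) hx
  obtain ⟨s, hs⟩ := hSfg
  have hsalg : ∀ x ∈ (s : Set ℂ), IsAlgebraic ℚ x := by
    intro x hx
    have hxS : x ∈ S := hs.le (Submodule.subset_span hx)
    clear hx
    induction hxS using Submodule.span_induction with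
    | mem y hy => obtain ⟨n, rfl⟩ := hy; exact halg n
    | zero => exact isAlgebraic_zero
    | add y z _ _ hy hz => exact hy.add hz
    | smul z y _ hy => exact hy.zsmul z
  refine ⟨g, hg1, hgT, hga, ⟨IntermediateField.adjoin ℚ (s : Set ℂ),
    IntermediateField.finiteDimensional_adjoin fun x hx ↦ (hsalg x hx).isIntegral, fun n ↦ ?_⟩, ?_⟩
  · have h : qC g n ∈ Submodule.span ℤ (s : Set ℂ) := hs.ge (Submodule.subset_span ⟨n, rfl⟩)
    generalize qC g n = x at h ⊢
    induction h using Submodule.span_induction with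
    | mem x hx => exact IntermediateField.subset_adjoin ℚ _ hx
    | zero => exact zero_mem _
    | add x y _ _ hx hy => exact add_mem hx hy
    | smul z x _ hx => exact zsmul_mem hx z
  · have hden : ∀ x : s, ∃ d : ℤ, d ≠ 0 ∧ IsIntegral ℤ (d • (x : ℂ)) := fun x ↦
      ((IsFractionRing.isAlgebraic_iff ℤ ℚ ℂ).mpr (hsalg x x.2)).exists_integral_multiple
    choose d hd0 hd using hden
    refine ⟨(∏ x, d x).natAbs, by simpa [Finset.prod_eq_zero_iff] using hd0, fun n ↦ ?_⟩
    have hDi : ∀ x : s, IsIntegral ℤ (((∏ y, d y).natAbs : ℂ) * (x : ℂ)) := fun x ↦ by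
      have hdvd : d x ∣ ((∏ y, d y).natAbs : ℤ) :=
        Int.dvd_natAbs.mpr (Finset.dvd_prod_of_mem d (Finset.mem_univ x))
      obtain ⟨c, hc⟩ := hdvd
      have := (hd x).smul c
      rw [smul_smul, mul_comm c, ← hc, zsmul_eq_mul] at this
      rwa [← Int.cast_natCast]
    have h : qC g n ∈ Submodule.span ℤ (s : Set ℂ) := hs.ge (Submodule.subset_span ⟨n, rfl⟩)
    generalize qC g n = x at h ⊢
    induction h using Submodule.span_induction with
    | mem x hx => exact hDi ⟨x, hx⟩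
    | zero => rw [mul_zero]; exact isIntegral_zero
    | add x y _ _ hx hy => rw [mul_add]; exact hx.add hy
    | smul z x _ hx => rw [mul_smul_comm]; exact hx.smul z

end Fermat.Agent.WeightOne
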