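import Fermat.Agent.WeightOne.ResidualDef
import Fermat.Agent.Chebotarev.Basic
import Fermat.Agent.HeckeAlg.FiniteLevel
import Fermat.Agent.KummerES.ConjugateAut

/-!
# Bounded images

If the conjugates of `(a p)` have prime mean squares at most `1`, the residual representations have
images of bounded order.
-/

set_option autoImplicit false

noncomputable section

open IsLocalRing Filter Topology

namespace Fermat.Agent.WeightOne

local notation "Qbar" => AlgebraicClosure ℚ
local notation "GQ" => (AlgebraicClosure ℚ ≃ₐ[ℚ] AlgebraicClosure ℚ)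

/-- A finite level homomorphism has finite range. -/
lemma finite_range_of_finiteLevel {H : Type} [Group H] {π : GQ →* H}
    (hπ : GaloisFactorsThroughFiniteLevel π) : Finite π.range := by
  obtain ⟨F, hF, hFG, h⟩ := HeckeAlg.exists_numberField_level hπ hπ
  have hfin : Finite (F ≃ₐ[ℚ] F) := Finite.of_fintype _
  let q : (F ≃ₐ[ℚ] F) → π.range := fun e =>
    π.rangeRestrict (AlgEquiv.liftNormal e Qbar)
  refine Finite.of_surjective q ?_
  rintro ⟨_, σ, rfl⟩
  refine ⟨AlgEquiv.restrictNormal σ F, Subtype.ext ?_⟩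
  show π (AlgEquiv.liftNormal (AlgEquiv.restrictNormal σ F) Qbar) = π σ
  refine (Chebotarev.map_eq_of_eqOn (L := F) (fun τ hτ => (h τ hτ).1) fun x hx => ?_)
  have h1 := AlgEquiv.liftNormal_commutes (AlgEquiv.restrictNormal σ F) Qbar ⟨x, hx⟩
  have h2 := AlgEquiv.restrictNormal_commutes σ F ⟨x, hx⟩
  exact h1.trans h2

/-- Embeddings of number fields inside `ℂ` extend to automorphisms of `ℂ`. -/
lemma exists_aut_extend_field (K : IntermediateField ℚ ℂ) [FiniteDimensional ℚ K] (φ : K →+* ℂ) :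
    ∃ τ : ℂ ≃+* ℂ, ∀ x : K, τ x = φ x := by
  obtain ⟨θ, hθ⟩ := Field.exists_primitive_element ℚ K
  have hint : IsIntegral ℚ θ := Algebra.IsIntegral.isIntegral θ
  obtain ⟨x, hx⟩ := KummerES.mem_range_complexEmbedding
    (z := (θ : ℂ)) (hint.isAlgebraic.algebraMap)
  obtain ⟨y, hy⟩ := KummerES.mem_range_complexEmbedding
    (z := φ.toRatAlgHom θ) (hint.map φ.toRatAlgHom).isAlgebraic
  have hmin : minpoly ℚ x = minpoly ℚ y := by
    rw [← minpoly.algHom_eq complexEmbedding complexEmbedding.injective x, hx,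
      ← minpoly.algHom_eq complexEmbedding complexEmbedding.injective y, hy,
      minpoly.algHom_eq φ.toRatAlgHom φ.toRatAlgHom.injective θ]
    exact minpoly.algHom_eq K.val K.val.injective θ
  obtain ⟨σ, hσ⟩ := minpoly.exists_algEquiv_of_root' (K := ℚ) (L := Qbar) (x := y) (y := x)
    (Algebra.IsAlgebraic.isAlgebraic x) (by rw [hmin, minpoly.aeval])
  obtain ⟨τ, hτ⟩ := KummerES.exists_aut_extend_galois σ
  refine ⟨τ, fun z => ?_⟩
  have heq : τ.toRingHom.toRatAlgHom.comp K.val = φ.toRatAlgHom := by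
    refine AlgHom.ext_of_adjoin_eq_top (s := {θ}) ?_ ?_
    · exact ((IntermediateField.adjoin_simple_toSubalgebra_of_isAlgebraic
        hint.isAlgebraic).symm.trans (congrArg _ hθ)).trans IntermediateField.top_toSubalgebra
    · intro z' hz'
      rw [Set.mem_singleton_iff] at hz'
      subst z'
      show τ (θ : ℂ) = φ.toRatAlgHom θ
      rw [← hx, hτ, hσ, hy]
  exact congrFun (congrArg DFunLike.coe heq) z

variable {N : ℕ} [NeZero N] {ε : DirichletCharacter ℂ N} {a : ℕ → ℂ}

/-- The residue of `x`, if `x ∈ O`. -/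
def resO (O : ValuationSubring ℂ) (x : ℂ) : ResidueField O :=
  open scoped Classical in if h : x ∈ O then residue O ⟨x, h⟩ else 0

lemma resO_coe {O : ValuationSubring ℂ} (t : O) : resO O t = residue O t := by
  simp [resO]

/-- The determinants are residues of values of `ε`. -/
lemma exists_det_eq {ℓ : ℕ} {O : ValuationSubring ℂ} {ρ : GQ →* GL (Fin 2) (ResidueField O)}
    (hρ : IsResidualAt ε a ℓ O ρ) (σ : GQ) : ∃ u : ZMod N,
      ((ρ σ : GL (Fin 2) (ResidueField O)) : Matrix (Fin 2) (Fin 2) (ResidueField O)).det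
        = resO O (ε u) := by
  obtain ⟨p, hp, hpS, -, A, hA, φ, hφ, k, m, -, -, hm⟩ :=
    Chebotarev.exists_frobenius_map_eq_pow ρ hρ.finiteLevel σ (insert ℓ N.primeFactors)
  rw [Finset.mem_insert, not_or, Nat.mem_primeFactors] at hpS
  obtain ⟨t, e, -, he, -, hdet⟩ := hρ.frobenius p hp
    (fun h => hpS.2 ⟨hp, h, NeZero.ne N⟩) hpS.1 A hA φ hφ
  refine ⟨(p : ZMod N) ^ m, ?_⟩
  rw [hm, Units.val_pow_eq_pow_val, Matrix.det_pow, hdet, map_pow ε, ← he, ← map_pow,
    ← resO_coe (e ^ m)]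
  norm_cast

/-- **The images are bounded.** -/
theorem exists_card_range_le (hC : ChebotarevGe) (K : IntermediateField ℚ ℂ)
    [FiniteDimensional ℚ K] (hK : ∀ n, a n ∈ K)
    (hint : ∀ p : ℕ, p.Prime → ¬ p ∣ N → IsIntegral ℤ (a p))
    (hbd : ∀ τ : ℂ ≃+* ℂ, ∃ B : ℝ, ∀ s : ℝ, 1 < s → s ≤ 2 → ∀ T : Finset ℕ,
      (∀ p ∈ T, p.Prime ∧ ¬ p ∣ N) →
        ∑ p ∈ T, ‖τ (a p)‖ ^ 2 * (p : ℝ) ^ (-s) ≤ Real.log (1 / (s - 1)) + B) :
    ∃ A : ℕ, ∀ (ℓ : ℕ) (O : ValuationSubring ℂ) (ρ : GQ →* GL (Fin 2) (ResidueField O)),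
      (2 : ResidueField O) ≠ 0 → IsResidualAt ε a ℓ O ρ → Finite ρ.range ∧
        Nat.card ρ.range ≤ A := by
  classical
  have : NumberField K := ⟨⟩
  choose τ hτ using fun φ : K →+* ℂ => exists_aut_extend_field K φ
  choose B hB using fun φ : K →+* ℂ => hbd (τ φ)
  set d : ℝ := ((Fintype.card (K →+* ℂ) : ℕ) : ℝ) with hd
  have hd0 : 0 < d := by rw [hd]; exact Nat.cast_pos.mpr Fintype.card_pos
  set R : ℝ := 8 * d with hR
  set Y : Finset ℂ := (NumberField.Embeddings.finite_of_norm_le K ℂ (Real.sqrt R)).toFinset.image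
    (algebraMap K ℂ) with hY
  refine ⟨2 * (Y.card + Y.card * N + 1) ^ 4, fun ℓ O ρ h2 hρ => ?_⟩
  have hfin := finite_range_of_finiteLevel hρ.finiteLevel
  refine ⟨hfin, ?_⟩
  let : Fintype ρ.range := Fintype.ofFinite _
  rw [Nat.card_eq_fintype_card]
  -- the good elements
  let tr : ρ.range → ResidueField O := fun g =>
    ((g : GL (Fin 2) (ResidueField O)) : Matrix (Fin 2) (Fin 2) (ResidueField O)).trace
  set Yb : Finset (ResidueField O) := Y.image (resO O) with hYb
  set Eb : Finset (ResidueField O) := (Finset.univ : Finset (ZMod N)).image (fun u => resO O (ε u))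
  set M : Finset (ResidueField O) := Yb ∪ Finset.image₂ (· * ·) Yb Eb with hM
  set S : Finset ρ.range := Finset.univ.filter fun g => tr g ∈ Yb ∨ tr g⁻¹ ∈ Yb with hS
  have hSM : ∀ g ∈ S, tr g ∈ M := by
    intro g hg
    rw [hS, Finset.mem_filter] at hg
    rcases hg.2 with h | h
    · exact Finset.mem_union_left _ h
    · obtain ⟨σ, hσ⟩ := g.2
      obtain ⟨u, hu⟩ := exists_det_eq hρ σ
      rw [hσ] at hu
      refine Finset.mem_union_right _ (Finset.mem_image₂.mpr ⟨_, h, _,
        Finset.mem_image_of_mem _ (Finset.mem_univ u), ?_⟩)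
      have hdne : ((g : GL (Fin 2) (ResidueField O)) :
          Matrix (Fin 2) (Fin 2) (ResidueField O)).det ≠ 0 :=
        (Matrix.GeneralLinearGroup.det (g : GL (Fin 2) (ResidueField O))).ne_zero
      show (((g⁻¹ : ρ.range) : GL (Fin 2) (ResidueField O)) :
        Matrix (Fin 2) (Fin 2) (ResidueField O)).trace * resO O (ε u) = _
      rw [← hu, Subgroup.coe_inv, Matrix.coe_units_inv, Matrix.inv_def, Ring.inverse_eq_inv',
        Matrix.trace_smul, Matrix.adjugate_fin_two, Matrix.trace_fin_two_of, smul_eq_mul]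
      show _ = ((g : GL (Fin 2) (ResidueField O)) :
        Matrix (Fin 2) (Fin 2) (ResidueField O)).trace
      rw [Matrix.trace_fin_two]
      field_simp
      ring
  -- the bad primes are rare
  let f : ρ.range → ℝ := fun g => if g ∈ S then 0 else 1
  have htrconj : ∀ x y, tr (x * y * x⁻¹) = tr y := fun x y => by
    simp only [tr, Subgroup.coe_mul, Subgroup.coe_inv, Units.val_mul]
    rw [Matrix.trace_mul_cycle, ← Units.val_mul, inv_mul_cancel, Units.val_one, one_mul]
  have hconj : ∀ x y, f (x * y * x⁻¹) = f y := fun x y => by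
    have h : (x * y * x⁻¹ ∈ S) = (y ∈ S) := by
      simp only [hS, Finset.mem_filter, Finset.mem_univ, true_and, htrconj,
        show (x * y * x⁻¹)⁻¹ = x * y⁻¹ * x⁻¹ by group]
    simp only [f, h]
  have hinv : ∀ y, f y⁻¹ = f y := fun y => by
    have h : (y⁻¹ ∈ S) = (y ∈ S) := by
      simp only [hS, Finset.mem_filter, Finset.mem_univ, true_and, inv_inv, or_comm]
    simp only [f, h]
  have hfl : GaloisFactorsThroughFiniteLevel ρ.rangeRestrict := by
    obtain ⟨L, hL, h⟩ := hρ.finiteLevel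
    exact ⟨L, hL, fun σ hσ => Subtype.ext (h σ hσ)⟩
  have hmean : (∑ g, f g) / Fintype.card ρ.range ≤ 1 / 8 := by
    refine mean_le_of_prime_sum_le hC hfl ρ.rangeRestrict_surjective
      (fun g => by simp only [f]; split_ifs <;> norm_num) hconj hinv
      (insert ℓ N.primeFactors) (fun p => (∑ φ : K →+* ℂ, ‖τ φ (a p)‖ ^ 2) / R)
      (fun p hp hpS A hA σ hσ => ?_) (B := (∑ φ : K →+* ℂ, B φ) / R) fun s hs1 hs2 T hT => ?_
    · rw [Finset.mem_insert, not_or, Nat.mem_primeFactors] at hpS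
      have hpN : ¬ p ∣ N := fun h => hpS.2 ⟨hp, h, NeZero.ne N⟩
      have hnn : 0 ≤ (∑ φ : K →+* ℂ, ‖τ φ (a p)‖ ^ 2) / R := by positivity
      simp only [f]
      split_ifs with hg
      · exact hnn
      have hpY : a p ∉ Y := fun hY' => hg <| by
        obtain ⟨t, e, ht, -, htr, -⟩ := hρ.frobenius p hp hpN hpS.1 A hA σ hσ
        rw [hS, Finset.mem_filter]
        refine ⟨Finset.mem_univ _, Or.inl (Finset.mem_image.mpr ⟨a p, hY', ?_⟩)⟩
        rw [← ht, resO_coe]
        exact htr.symm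
      obtain ⟨φ, hφ⟩ : ∃ φ : K →+* ℂ, Real.sqrt R < ‖φ ⟨a p, hK p⟩‖ := by
        by_contra hall
        push Not at hall
        refine hpY (Finset.mem_image.mpr ⟨⟨a p, hK p⟩, ?_, rfl⟩)
        rw [Set.Finite.mem_toFinset]
        exact ⟨(isIntegral_algebraMap_iff (algebraMap K ℂ).injective).mp (hint p hp hpN), hall⟩
      rw [le_div_iff₀ (by positivity), one_mul]
      refine le_trans ?_ (Finset.single_le_sum (fun ψ _ => sq_nonneg ‖τ ψ (a p)‖)
        (Finset.mem_univ φ))
      rw [show a p = ((⟨a p, hK p⟩ : K) : ℂ) from rfl, hτ]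
      calc R = Real.sqrt R ^ 2 := (Real.sq_sqrt (by positivity)).symm
        _ ≤ _ := pow_le_pow_left₀ (Real.sqrt_nonneg _) hφ.le 2
    · have hT' : ∀ p ∈ T, p.Prime ∧ ¬ p ∣ N := fun p hp => ⟨(hT p hp).1, fun h =>
        (hT p hp).2 (Finset.mem_insert_of_mem
          (Nat.mem_primeFactors.mpr ⟨(hT p hp).1, h, NeZero.ne N⟩))⟩
      have h1 : ∑ p ∈ T, (∑ φ : K →+* ℂ, ‖τ φ (a p)‖ ^ 2) / R * (p : ℝ) ^ (-s) =
          (∑ φ : K →+* ℂ, ∑ p ∈ T, ‖τ φ (a p)‖ ^ 2 * (p : ℝ) ^ (-s)) / R := by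
        rw [Finset.sum_comm, Finset.sum_div]
        exact Finset.sum_congr rfl fun p _ => by rw [div_mul_eq_mul_div, Finset.sum_mul]
      rw [h1]
      calc (∑ φ : K →+* ℂ, ∑ p ∈ T, ‖τ φ (a p)‖ ^ 2 * (p : ℝ) ^ (-s)) / R
          ≤ (∑ φ : K →+* ℂ, (Real.log (1 / (s - 1)) + B φ)) / R :=
            div_le_div_of_nonneg_right (Finset.sum_le_sum fun φ _ => hB φ s hs1 hs2 T hT')
              (by positivity)
        _ = _ := by
          rw [Finset.sum_add_distrib, Finset.sum_const, Finset.card_univ, nsmul_eq_mul, ← hd, hR]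
          field_simp
  have hcard : 7 * Fintype.card ρ.range ≤ 8 * S.card := by
    have hsum : ∑ g, f g = (Fintype.card ρ.range : ℝ) - S.card := by
      simp only [f]
      rw [Finset.sum_ite, Finset.sum_const_zero, zero_add, Finset.sum_const, nsmul_eq_mul, mul_one,
        Finset.filter_not, Finset.card_sdiff_of_subset (Finset.subset_univ _),
        Nat.cast_sub (Finset.card_le_card (Finset.subset_univ _)), Finset.card_univ]
      simp
    rw [hsum, div_le_iff₀ (by exact_mod_cast Fintype.card_pos)] at hmean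
    have : (7 : ℝ) * Fintype.card ρ.range ≤ 8 * S.card := by linarith
    exact_mod_cast this
  refine (card_le_of_traces_mem h2 (ρ := ρ.range.subtype) Subtype.val_injective ?_ M S
    (fun g hg => hSM g hg) hcard).trans ?_
  · intro W hW
    obtain ⟨W', hW', hc⟩ := hρ.semisimple W fun σ v hv => hW ⟨ρ σ, σ, rfl⟩ v hv
    refine ⟨W', fun g v hv => ?_, hc⟩
    obtain ⟨_, σ, rfl⟩ := g
    exact hW' σ v hv
  · gcongr
    refine (Finset.card_union_le _ _).trans (add_le_add Finset.card_image_le ?_)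
    refine (Finset.card_image₂_le _ _ _).trans (Nat.mul_le_mul Finset.card_image_le ?_)
    exact Finset.card_image_le.trans (by simp)

end Fermat.Agent.WeightOne
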