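import Fermat.Agent.WeightOne.Irreducible
import Fermat.Agent.WeightOne.Algebraic

/-!
# The complex representation of a weight one eigenform, given its residual representations

If a normalised weight one eigenform with coefficients in a number field has residual
representations at almost all places, the mean square bound for the conjugate eigenforms bounds
the residual images, so a residual representation lifts to an irreducible complex representation
with the prescribed Frobenius traces and determinants.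
-/

set_option autoImplicit false

noncomputable section

namespace Fermat.Agent.WeightOne

local notation "Qbar" => AlgebraicClosure ℚ
local notation "GQ" => (AlgebraicClosure ℚ ≃ₐ[ℚ] AlgebraicClosure ℚ)
local notation "qC" => ModularFormClass.qCoeff

open CongruenceSubgroup
open scoped MatrixGroups

variable {N : ℕ} [NeZero N] {ε : DirichletCharacter ℂ N}

/-- The conjugates of an eigenform have prime mean squares at most one. -/
theorem exists_sum_prime_sq_conj_le (f : CuspForm (Gamma1 N) 1) (hf₁ : qC f 1 = 1)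
    (hT : GoodHeckeRel ε (qC f)) (τ : ℂ ≃+* ℂ) :
    ∃ B : ℝ, ∀ s : ℝ, 1 < s → s ≤ 2 → ∀ T : Finset ℕ, (∀ p ∈ T, p.Prime ∧ ¬ p ∣ N) →
      ∑ p ∈ T, ‖τ (qC f p)‖ ^ 2 * (p : ℝ) ^ (-s) ≤ Real.log (1 / (s - 1)) + B := by
  obtain ⟨g, hg⟩ := exists_conj_form f hf₁ hT τ
  have hg₁ : qC g 1 = 1 := by rw [hg, hf₁, map_one]
  have hgT : GoodHeckeRel (ε.ringHomComp τ.toRingHom) (qC g) := fun p hp hpN n => by
    simp only [hg, MulChar.ringHomComp_apply, RingEquiv.toRingHom_eq_coe, RingHom.coe_coe]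
    rw [← map_mul τ (qC f p), ← hT p hp hpN n, map_add, map_mul, apply_ite τ, map_zero]
  obtain ⟨B, hB⟩ := exists_sum_prime_sq_qCoeff_le g hg₁ hgT
  exact ⟨B, fun s h1 h2 T hT' => by simpa only [hg] using hB s h1 h2 T hT'⟩

/-- **Deligne–Serre, given the residual representations.** -/
theorem exists_galoisRep_of_hasResidualReps (f : CuspForm (Gamma1 N) 1) (hf₁ : qC f 1 = 1)
    (hT : GoodHeckeRel ε (qC f)) (K : IntermediateField ℚ ℂ) [FiniteDimensional ℚ K]
    (hK : ∀ n, qC f n ∈ K) (hres : HasResidualReps ε (qC f)) :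
    ∃ ρ : GQ →* GL (Fin 2) ℂ, IsExactRep ε (qC f) ∅ ρ ∧
      (Deformation.matrixRepresentation ρ).IsIrreducible := by
  have hint : ∀ p : ℕ, p.Prime → ¬ p ∣ N → IsIntegral ℤ (qC f p) := fun p hp hpN =>
    isIntegral_qCoeff_prime f hf₁ hT hp hpN
  obtain ⟨A, hA⟩ := exists_card_range_le chebotarevGe K hK hint
    (exists_sum_prime_sq_conj_le f hf₁ hT)
  obtain ⟨S, hS⟩ := exists_exactRep hres hint hA
  obtain ⟨ℓ₁, hℓ₁S, hℓ₁⟩ := Nat.exists_infinite_primes (S.sup id + 1)
  obtain ⟨ℓ₂, hℓ₂S, hℓ₂⟩ := Nat.exists_infinite_primes (ℓ₁ + S.sup id + 1)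
  have hnot : ∀ ℓ, S.sup id + 1 ≤ ℓ → ℓ ∉ S := fun ℓ hl h => by
    have := Finset.le_sup (f := id) h
    simp only [id] at this
    omega
  obtain ⟨R₁, hR₁⟩ := hS ℓ₁ hℓ₁ (hnot _ hℓ₁S)
  obtain ⟨R₂, hR₂⟩ := hS ℓ₂ hℓ₂ (hnot _ (by omega))
  have hR := exists_rep_of_two (show ℓ₁ ≠ ℓ₂ by omega) hR₁ hR₂ (NeZero.ne N)
  refine ⟨R₁, hR, isIrreducible_of_isExactRep hR ?_⟩
  simpa using exists_sum_prime_sq_conj_le f hf₁ hT (RingEquiv.refl ℂ)

end Fermat.Agent.WeightOne
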