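import Fermat.Agent.WeightOne.WpDeriv
import Fermat.Agent.KummerES.RatioExp
import Fermat.Agent.KummerES.RatioAlgebra

/-!
# The weight one forms `℘'_v / (℘_v - ℘_{2v})` at `ℓ`-torsion points

Modularity on `Γ₁(ℓ)` and action of `Γ₀(ℓ)`.  See `EisensteinCongr` for the congruence.
-/

set_option autoImplicit false

noncomputable section

open UpperHalfPlane hiding I
open Complex Filter Topology CongruenceSubgroup
open scoped Real MatrixGroups Manifold ModularForm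

namespace Fermat.Agent.WeightOne

open Fermat.Agent.KummerES

variable {ℓ : ℕ} [Fact ℓ.Prime]

/-- A nonzero point and its double form a pair. -/
lemma isPair_self_add (hℓ : 5 ≤ ℓ) {v : Ind ℓ} (hv : v ≠ 0) : IsPair v (v + v) := by
  obtain ⟨i, hi⟩ : ∃ i, v i ≠ 0 := Function.ne_iff.mp hv
  have h2 : ∀ a : ℕ, a ≠ 0 → a < ℓ → (a : ZMod ℓ) * v i ≠ 0 := fun a ha hlt => by
    refine mul_ne_zero ?_ hi
    rw [Ne, ZMod.natCast_eq_zero_iff]
    exact fun h => ha (Nat.eq_zero_of_dvd_of_lt h hlt)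
  refine ⟨hv, fun h => ?_, fun h => ?_, fun h => ?_⟩
  · apply h2 2 two_ne_zero (by omega)
    have := congrFun h i
    simp only [Pi.add_apply, Pi.zero_apply] at this
    push_cast
    linear_combination this
  · apply h2 1 one_ne_zero (by omega)
    have := congrFun h i
    simp only [Pi.add_apply] at this
    push_cast
    linear_combination -this
  · apply h2 3 (by omega) (by omega)
    have := congrFun h i
    simp only [Pi.add_apply, Pi.neg_apply] at this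
    push_cast
    linear_combination this

/-- `℘'_v / (2πi (℘_v - ℘_{2v}))`. -/
def wQuot (v : Ind ℓ) (τ : ℍ) : ℂ :=
  (wpd v τ / (2 * π * I) ^ 3) / ((wp v τ - wp (v + v) τ) / (2 * π * I) ^ 2)

/-- The expansion of the numerator. -/
abbrev numSeries (v : Ind ℓ) : LaurentSeries ℂ := dSeries v

/-- The expansion of the denominator. -/
abbrev denSeries (v : Ind ℓ) : LaurentSeries ℂ := wpSeries v - wpSeries (v + v)

/-- The denominator `℘_v - ℘_{2v}` has no zero. -/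
lemma den_ne_zero (hℓ : 5 ≤ ℓ) {v : Ind ℓ} (hv : v ≠ 0) (τ : ℍ) :
    (wp v τ - wp (v + v) τ) / (2 * π * I) ^ 2 ≠ 0 :=
  div_ne_zero (sub_ne_zero.mpr (wp_ne (isPair_self_add hℓ hv) τ)) (by simp [Real.pi_ne_zero])

/-- The expansion of the numerator `℘'_v`. -/
lemma num_hasExp {v : Ind ℓ} (hv : v ≠ 0) :
    HasExp ℓ (fun τ => wpd v τ / (2 * π * I) ^ 3) (numSeries v) :=
  wpd_hasExp hv

/-- The expansion of the denominator `℘_v - ℘_{2v}`. -/
lemma den_hasExp (hℓ : 5 ≤ ℓ) {v : Ind ℓ} (hv : v ≠ 0) :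
    HasExp ℓ (fun τ => (wp v τ - wp (v + v) τ) / (2 * π * I) ^ 2) (denSeries v) :=
  wp_sub_hasExp hv (isPair_self_add hℓ hv).right_ne_zero

lemma wQuot_mdiff (hℓ : 5 ≤ ℓ) {v : Ind ℓ} (hv : v ≠ 0) : MDiff (wQuot v) := by
  have h1 := (num_hasExp hv).mdiff
  have h2 := (den_hasExp hℓ hv).mdiff
  rw [UpperHalfPlane.mdifferentiable_iff] at h1 h2 ⊢
  refine (h1.div h2 fun z hz => ?_).congr fun z _ => rfl
  exact den_ne_zero hℓ hv _

lemma dCoeff_of_lt {v : Ind ℓ} {m : ℕ} (hm : m < vOrd v) : dCoeff v m = 0 := by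
  unfold dCoeff
  split_ifs with h0
  · subst h0
    rw [dConst, if_neg]
    exact fun h => (vOrd_eq_zero_iff.mpr h ▸ hm).false
  · refine Finset.sum_eq_zero fun p hp => ?_
    have hle : p.1 ≤ m := Nat.le_of_dvd (Nat.pos_of_ne_zero h0)
      ⟨p.2, (Nat.mem_divisorsAntidiagonal.mp hp).1.symm⟩
    have hne : ∀ x : ZMod ℓ, x = v 0 ∨ x = -v 0 → (p.1 : ZMod ℓ) ≠ x := by
      rintro x hx rfl
      exact absurd (vOrd_le_of_cast_eq hx) (by omega)
    rw [wpTerm, wpTerm, Pi.neg_apply, if_neg (hne _ (Or.inl rfl)), if_neg (hne _ (Or.inr rfl)),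
      sub_zero, mul_zero]

lemma exists_leading_le (hℓ : 5 ≤ ℓ) {v : Ind ℓ} (hv : v ≠ 0) :
    ∃ a, a ≤ vOrd v ∧ (∀ m < a, wpCoeff v m - wpCoeff (v + v) m = 0) ∧
      wpCoeff v a - wpCoeff (v + v) a ≠ 0 := by
  have h := isPair_self_add hℓ hv
  rcases lt_trichotomy (vOrd v) (vOrd (v + v)) with hlt | heq | hgt
  · exact ⟨vOrd v, le_rfl, fun m hm => by simp [wpCoeff_of_lt hm, wpCoeff_of_lt (hm.trans hlt)],
      (wpCoeff_leading_of_lt hv hlt).ne_zero⟩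
  · exact ⟨vOrd v, le_rfl, fun m hm => by simp [wpCoeff_of_lt hm, wpCoeff_of_lt (heq ▸ hm)],
      (wpCoeff_leading_of_eq h heq).ne_zero⟩
  · exact ⟨vOrd (v + v), hgt.le,
      fun m hm => by simp [wpCoeff_of_lt hm, wpCoeff_of_lt (hm.trans hgt)],
      by simpa using (wpCoeff_leading_of_lt h.right_ne_zero hgt).neg.ne_zero⟩

lemma tendsto_wQuot (hℓ : 5 ≤ ℓ) {v : Ind ℓ} (hv : v ≠ 0) :
    ∃ c : ℂ, Tendsto (wQuot v) atImInfty (𝓝 c) := by
  obtain ⟨a, hav, hlt, hne⟩ := exists_leading_le hℓ hv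
  have hN := (HasExp.single (L := ℓ) (-(a : ℤ)) 1).mul (num_hasExp hv)
  have hD := (HasExp.single (L := ℓ) (-(a : ℤ)) 1).mul (den_hasExp hℓ hv)
  have hc : ∀ (s : LaurentSeries ℂ) (i : ℤ),
      (HahnSeries.single (-(a : ℤ)) (1 : ℂ) * s).coeff i = s.coeff (i + a) := fun s i => by
    rw [HahnSeries.coeff_single_mul, one_mul, sub_neg_eq_add]
  have hN0 : ∀ i < 0, (HahnSeries.single (-(a : ℤ)) (1 : ℂ) * numSeries v).coeff i = 0 := by
    intro i hi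
    rw [hc]
    rcases lt_or_ge (i + (a : ℤ)) 0 with h | h
    · exact dSeries_coeff_of_neg v h
    · obtain ⟨m, hm⟩ := Int.eq_ofNat_of_zero_le h
      rw [hm, dSeries_coeff_natCast]
      exact dCoeff_of_lt (by omega)
  have hD0 : ∀ i < 0, (HahnSeries.single (-(a : ℤ)) (1 : ℂ) * denSeries v).coeff i = 0 := by
    intro i hi
    rw [hc, HahnSeries.coeff_sub]
    rcases lt_or_ge (i + (a : ℤ)) 0 with h | h
    · rw [wpSeries_coeff_of_neg v h, wpSeries_coeff_of_neg _ h, sub_zero]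
    · obtain ⟨m, hm⟩ := Int.eq_ofNat_of_zero_le h
      rw [hm, wpSeries_coeff_natCast, wpSeries_coeff_natCast]
      exact hlt m (by omega)
  have hlim : (HahnSeries.single (-(a : ℤ)) (1 : ℂ) * denSeries v).coeff 0 ≠ 0 := by
    rwa [hc, zero_add, HahnSeries.coeff_sub, wpSeries_coeff_natCast, wpSeries_coeff_natCast]
  refine ⟨_, ((hN.tendsto_atImInfty hN0).div (hD.tendsto_atImInfty hD0) hlim).congr fun τ => ?_⟩
  simp only [Pi.div_apply, Pi.mul_apply, wQuot]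
  exact mul_div_mul_left _ _ (mul_ne_zero one_ne_zero (zpow_ne_zero _ (qL_ne_zero _ _)))

lemma vAct_ne_zero {L : ℕ} {v : Ind L} (hv : v ≠ 0) (γ : SL(2, ℤ)) : vAct v γ ≠ 0 := by
  intro h
  apply hv
  have : vAct (vAct v γ) γ⁻¹ = vAct 0 γ⁻¹ := by rw [h]
  rw [vAct_mul, mul_inv_cancel, vAct_one] at this
  simpa [vAct, Matrix.zero_vecMul] using this

lemma slash_wQuot (γ : SL(2, ℤ)) (v : Ind ℓ) :
    (wQuot v) ∣[(1 : ℤ)] γ = wQuot (vAct v γ) := by
  funext τ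
  have hadd : vAct (v + v) γ = vAct v γ + vAct v γ := Matrix.add_vecMul _ _ _
  have hd : ((γ 1 0 : ℂ) * τ + γ 1 1) ≠ 0 := by
    have := UpperHalfPlane.denom_ne_zero (γ : GL (Fin 2) ℝ) τ
    simpa [denom] using this
  rw [ModularForm.SL_slash_apply]
  simp only [wQuot, wpd_smul, wp_smul, hadd, denom, zpow_neg, zpow_one]
  simp only [← mul_sub]
  simp [Matrix.SpecialLinearGroup.coe_GL_coe_matrix]
  field_simp

lemma vAct_vec_of_mem_Gamma0 {γ : SL(2, ℤ)} (hγ : γ ∈ Gamma0 ℓ) (c : ZMod ℓ) :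
    vAct (![0, c] : Ind ℓ) γ = ![0, c * (γ 1 1 : ℤ)] := by
  have h10 : ((γ 1 0 : ℤ) : ZMod ℓ) = 0 := Gamma0_mem.mp hγ
  funext i
  fin_cases i <;> simp [vAct, Matrix.vecMul, dotProduct, Fin.sum_univ_two, h10]

/-- The form attached to the point `c / ℓ`. -/
def wForm (hℓ : 5 ≤ ℓ) (c : ZMod ℓ) (hc : c ≠ 0) : ModularForm (Gamma1 ℓ) 1 where
  toFun := wQuot ![0, c]
  slash_action_eq' g hg := by
    obtain ⟨γ, hγ, rfl⟩ := hg
    show (wQuot ![0, c]) ∣[(1 : ℤ)] γ = _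
    rw [slash_wQuot, vAct_vec_of_mem_Gamma0 (Gamma1_in_Gamma0 ℓ hγ)]
    rw [((Gamma1_mem ℓ γ).mp hγ).2.1, mul_one]
  holo' := wQuot_mdiff hℓ (fun h => hc (by simpa using congrFun h 1))
  bdd_at_cusps' {x} hx := by
    rw [Subgroup.IsArithmetic.isCusp_iff_isCusp_SL2Z] at hx
    rw [OnePoint.isBoundedAt_iff_forall_SL2Z hx]
    intro γ _
    show IsBoundedAtImInfty ((wQuot ![0, c]) ∣[(1 : ℤ)] γ)
    rw [slash_wQuot]
    obtain ⟨l, hl⟩ := tendsto_wQuot hℓ (vAct_ne_zero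
      (show (![0, c] : Ind ℓ) ≠ 0 from fun h => hc (by simpa using congrFun h 1)) γ)
    exact hl.isBigO_one ℝ

@[simp] lemma wForm_apply (hℓ : 5 ≤ ℓ) (c : ZMod ℓ) (hc : c ≠ 0) :
    ⇑(wForm hℓ c hc) = wQuot ![0, c] := rfl

/-- `Γ₀(ℓ)` permutes the forms `wForm` through the lower right entry. -/
lemma slash_wForm (hℓ : 5 ≤ ℓ) {γ : SL(2, ℤ)} (hγ : γ ∈ Gamma0 ℓ) (c d : ZMod ℓ) (hc : c ≠ 0)
    (hd : d ≠ 0) (h : d = c * (γ 1 1 : ℤ)) :
    ⇑(wForm hℓ c hc) ∣[(1 : ℤ)] γ = ⇑(wForm hℓ d hd) := by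
  rw [wForm_apply, slash_wQuot, vAct_vec_of_mem_Gamma0 hγ, wForm_apply, h]

end Fermat.Agent.WeightOne
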