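import Mathlib.FieldTheory.IsAlgClosed.Spectrum
import Mathlib.LinearAlgebra.Matrix.Charpoly.Eigs
import Mathlib.LinearAlgebra.PID
import Mathlib.RingTheory.Valuation.LocalSubring

/-!
# Lifting two-dimensional representations of groups of order prime to the residue characteristic

For a valuation subring `O` of an algebraically closed field `K` with residue field `k` of
characteristic `ℓ > 2|G|`, every `ρ : G →* GL₂(k)` has a lift `ρ' : G →* GL₂(K)` whose traces
are in `O` and reduce to the traces of `ρ`. No completeness is used: an idempotent in a matrix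
ring over `O` commuting with the regular action is lifted by a polynomial.
-/

set_option autoImplicit false

noncomputable section

namespace Fermat.Agent.WeightOne

open Matrix Polynomial IsLocalRing

section Idempotent

variable {R : Type*} [CommRing R] [IsLocalRing R]
variable {n : Type*} [Fintype n] [DecidableEq n]

/-- Linear factors with distinct residual roots are coprime. -/
theorem isCoprime_X_sub_C_of_residue_ne {a b : R} (h : residue R a ≠ residue R b) :
    IsCoprime (X - C a) (X - C b) := by
  have hu : IsUnit (a - b) := by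
    rw [← residue_ne_zero_iff_isUnit, map_sub, sub_ne_zero]
    exact h
  obtain ⟨c, hc⟩ := hu.exists_left_inv
  refine ⟨-C c, C c, ?_⟩
  have : C c * (C a - C b) = (1 : R[X]) := by rw [← C_sub, ← C_mul, hc, C_1]
  linear_combination this

/-- A polynomial in an idempotent `E` is `q(0) (1 - E) + q(1) E`. -/
theorem map_aeval_eq_of_isIdempotentElem {k : Type*} [CommRing k] (q : k[X])
    {E : Matrix n n k} (hE : IsIdempotentElem E) :
    aeval E q = q.eval 0 • (1 - E) + q.eval 1 • E := by
  induction q using Polynomial.induction_on' with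
  | add p q hp hq =>
    simp only [map_add, eval_add] at hp hq ⊢
    rw [hp, hq, add_smul, add_smul]
    abel
  | monomial m c =>
    rw [aeval_monomial, Algebra.algebraMap_eq_smul_one, smul_mul_assoc, one_mul]
    rcases Nat.eq_zero_or_pos m with rfl | hm
    · simp [← smul_add]
    · obtain ⟨m, rfl⟩ := Nat.exists_eq_succ_of_ne_zero hm.ne'
      rw [hE.pow_succ_eq]
      simp

/-- Lifting an idempotent matrix along the residue map by a polynomial in a given lift,
when the characteristic polynomial of that lift splits. -/
theorem exists_idempotent_aeval (M : Matrix n n R) (s : Multiset R)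
    (hs : M.charpoly = (s.map fun r => X - C r).prod)
    (hM : IsIdempotentElem (M.map (residue R))) :
    ∃ q : R[X], IsIdempotentElem (aeval M q) ∧ (aeval M q).map (residue R) = M.map (residue R) := by
  classical
  have hroot : ∀ r ∈ s, residue R r = 0 ∨ residue R r = 1 := by
    intro r hr
    have h1 : (M.map (residue R)).charpoly.IsRoot (residue R r) := by
      rw [Matrix.charpoly_map, hs, Polynomial.map_multiset_prod, Multiset.map_map, IsRoot,
        eval_multiset_prod, Multiset.prod_eq_zero_iff, Multiset.map_map, Multiset.mem_map]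
      exact ⟨r, hr, by simp⟩
    rw [← Matrix.mem_spectrum_iff_isRoot_charpoly] at h1
    simpa using IsIdempotentElem.spectrum_subset (ResidueField R) hM h1
  set s0 := s.filter fun r => residue R r = 0 with hs0
  set s1 := s.filter fun r => ¬ residue R r = 0 with hs1
  set P0 := ((0 ::ₘ s0).map fun r => X - C r).prod with hP0
  set P1 := ((1 ::ₘ s1).map fun r => X - C r).prod with hP1
  have hcop : IsCoprime P0 P1 := by
    have h : ∀ a ∈ (0 : R) ::ₘ s0, ∀ b ∈ (1 : R) ::ₘ s1, IsCoprime (X - C a) (X - C b) := by
      intro a ha b hb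
      refine isCoprime_X_sub_C_of_residue_ne ?_
      have ha0 : residue R a = 0 := by
        rcases Multiset.mem_cons.mp ha with rfl | ha
        · simp
        · exact (Multiset.mem_filter.mp ha).2
      have hb1 : residue R b = 1 := by
        rcases Multiset.mem_cons.mp hb with rfl | hb
        · simp
        · have := Multiset.mem_filter.mp hb
          exact (hroot b this.1).resolve_left this.2
      rw [ha0, hb1]
      exact zero_ne_one
    rw [hP0, hP1]
    generalize (0 : R) ::ₘ s0 = t0 at h
    generalize (1 : R) ::ₘ s1 = t1 at h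
    induction t0 using Multiset.induction_on with
    | empty => simp [isCoprime_one_left]
    | cons a t0 ih =>
      rw [Multiset.map_cons, Multiset.prod_cons]
      refine IsCoprime.mul_left ?_ (ih fun x hx => h x (Multiset.mem_cons_of_mem hx))
      clear ih
      induction t1 using Multiset.induction_on with
      | empty => simp [isCoprime_one_right]
      | cons b t1 ih1 =>
        rw [Multiset.map_cons, Multiset.prod_cons]
        exact IsCoprime.mul_right
          (h a (Multiset.mem_cons_self _ _) b (Multiset.mem_cons_self _ _))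
          (ih1 fun x hx y hy => h x hx y (Multiset.mem_cons_of_mem hy))
  obtain ⟨u, v, huv⟩ := hcop
  have hkill : aeval M (P0 * P1) = 0 := by
    have : P0 * P1 = M.charpoly * ((X - C 0) * (X - C 1)) := by
      rw [hP0, hP1, hs, Multiset.map_cons, Multiset.map_cons, Multiset.prod_cons,
        Multiset.prod_cons]
      conv_rhs => rw [← Multiset.filter_add_not (fun r => residue R r = 0) s, Multiset.map_add,
        Multiset.prod_add]
      rw [← hs0, ← hs1]
      ring
    rw [this, map_mul, Matrix.aeval_self_charpoly, zero_mul]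
  refine ⟨u * P0, ?_, ?_⟩
  · have h1 : u * P0 * (u * P0) = u * P0 - u * v * (P0 * P1) := by
      linear_combination (u * P0) * huv
    rw [IsIdempotentElem, ← map_mul, h1, map_sub, map_mul _ (u * v), hkill, mul_zero, sub_zero]
  · have e : (aeval M (u * P0)).map (residue R)
        = aeval (M.map (residue R)) ((u * P0).map (residue R)) := by
      have := Polynomial.map_aeval_eq_aeval_map (φ := residue R)
        (ψ := (residue R).mapMatrix (m := n)) (by ext r : 1; simp [Matrix.algebraMap_eq_diagonal,
          Matrix.diagonal_map]) (u * P0) M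
      simpa using this
    rw [e, map_aeval_eq_of_isIdempotentElem _ hM]
    have h0 : ((u * P0).map (residue R)).eval 0 = 0 := by
      simp [hP0]
    have h1 : ((u * P0).map (residue R)).eval 1 = 1 := by
      have := congrArg (fun q => (q.map (residue R)).eval 1) huv
      simpa [hP1] using this
    rw [h0, h1]
    simp

end Idempotent

section ConvMatrix

variable {G : Type*} [Group G]

/-- The matrix of convolution by the matrix valued function `c` on `G`. -/
def convMatrix {R : Type*} (c : G → Matrix (Fin 2) (Fin 2) R) :
    Matrix (G × Fin 2) (G × Fin 2) R :=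
  Matrix.of fun a b => c (a.1 * b.1⁻¹) a.2 b.2

variable [Fintype G] [DecidableEq G]

/-- The right regular action of `G` on two copies of the free module on `G`. -/
def translationMatrix (R : Type*) [Semiring R] : G →* Matrix (G × Fin 2) (G × Fin 2) R where
  toFun x := Matrix.of fun a b => if b = (a.1 * x, a.2) then 1 else 0
  map_one' := by
    ext ⟨h, i⟩ ⟨f, j⟩
    simp [Matrix.one_apply, eq_comm]
  map_mul' x y := by
    ext ⟨h, i⟩ ⟨f, j⟩
    simp only [Matrix.mul_apply, Matrix.of_apply, ite_mul, one_mul, zero_mul,
      Finset.sum_ite_eq', Finset.mem_univ, if_true, mul_assoc]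

/-- Convolution commutes with translation. -/
theorem commute_translationMatrix_convMatrix {R : Type*} [Semiring R]
    (c : G → Matrix (Fin 2) (Fin 2) R) (x : G) :
    Commute (translationMatrix R x) (convMatrix c) := by
  ext ⟨h, i⟩ ⟨f, j⟩
  simp only [Matrix.mul_apply, translationMatrix, MonoidHom.coe_mk, OneHom.coe_mk, convMatrix,
    Matrix.of_apply, ite_mul, one_mul, zero_mul, mul_ite, mul_one, mul_zero, Finset.sum_ite_eq',
    Finset.mem_univ, if_true]
  rw [Finset.sum_eq_single (f * x⁻¹, j)]
  · simp only [if_pos (show (f, j) = (f * x⁻¹ * x, j) by group)]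
    congr 1
    group
  · intro b _ hb
    rw [if_neg]
    intro h'
    apply hb
    simp only [Prod.mk.injEq] at h'
    rw [h'.1, h'.2]
    simp
  · intro h'; exact absurd (Finset.mem_univ _) h'

variable {k : Type*} [Field k]

omit [DecidableEq G] in
/-- Convolution by `|G|⁻¹ ρ` is idempotent. -/
theorem isIdempotentElem_convMatrix (hN : (Fintype.card G : k) ≠ 0) (ρ : G →* GL (Fin 2) k) :
    IsIdempotentElem (convMatrix fun x =>
      (Fintype.card G : k)⁻¹ • ((ρ x : GL (Fin 2) k) : Matrix (Fin 2) (Fin 2) k)) := by
  ext ⟨h, i⟩ ⟨f, j⟩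
  simp only [convMatrix, Matrix.mul_apply, Matrix.of_apply, Fintype.sum_prod_type]
  have key : ∀ g : G, ∑ l, ((Fintype.card G : k)⁻¹ • (ρ (h * g⁻¹) : Matrix (Fin 2) (Fin 2) k)) i l
      * ((Fintype.card G : k)⁻¹ • (ρ (g * f⁻¹) : Matrix (Fin 2) (Fin 2) k)) l j
      = (Fintype.card G : k)⁻¹ *
        ((Fintype.card G : k)⁻¹ • (ρ (h * f⁻¹) : Matrix (Fin 2) (Fin 2) k)) i j := by
    intro g
    rw [← Matrix.mul_apply]
    simp only [smul_mul_smul_comm, ← Units.val_mul, ← map_mul, Matrix.smul_apply, smul_eq_mul]
    rw [show h * g⁻¹ * (g * f⁻¹) = h * f⁻¹ by group, mul_assoc]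
  rw [Finset.sum_congr rfl fun g _ => key g, Finset.sum_const, Finset.card_univ, nsmul_eq_mul,
    ← mul_assoc, mul_inv_cancel₀ hN, one_mul]

/-- The trace of a translation on the image of convolution by `|G|⁻¹ ρ` is the trace of `ρ`. -/
theorem trace_translationMatrix_mul_convMatrix (hN : (Fintype.card G : k) ≠ 0)
    (ρ : G →* GL (Fin 2) k) (x : G) :
    (translationMatrix k x * convMatrix fun x =>
      (Fintype.card G : k)⁻¹ • ((ρ x : GL (Fin 2) k) : Matrix (Fin 2) (Fin 2) k)).trace
      = ((ρ x : GL (Fin 2) k) : Matrix (Fin 2) (Fin 2) k).trace := by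
  rw [Matrix.trace]
  simp only [Matrix.diag, Matrix.mul_apply, translationMatrix, MonoidHom.coe_mk, OneHom.coe_mk,
    convMatrix, Matrix.of_apply, ite_mul, one_mul, zero_mul, Finset.sum_ite_eq', Finset.mem_univ,
    if_true, Fintype.sum_prod_type, Matrix.smul_apply, smul_eq_mul]
  have hh : ∀ h : G, ∑ i, (Fintype.card G : k)⁻¹ *
      ((ρ (h * x * h⁻¹) : GL (Fin 2) k) : Matrix (Fin 2) (Fin 2) k) i i
      = (Fintype.card G : k)⁻¹ * ((ρ x : GL (Fin 2) k) : Matrix (Fin 2) (Fin 2) k).trace := by
    intro h
    rw [← Finset.mul_sum]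
    congr 1
    show Matrix.trace ((ρ (h * x * h⁻¹) : GL (Fin 2) k) : Matrix (Fin 2) (Fin 2) k) = _
    rw [map_mul, map_mul, Units.val_mul, Units.val_mul, Matrix.trace_mul_cycle, ← Units.val_mul,
      ← map_mul, inv_mul_cancel, map_one, Units.val_one, one_mul]
  rw [Finset.sum_congr rfl fun h _ => hh h, Finset.sum_const, Finset.card_univ, nsmul_eq_mul,
    ← mul_assoc, mul_inv_cancel₀ hN, one_mul]

end ConvMatrix

section Lift

variable {K : Type*} [Field K] [IsAlgClosed K] (O : ValuationSubring K)

/-- Over a valuation subring of an algebraically closed field every characteristic polynomial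
splits. -/
theorem exists_charpoly_eq_prod {n : Type*} [Fintype n] [DecidableEq n] (M : Matrix n n O) :
    ∃ s : Multiset O, M.charpoly = (s.map fun r => X - C r).prod := by
  set P := M.charpoly.map (algebraMap O K) with hP
  have hPm : M.charpoly.Monic := Matrix.charpoly_monic _
  have hmem : ∀ r ∈ P.roots, ∃ r' : O, algebraMap O K r' = r := by
    intro r hr
    refine IsIntegrallyClosed.isIntegral_iff.mp ⟨M.charpoly, hPm, ?_⟩
    have := (Polynomial.mem_roots'.mp hr).2
    rwa [IsRoot, hP, eval_map] at this
  choose lift hlift using hmem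
  refine ⟨P.roots.attach.map fun r => lift r.1 r.2, ?_⟩
  apply Polynomial.map_injective (algebraMap O K) (FaithfulSMul.algebraMap_injective O K)
  rw [Polynomial.map_multiset_prod, Multiset.map_map, Multiset.map_map, ← hP]
  refine ((IsAlgClosed.splits P).eq_prod_roots_of_monic (hPm.map _)).trans ?_
  conv_lhs => rw [← Multiset.attach_map_val P.roots, Multiset.map_map]
  congr 1
  refine Multiset.map_congr rfl fun r _ => ?_
  simp [hlift]

omit [IsAlgClosed K] in
/-- An idempotent `E` commuting with an action `P` of `G` cuts out a representation with traces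
`trace (P x * E)`; it is two-dimensional when the trace of `E` reduces to `2` modulo the large
residue characteristic. -/
theorem exists_rep_of_idempotent {G : Type*} [Group G] {n : Type*} [Fintype n] [DecidableEq n]
    (ℓ : ℕ) [CharP (ResidueField O) ℓ] (hn : Fintype.card n < ℓ) (hℓ : 2 < ℓ)
    (P : G →* Matrix n n O) {E : Matrix n n O} (hE : IsIdempotentElem E)
    (hPE : ∀ x, Commute (P x) E) (htr : residue O E.trace = 2) :
    ∃ ρ' : G →* GL (Fin 2) K, ∀ x,
      (((P x * E).trace : O) : K) =
        ((ρ' x : GL (Fin 2) K) : Matrix (Fin 2) (Fin 2) K).trace := by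
  let toK : Matrix n n O →+* Module.End K (n → K) :=
    (Matrix.toLinAlgEquiv' (R := K)).toAlgHom.toRingHom.comp (algebraMap O K).mapMatrix
  have htoK : ∀ A : Matrix n n O, LinearMap.trace K _ (toK A) = (A.trace : K) := by
    intro A
    show LinearMap.trace K _ (Matrix.toLin' (A.map (algebraMap O K))) = _
    rw [Matrix.trace_toLin'_eq]
    exact (AddMonoidHom.map_trace (algebraMap O K) A).symm
  set W := LinearMap.range (toK E)
  have hidem : IsIdempotentElem (toK E) := hE.map toK
  have hproj : LinearMap.IsProj W (toK E) := by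
    refine ⟨fun v => LinearMap.mem_range_self _ v, ?_⟩
    rintro _ ⟨v, rfl⟩
    exact LinearMap.congr_fun hidem v
  have hrank : Module.finrank K W = 2 := by
    have h1 : ((Module.finrank K W : ℕ) : K) = (E.trace : K) := by
      rw [← hproj.trace, htoK]
    have h2 : E.trace = (Module.finrank K W : O) := Subtype.coe_injective (by
      show ((E.trace : O) : K) = (((Module.finrank K W : ℕ) : O) : K)
      rw [← h1]; simp)
    rw [h2, map_natCast] at htr
    have h4 : Module.finrank K W ≤ Fintype.card n :=
      (Submodule.finrank_le _).trans (by simp)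
    exact Nat.ModEq.eq_of_lt_of_lt ((CharP.natCast_eq_natCast _ ℓ).mp (by simpa using htr))
      (h4.trans_lt hn) hℓ
  have hmaps : ∀ x, ∀ v ∈ W, toK (P x) v ∈ W := by
    rintro x _ ⟨v, rfl⟩
    refine ⟨toK (P x) v, ?_⟩
    exact LinearMap.congr_fun (((hPE x).map toK).eq.symm) v
  let act : G →* Module.End K W :=
    { toFun := fun x => (toK (P x)).restrict (hmaps x)
      map_one' := by ext v; simp
      map_mul' := fun x y => by ext v; simp }
  let b : Module.Basis (Fin 2) K W := Module.finBasisOfFinrankEq K W hrank
  refine ⟨((LinearMap.toMatrixAlgEquiv b).toMulEquiv.toMonoidHom.comp act).toHomUnits,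
    fun x => ?_⟩
  rw [← htoK, MonoidHom.coe_toHomUnits]
  show _ = Matrix.trace (LinearMap.toMatrix b b (act x))
  rw [← LinearMap.trace_eq_matrix_trace]
  have hmem : ∀ v, (toK (P x * E)) v ∈ W := by
    intro v
    rw [map_mul]
    exact hmaps x _ (LinearMap.mem_range_self _ v)
  rw [← LinearMap.trace_restrict_eq_of_forall_mem W _ hmem]
  congr 1
  ext ⟨w, hw⟩ : 2
  show toK (P x * E) w = toK (P x) w
  rw [map_mul, Module.End.mul_apply, hproj.map_id w hw]

/-- A lift of a two-dimensional representation with congruent traces. -/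
theorem exists_lift_trace {G : Type*} [Group G] [Fintype G] (ℓ : ℕ) [CharP (ResidueField O) ℓ]
    (hℓ : 2 * Fintype.card G < ℓ) (ρ : G →* GL (Fin 2) (ResidueField O)) :
    ∃ ρ' : G →* GL (Fin 2) K, ∀ g, ∃ t : O,
      (t : K) = ((ρ' g : GL (Fin 2) K) : Matrix (Fin 2) (Fin 2) K).trace ∧
      residue O t = ((ρ g : GL (Fin 2) (ResidueField O)) : Matrix (Fin 2) (Fin 2) _).trace := by
  classical
  set k := ResidueField O
  have hpos := Fintype.card_pos (α := G)
  have hN0 : (Fintype.card G : k) ≠ 0 := by
    rw [Ne, CharP.cast_eq_zero_iff k ℓ]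
    intro h
    have := Nat.le_of_dvd hpos h
    omega
  set cbar : G → Matrix (Fin 2) (Fin 2) k :=
    fun x => (Fintype.card G : k)⁻¹ • ((ρ x : GL (Fin 2) k) : Matrix (Fin 2) (Fin 2) k) with hcbar
  have hc' : ∀ x i j, ∃ a : O, residue O a = cbar x i j := fun x i j => residue_surjective _
  choose c hc using hc'
  have hbar : (convMatrix (fun x => Matrix.of (c x))).map (residue O) = convMatrix cbar := by
    ext a b
    simp [convMatrix, hc]
  obtain ⟨s, hs⟩ := exists_charpoly_eq_prod O (convMatrix fun x => Matrix.of (c x))
  obtain ⟨q, hqI, hqbar⟩ := exists_idempotent_aeval _ s hs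
    (hbar ▸ isIdempotentElem_convMatrix hN0 ρ)
  have htr : ∀ x, residue O (translationMatrix O x *
      aeval (convMatrix fun x => Matrix.of (c x)) q).trace
      = ((ρ x : GL (Fin 2) k) : Matrix (Fin 2) (Fin 2) k).trace := fun x => by
    rw [← trace_translationMatrix_mul_convMatrix hN0 ρ x, ← hcbar, AddMonoidHom.map_trace,
      Matrix.map_mul, hqbar, hbar]
    congr 2
    ext a b
    simp [translationMatrix, apply_ite (residue O)]
  have h2 := htr 1
  rw [map_one, one_mul, map_one, Units.val_one, Matrix.trace_one, Fintype.card_fin] at h2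
  obtain ⟨ρ', hρ'⟩ := exists_rep_of_idempotent O ℓ (by simpa [mul_comm] using hℓ) (by omega)
    (translationMatrix O) hqI (fun x => by
      rw [aeval_eq_sum_range]
      exact Commute.sum_right _ _ _ fun i _ =>
        ((commute_translationMatrix_convMatrix _ x).pow_right i).smul_right _)
    (by simpa using h2)
  exact ⟨ρ', fun x => ⟨_, hρ' x, htr x⟩⟩

end Lift

end Fermat.Agent.WeightOne
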