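import Fermat.Agent.WeightOne.Bounded
import Fermat.Agent.WeightOne.Lift
import Fermat.Agent.GaloisBasics.Galois
import Fermat.Agent.Frobenius.Existence
import Mathlib.RingTheory.Valuation.LocalSubring

/-!
# Complex representations with exact traces

Residual representations with bounded images lift to complex representations whose traces and
determinants at Frobenius elements are exactly the given eigenvalues.
-/

set_option autoImplicit false

noncomputable section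

open IsLocalRing

namespace Fermat.Agent.WeightOne

local notation "Qbar" => AlgebraicClosure ℚ
local notation "GQ" => (AlgebraicClosure ℚ ≃ₐ[ℚ] AlgebraicClosure ℚ)

/-- Sums of two `n`-th roots of unity and `n`-th roots of unity. -/
def finiteVals (n : ℕ) : Finset ℂ :=
  Finset.image₂ (· + ·)
      (Polynomial.nthRootsFinset n (1 : ℂ)) (Polynomial.nthRootsFinset n (1 : ℂ)) ∪
    Polynomial.nthRootsFinset n (1 : ℂ)

lemma isIntegral_of_mem_finiteVals {n : ℕ} (hn : 0 < n) {z : ℂ} (hz : z ∈ finiteVals n) :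
    IsIntegral ℤ z := by
  have key : ∀ x ∈ Polynomial.nthRootsFinset n (1 : ℂ), IsIntegral ℤ x := fun x hx =>
    IsIntegral.of_pow hn
      (by rw [(Polynomial.mem_nthRootsFinset hn (1 : ℂ)).mp hx]; exact isIntegral_one)
  rcases Finset.mem_union.mp hz with h | h
  · obtain ⟨x, hx, y, hy, rfl⟩ := Finset.mem_image₂.mp h
    exact (key x hx).add (key y hy)
  · exact key z h

/-- Trace and determinant of a matrix of finite order. -/
lemma trace_det_mem_finiteVals {n : ℕ} (hn : 0 < n) {M : Matrix (Fin 2) (Fin 2) ℂ}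
    (hM : M ^ n = 1) : M.trace ∈ finiteVals n ∧ M.det ∈ finiteVals n := by
  have hmem : ∀ x ∈ M.charpoly.roots, x ∈ Polynomial.nthRootsFinset n (1 : ℂ) := by
    intro x hx
    rw [Polynomial.mem_nthRootsFinset hn]
    have hx' : x ∈ spectrum ℂ M :=
      Matrix.mem_spectrum_iff_isRoot_charpoly.mpr (Polynomial.isRoot_of_mem_roots hx)
    have h2 := spectrum.pow_mem_pow M n hx'
    rw [hM, spectrum.one_eq] at h2
    simpa using h2
  have hcard : M.charpoly.roots.card = 2 := by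
    rw [← (IsAlgClosed.splits M.charpoly).natDegree_eq_card_roots,
      Matrix.charpoly_natDegree_eq_dim, Fintype.card_fin]
  obtain ⟨x, y, hxy⟩ := Multiset.card_eq_two.mp hcard
  have hx := hmem x (by simp [hxy])
  have hy := hmem y (by simp [hxy])
  refine ⟨Finset.mem_union_left _ (Finset.mem_image₂.mpr ⟨x, hx, y, hy, ?_⟩),
    Finset.mem_union_right _ ?_⟩
  · rw [Matrix.trace_eq_sum_roots_charpoly, hxy]
    simp
  · rw [Matrix.det_eq_prod_roots_charpoly, hxy, Polynomial.mem_nthRootsFinset hn]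
    simp [mul_pow, (Polynomial.mem_nthRootsFinset hn (1 : ℂ)).mp hx,
      (Polynomial.mem_nthRootsFinset hn (1 : ℂ)).mp hy]

/-- An algebraic integer lying in the maximal ideal of places over infinitely many primes is
zero. -/
lemma exists_dvd_of_nonunit {x : ℂ} (hx : IsIntegral ℤ x) (h0 : x ≠ 0) :
    ∃ c : ℕ, c ≠ 0 ∧ ∀ (ℓ : ℕ), ℓ.Prime → ∀ O : ValuationSubring ℂ, (ℓ : ℂ) ∈ O.nonunits →
      x ∈ O.nonunits → ℓ ∣ c := by
  have hP := minpoly.monic hx
  have hc0 : (minpoly ℤ x).coeff 0 ≠ 0 := by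
    rw [Polynomial.coeff_zero_eq_eval_zero]
    intro h
    have hirr := minpoly.irreducible hx
    obtain ⟨Q, hQ⟩ := Polynomial.dvd_iff_isRoot.mpr (h : (minpoly ℤ x).IsRoot 0)
    rw [map_zero, sub_zero] at hQ
    rcases hirr.isUnit_or_isUnit hQ with hu | hu
    · exact Polynomial.not_isUnit_X hu
    · have h1 := minpoly.aeval ℤ x
      rw [hQ, map_mul, Polynomial.aeval_X, mul_eq_zero, or_iff_right h0] at h1
      exact (hu.map (Polynomial.aeval x)).ne_zero h1
  refine ⟨((minpoly ℤ x).coeff 0).natAbs, Int.natAbs_ne_zero.mpr hc0, fun ℓ hℓ O hO hxO => ?_⟩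
  by_contra hndvd
  have hxmem : x ∈ O := O.nonunits_subset hxO
  -- the constant coefficient is a multiple of `x`
  have hc : (((minpoly ℤ x).coeff 0 : ℤ) : ℂ) ∈ O.nonunits := by
    have h1 := minpoly.aeval ℤ x
    rw [← Polynomial.X_mul_divX_add (minpoly ℤ x), map_add, map_mul, Polynomial.aeval_X,
      Polynomial.aeval_C, algebraMap_int_eq, eq_intCast] at h1
    rw [eq_neg_of_add_eq_zero_right h1, ValuationSubring.mem_nonunits_iff, Valuation.map_neg,
      map_mul]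
    refine mul_lt_one_of_nonneg_of_lt_one_left zero_le ((O.mem_nonunits_iff).mp hxO) ?_
    rw [ValuationSubring.valuation_le_one_iff, Polynomial.aeval_eq_sum_range]
    exact sum_mem fun i _ => by
      rw [zsmul_eq_mul]; exact mul_mem (intCast_mem O _) (pow_mem hxmem i)
  have hcop : IsCoprime ((minpoly ℤ x).coeff 0) (ℓ : ℤ) := by
    rw [Int.isCoprime_iff_nat_coprime, Int.natAbs_natCast, Nat.coprime_comm]
    exact (Nat.Prime.coprime_iff_not_dvd hℓ).mpr hndvd
  obtain ⟨u, v, huv⟩ := hcop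
  have h := congrArg (fun k : ℤ => O.valuation (k : ℂ)) huv
  simp only [Int.cast_add, Int.cast_mul, Int.cast_natCast, Int.cast_one, map_one] at h
  refine (Valuation.map_add_lt O.valuation ?_ ?_).ne h
  · rw [map_mul]
    exact mul_lt_one_of_nonneg_of_lt_one_right ((O.valuation_le_one_iff _).mpr (intCast_mem O u))
      zero_le ((O.mem_nonunits_iff).mp hc)
  · rw [map_mul]
    exact mul_lt_one_of_nonneg_of_lt_one_right ((O.valuation_le_one_iff _).mpr (intCast_mem O v))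
      zero_le ((O.mem_nonunits_iff).mp hO)

/-- Algebraic integers lie in every valuation subring of `ℂ`. -/
lemma mem_of_isIntegral {O : ValuationSubring ℂ} {x : ℂ} (hx : IsIntegral ℤ x) : x ∈ O := by
  obtain ⟨t, ht⟩ := (IsIntegrallyClosed.isIntegral_iff (R := O) (K := ℂ)).mp hx.tower_top
  exact ht ▸ t.2

lemma mem_nonunits_sub_of_residue_eq {O : ValuationSubring ℂ} {t t' : O}
    (h : residue O t = residue O t') : (t : ℂ) - t' ∈ O.nonunits := by
  have hm : t - t' ∈ maximalIdeal O := by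
    rw [← residue_eq_zero_iff, map_sub, h, sub_self]
  rw [ValuationSubring.mem_nonunits_iff]
  exact (O.valuation_lt_one_iff _).mp hm

variable {N : ℕ} [NeZero N] {ε : DirichletCharacter ℂ N} {a : ℕ → ℂ}

/-- A complex representation attached to `(a, ε)` away from a set of primes. -/
structure IsExactRep (ε : DirichletCharacter ℂ N) (a : ℕ → ℂ) (excl : Set ℕ)
    (R : GQ →* GL (Fin 2) ℂ) : Prop where
  finiteLevel : GaloisFactorsThroughFiniteLevel R
  unramified : ∀ p : ℕ, p.Prime → ¬ p ∣ N → p ∉ excl →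
    ∀ A : ValuationSubring Qbar, A.LiesOverPrime p → ∀ σ ∈ A.inertiaSubgroupIn ℚ, R σ = 1
  frobenius : ∀ p : ℕ, p.Prime → ¬ p ∣ N → p ∉ excl →
    ∀ A : ValuationSubring Qbar, A.LiesOverPrime p → ∀ σ : GQ, A.IsFrobeniusAt σ p →
      ((R σ : GL (Fin 2) ℂ) : Matrix (Fin 2) (Fin 2) ℂ).trace = a p ∧
      ((R σ : GL (Fin 2) ℂ) : Matrix (Fin 2) (Fin 2) ℂ).det = ε (p : ZMod N)

/-- **Exact lifts.** -/
theorem exists_exactRep (hres : HasResidualReps ε a)
    (hint : ∀ p : ℕ, p.Prime → ¬ p ∣ N → IsIntegral ℤ (a p)) {A : ℕ}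
    (hA : ∀ (ℓ : ℕ) (O : ValuationSubring ℂ) (ρ : GQ →* GL (Fin 2) (ResidueField O)),
      (2 : ResidueField O) ≠ 0 → IsResidualAt ε a ℓ O ρ → Finite ρ.range ∧
        Nat.card ρ.range ≤ A) :
    ∃ S : Finset ℕ, ∀ ℓ : ℕ, ℓ.Prime → ℓ ∉ S →
      ∃ R : GQ →* GL (Fin 2) ℂ, IsExactRep ε a {ℓ} R := by
  classical
  obtain ⟨S₀, hS₀⟩ := hres
  set n := A.factorial * Fintype.card (ZMod N)ˣ with hn
  have hnpos : 0 < n := Nat.mul_pos A.factorial_pos Fintype.card_pos
  set W := finiteVals n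
  have hdvd : ∀ z : ℂ, ∃ c : ℕ, c ≠ 0 ∧ (IsIntegral ℤ z → z ≠ 0 → ∀ (ℓ : ℕ), ℓ.Prime →
      ∀ O : ValuationSubring ℂ, (ℓ : ℂ) ∈ O.nonunits → z ∈ O.nonunits → ℓ ∣ c) := by
    intro z
    by_cases h : IsIntegral ℤ z ∧ z ≠ 0
    · obtain ⟨c, hc, hc'⟩ := exists_dvd_of_nonunit h.1 h.2
      exact ⟨c, hc, fun _ _ => hc'⟩
    · exact ⟨1, one_ne_zero, fun h1 h2 => absurd ⟨h1, h2⟩ h⟩
  choose c hc0 hc using hdvd
  set S := S₀ ∪ Finset.range (2 * A + 3) ∪
    (Finset.image₂ (· - ·) W W).biUnion (fun z => (c z).primeFactors) with hS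
  -- one residual representation gives a lift with congruent trace and determinant
  have key : ∀ ℓ : ℕ, ℓ.Prime → ℓ ∉ S → ∃ (O : ValuationSubring ℂ) (R : GQ →* GL (Fin 2) ℂ),
      (ℓ : ℂ) ∈ O.nonunits ∧ GaloisFactorsThroughFiniteLevel R ∧
      (∀ p : ℕ, p.Prime → ¬ p ∣ N → p ≠ ℓ → ∀ A : ValuationSubring Qbar, A.LiesOverPrime p →
        (∀ σ ∈ A.inertiaSubgroupIn ℚ, R σ = 1) ∧ ∀ σ : GQ, A.IsFrobeniusAt σ p →
          (((R σ : GL (Fin 2) ℂ) : Matrix (Fin 2) (Fin 2) ℂ).trace ∈ W ∧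
            ((R σ : GL (Fin 2) ℂ) : Matrix (Fin 2) (Fin 2) ℂ).trace - a p ∈ O.nonunits) ∧
          (((R σ : GL (Fin 2) ℂ) : Matrix (Fin 2) (Fin 2) ℂ).det ∈ W ∧
            ((R σ : GL (Fin 2) ℂ) : Matrix (Fin 2) (Fin 2) ℂ).det - ε (p : ZMod N)
              ∈ O.nonunits)) := by
    intro ℓ hℓ hℓS
    simp only [hS, Finset.mem_union, not_or, Finset.mem_range, not_lt] at hℓS
    obtain ⟨O, hO⟩ := Frobenius.exists_liesOverPrime (L := ℂ) hℓ
    obtain ⟨ρ, hρ⟩ := hS₀ ℓ hℓ hℓS.1.1 O hO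
    have : Fact ℓ.Prime := ⟨hℓ⟩
    have hchar : CharP (ResidueField O) ℓ := by
      rw [CharP.charP_iff_prime_eq_zero hℓ]
      have : (ℓ : O) ∈ maximalIdeal O := (O.valuation_lt_one_iff _).mpr (by
        simpa using (O.mem_nonunits_iff).mp hO)
      simpa using (residue_eq_zero_iff (ℓ : O)).mpr this
    have h2 : (2 : ResidueField O) ≠ 0 := by
      have := (CharP.cast_eq_zero_iff (ResidueField O) ℓ 2).not.mpr
        fun h => by have := Nat.le_of_dvd two_pos h; omega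
      simpa using this
    obtain ⟨hfin, hcard⟩ := hA ℓ O ρ h2 hρ
    let _ : Fintype ρ.range := Fintype.ofFinite _
    rw [Nat.card_eq_fintype_card] at hcard
    obtain ⟨ρ', hρ'⟩ := exists_lift_trace O ℓ (by omega) ρ.range.subtype
    refine ⟨O, ρ'.comp ρ.rangeRestrict, hO, ?_, fun p hp hpN hpℓ A hA => ⟨?_, fun σ hσ => ?_⟩⟩
    · obtain ⟨L, hL, h⟩ := hρ.finiteLevel
      refine ⟨L, hL, fun σ hσ => ?_⟩
      rw [MonoidHom.comp_apply, show ρ.rangeRestrict σ = 1 from Subtype.ext (h σ hσ), map_one]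
    · intro σ hσ
      rw [MonoidHom.comp_apply,
        show ρ.rangeRestrict σ = 1 from Subtype.ext (hρ.unramified p hp hpN hpℓ A hA σ hσ), map_one]
    rw [MonoidHom.comp_apply]
    set g := ρ.rangeRestrict σ with hg
    have hpow : ((ρ' g : GL (Fin 2) ℂ) : Matrix (Fin 2) (Fin 2) ℂ) ^ n = 1 := by
      obtain ⟨m, hm⟩ : Fintype.card ρ.range ∣ n :=
        (Nat.dvd_factorial Fintype.card_pos hcard).trans (dvd_mul_right _ _)
      rw [← Units.val_pow_eq_pow_val, ← map_pow, hm, pow_mul, pow_card_eq_one, one_pow, map_one,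
        Units.val_one]
    obtain ⟨htrW, hdetW⟩ := trace_det_mem_finiteVals hnpos hpow
    obtain ⟨t, e, ht, he, htr, hdet⟩ := hρ.frobenius p hp hpN hpℓ A hA σ hσ
    obtain ⟨t₁, ht₁, ht₁'⟩ := hρ' g
    obtain ⟨t₂, ht₂, ht₂'⟩ := hρ' (g * g)
    refine ⟨⟨htrW, ?_⟩, ⟨hdetW, ?_⟩⟩
    · rw [← ht₁, ← ht]
      exact mem_nonunits_sub_of_residue_eq (ht₁'.trans htr)
    · have hdmem : ((ρ' g : GL (Fin 2) ℂ) : Matrix (Fin 2) (Fin 2) ℂ).det ∈ O :=
        mem_of_isIntegral (isIntegral_of_mem_finiteVals hnpos hdetW)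
      have h2det : ∀ {F : Type} [Field F] (M : Matrix (Fin 2) (Fin 2) F),
          2 * M.det = M.trace ^ 2 - (M * M).trace := by
        intro F _ M
        simp [Matrix.det_fin_two, Matrix.trace_fin_two, Matrix.mul_apply, Fin.sum_univ_two]
        ring
      set d : O := ⟨_, hdmem⟩
      rw [show ((ρ' g : GL (Fin 2) ℂ) : Matrix (Fin 2) (Fin 2) ℂ).det = (d : ℂ) from rfl, ← he]
      refine mem_nonunits_sub_of_residue_eq (mul_left_cancel₀ h2 ?_)
      have hd : 2 * d = t₁ ^ 2 - t₂ := Subtype.ext (by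
        push_cast
        rw [ht₁, ht₂, map_mul, Units.val_mul]
        exact h2det _)
      have := congrArg (residue O) hd
      rw [map_mul, map_sub, map_pow, ht₁', ht₂', map_ofNat, map_mul, Units.val_mul,
        ← h2det] at this
      rw [this]
      exact congrArg _ hdet
  -- the values are exact
  have hval : ∀ p : ℕ, p.Prime → ¬ p ∣ N → a p ∈ W ∧ ε (p : ZMod N) ∈ W := by
    intro p hp hpN
    have hεint : IsIntegral ℤ (ε (p : ZMod N)) := by
      refine IsIntegral.of_pow hnpos ?_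
      have hu : IsUnit (p : ZMod N) :=
        (ZMod.isUnit_iff_coprime _ _).mpr (hp.coprime_iff_not_dvd.mpr hpN)
      obtain ⟨u, hu⟩ := hu
      rw [← hu, ← map_pow, ← Units.val_pow_eq_pow_val, hn, mul_comm, pow_mul, pow_card_eq_one,
        one_pow, Units.val_one, map_one]
      exact isIntegral_one
    obtain ⟨ℓ, hℓgt, hℓ⟩ := Nat.exists_infinite_primes
      ((S ∪ {p} ∪ W.biUnion (fun z => (c (z - a p)).primeFactors) ∪
        W.biUnion (fun z => (c (z - ε (p : ZMod N))).primeFactors)).sup id + 1)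
    have hnot : ℓ ∉ S ∪ {p} ∪ W.biUnion (fun z => (c (z - a p)).primeFactors) ∪
        W.biUnion (fun z => (c (z - ε (p : ZMod N))).primeFactors) := fun h => by
      have := Finset.le_sup (f := id) h
      simp only [id] at this
      omega
    simp only [Finset.mem_union, not_or, Finset.mem_singleton, Finset.mem_biUnion, not_exists,
      not_and, Nat.mem_primeFactors] at hnot
    obtain ⟨⟨⟨hℓS, hℓp⟩, hℓa⟩, hℓe⟩ := hnot
    obtain ⟨O, R, hO, -, hR⟩ := key ℓ hℓ hℓS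
    obtain ⟨B, hB⟩ := GaloisBasics.exists_liesOverPrime hp
    obtain ⟨σ, hσ⟩ := GaloisBasics.exists_isFrobeniusAt hB hp
    obtain ⟨⟨hW1, hc1⟩, hW2, hc2⟩ := (hR p hp hpN (Ne.symm hℓp) B hB).2 σ hσ
    refine ⟨?_, ?_⟩
    · by_contra hne
      have hne' := sub_ne_zero.mpr (ne_of_mem_of_not_mem hW1 hne)
      exact hℓa _ hW1 hℓ (hc _ ((isIntegral_of_mem_finiteVals hnpos hW1).sub (hint p hp hpN))
        hne' ℓ hℓ O hO hc1) (hc0 _)
    · by_contra hne
      have hne' := sub_ne_zero.mpr (ne_of_mem_of_not_mem hW2 hne)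
      exact hℓe _ hW2 hℓ (hc _ ((isIntegral_of_mem_finiteVals hnpos hW2).sub hεint)
        hne' ℓ hℓ O hO hc2) (hc0 _)
  refine ⟨S, fun ℓ hℓ hℓS => ?_⟩
  obtain ⟨O, R, hO, hfl, hR⟩ := key ℓ hℓ hℓS
  refine ⟨R, hfl, fun p hp hpN hpℓ A hA => (hR p hp hpN hpℓ A hA).1,
    fun p hp hpN hpℓ A hA σ hσ => ?_⟩
  obtain ⟨⟨hW1, hc1⟩, hW2, hc2⟩ := (hR p hp hpN hpℓ A hA).2 σ hσ
  have hexact : ∀ x ∈ W, ∀ y ∈ W, x - y ∈ O.nonunits → x = y := by
    intro x hx y hy hxy
    by_contra hne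
    apply hℓS
    rw [hS]
    refine Finset.mem_union_right _ (Finset.mem_biUnion.mpr
      ⟨_, Finset.mem_image₂_of_mem hx hy, Nat.mem_primeFactors.mpr ⟨hℓ, ?_, hc0 _⟩⟩)
    exact hc _ ((isIntegral_of_mem_finiteVals hnpos hx).sub (isIntegral_of_mem_finiteVals hnpos hy))
      (sub_ne_zero.mpr hne) ℓ hℓ O hO hxy
  exact ⟨hexact _ hW1 _ (hval p hp hpN).1 hc1, hexact _ hW2 _ (hval p hp hpN).2 hc2⟩

end Fermat.Agent.WeightOne
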