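import Mathlib.LinearAlgebra.Matrix.FiniteDimensional
import Mathlib.LinearAlgebra.Matrix.GeneralLinearGroup.Defs
import Mathlib.Tactic.LinearCombination

/-!
# Finite semisimple subgroups of `GL₂` with few traces are small

If the traces on at least `7/8` of a finite group `G ⊆ GL₂(k)` take at most `m` values, and
`G` acts semisimply, then `|G| ≤ 2 (m+1)^4`. Proof: the trace form on the span of `G` is
non-degenerate, so `h ↦ (tr (g h))_{g ∈ basis}` is injective.
-/

set_option autoImplicit false

noncomputable section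

namespace Fermat.Agent.WeightOne

open Matrix

variable {k : Type*} [Field k]

/-- For a singular `2 × 2` matrix `x`, `x y x = tr (y x) x`. -/
theorem mul_mul_eq_trace_smul_of_det_eq_zero {x : Matrix (Fin 2) (Fin 2) k} (hx : x.det = 0)
    (y : Matrix (Fin 2) (Fin 2) k) : x * y * x = (y * x).trace • x := by
  rw [Matrix.det_fin_two] at hx
  ext i j
  fin_cases i <;> fin_cases j <;>
    simp [Matrix.mul_apply, Matrix.trace, Fin.sum_univ_two] <;>
    first
      | linear_combination (y 1 1 * hx)
      | linear_combination (-(y 1 1)) * hx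
      | linear_combination (y 1 0 * hx)
      | linear_combination (-(y 1 0)) * hx
      | linear_combination (y 0 1 * hx)
      | linear_combination (-(y 0 1)) * hx
      | linear_combination (y 0 0 * hx)
      | linear_combination (-(y 0 0)) * hx

variable {G : Type*} [Group G]

/-- Every stable subspace has a stable complement. -/
def IsSemisimpleMatrixRep (ρ : G →* GL (Fin 2) k) : Prop :=
  ∀ W : Submodule k (Fin 2 → k),
    (∀ g, ∀ v ∈ W, ((ρ g : GL (Fin 2) k) : Matrix (Fin 2) (Fin 2) k) *ᵥ v ∈ W) →
    ∃ W' : Submodule k (Fin 2 → k),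
      (∀ g, ∀ v ∈ W', ((ρ g : GL (Fin 2) k) : Matrix (Fin 2) (Fin 2) k) *ᵥ v ∈ W') ∧ IsCompl W W'

/-- The linear span of the image of a matrix representation. -/
def imageSpan (ρ : G →* GL (Fin 2) k) : Submodule k (Matrix (Fin 2) (Fin 2) k) :=
  Submodule.span k (Set.range fun g => ((ρ g : GL (Fin 2) k) : Matrix (Fin 2) (Fin 2) k))

theorem mem_imageSpan (ρ : G →* GL (Fin 2) k) (g : G) :
    ((ρ g : GL (Fin 2) k) : Matrix (Fin 2) (Fin 2) k) ∈ imageSpan ρ :=
  Submodule.subset_span ⟨g, rfl⟩

/-- The span of the image is closed under products. -/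
theorem mul_mem_imageSpan (ρ : G →* GL (Fin 2) k) {x y : Matrix (Fin 2) (Fin 2) k}
    (hx : x ∈ imageSpan ρ) (hy : y ∈ imageSpan ρ) : x * y ∈ imageSpan ρ := by
  induction hx using Submodule.span_induction with
  | mem x hx =>
    obtain ⟨g, rfl⟩ := hx
    induction hy using Submodule.span_induction with
    | mem y hy =>
      obtain ⟨h, rfl⟩ := hy
      rw [← Units.val_mul, ← map_mul]
      exact mem_imageSpan ρ _
    | zero => simp
    | add y z _ _ hy hz => rw [mul_add]; exact add_mem hy hz
    | smul c y _ hy => rw [mul_smul_comm]; exact Submodule.smul_mem _ c hy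
  | zero => simp
  | add x z _ _ hx hz => rw [add_mul]; exact add_mem hx hz
  | smul c x _ hx => rw [smul_mul_assoc]; exact Submodule.smul_mem _ c hx

/-- The trace form on the span of a semisimple image is non-degenerate. -/
theorem eq_zero_of_forall_trace_mul_eq_zero (h2 : (2 : k) ≠ 0) {ρ : G →* GL (Fin 2) k}
    (hss : IsSemisimpleMatrixRep ρ) {x : Matrix (Fin 2) (Fin 2) k} (hx : x ∈ imageSpan ρ)
    (h : ∀ y ∈ imageSpan ρ, (y * x).trace = 0) : x = 0 := by
  have ht : x.trace = 0 := by
    simpa using h 1 (by simpa using mem_imageSpan ρ (1 : G))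
  have ht2 : (x * x).trace = 0 := h x hx
  have hdet : x.det = 0 := by
    rw [Matrix.trace_fin_two] at ht
    simp only [Matrix.trace_fin_two, Matrix.mul_apply, Fin.sum_univ_two] at ht2
    rw [Matrix.det_fin_two]
    have : (2 : k) * (x 0 0 * x 1 1 - x 0 1 * x 1 0) = 0 := by
      linear_combination (x 0 0 + x 1 1) * ht - ht2
    exact (mul_eq_zero.mp this).resolve_left h2
  have hkill : ∀ y ∈ imageSpan ρ, x * y * x = 0 := fun y hy => by
    rw [mul_mul_eq_trace_smul_of_det_eq_zero hdet, h y hy, zero_smul]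
  set L : Submodule k (Fin 2 → k) := Submodule.span k
    {w | ∃ y ∈ imageSpan ρ, ∃ v, w = (y * x) *ᵥ v} with hL
  have hxL : ∀ w ∈ L, x *ᵥ w = 0 := by
    intro w hw
    induction hw using Submodule.span_induction with
    | mem w hw =>
      obtain ⟨y, hy, v, rfl⟩ := hw
      rw [Matrix.mulVec_mulVec, ← mul_assoc, hkill y hy, Matrix.zero_mulVec]
    | zero => simp
    | add a b _ _ ha hb => rw [Matrix.mulVec_add, ha, hb, add_zero]
    | smul c a _ ha => rw [Matrix.mulVec_smul, ha, smul_zero]
  have hxv : ∀ v, x *ᵥ v ∈ L := fun v => Submodule.subset_span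
    ⟨1, by simpa using mem_imageSpan ρ (1 : G), v, by rw [one_mul]⟩
  have hinv : ∀ g, ∀ w ∈ L, ((ρ g : GL (Fin 2) k) : Matrix (Fin 2) (Fin 2) k) *ᵥ w ∈ L := by
    intro g w hw
    induction hw using Submodule.span_induction with
    | mem w hw =>
      obtain ⟨y, hy, v, rfl⟩ := hw
      exact Submodule.subset_span
        ⟨_, mul_mem_imageSpan ρ (mem_imageSpan ρ g) hy, v, by rw [Matrix.mulVec_mulVec, mul_assoc]⟩
    | zero => simp
    | add a b _ _ ha hb => rw [Matrix.mulVec_add]; exact add_mem ha hb
    | smul c a _ ha => rw [Matrix.mulVec_smul]; exact Submodule.smul_mem _ c ha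
  obtain ⟨L', hL', hcompl⟩ := hss L hinv
  have hspanL' : ∀ y ∈ imageSpan ρ, ∀ v ∈ L', y *ᵥ v ∈ L' := by
    intro y hy v hv
    induction hy using Submodule.span_induction with
    | mem y hy => obtain ⟨g, rfl⟩ := hy; exact hL' g v hv
    | zero => simp
    | add a b _ _ ha hb => rw [Matrix.add_mulVec]; exact add_mem ha hb
    | smul c a _ ha => rw [Matrix.smul_mulVec]; exact Submodule.smul_mem _ c ha
  ext i j
  have hv : Pi.single j 1 ∈ L ⊔ L' := by rw [hcompl.sup_eq_top]; trivial
  obtain ⟨a, ha, b, hb, hab⟩ := Submodule.mem_sup.mp hv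
  have hb0 : x *ᵥ b = 0 := by
    have hmem : x *ᵥ b ∈ L ⊓ L' := ⟨hxv b, hspanL' x hx b hb⟩
    rwa [hcompl.inf_eq_bot, Submodule.mem_bot] at hmem
  have : x *ᵥ (Pi.single j 1) = 0 := by rw [← hab, Matrix.mulVec_add, hxL a ha, hb0, add_zero]
  have := congrFun this i
  simpa [Matrix.mulVec_single] using this

/-- **The bound**: `|G| ≤ 2 (m + 1) ^ 4` if the traces on `7/8` of `G` take at most `m` values. -/
theorem card_le_of_traces_mem [Fintype G] (h2 : (2 : k) ≠ 0) {ρ : G →* GL (Fin 2) k}
    (hinj : Function.Injective ρ) (hss : IsSemisimpleMatrixRep ρ) (M : Finset k) (S : Finset G)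
    (hS : ∀ g ∈ S, ((ρ g : GL (Fin 2) k) : Matrix (Fin 2) (Fin 2) k).trace ∈ M)
    (hcard : 7 * Fintype.card G ≤ 8 * S.card) :
    Fintype.card G ≤ 2 * (M.card + 1) ^ 4 := by
  classical
  obtain ⟨b, hb_sub, hb_span, hb_li⟩ := exists_linearIndependent k
    (Set.range fun g => ((ρ g : GL (Fin 2) k) : Matrix (Fin 2) (Fin 2) k))
  have hbfin : b.Finite := hb_li.setFinite
  have : Fintype b := hbfin.fintype
  have hb4 : Fintype.card b ≤ 4 := by
    have := hb_li.fintype_card_le_finrank
    simpa [Module.finrank_matrix] using this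
  choose γ hγ using fun y : b => hb_sub y.2
  set H : Finset G := Finset.univ.filter fun h => ∀ y : b, γ y * h ∈ S with hH
  have hHle : H.card ≤ (M.card + 1) ^ 4 := by
    let Φ : {h // h ∈ H} → (b → {m // m ∈ M}) := fun h y =>
      ⟨((ρ (γ y * h.1) : GL (Fin 2) k) : Matrix (Fin 2) (Fin 2) k).trace,
        hS _ ((Finset.mem_filter.mp h.2).2 y)⟩
    have hΦ : Function.Injective Φ := by
      intro u v huv
      apply Subtype.ext
      apply hinj
      apply Units.ext
      rw [← sub_eq_zero]
      refine eq_zero_of_forall_trace_mul_eq_zero h2 hss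
        (sub_mem (mem_imageSpan ρ _) (mem_imageSpan ρ _)) fun y hy => ?_
      rw [imageSpan, ← hb_span] at hy
      induction hy using Submodule.span_induction with
      | mem y hy =>
        have := congrArg Subtype.val (congrFun huv ⟨y, hy⟩)
        simp only [Φ, map_mul, Units.val_mul] at this
        have hy' : ((ρ (γ ⟨y, hy⟩) : GL (Fin 2) k) : Matrix (Fin 2) (Fin 2) k) = y := hγ ⟨y, hy⟩
        rw [hy'] at this
        rw [mul_sub, Matrix.trace_sub, this, sub_self]
      | zero => simp
      | add a c _ _ ha hc => rw [add_mul, Matrix.trace_add, ha, hc, add_zero]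
      | smul c a _ ha => rw [smul_mul_assoc, Matrix.trace_smul, ha, smul_zero]
    have h := Fintype.card_le_of_injective Φ hΦ
    rw [Fintype.card_coe, Fintype.card_fun, Fintype.card_coe] at h
    calc H.card ≤ M.card ^ Fintype.card b := h
      _ ≤ (M.card + 1) ^ Fintype.card b := Nat.pow_le_pow_left (Nat.le_succ _) _
      _ ≤ (M.card + 1) ^ 4 := Nat.pow_le_pow_right (Nat.succ_pos _) hb4
  have hcompl : 2 * (Finset.univ \ H).card ≤ Fintype.card G := by
    have hsub : Finset.univ \ H ⊆ Finset.univ.biUnion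
        fun y : b => (Finset.univ \ S).image fun s => (γ y)⁻¹ * s := by
      intro h hh
      simp only [hH, Finset.mem_sdiff, Finset.mem_univ, true_and, Finset.mem_filter, not_forall]
        at hh
      obtain ⟨y, hy⟩ := hh
      simp only [Finset.mem_biUnion, Finset.mem_univ, true_and, Finset.mem_image, Finset.mem_sdiff]
      exact ⟨y, γ y * h, hy, by group⟩
    have h := (Finset.card_le_card hsub).trans (Finset.card_biUnion_le_card_mul _ _
      (Finset.univ \ S).card fun y _ => Finset.card_image_le)
    have hu : (Finset.univ \ S).card = Fintype.card G - S.card := Finset.card_univ_sdiff S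
    rw [Finset.card_univ, hu] at h
    have := Nat.mul_le_mul_right (Fintype.card G - S.card) hb4
    omega
  have := Finset.card_sdiff_add_card_eq_card (Finset.subset_univ H)
  rw [Finset.card_univ] at this
  omega

end Fermat.Agent.WeightOne
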