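import Fermat.Agent.WeightOne.Exact
import Fermat.Agent.ChebotarevFull.Main
import Fermat.Prelude.Def_Deformations_MatrixRepresentation

/-!
# Gluing exact representations; irreducibility by mean squares

Two exact representations missing different exceptional primes have the same traces, hence give one
representation exact at every good prime; such a representation is irreducible as soon as the prime
mean square of the traces is at most one.
-/

set_option autoImplicit false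

noncomputable section

open IsLocalRing Matrix

namespace Fermat.Agent.WeightOne

local notation "Qbar" => AlgebraicClosure ℚ
local notation "GQ" => (AlgebraicClosure ℚ ≃ₐ[ℚ] AlgebraicClosure ℚ)

/-- The lower bound half of Chebotarev’s density theorem holds. -/
theorem chebotarevGe : ChebotarevGe := by
  intro G _ _ π hπ hsurj f hf hconj hinv excl δ hδ
  obtain ⟨B, hB⟩ := ChebotarevFull.exists_sum_frob_ge π hπ hsurj f hf hconj hinv excl hδ
  refine ⟨B, fun s hs1 hs2 => ?_⟩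
  obtain ⟨T, hT, c, hc, hle⟩ := hB s ⟨hs1, hs2⟩
  exact ⟨T, c, fun p hp => ⟨(hT p hp).1, (hT p hp).2, (hc p hp).2⟩, hle⟩

/-- Cayley–Hamilton for `2 × 2` matrices. -/
lemma sq_eq_trace_smul_sub {R : Type*} [CommRing R] (M : Matrix (Fin 2) (Fin 2) R) :
    M * M = M.trace • M - M.det • 1 := by
  ext i j
  fin_cases i <;> fin_cases j <;>
    simp [Matrix.mul_apply, Fin.sum_univ_two, Matrix.trace_fin_two, Matrix.det_fin_two] <;> ring

/-- Trace and determinant determine the traces of powers. -/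
lemma trace_pow_eq_of_trace_det_eq {R : Type*} [CommRing R] {M M' : Matrix (Fin 2) (Fin 2) R}
    (ht : M.trace = M'.trace) (hd : M.det = M'.det) :
    ∀ k : ℕ, (M ^ k).trace = (M' ^ k).trace ∧ (M ^ (k + 1)).trace = (M' ^ (k + 1)).trace := by
  intro k
  induction k with
  | zero => exact ⟨by simp, by simpa using ht⟩
  | succ k ih =>
    refine ⟨ih.2, ?_⟩
    have e : ∀ A : Matrix (Fin 2) (Fin 2) R,
        (A ^ (k + 1 + 1)).trace = A.trace * (A ^ (k + 1)).trace - A.det * (A ^ k).trace := by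
      intro A
      rw [pow_succ, pow_succ, mul_assoc, sq_eq_trace_smul_sub, mul_sub, mul_smul_comm,
        mul_smul_comm, mul_one, Matrix.trace_sub, Matrix.trace_smul, Matrix.trace_smul,
        smul_eq_mul, smul_eq_mul]
    rw [e M, e M', ht, hd, ih.1, ih.2]

/-- Two finite level representations agreeing in trace and determinant at almost all Frobenius
elements agree in trace and determinant. -/
lemma trace_det_eq_of_frobenius {R₁ R₂ : GQ →* GL (Fin 2) ℂ}
    (h₁ : GaloisFactorsThroughFiniteLevel R₁) (h₂ : GaloisFactorsThroughFiniteLevel R₂)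
    (S : Finset ℕ)
    (h : ∀ p : ℕ, p.Prime → p ∉ S → ∀ A : ValuationSubring Qbar, A.LiesOverPrime p →
      ∀ φ : GQ, A.IsFrobeniusAt φ p →
        ((R₁ φ : GL (Fin 2) ℂ) : Matrix (Fin 2) (Fin 2) ℂ).trace =
          ((R₂ φ : GL (Fin 2) ℂ) : Matrix (Fin 2) (Fin 2) ℂ).trace ∧
        ((R₁ φ : GL (Fin 2) ℂ) : Matrix (Fin 2) (Fin 2) ℂ).det =
          ((R₂ φ : GL (Fin 2) ℂ) : Matrix (Fin 2) (Fin 2) ℂ).det) (σ : GQ) :
    ((R₁ σ : GL (Fin 2) ℂ) : Matrix (Fin 2) (Fin 2) ℂ).trace =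
        ((R₂ σ : GL (Fin 2) ℂ) : Matrix (Fin 2) (Fin 2) ℂ).trace ∧
      ((R₁ σ : GL (Fin 2) ℂ) : Matrix (Fin 2) (Fin 2) ℂ).det =
        ((R₂ σ : GL (Fin 2) ℂ) : Matrix (Fin 2) (Fin 2) ℂ).det := by
  have hπ : GaloisFactorsThroughFiniteLevel (R₁.prod R₂) := by
    obtain ⟨L, hL, -, hLh⟩ := HeckeAlg.exists_numberField_level h₁ h₂
    exact ⟨L, hL, fun τ hτ => Prod.ext (hLh τ hτ).1 (hLh τ hτ).2⟩
  obtain ⟨p, hp, hpS, -, A, hA, φ, hφ, k, m, -, -, hm⟩ :=
    Chebotarev.exists_frobenius_map_eq_pow (R₁.prod R₂) hπ σ S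
  have e1 : R₁ σ = R₁ φ ^ m := congrArg Prod.fst hm
  have e2 : R₂ σ = R₂ φ ^ m := congrArg Prod.snd hm
  obtain ⟨ht, hd⟩ := h p hp hpS A hA φ hφ
  rw [e1, e2, Units.val_pow_eq_pow_val, Units.val_pow_eq_pow_val]
  exact ⟨(trace_pow_eq_of_trace_det_eq ht hd m).1, by rw [Matrix.det_pow, Matrix.det_pow, hd]⟩

/-- An element of finite level representations with trace `2` and determinant `1` acts trivially. -/
lemma eq_one_of_trace_eq_two {R : GQ →* GL (Fin 2) ℂ} (hR : GaloisFactorsThroughFiniteLevel R)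
    {σ : GQ} (ht : ((R σ : GL (Fin 2) ℂ) : Matrix (Fin 2) (Fin 2) ℂ).trace = 2)
    (hd : ((R σ : GL (Fin 2) ℂ) : Matrix (Fin 2) (Fin 2) ℂ).det = 1) : R σ = 1 := by
  have := finite_range_of_finiteLevel hR
  obtain ⟨k, hk, hk1⟩ := (isOfFinOrder_of_finite (R.rangeRestrict σ)).exists_pow_eq_one
  have hk' : ((R σ : GL (Fin 2) ℂ) : Matrix (Fin 2) (Fin 2) ℂ) ^ k = 1 := by
    have := congrArg (fun g : R.range => ((g : GL (Fin 2) ℂ) : Matrix (Fin 2) (Fin 2) ℂ)) hk1
    simpa using this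
  set M := ((R σ : GL (Fin 2) ℂ) : Matrix (Fin 2) (Fin 2) ℂ) with hM
  have hsq : M * M = (2 : ℂ) • M - 1 := by rw [sq_eq_trace_smul_sub, ht, hd, one_smul]
  have hlin : ∀ j : ℕ, M ^ j = 1 + (j : ℂ) • (M - 1) := by
    intro j
    induction j with
    | zero => simp
    | succ j ih =>
      rw [pow_succ, ih, add_mul, one_mul, smul_mul_assoc, sub_mul, one_mul, hsq]
      push_cast
      module
  rw [hlin k, add_eq_left, smul_eq_zero, sub_eq_zero] at hk'
  exact Units.ext (hk'.resolve_left (Nat.cast_ne_zero.mpr (by omega)))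

variable {N : ℕ} [NeZero N] {ε : DirichletCharacter ℂ N} {a : ℕ → ℂ}

omit [NeZero N] in
/-- Exact representations away from two different primes glue. -/
theorem exists_rep_of_two {ℓ₁ ℓ₂ : ℕ} (hne : ℓ₁ ≠ ℓ₂) {R₁ R₂ : GQ →* GL (Fin 2) ℂ}
    (h₁ : IsExactRep ε a {ℓ₁} R₁) (h₂ : IsExactRep ε a {ℓ₂} R₂) (hN : N ≠ 0) :
    IsExactRep ε a ∅ R₁ := by
  have heq : ∀ σ : GQ, _ := trace_det_eq_of_frobenius h₁.finiteLevel h₂.finiteLevel
    ({ℓ₁, ℓ₂} ∪ N.primeFactors) fun p hp hpS A hA φ hφ => by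
      simp only [Finset.mem_union, Finset.mem_insert, Finset.mem_singleton, not_or,
        Nat.mem_primeFactors] at hpS
      have hpN : ¬ p ∣ N := fun h => hpS.2 ⟨hp, h, hN⟩
      obtain ⟨t1, d1⟩ := h₁.frobenius p hp hpN hpS.1.1 A hA φ hφ
      obtain ⟨t2, d2⟩ := h₂.frobenius p hp hpN hpS.1.2 A hA φ hφ
      exact ⟨t1.trans t2.symm, d1.trans d2.symm⟩
  refine ⟨h₁.finiteLevel, fun p hp hpN _ A hA σ hσ => ?_, fun p hp hpN _ A hA σ hσ => ?_⟩
  · by_cases h : p = ℓ₁
    · have h2 := h₂.unramified p hp hpN (by simp [h, hne]) A hA σ hσ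
      obtain ⟨ht, hd⟩ := heq σ
      rw [h2, Units.val_one, Matrix.trace_one, Fintype.card_fin] at ht
      rw [h2, Units.val_one, Matrix.det_one] at hd
      exact eq_one_of_trace_eq_two h₁.finiteLevel (by simpa using ht) hd
    · exact h₁.unramified p hp hpN h A hA σ hσ
  · by_cases h : p = ℓ₁
    · obtain ⟨ht, hd⟩ := heq σ
      obtain ⟨t2, d2⟩ := h₂.frobenius p hp hpN (by simp [h, hne]) A hA σ hσ
      exact ⟨ht.trans t2, hd.trans d2⟩
    · exact h₁.frobenius p hp hpN h A hA σ hσ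

/-- A reducible two-dimensional representation has a common eigenvector. -/
lemma exists_eigenvector_of_not_isIrreducible {R : GQ →* GL (Fin 2) ℂ}
    (h : ¬ (Deformation.matrixRepresentation R).IsIrreducible) :
    ∃ v : Fin 2 → ℂ, v ≠ 0 ∧ ∀ σ : GQ, ∃ c : ℂ,
      ((R σ : GL (Fin 2) ℂ) : Matrix (Fin 2) (Fin 2) ℂ) *ᵥ v = c • v := by
  by_contra hv'
  refine h ?_
  have : Nontrivial (Subrepresentation (Deformation.matrixRepresentation R)) := by
    refine ⟨⊥, ⊤, fun h => ?_⟩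
    have := congrArg Subrepresentation.toSubmodule h
    exact bot_ne_top (α := Submodule ℂ (Fin 2 → ℂ)) this
  constructor
  intro W
  by_contra hW
  push Not at hW
  have h1 : W.toSubmodule ≠ ⊥ := fun h => hW.1 (Subrepresentation.toSubmodule_injective h)
  have h2 : W.toSubmodule ≠ ⊤ := fun h => hW.2 (Subrepresentation.toSubmodule_injective h)
  have hrank : Module.finrank ℂ W.toSubmodule = 1 := by
    have hlt := Submodule.finrank_lt h2
    have hpos : 0 < Module.finrank ℂ W.toSubmodule :=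
      Nat.pos_of_ne_zero fun h => h1 (Submodule.finrank_eq_zero.mp h)
    rw [Module.finrank_fin_fun] at hlt
    omega
  obtain ⟨⟨v, hvW⟩, hv0, hv⟩ := finrank_eq_one_iff'.mp hrank
  refine hv' ⟨v, fun h => hv0 (Subtype.ext h), fun σ => ?_⟩
  obtain ⟨c, hc⟩ := hv ⟨_, W.apply_mem_toSubmodule σ hvW⟩
  exact ⟨c, by simpa using (congrArg Subtype.val hc).symm⟩

/-- A character of a finite group has absolute value one. -/
lemma norm_map_eq_one {H : Type*} [Group H] [Finite H] (f : H →* ℂ) (g : H) : ‖f g‖ = 1 :=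
  Complex.norm_eq_one_of_pow_eq_one (by rw [← map_pow, pow_card_eq_one', map_one])
    (Nat.card_pos (α := H)).ne'

/-- The elements of a finite subgroup of `GL₂(ℂ)` have determinant of absolute value one. -/
lemma norm_det_eq_one {H : Subgroup (GL (Fin 2) ℂ)} [Finite H] (g : H) :
    ‖((g : GL (Fin 2) ℂ) : Matrix (Fin 2) (Fin 2) ℂ).det‖ = 1 :=
  norm_map_eq_one (((Matrix.detMonoidHom).comp (Units.coeHom _)).comp H.subtype) g

/-- For a finite subgroup of `GL₂(ℂ)` with a common eigenvector the mean square of the absolute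
value of the trace is at least `2`. -/
lemma two_mul_card_le_sum_norm_sq_trace (H : Subgroup (GL (Fin 2) ℂ)) [Fintype H]
    {v : Fin 2 → ℂ} (hv0 : v ≠ 0)
    (hv : ∀ g : H, ∃ c : ℂ, ((g : GL (Fin 2) ℂ) : Matrix (Fin 2) (Fin 2) ℂ) *ᵥ v = c • v) :
    2 * (Fintype.card H : ℝ) ≤
      ∑ g : H, ‖((g : GL (Fin 2) ℂ) : Matrix (Fin 2) (Fin 2) ℂ).trace‖ ^ 2 := by
  classical
  choose u hu using hv
  let ψ : H →* ℂ :=
    { toFun := u
      map_one' := smul_left_injective ℂ hv0 ((hu 1).symm.trans (by simp))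
      map_mul' := fun g h => smul_left_injective ℂ hv0 ((hu (g * h)).symm.trans (by
        rw [Subgroup.coe_mul, Units.val_mul, ← Matrix.mulVec_mulVec, hu h, Matrix.mulVec_smul,
          hu g, smul_smul, mul_comm])) }
  let dt : H →* ℂ := ((Matrix.detMonoidHom).comp (Units.coeHom _)).comp H.subtype
  -- the quotient of the two characters
  let η : H →* ℂ :=
    { toFun := fun g => ψ g * ψ g / dt g
      map_one' := by simp
      map_mul' := fun g h => by
        rw [map_mul, map_mul, div_mul_div_comm]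
        ring }
  have htr : ∀ g : H, ((g : GL (Fin 2) ℂ) : Matrix (Fin 2) (Fin 2) ℂ).trace =
      ψ g + dt g * (ψ g)⁻¹ := by
    intro g
    have h0 : ψ g ≠ 0 := fun h => by simpa [h] using norm_map_eq_one ψ g
    have h := congrArg (· *ᵥ v) (sq_eq_trace_smul_sub
      ((g : GL (Fin 2) ℂ) : Matrix (Fin 2) (Fin 2) ℂ))
    simp only [← Matrix.mulVec_mulVec, hu, Matrix.mulVec_smul, Matrix.sub_mulVec,
      Matrix.smul_mulVec, Matrix.one_mulVec, smul_smul, ← sub_smul] at h
    have := smul_left_injective ℂ hv0 h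
    field_simp
    simp only [ψ, dt, MonoidHom.coe_mk, OneHom.coe_mk, MonoidHom.coe_comp, Function.comp_apply,
      Units.coeHom_apply, Subgroup.coe_subtype, Matrix.coe_detMonoidHom] at this ⊢
    linear_combination -this
  have hsq : ∀ g : H, ‖((g : GL (Fin 2) ℂ) : Matrix (Fin 2) (Fin 2) ℂ).trace‖ ^ 2 =
      2 + 2 * (η g).re := by
    intro g
    have hcu : (starRingEnd ℂ) (ψ g) = (ψ g)⁻¹ :=
      (Complex.inv_eq_conj (norm_map_eq_one ψ g)).symm
    have hcd : (starRingEnd ℂ) (dt g) = (dt g)⁻¹ :=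
      (Complex.inv_eq_conj (norm_map_eq_one dt g)).symm
    have hnη : (starRingEnd ℂ) (η g) = (η g)⁻¹ :=
      (Complex.inv_eq_conj (norm_map_eq_one η g)).symm
    apply Complex.ofReal_injective
    push_cast
    rw [← Complex.mul_conj', Complex.re_eq_add_conj, hnη, htr, map_add, map_mul, map_inv₀, hcu,
      hcd, inv_inv]
    have h0 : ψ g ≠ 0 := fun h => by simpa [h] using norm_map_eq_one ψ g
    have hd0 : dt g ≠ 0 := fun h => by simpa [h] using norm_map_eq_one dt g
    simp only [η, MonoidHom.coe_mk, OneHom.coe_mk]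
    field_simp
    ring
  have hηsum : 0 ≤ (∑ g, η g).re := by
    rw [sum_hom_units η]
    split_ifs <;> simp
  rw [Finset.sum_congr rfl fun g _ => hsq g, Finset.sum_add_distrib, Finset.sum_const,
    Finset.card_univ, ← Finset.mul_sum, ← Complex.re_sum, nsmul_eq_mul]
  linarith

/-- The mean square of the absolute value of the trace on the image of an exact representation is
at most one when the prime mean square of `a` is. -/
lemma mean_norm_sq_trace_le_one {R : GQ →* GL (Fin 2) ℂ} (hR : IsExactRep ε a ∅ R)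
    [Fintype R.range]
    (hbd : ∃ B : ℝ, ∀ s : ℝ, 1 < s → s ≤ 2 → ∀ T : Finset ℕ, (∀ p ∈ T, p.Prime ∧ ¬ p ∣ N) →
      ∑ p ∈ T, ‖a p‖ ^ 2 * (p : ℝ) ^ (-s) ≤ Real.log (1 / (s - 1)) + B) :
    (∑ g : R.range, ‖((g : GL (Fin 2) ℂ) : Matrix (Fin 2) (Fin 2) ℂ).trace‖ ^ 2) /
      Fintype.card R.range ≤ 1 := by
  let tr : R.range → ℂ := fun g => ((g : GL (Fin 2) ℂ) : Matrix (Fin 2) (Fin 2) ℂ).trace
  have hconj : ∀ x y, ‖tr (x * y * x⁻¹)‖ ^ 2 = ‖tr y‖ ^ 2 := fun x y => by
    simp only [tr, Subgroup.coe_mul, Subgroup.coe_inv, Units.val_mul]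
    rw [Matrix.trace_mul_cycle, ← Units.val_mul, inv_mul_cancel, Units.val_one, one_mul]
  have hinv : ∀ y, ‖tr y⁻¹‖ ^ 2 = ‖tr y‖ ^ 2 := fun y => by
    have e : tr y⁻¹ = ((y : GL (Fin 2) ℂ) : Matrix (Fin 2) (Fin 2) ℂ).det⁻¹ * tr y := by
      simp only [tr]
      rw [Subgroup.coe_inv, Matrix.coe_units_inv, Matrix.inv_def, Ring.inverse_eq_inv',
        Matrix.trace_smul, Matrix.adjugate_fin_two, Matrix.trace_fin_two_of, smul_eq_mul,
        Matrix.trace_fin_two]
      ring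
    rw [e, norm_mul, norm_inv, norm_det_eq_one, inv_one, one_mul]
  have hfl : GaloisFactorsThroughFiniteLevel R.rangeRestrict := by
    obtain ⟨L, hL, h⟩ := hR.finiteLevel
    exact ⟨L, hL, fun σ hσ => Subtype.ext (h σ hσ)⟩
  obtain ⟨B, hB⟩ := hbd
  refine mean_le_of_prime_sum_le chebotarevGe hfl R.rangeRestrict_surjective
    (fun g => sq_nonneg ‖tr g‖) hconj hinv N.primeFactors (fun p => ‖a p‖ ^ 2)
    (fun p hp hpS A hA σ hσ => le_of_eq ?_) (B := B) fun s hs1 hs2 T hT => ?_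
  · have hpN : ¬ p ∣ N := fun h => hpS (Nat.mem_primeFactors.mpr ⟨hp, h, NeZero.ne N⟩)
    rw [show tr (R.rangeRestrict σ) = a p from
      (hR.frobenius p hp hpN (Set.notMem_empty p) A hA σ hσ).1]
  · rw [one_mul]
    exact hB s hs1 hs2 T fun p hp => ⟨(hT p hp).1, fun h =>
      (hT p hp).2 (Nat.mem_primeFactors.mpr ⟨(hT p hp).1, h, NeZero.ne N⟩)⟩

/-- **Irreducibility.** An exact representation is irreducible when the prime mean square of `a`
is at most one. -/
theorem isIrreducible_of_isExactRep {R : GQ →* GL (Fin 2) ℂ} (hR : IsExactRep ε a ∅ R)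
    (hbd : ∃ B : ℝ, ∀ s : ℝ, 1 < s → s ≤ 2 → ∀ T : Finset ℕ, (∀ p ∈ T, p.Prime ∧ ¬ p ∣ N) →
      ∑ p ∈ T, ‖a p‖ ^ 2 * (p : ℝ) ^ (-s) ≤ Real.log (1 / (s - 1)) + B) :
    (Deformation.matrixRepresentation R).IsIrreducible := by
  by_contra h
  obtain ⟨v, hv0, hv⟩ := exists_eigenvector_of_not_isIrreducible h
  have := finite_range_of_finiteLevel hR.finiteLevel
  let _ : Fintype R.range := Fintype.ofFinite _
  have h1 := two_mul_card_le_sum_norm_sq_trace R.range hv0 (by
    rintro ⟨_, σ, rfl⟩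
    exact hv σ)
  have h2 := mean_norm_sq_trace_le_one hR hbd
  have hpos : (0 : ℝ) < Fintype.card R.range := Nat.cast_pos.mpr Fintype.card_pos
  rw [div_le_iff₀ hpos, one_mul] at h2
  linarith

end Fermat.Agent.WeightOne
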