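import Fermat.Agent.WeightOne.GroupBound
import Fermat.Prelude.Def_GaloisRep_Residual
import Mathlib.NumberTheory.DirichletCharacter.Basic

/-!
# Residual representations of a system of eigenvalues, and density bounds

`IsResidualAt ε a ℓ O ρ` says that `ρ` has trace `a p` and determinant `ε p` modulo the place `O`
above `ℓ` at good Frobenius elements. The lower bound half of Chebotarev's density theorem turns
an upper bound for sums over primes into an upper bound for the mean of a class function.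
-/

set_option autoImplicit false

noncomputable section

open IsLocalRing Filter Topology

namespace Fermat.Agent.WeightOne

local notation "Qbar" => AlgebraicClosure ℚ
local notation "GQ" => (AlgebraicClosure ℚ ≃ₐ[ℚ] AlgebraicClosure ℚ)

/-- `ρ` is attached to `(a, ε)` modulo the place `O` above `ℓ`. -/
structure IsResidualAt {N : ℕ} (ε : DirichletCharacter ℂ N) (a : ℕ → ℂ) (ℓ : ℕ)
    (O : ValuationSubring ℂ) (ρ : GQ →* GL (Fin 2) (ResidueField O)) : Prop where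
  finiteLevel : GaloisFactorsThroughFiniteLevel ρ
  semisimple : IsSemisimpleMatrixRep ρ
  unramified : ∀ p : ℕ, p.Prime → ¬ p ∣ N → p ≠ ℓ →
    ∀ A : ValuationSubring Qbar, A.LiesOverPrime p → ∀ σ ∈ A.inertiaSubgroupIn ℚ, ρ σ = 1
  frobenius : ∀ p : ℕ, p.Prime → ¬ p ∣ N → p ≠ ℓ →
    ∀ A : ValuationSubring Qbar, A.LiesOverPrime p → ∀ σ : GQ, A.IsFrobeniusAt σ p →
      ∃ t e : O, (t : ℂ) = a p ∧ (e : ℂ) = ε (p : ZMod N) ∧
        ((ρ σ : GL (Fin 2) (ResidueField O)) : Matrix (Fin 2) (Fin 2) (ResidueField O)).trace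
          = residue O t ∧
        ((ρ σ : GL (Fin 2) (ResidueField O)) : Matrix (Fin 2) (Fin 2) (ResidueField O)).det
          = residue O e

/-- For all but finitely many `ℓ` there is a residual representation at every place above `ℓ`. -/
def HasResidualReps {N : ℕ} (ε : DirichletCharacter ℂ N) (a : ℕ → ℂ) : Prop :=
  ∃ S : Finset ℕ, ∀ ℓ : ℕ, ℓ.Prime → ℓ ∉ S → ∀ O : ValuationSubring ℂ, (ℓ : ℂ) ∈ O.nonunits →
    ∃ ρ, IsResidualAt ε a ℓ O ρ

/-- The lower bound half of Chebotarev's density theorem for inverse invariant class functions. -/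
def ChebotarevGe : Prop :=
  ∀ {G : Type} [Group G] [Fintype G] (π : GQ →* G), GaloisFactorsThroughFiniteLevel π →
    Function.Surjective π → ∀ f : G → ℝ, (∀ g, 0 ≤ f g) → (∀ x y, f (x * y * x⁻¹) = f y) →
    (∀ y, f y⁻¹ = f y) → ∀ (excl : Finset ℕ) (δ : ℝ), 0 < δ →
    ∃ B : ℝ, ∀ s : ℝ, 1 < s → s ≤ 2 → ∃ (T : Finset ℕ) (c : ℕ → G),
      (∀ p ∈ T, p.Prime ∧ p ∉ excl ∧ ∃ A : ValuationSubring Qbar, A.LiesOverPrime p ∧
        ∃ σ : GQ, A.IsFrobeniusAt σ p ∧ π σ = c p) ∧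
      ((∑ g, f g) / Fintype.card G - δ) * Real.log (1 / (s - 1)) - B ≤
        ∑ p ∈ T, f (c p) * (p : ℝ) ^ (-s)

lemma exists_log_gt (X : ℝ) : ∃ s : ℝ, 1 < s ∧ s ≤ 2 ∧ X < Real.log (1 / (s - 1)) := by
  refine ⟨1 + Real.exp (-(max X 0 + 1)), by linarith [Real.exp_pos (-(max X 0 + 1))], ?_, ?_⟩
  · have : Real.exp (-(max X 0 + 1)) ≤ 1 :=
      Real.exp_le_one_iff.mpr (by linarith [le_max_right X 0])
    linarith
  · rw [add_sub_cancel_left, one_div, ← Real.exp_neg, neg_neg, Real.log_exp]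
    linarith [le_max_left X 0]

/-- An upper bound for prime sums bounds means of class functions. -/
theorem mean_le_of_prime_sum_le (hC : ChebotarevGe) {G : Type} [Group G] [Fintype G]
    {π : GQ →* G} (hπ : GaloisFactorsThroughFiniteLevel π) (hsurj : Function.Surjective π)
    {f : G → ℝ} (hf : ∀ g, 0 ≤ f g) (hconj : ∀ x y, f (x * y * x⁻¹) = f y)
    (hinv : ∀ y, f y⁻¹ = f y) (excl : Finset ℕ) {c : ℝ} (F : ℕ → ℝ)
    (hFf : ∀ p : ℕ, p.Prime → p ∉ excl → ∀ A : ValuationSubring Qbar, A.LiesOverPrime p →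
      ∀ σ : GQ, A.IsFrobeniusAt σ p → f (π σ) ≤ F p)
    {B : ℝ} (hF : ∀ s : ℝ, 1 < s → s ≤ 2 → ∀ T : Finset ℕ, (∀ p ∈ T, p.Prime ∧ p ∉ excl) →
      ∑ p ∈ T, F p * (p : ℝ) ^ (-s) ≤ c * Real.log (1 / (s - 1)) + B) :
    (∑ g, f g) / Fintype.card G ≤ c := by
  refine le_of_forall_pos_le_add fun δ hδ => ?_
  by_contra hlt
  push Not at hlt
  obtain ⟨B', hB'⟩ := hC π hπ hsurj f hf hconj hinv excl (δ / 2) (by linarith)
  obtain ⟨s, hs1, hs2, hlog⟩ := exists_log_gt ((|B| + |B'|) / (δ / 2))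
  obtain ⟨T, cl, hT, hge⟩ := hB' s hs1 hs2
  have hle : ∑ p ∈ T, f (cl p) * (p : ℝ) ^ (-s) ≤ ∑ p ∈ T, F p * (p : ℝ) ^ (-s) := by
    refine Finset.sum_le_sum fun p hp => mul_le_mul_of_nonneg_right ?_ (by positivity)
    obtain ⟨hpp, hpe, A, hA, σ, hσ, hc⟩ := hT p hp
    exact hc ▸ hFf p hpp hpe A hA σ hσ
  have h2 := hF s hs1 hs2 T fun p hp => ⟨(hT p hp).1, (hT p hp).2.1⟩
  rw [div_lt_iff₀ (by linarith)] at hlog
  have hpos : 0 ≤ Real.log (1 / (s - 1)) := by
    refine Real.log_nonneg ?_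
    rw [le_div_iff₀ (by linarith)]
    linarith
  nlinarith [le_abs_self B, le_abs_self B']

end Fermat.Agent.WeightOne
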