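import Fermat.Agent.WeightOne.Ops1
import Fermat.Agent.KummerES.Interface
import Fermat.Agent.HeckeLattice.Parabolic

/-!
# The operators on parabolic characters and their eigen part

The operators of `Op M` restricted to parabolic characters with values in `ℤ/n`, the finiteness of
the values of a system of eigenvalues in positive characteristic, and the eigen part as a vector
space over the field of values.
-/

set_option autoImplicit false

noncomputable section

open CongruenceSubgroup ModularCurve.Period
open scoped MatrixGroups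

namespace Fermat.Agent.WeightOne

variable {M : ℕ}

/-- Conjugations by elements of the same class agree on homomorphisms to abelian groups. -/
lemma comp_diaConj_eq_of_class {B : Type*} [AddCommGroup B] (χ : Additive (Gamma1 M) →+ B)
    (δ δ' : Gamma0 M)
    (h : (((δ : SL(2, ℤ)) 1 1 : ℤ) : ZMod M) = (((δ' : SL(2, ℤ)) 1 1 : ℤ) : ZMod M)) :
    χ.comp (MonoidHom.toAdditive (diaConj δ)) = χ.comp (MonoidHom.toAdditive (diaConj δ')) := by
  set u : Gamma1 M := ⟨(δ : SL(2, ℤ)) * (δ' : SL(2, ℤ))⁻¹, mul_inv_mem_Gamma1 δ.2 δ'.2 h⟩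
  refine AddMonoidHom.ext fun γ => ?_
  have hc : diaConj δ (Additive.toMul γ) = u * diaConj δ' (Additive.toMul γ) * u⁻¹ :=
    Subtype.ext (by simp [u, mul_assoc])
  show χ (Additive.ofMul (diaConj δ (Additive.toMul γ))) =
    χ (Additive.ofMul (diaConj δ' (Additive.toMul γ)))
  rw [hc, ofMul_mul, ofMul_mul, ofMul_inv, map_add, map_add, map_neg]
  abel

/-- Evaluation at finitely many elements is injective on homomorphisms of `Γ₁(M)`. -/
lemma exists_finset_hom_injective (M : ℕ) [NeZero M] :
    ∃ s : Finset (Additive (Gamma1 M)), ∀ (B : Type) [AddCommGroup B],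
      Function.Injective fun (χ : Additive (Gamma1 M) →+ B) (x : s) => χ x := by
  have : AddGroup.FG (Additive (Gamma1 M)) := inferInstance
  obtain ⟨-, s, -, hs⟩ := AddGroup.fg_iff'.mp this
  exact ⟨s, fun B _ χ ψ h =>
    AddMonoidHom.eq_of_eqOn_dense hs fun x hx => congrFun h ⟨x, hx⟩⟩

variable [NeZero M] in
/-- **Finiteness of the values of a system of eigenvalues in positive characteristic.** -/
theorem finite_range_of_opsEval {κ : Type*} [Field κ] {ℓ : ℕ} [Fact ℓ.Prime] [CharP κ ℓ]
    (φ : FreeAlgebra ℤ (Op M) →ₐ[ℤ] κ) (hφ : ∀ P, opsEval (opForm M) P = 0 → φ P = 0) :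
    Finite φ.toRingHom.range := by
  let B : Type := Additive (Abelianization (Gamma1 M))
  let u : Additive (Gamma1 M) →+ B := MonoidHom.toAdditive Abelianization.of
  let R : FreeAlgebra ℤ (Op M) →ₗ[ℤ] (Additive (Gamma1 M) →+ B) :=
    (LinearMap.applyₗ u).comp (opsAct (opHom M) B).toLinearMap
  have : AddGroup.FG B := AddGroup.fg_of_surjective (f := u)
    fun a => (QuotientGroup.mk_surjective (Additive.toMul a)).imp fun _ h => h
  have : Module.Finite ℤ B := Module.Finite.iff_addGroup_fg.mpr inferInstance
  obtain ⟨s, hs⟩ := exists_finset_hom_injective M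
  have : Module.Finite ℤ (Additive (Gamma1 M) →+ B) :=
    Module.Finite.of_injective
      ({ toFun := fun χ x => χ x.1
         map_add' := fun _ _ => rfl
         map_smul' := fun _ _ => rfl } : (Additive (Gamma1 M) →+ B) →ₗ[ℤ] (s → B)) (hs B)
  have hker : LinearMap.ker R ≤ LinearMap.ker φ.toLinearMap := by
    intro P hP
    refine hφ P (LinearMap.ext fun v => (injective_iff_map_eq_zero period1).mpr
      eq_zero_of_period1_eq_zero ?_)
    rw [LinearMap.zero_apply, map_zero, ← opsAct_per (opForm M) period1 (period1_opForm M)]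
    set g : B →+ ℂ :=
      MonoidHom.toAdditiveLeft
        (Abelianization.lift (AddMonoidHom.toMultiplicativeRight (period1 v)))
    have hg : g.comp u = period1 v := AddMonoidHom.ext fun x => rfl
    rw [← hg, ← comp_opsAct (opHom_natural M) g P u, show opsAct (opHom M) B P u = 0 from hP,
      AddMonoidHom.comp_zero]
  have : Module.Finite ℤ (LinearMap.range R) := Module.Finite.iff_fg.mpr (IsNoetherian.noetherian _)
  have : Module.Finite ℤ (FreeAlgebra ℤ (Op M) ⧸ LinearMap.ker R) :=
    Module.Finite.equiv R.quotKerEquivRange.symm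
  have : Module.Finite ℤ φ.toRingHom.range := by
    let f : FreeAlgebra ℤ (Op M) →ₗ[ℤ] φ.toRingHom.range :=
      φ.toRingHom.rangeRestrict.toAddMonoidHom.toIntLinearMap
    have hf : LinearMap.ker R ≤ LinearMap.ker f := fun P hP => Subtype.ext (hker hP)
    refine Module.Finite.of_surjective (Submodule.liftQ _ f hf) fun y => ?_
    obtain ⟨P, rfl⟩ := φ.toRingHom.rangeRestrict_surjective y
    exact ⟨Submodule.Quotient.mk P, rfl⟩
  have : CharP φ.toRingHom.range ℓ :=
    (RingHom.charP_iff φ.toRingHom.range.subtype Subtype.val_injective ℓ).2 ‹_›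
  let : Algebra (ZMod ℓ) φ.toRingHom.range := ZMod.algebra _ ℓ
  have : Module.Finite (ZMod ℓ) φ.toRingHom.range :=
    Module.Finite.of_restrictScalars_finite ℤ _ _
  exact Module.finite_of_finite (ZMod ℓ)

/-- Parabolic characters of `Γ₁(M)` with values in `ℤ/n`. -/
abbrev ParHoms (M n : ℕ) : Submodule ℤ (Additive (Gamma1 M) →+ ZMod n) :=
  parabolicHoms ℤ (Gamma1 M) (ZMod n)

/-- There are finitely many parabolic characters with values in `ℤ/n`. -/
theorem finite_parHoms (M n : ℕ) [NeZero M] [NeZero n] : Finite (ParHoms M n) := by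
  obtain ⟨s, hs⟩ := exists_finset_hom_injective M
  exact Finite.of_injective (fun (χ : ParHoms M n) (x : s) => χ.1 x)
    fun a b h => Subtype.ext (hs (ZMod n) h)

/-- The operators preserve parabolic homomorphisms. -/
lemma isParabolicHom_opHom (i : Op M) {B : Type} [AddCommGroup B]
    {χ : Additive (Gamma1 M) →+ B} (hχ : IsParabolicHom (Gamma1 M) χ) :
    IsParabolicHom (Gamma1 M) (opHom M i B χ) := by
  rcases i with p | d
  · have := Fact.mk p.1.2
    exact (gamma1System M p.1 p.2).transfer_isParabolicHom hχ
  · intro γ hγ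
    refine hχ (diaConj (diaRep d) γ) ?_
    rwa [diaConj_coe, Matrix.SpecialLinearGroup.coe_mul, Matrix.trace_mul_comm,
      ← Matrix.SpecialLinearGroup.coe_mul, inv_mul_cancel_left]

variable (n : ℕ)

/-- The operators on parabolic characters. -/
def parOp (i : Op M) : Module.End ℤ (ParHoms M n) :=
  (opHom M i (ZMod n)).restrict fun _ hχ => isParabolicHom_opHom i hχ

/-- The action of the free algebra on parabolic characters. -/
def parAct : FreeAlgebra ℤ (Op M) →ₐ[ℤ] Module.End ℤ (ParHoms M n) :=
  FreeAlgebra.lift ℤ (parOp n)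

/-- A generator acts by its operator. -/
lemma parAct_ι (i : Op M) : parAct n (FreeAlgebra.ι ℤ i) = parOp n i := by
  rw [parAct, FreeAlgebra.lift_ι_apply]

/-- The action on parabolic characters is the restriction of the action on all characters. -/
lemma coe_parAct (P : FreeAlgebra ℤ (Op M)) :
    ∀ x : ParHoms M n, (parAct n P x : Additive (Gamma1 M) →+ ZMod n) =
      opsAct (opHom M) (ZMod n) P x.1 := by
  induction P using FreeAlgebra.induction with
  | grade0 r => intro x; simp [parAct, opsAct]
  | grade1 i =>
    intro x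
    simp only [parAct_ι, opsAct, FreeAlgebra.lift_ι_apply]
    rfl
  | add a b ha hb => intro x; simp [ha, hb]
  | mul a b ha hb => intro x; simp [ha, hb]

/-- An endomorphism commuting with the operators commutes with the algebra they generate. -/
lemma commute_parAct (f : Module.End ℤ (ParHoms M n)) (hf : ∀ i, Commute f (parOp n i))
    (P : FreeAlgebra ℤ (Op M)) : Commute f (parAct n P) := by
  induction P using FreeAlgebra.induction with
  | grade0 r => rw [AlgHom.commutes]; exact Algebra.commutes r f |>.symm
  | grade1 i => rw [parAct_ι]; exact hf i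
  | add a b ha hb => rw [map_add]; exact ha.add_right hb
  | mul a b ha hb => rw [map_mul]; exact ha.mul_right hb

variable {κ : Type} [Field κ] (φ : FreeAlgebra ℤ (Op M) →ₐ[ℤ] κ)

/-- The parabolic characters killed by the kernel of the system of eigenvalues. -/
def eigenPart : Submodule ℤ (ParHoms M n) :=
  ⨅ (P : FreeAlgebra ℤ (Op M)) (_ : φ P = 0), LinearMap.ker (parAct n P)

/-- Membership in the eigen part. -/
lemma mem_eigenPart {x : ParHoms M n} :
    x ∈ eigenPart n φ ↔ ∀ P, φ P = 0 → parAct n P x = 0 := by
  simp [eigenPart]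

lemma parAct_mem_eigenPart (Q : FreeAlgebra ℤ (Op M)) {x : ParHoms M n}
    (hx : x ∈ eigenPart n φ) : parAct n Q x ∈ eigenPart n φ := by
  rw [mem_eigenPart] at hx ⊢
  intro P hP
  rw [← Module.End.mul_apply, ← map_mul]
  exact hx _ (by rw [map_mul, hP, zero_mul])

/-- The eigen part as a type of its own. -/
def EigenSpace : Type := eigenPart n φ

instance : AddCommGroup (EigenSpace n φ) := inferInstanceAs (AddCommGroup (eigenPart n φ))

/-- The parabolic character underlying an element of the eigen part. -/
def toPar : EigenSpace n φ →+ ParHoms M n := (eigenPart n φ).subtype.toAddMonoidHom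

/-- `toPar` is injective. -/
lemma toPar_injective : Function.Injective (toPar n φ) := fun _ _ h => Subtype.ext h

/-- The image of `toPar` lies in the eigen part. -/
lemma toPar_mem (x : EigenSpace n φ) : toPar n φ x ∈ eigenPart n φ := x.2

/-- An element of the eigen part. -/
def toEigen {x : ParHoms M n} (hx : x ∈ eigenPart n φ) : EigenSpace n φ := ⟨x, hx⟩

/-- `toPar` is a left inverse of `toEigen`. -/
@[simp] lemma toPar_toEigen {x : ParHoms M n} (hx : x ∈ eigenPart n φ) :
    toPar n φ (toEigen n φ hx) = x := rfl

instance [Finite (ParHoms M n)] : Finite (EigenSpace n φ) :=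
  Finite.of_injective _ (toPar_injective n φ)

/-- One element of the free algebra on the eigen part. -/
def eigenActOne (P : FreeAlgebra ℤ (Op M)) : EigenSpace n φ →+ EigenSpace n φ :=
  AddMonoidHom.mk' (fun x => toEigen n φ (parAct_mem_eigenPart n φ P (toPar_mem n φ x)))
    fun a b => toPar_injective n φ (by
      simp only [map_add, toPar_toEigen])

lemma toPar_eigenActOne (P : FreeAlgebra ℤ (Op M)) (x : EigenSpace n φ) :
    toPar n φ (eigenActOne n φ P x) = parAct n P (toPar n φ x) := rfl

/-- The free algebra on the eigen part. -/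
def eigenAct : FreeAlgebra ℤ (Op M) →+* AddMonoid.End (EigenSpace n φ) where
  toFun := eigenActOne n φ
  map_one' := AddMonoidHom.ext fun x => toPar_injective n φ (by
    rw [toPar_eigenActOne, map_one, Module.End.one_apply]; rfl)
  map_mul' P Q := AddMonoidHom.ext fun x => toPar_injective n φ (by
    rw [toPar_eigenActOne, map_mul, Module.End.mul_apply]; rfl)
  map_zero' := AddMonoidHom.ext fun x => toPar_injective n φ (by
    rw [toPar_eigenActOne, map_zero, LinearMap.zero_apply]; rfl)
  map_add' P Q := AddMonoidHom.ext fun x => toPar_injective n φ (by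
    rw [toPar_eigenActOne, map_add, LinearMap.add_apply]; rfl)

/-- The ring of values. -/
def valueField : Subring κ := φ.toRingHom.range

/-- A system of eigenvalues with values in its ring of values. -/
def valueMap : FreeAlgebra ℤ (Op M) →+* valueField φ := φ.toRingHom.rangeRestrict

/-- `valueMap` is surjective. -/
lemma valueMap_surjective : Function.Surjective (valueMap φ) :=
  φ.toRingHom.rangeRestrict_surjective

@[simp] lemma coe_valueMap (P : FreeAlgebra ℤ (Op M)) : (valueMap φ P : κ) = φ P := rfl

variable [NeZero M] in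
/-- The values of a system of eigenvalues in characteristic `ℓ` form a finite field. -/
theorem finite_valueField {ℓ : ℕ} [Fact ℓ.Prime] [CharP κ ℓ]
    (hφ : ∀ P, opsEval (opForm M) P = 0 → φ P = 0) : Finite (valueField φ) :=
  finite_range_of_opsEval (ℓ := ℓ) φ hφ

/-- The action of the values on the eigen part. -/
def valueAct : valueField φ →+* AddMonoid.End (EigenSpace n φ) :=
  (valueMap φ).liftOfSurjective (valueMap_surjective φ)
    ⟨eigenAct n φ, fun P hP => RingHom.mem_ker.2 (AddMonoidHom.ext fun x => toPar_injective n φ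
      ((mem_eigenPart n φ).mp (toPar_mem n φ x) P
        ((coe_valueMap φ P).symm.trans (congrArg Subtype.val (RingHom.mem_ker.1 hP)))))⟩

instance : Module (valueField φ) (EigenSpace n φ) := Module.compHom _ (valueAct n φ)

/-- `valueMap φ P` acts on the eigen part as `P`. -/
lemma toPar_smul (P : FreeAlgebra ℤ (Op M)) (x : EigenSpace n φ) :
    toPar n φ (valueMap φ P • x) = parAct n P (toPar n φ x) := by
  have h : (valueAct n φ) (valueMap φ P) = eigenAct n φ P :=
    RingHom.liftOfRightInverse_comp_apply _ _ _ _ P
  change toPar n φ (valueAct n φ (valueMap φ P) x) = _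
  rw [h]
  rfl

end Fermat.Agent.WeightOne
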