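import Fermat.Agent.KummerES.WpExpansion
import Fermat.Agent.KummerES.WpInjective

/-!
# `℘'` at torsion points: modularity of weight three and expansion
-/

set_option autoImplicit false

noncomputable section

open UpperHalfPlane hiding I
open Complex Filter Topology
open scoped Real MatrixGroups

namespace Fermat.Agent.WeightOne

open Fermat.Agent.KummerES

/-- `u (1 + u) / (1 - u) ^ 3`. -/
def geomThree (u : ℂ) : ℂ := u * (1 + u) / (1 - u) ^ 3

lemma geomThree_inv (u : ℂ) : geomThree u⁻¹ = -geomThree u := by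
  rcases eq_or_ne u 0 with rfl | h
  · simp [geomThree]
  · unfold geomThree
    rw [show (1 - u⁻¹) ^ 3 = -((1 - u) ^ 3) / u ^ 3 by field_simp; ring, div_div_eq_mul_div,
      show u⁻¹ * (1 + u⁻¹) * u ^ 3 = u * (1 + u) by field_simp; ring, div_neg]

lemma hasSum_sq_mul_geometric {u : ℂ} (hu : ‖u‖ < 1) :
    HasSum (fun n : ℕ => (n : ℂ) ^ 2 * u ^ n) (geomThree u) := by
  have h1 : (1 : ℂ) - u ≠ 0 := sub_ne_zero.mpr (fun h => by simp [← h] at hu)
  have h := (((hasSum_choose_mul_geometric_of_norm_lt_one 2 hu).mul_left 2).sub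
    ((hasSum_choose_mul_geometric_of_norm_lt_one 1 hu).mul_left 3)).add
      (hasSum_geometric_of_norm_lt_one hu)
  rw [show geomThree u = 2 * (1 / (1 - u) ^ (2 + 1)) - 3 * (1 / (1 - u) ^ (1 + 1)) + (1 - u)⁻¹ by
    unfold geomThree; field_simp; ring]
  refine h.congr_fun fun n => ?_
  rw [Nat.cast_choose_two, Nat.choose_one_right]
  push_cast
  ring

lemma summable_inv_cube_add_int (x : ℂ) : Summable fun n : ℤ => ((x + n) ^ 3)⁻¹ :=
  (EisensteinSeries.linear_right_summable x 1 (k := 3) (by norm_num)).congr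
    fun n => by simp [zpow_ofNat]

lemma tsum_inv_cube_add_int_neg (x : ℂ) :
    ∑' n : ℤ, ((-x + n) ^ 3)⁻¹ = -∑' n : ℤ, ((x + n) ^ 3)⁻¹ := by
  rw [← (Equiv.neg ℤ).tsum_eq, ← tsum_neg]
  refine tsum_congr fun n => ?_
  simp only [Equiv.neg_apply, Int.cast_neg]
  rw [← inv_neg]
  congr 1
  ring

lemma tsum_inv_cube_add_int_of_im_pos {x : ℂ} (hx : 0 < x.im) :
    ∑' n : ℤ, ((x + n) ^ 3)⁻¹ = -((2 * π * I) ^ 3 / 2) * geomThree (cexp (2 * π * I * x)) := by
  have h := EisensteinSeries.qExpansion_identity (k := 2) (by norm_num) ⟨x, hx⟩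
  simp only [one_div, Nat.reduceAdd, Nat.factorial_two, Nat.cast_ofNat] at h
  rw [h, (hasSum_sq_mul_geometric
    (UpperHalfPlane.norm_exp_two_pi_I_lt_one ⟨x, hx⟩)).tsum_eq]
  ring

/-- The Lipschitz formula in weight three, at any nonintegral point. -/
lemma tsum_inv_cube_add_int (x : ℂ) (hx : cexp (2 * π * I * x) ≠ 1) :
    ∑' n : ℤ, ((x + n) ^ 3)⁻¹ = -((2 * π * I) ^ 3 / 2) * geomThree (cexp (2 * π * I * x)) := by
  rcases lt_trichotomy x.im 0 with h | h | h
  · have h2 := tsum_inv_cube_add_int_of_im_pos (x := -x) (by simpa using h)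
    rw [tsum_inv_cube_add_int_neg, mul_neg, Complex.exp_neg, geomThree_inv] at h2
    linear_combination -h2
  · have hne : ∀ n : ℤ, x + n ≠ 0 := fun n hn => hx <| by
      rw [eq_neg_of_add_eq_zero_left hn, ← Int.cast_neg, mul_comm, exp_int_mul_two_pi_mul_I]
    have hdom : ∀ (n : ℤ) (y : ℝ), ‖((x + y * I + n) ^ 3)⁻¹‖ ≤ ‖((x + n) ^ 3)⁻¹‖ := fun n y => by
      simp only [norm_inv, norm_pow]
      gcongr
      · exact pow_pos (norm_pos_iff.mpr (hne n)) 3
      · have hre : x + n = ((x + n).re : ℂ) := Complex.ext rfl (by simp [h])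
        rw [hre, Complex.norm_real, Real.norm_eq_abs]
        simpa using Complex.abs_re_le_norm (x + y * I + n)
    have hlhs : Tendsto (fun y : ℝ => ∑' n : ℤ, ((x + y * I + n) ^ 3)⁻¹) (𝓝[>] 0)
        (𝓝 (∑' n : ℤ, ((x + n) ^ 3)⁻¹)) := by
      refine tendsto_tsum_of_dominated_convergence
        (summable_norm_iff.mpr (summable_inv_cube_add_int x))
        (fun n => ?_) (Eventually.of_forall fun y n => hdom n y)
      have : ContinuousAt (fun y : ℝ => ((x + y * I + n) ^ 3)⁻¹) 0 :=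
        ContinuousAt.inv₀ (by fun_prop) (by simpa using hne n)
      simpa using this.tendsto.mono_left nhdsWithin_le_nhds
    have hrhs : Tendsto
        (fun y : ℝ => -((2 * π * I) ^ 3 / 2) * geomThree (cexp (2 * π * I * (x + y * I))))
        (𝓝[>] 0) (𝓝 (-((2 * π * I) ^ 3 / 2) * geomThree (cexp (2 * π * I * x)))) := by
      have : ContinuousAt
          (fun y : ℝ => -((2 * π * I) ^ 3 / 2) * geomThree (cexp (2 * π * I * (x + y * I)))) 0 := by
        unfold geomThree
        refine continuousAt_const.mul (ContinuousAt.div (by fun_prop) (by fun_prop) ?_)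
        simpa [sub_eq_zero] using Ne.symm hx
      simpa using this.tendsto.mono_left nhdsWithin_le_nhds
    refine tendsto_nhds_unique hlhs (hrhs.congr' ?_)
    filter_upwards [self_mem_nhdsWithin] with y (hy : 0 < y)
    exact (tsum_inv_cube_add_int_of_im_pos (by simpa [h] using hy)).symm
  · exact tsum_inv_cube_add_int_of_im_pos h

variable {L : ℕ} [NeZero L]

/-- `℘'` at the torsion point `v`. -/
def wpd (v : Ind L) (τ : ℍ) : ℂ := (latticePair τ).derivWeierstrassP (torsPt v τ)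

lemma derivWeierstrassP_rawPt (a b : ℤ) (τ : ℍ) :
    (latticePair τ).derivWeierstrassP (rawPt L a b τ) = wpd ![(a : ZMod L), (b : ZMod L)] τ := by
  have := (latticePair τ).derivWeierstrassP_add_coe (torsPt ![(a : ZMod L), (b : ZMod L)] τ)
    ⟨_, rawPt_eq_torsPt_add (L := L) a b τ⟩
  rwa [show torsPt ![(a : ZMod L), (b : ZMod L)] τ +
    (rawPt L a b τ - torsPt ![(a : ZMod L), (b : ZMod L)] τ) = rawPt L a b τ by ring] at this

/-- Homogeneity of `℘'`. -/
lemma derivWeierstrassP_smul (P Q : PeriodPair) (c : ℂ) (hc : c ≠ 0)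
    (h : ∀ x, x ∈ Q.lattice ↔ c * x ∈ P.lattice) (z : ℂ) :
    Q.derivWeierstrassP z = c ^ 3 * P.derivWeierstrassP (c * z) := by
  let e : Q.lattice ≃ P.lattice :=
    { toFun := fun x => ⟨c * x, (h x).mp x.2⟩
      invFun := fun y => ⟨c⁻¹ * y, (h _).mpr (by rw [mul_inv_cancel_left₀ hc]; exact y.2)⟩
      left_inv := fun x => by ext; simp [hc]
      right_inv := fun y => by ext; simp [hc] }
  have hsum := (P.hasSum_derivWeierstrassP (c * z)).mul_left (c ^ 3)
  rw [← e.hasSum_iff] at hsum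
  refine (Q.hasSum_derivWeierstrassP z).unique ?_
  refine hsum.congr_fun fun x => ?_
  simp only [Function.comp_apply, e, Equiv.coe_fn_mk, ← mul_sub, mul_pow]
  rw [div_eq_mul_inv, div_eq_mul_inv, mul_inv]
  field_simp

/-- The transformation law of `℘'` of weight `3`. -/
lemma wpd_smul (γ : SL(2, ℤ)) (v : Ind L) (τ : ℍ) :
    wpd v (γ • τ) = ((γ 1 0 : ℂ) * τ + γ 1 1) ^ 3 * wpd (vAct v γ) τ := by
  set a := γ 0 0
  set b := γ 0 1
  set c := γ 1 0
  set d := γ 1 1
  have hdet : a * d - b * c = 1 := (Matrix.det_fin_two γ.1).symm.trans γ.2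
  have hdetC : (a : ℂ) * d - b * c = 1 := by exact_mod_cast hdet
  set u : ℂ := (c : ℂ) * τ + d
  have hu : u ≠ 0 := by
    intro h
    have him := congrArg Complex.im h
    have hre := congrArg Complex.re h
    simp [u, τ.im_ne_zero] at him
    simp [u, him] at hre
    simp [him, hre] at hdet
  have hτ : ((γ • τ : ℍ) : ℂ) = ((a : ℂ) * τ + b) / u := by
    rw [UpperHalfPlane.coe_specialLinearGroup_apply]; simp [a, b, c, d, u]
  have hlat : ∀ x, x ∈ (latticePair (γ • τ)).lattice ↔ u * x ∈ (latticePair τ).lattice := by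
    intro x
    simp only [mem_latticePair, hτ]
    constructor
    · rintro ⟨m, n, rfl⟩
      refine ⟨m * a + n * c, m * b + n * d, ?_⟩
      field_simp; push_cast; ring_nf; simp [u]; ring
    · rintro ⟨m, n, h⟩
      refine ⟨m * d - n * c, -m * b + n * a, ?_⟩
      field_simp
      rw [← h]
      push_cast
      simp only [u]
      linear_combination ((m : ℂ) * τ + n) * hdetC
  rw [wpd, derivWeierstrassP_smul _ _ u hu hlat]
  congr 1
  rw [show u * torsPt v (γ • τ) = rawPt L ((v 0).val * a + (v 1).val * c)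
    ((v 0).val * b + (v 1).val * d) τ by
      simp only [torsPt, rawPt, hτ]; field_simp; push_cast; simp only [u]; ring,
    derivWeierstrassP_rawPt]
  congr 1
  funext i
  fin_cases i <;> simp [vAct, Matrix.vecMul, dotProduct, Fin.sum_univ_two, ZMod.natCast_val, a, b,
      c, d]

/-- The constant term of the expansion of `℘' / (2πi)³`. -/
def dConst (v : Ind L) : ℂ := if v 0 = 0 then geomThree (rootPow L (v 1)) else 0

/-- The coefficient of `exp (2πiτ/L) ^ n` in the expansion of `℘' / (2πi)³`. -/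
def dCoeff (v : Ind L) (n : ℕ) : ℂ :=
  if n = 0 then dConst v
  else ∑ p ∈ n.divisorsAntidiagonal, (p.2 : ℂ) ^ 2 * (wpTerm v p.1 p.2 - wpTerm (-v) p.1 p.2)

/-- The expansion of `℘' / (2πi)³`. -/
def dSeries (v : Ind L) : LaurentSeries ℂ :=
  HahnSeries.ofPowerSeries ℤ ℂ (PowerSeries.mk (dCoeff v))

/-- The nonnegative coefficients of `dSeries`. -/
@[simp] lemma dSeries_coeff_natCast (v : Ind L) (m : ℕ) :
    (dSeries v).coeff (m : ℤ) = dCoeff v m := by
  simp [dSeries, HahnSeries.ofPowerSeries_apply_coeff]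

/-- `dSeries` has no negative coefficients. -/
lemma dSeries_coeff_of_neg (v : Ind L) {i : ℤ} (hi : i < 0) : (dSeries v).coeff i = 0 := by
  rw [dSeries, HahnSeries.ofPowerSeries_apply]
  exact HahnSeries.embDomain_of_notMem_range fun ⟨a, ha⟩ => by simp at ha; omega

/-- The contribution of the row with first coordinate `j`. -/
def dRow (v : Ind L) (τ : ℍ) (j : ℤ) : ℂ :=
  if (j : ZMod L) = v 0 then geomThree (rootPow L (v 1) * qL L τ ^ j) else 0

/-- The terms of positive rows. -/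
def dDbl (v : Ind L) (τ : ℍ) (p : ℕ+ × ℕ+) : ℂ :=
  (p.2 : ℂ) ^ 2 * wpTerm v p.1 p.2 * qL L τ ^ ((p.1 : ℕ) * p.2)

lemma dRow_neg_row (v : Ind L) (τ : ℍ) (j : ℤ) : dRow v τ (-j) = -dRow (-v) τ j := by
  simp only [dRow, Pi.neg_apply, Int.cast_neg, neg_eq_iff_eq_neg]
  split_ifs
  · rw [rootPow_neg, ← geomThree_inv, mul_inv, zpow_neg, inv_inv]
  · simp

lemma summable_dDbl (v : Ind L) (τ : ℍ) : Summable (dDbl v τ) := by
  have hb : Summable fun p : ℕ+ × ℕ+ => ‖(p.2 : ℂ) ^ 2 * qL L τ ^ ((p.1 : ℕ) * p.2)‖ :=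
    summable_norm_iff.mpr (summable_prod_mul_pow 2 (norm_qL_lt_one L τ))
  refine Summable.of_norm_bounded hb fun p => ?_
  unfold dDbl
  rw [norm_mul, norm_mul, norm_mul]
  refine mul_le_mul_of_nonneg_right (mul_le_of_le_one_right (norm_nonneg _) ?_) (norm_nonneg _)
  unfold wpTerm
  split_ifs <;> simp [norm_rootPow]

lemma hasSum_dDbl_row (v : Ind L) (τ : ℍ) (j : ℕ+) :
    HasSum (fun k : ℕ+ => dDbl v τ (j, k)) (dRow v τ (j : ℕ)) := by
  unfold dRow
  simp only [dDbl, wpTerm, Int.cast_natCast]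
  split_ifs with h
  · set u := rootPow L (v 1) * qL L τ ^ ((j : ℕ) : ℤ)
    have hu : ‖u‖ < 1 := by
      simp only [u, norm_mul, norm_rootPow, one_mul, zpow_natCast, norm_pow]
      exact pow_lt_one₀ (norm_nonneg _) (norm_qL_lt_one L τ) j.ne_zero
    have H := hasSum_sq_mul_geometric hu
    rw [← PNat.coe_injective.hasSum_iff] at H
    · refine H.congr_fun fun k => ?_
      simp only [Function.comp_apply, u, zpow_natCast, mul_pow, ← pow_mul, rootPow_natCast_mul]
      ring
    · intro k hk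
      obtain rfl : k = 0 := by
        by_contra hk0
        exact hk ⟨⟨k, Nat.pos_of_ne_zero hk0⟩, rfl⟩
      simp
  · simp

/-- The sum of all rows. -/
def dRowSum (v : Ind L) (τ : ℍ) : ℂ :=
  dConst v + ((∑' p, dDbl v τ p) - ∑' p, dDbl (-v) τ p)

lemma hasSum_dRow_nat (v : Ind L) (τ : ℍ) :
    HasSum (fun n : ℕ => dRow v τ ((n : ℤ) + 1)) (∑' p, dDbl v τ p) := by
  have h := (summable_dDbl v τ).hasSum.prod_fiberwise (hasSum_dDbl_row v τ)
  rw [← Equiv.pnatEquivNat.symm.hasSum_iff] at h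
  refine h.congr_fun fun n => ?_
  simp [Nat.succPNat]

lemma hasSum_dRow (v : Ind L) (τ : ℍ) : HasSum (dRow v τ) (dRowSum v τ) := by
  have h0 : dRow v τ 0 = dConst v := by
    simp [dRow, dConst, eq_comm]
  have hpos : HasSum (fun n : ℕ => dRow v τ n) ((∑' p, dDbl v τ p) + dConst v) := by
    have h' : HasSum (fun n : ℕ => dRow v τ ((n + 1 : ℕ) : ℤ)) (∑' p, dDbl v τ p) := by
      exact_mod_cast hasSum_dRow_nat v τ
    simpa [h0] using (hasSum_nat_add_iff (f := fun n : ℕ => dRow v τ n) 1).mp h'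
  have hneg : HasSum (fun n : ℕ => dRow v τ (-((n : ℤ) + 1))) (-∑' p, dDbl (-v) τ p) :=
    (hasSum_dRow_nat (-v) τ).neg.congr_fun fun n => dRow_neg_row v τ _
  rw [show dRowSum v τ = ((∑' p, dDbl v τ p) + dConst v) + -∑' p, dDbl (-v) τ p by
    rw [dRowSum]; ring]
  exact hpos.of_nat_of_neg_add_one hneg

lemma hasSum_dRow_comp (v : Ind L) (τ : ℍ) :
    HasSum (fun m : ℤ => dRow v τ (((v 0).val : ℤ) + L * m)) (dRowSum v τ) := by
  have hinj : Function.Injective fun m : ℤ => ((v 0).val : ℤ) + L * m := fun m m' h => by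
    simpa [NeZero.ne L] using h
  have hz : ∀ j ∉ Set.range (fun m : ℤ => ((v 0).val : ℤ) + L * m), dRow v τ j = 0 := by
    intro j hj
    rw [dRow, if_neg]
    intro h
    refine hj ?_
    have : ((((v 0).val : ℤ)) : ZMod L) = j := by simp [h, ZMod.natCast_val]
    obtain ⟨m, hm⟩ := (ZMod.intCast_eq_intCast_iff_dvd_sub ..).mp this
    exact ⟨m, by simp only; omega⟩
  have h2 := (hinj.hasSum_iff (f := dRow v τ) hz).mpr (hasSum_dRow v τ)
  rw [Function.comp_def] at h2
  exact h2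

lemma hasExp_dRowSum (v : Ind L) : HasExp L (dRowSum v) (dSeries v) := fun τ => by
  have hinj : Function.Injective fun n : ℕ => (n : ℤ) := Nat.cast_injective
  refine (hinj.hasSum_iff fun i hi => ?_).mp ?_
  · rw [dSeries_coeff_of_neg v, zero_mul]
    by_contra hc
    exact hi ⟨i.toNat, Int.toNat_of_nonneg (not_lt.mp hc)⟩
  · simp only [Function.comp_def, dSeries_coeff_natCast, zpow_natCast]
    have H := ((summable_dDbl v τ).hasSum.sub (summable_dDbl (-v) τ).hasSum)
    rw [← sigmaAntidiagonalEquivProd.hasSum_iff] at H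
    have H' : HasSum (fun n : ℕ+ => dCoeff v n * qL L τ ^ (n : ℕ))
        ((∑' p, dDbl v τ p) - ∑' p, dDbl (-v) τ p) := by
      refine H.sigma fun n => ?_
      rw [dCoeff, if_neg n.ne_zero, Finset.sum_mul, ← Finset.sum_coe_sort]
      refine (hasSum_fintype _).congr_fun fun p => ?_
      have hp := (Nat.mem_divisorsAntidiagonal.mp p.2).1
      simp only [Function.comp_apply, dDbl, sigmaAntidiagonalEquivProd, Equiv.coe_fn_mk,
        divisorsAntidiagonalFactors, PNat.mk_coe]
      rw [hp]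
      ring
    rw [← Equiv.pnatEquivNat.symm.hasSum_iff] at H'
    have := (hasSum_nat_add_iff (f := fun n : ℕ => dCoeff v n * qL L τ ^ n) 1).mp
      (H'.congr_fun fun n => by simp [Nat.succPNat])
    simpa [dRowSum, dCoeff, add_comm] using this

lemma dRow_tsum {v : Ind L} (hv : v ≠ 0) (τ : ℍ) (m : ℤ) :
    ∑' n : ℤ, ((torsPt v τ + m * τ + n) ^ 3)⁻¹ =
      -((2 * π * I) ^ 3 / 2) * dRow v τ (((v 0).val : ℤ) + L * m) := by
  have hj : (((v 0).val : ℤ) + L * m : ℤ) = (v 0 : ZMod L) := by simp [ZMod.natCast_val]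
  rw [tsum_inv_cube_add_int, exp_torsPt_add, dRow, if_pos hj]
  rw [exp_torsPt_add]
  exact rootPow_mul_qL_zpow_ne_one hv τ hj

/-- The expansion of `℘'` at a torsion point. -/
theorem wpd_hasExp {v : Ind L} (hv : v ≠ 0) :
    HasExp L (fun τ => wpd v τ / (2 * π * I) ^ 3) (dSeries v) := by
  have hc : (2 * (π : ℂ) * I) ^ 3 ≠ 0 := by simp [Real.pi_ne_zero]
  suffices h : (fun τ => wpd v τ / (2 * π * I) ^ 3) = dRowSum v from h ▸ hasExp_dRowSum v
  funext τ
  rw [div_eq_iff hc]
  have h := (latticePair τ).hasSum_derivWeierstrassP (torsPt v τ)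
  rw [← ((Equiv.neg (ℤ × ℤ)).trans (latticePair τ).latticeEquivProd.symm.toEquiv).hasSum_iff] at h
  have h0 : HasSum (fun p : ℤ × ℤ => -2 * ((torsPt v τ + p.1 * τ + p.2) ^ 3)⁻¹) (wpd v τ) := by
    refine h.congr_fun fun p => ?_
    have e : (((latticePair τ).latticeEquivProd.symm.toEquiv (-p) : (latticePair τ).lattice) : ℂ) =
        -((p.1 : ℂ) * τ + p.2) := by
      rw [LinearEquiv.coe_toEquiv, PeriodPair.latticeEquiv_symm_apply]
      simp [latticePair]
      ring
    simp only [Function.comp_apply, Equiv.trans_apply, Equiv.neg_apply, e]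
    rw [div_eq_mul_inv]
    ring_nf
  have h1 := h0.prod_fiberwise fun m =>
    ((summable_inv_cube_add_int (torsPt v τ + m * τ)).hasSum.mul_left (-2 : ℂ))
  simp only [dRow_tsum hv] at h1
  refine h1.unique ?_
  refine ((hasSum_dRow_comp v τ).mul_right ((2 * (π : ℂ) * I) ^ 3)).congr_fun fun m => ?_
  ring

end Fermat.Agent.WeightOne
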